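import Mathlib
import Fermat.Prelude.Def_ModularForm_HeckeOperatorForms
import Fermat.Agent.S20.Util_helper78

/-!
# S16, package B0a: trace zero, coset representatives of `Γ₀(p)`, the Fricke transform

For a prime `p` and `G ∈ M₂(Γ₀(p))`:
* `trace_eq_zero` : the trace of `G` to level one vanishes (`M₂(SL₂ℤ) = 0`);
* `cosetEquiv p : Option (Fin p) ≃ Q p` : the cosets are represented by `1` and `S T^j`, `j < p`;
* `fricke G` : the Fricke transform `G ∣[2] (0, -1; p, 0)` as a modular form, `fricke_fricke`;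
* `coe_fricke_eq` : `G ∣ W = -U_p G`;
* `heckeU_heckeU` : `U_p (U_p G) = G`;
* `slash_S_mul_T_pow_apply` : `(G ∣ S T^j)(z) = -(1/p) (U_p G)((z + j)/p)`.
-/

set_option autoImplicit false

namespace Fermat.Agent.S16.H11

open UpperHalfPlane ModularForm CongruenceSubgroup
open scoped MatrixGroups ModularForm Manifold Pointwise
open Fermat.Agent.S20

/-- There is no nonzero level one modular form of weight two. -/
theorem levelOne_two_eq_zero (f : ModularForm 𝒮ℒ 2) : f = 0 := by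
  have h := dimension_level_one 2 (by decide)
  have h2 : Module.rank ℂ (ModularForm 𝒮ℒ (2 : ℤ)) = 0 := by
    rw [if_pos (show 2 ≡ 2 [MOD 12] from rfl)] at h
    simpa using h
  have := rank_zero_iff.mp h2
  exact Subsingleton.elim _ _

/-- (F1) The trace to level one of a weight two form vanishes. -/
theorem trace_eq_zero {N : ℕ} [NeZero N] (G : ModularForm (Gamma0 N) 2) (z : ℍ) :
    ∑ q : Q N, conj G q z = 0 := by
  have h0 : ModularForm.trace 𝒮ℒ G = 0 := levelOne_two_eq_zero _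
  have h1 : (ModularForm.trace 𝒮ℒ G : ℍ → ℂ) z = 0 := by rw [h0]; rfl
  rw [ModularForm.coe_trace, Finset.sum_apply] at h1
  have hsum : ∀ (i1 i2 : Fintype (Q N)) (F : Q N → ℂ),
      (@Finset.univ _ i1).sum F = (@Finset.univ _ i2).sum F := by
    intro i1 i2 F
    rw [Subsingleton.elim i1 i2]
  exact (hsum _ _ _).trans h1

/-- Two cosets agree iff the representatives differ by an element of `Γ₀(N)`. -/
theorem coset_eq_coset_iff (N : ℕ) (γ δ : SL(2, ℤ)) :
    coset N γ = coset N δ ↔ γ⁻¹ * δ ∈ Gamma0 N := by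
  have h : ∀ γ : SL(2, ℤ), coset N γ =
      (QuotientGroup.mk ((Matrix.SpecialLinearGroup.mapGL ℝ).rangeRestrict γ) :
        ↥𝒮ℒ ⧸ ((Gamma0 N : Subgroup (GL (Fin 2) ℝ))).subgroupOf 𝒮ℒ) := by
    intro γ
    change (Matrix.SpecialLinearGroup.mapGL ℝ).rangeRestrict γ •
      (QuotientGroup.mk (1 : ↥𝒮ℒ) : ↥𝒮ℒ ⧸ ((Gamma0 N : Subgroup (GL (Fin 2) ℝ))).subgroupOf 𝒮ℒ)
      = _
    rw [MulAction.Quotient.smul_mk, smul_eq_mul, mul_one]
  rw [h γ, h δ]
  erw [QuotientGroup.eq]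
  rw [← map_inv, ← map_mul, Subgroup.mem_subgroupOf, MonoidHom.coe_rangeRestrict]
  exact Subgroup.mem_map_iff_mem Matrix.SpecialLinearGroup.mapGL_injective

/-- Representatives of `Γ₀(p) \ SL(2,ℤ)`: the identity and `S * T ^ j`, `j < p`. -/
noncomputable def rep (p : ℕ) : Option (Fin p) → SL(2, ℤ)
  | none => 1
  | some j => ModularGroup.S * ModularGroup.T ^ (j : ℕ)

@[simp] theorem rep_none (p : ℕ) : rep p none = 1 := rfl

@[simp] theorem rep_some (p : ℕ) (j : Fin p) :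
    rep p (some j) = ModularGroup.S * ModularGroup.T ^ (j : ℕ) := rfl

theorem coe_S_mul_T_pow (j : ℕ) :
    ((ModularGroup.S * ModularGroup.T ^ j : SL(2, ℤ)) : Matrix (Fin 2) (Fin 2) ℤ) =
      !![0, -1; 1, (j : ℤ)] := by
  rw [Matrix.SpecialLinearGroup.coe_mul, ← zpow_natCast, ModularGroup.coe_T_zpow,
    ModularGroup.coe_S]
  ext a b
  fin_cases a <;> fin_cases b <;> simp [Matrix.mul_apply, Fin.sum_univ_two]


/-- The map from the index set to the cosets. -/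
noncomputable def cosetMap (p : ℕ) (i : Option (Fin p)) : Q p := coset p (rep p i)⁻¹

theorem cosetMap_eq_iff (p : ℕ) (i i' : Option (Fin p)) :
    cosetMap p i = cosetMap p i' ↔ rep p i * (rep p i')⁻¹ ∈ Gamma0 p := by
  unfold cosetMap
  rw [coset_eq_coset_iff, inv_inv]

theorem cosetMap_injective (p : ℕ) [Fact p.Prime] : Function.Injective (cosetMap p) := by
  have hp : p.Prime := Fact.out
  have hp1 : ¬ (p : ℤ) ∣ 1 := by
    intro h
    have := Int.eq_one_of_dvd_one (by positivity) h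
    have : p = 1 := by exact_mod_cast this
    exact hp.one_lt.ne' this
  intro i i' h
  rw [cosetMap_eq_iff, Gamma0_mem] at h
  rw [ZMod.intCast_zmod_eq_zero_iff_dvd] at h
  rcases i with _ | j <;> rcases i' with _ | j'
  · rfl
  · exfalso
    apply hp1
    rw [rep_none, one_mul, rep_some, Matrix.SpecialLinearGroup.coe_inv, coe_S_mul_T_pow,
      Matrix.adjugate_fin_two] at h
    simpa using h
  · exfalso
    apply hp1
    rw [rep_none, inv_one, mul_one, rep_some, coe_S_mul_T_pow] at h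
    simpa using h
  · rw [rep_some, rep_some, Matrix.SpecialLinearGroup.coe_mul, Matrix.SpecialLinearGroup.coe_inv,
      coe_S_mul_T_pow, coe_S_mul_T_pow, Matrix.adjugate_fin_two] at h
    simp [Matrix.mul_apply, Fin.sum_univ_two] at h
    have hj : (j : ℕ) < p := j.2
    have hj' : (j' : ℕ) < p := j'.2
    have h0 : ((j' : ℕ) : ℤ) + -((j : ℕ) : ℤ) = 0 := by
      apply Int.eq_zero_of_abs_lt_dvd h
      rw [abs_lt]
      constructor <;> omega
    have : (j : ℕ) = (j' : ℕ) := by omega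
    rw [Fin.ext this]


theorem S_mul_T_pow_mul_apply_one_zero (j : ℕ) (γ : SL(2, ℤ)) :
    (ModularGroup.S * ModularGroup.T ^ j * γ) 1 0 = γ 0 0 + j * γ 1 0 := by
  rw [Matrix.SpecialLinearGroup.coe_mul, coe_S_mul_T_pow]
  simp [Matrix.mul_apply, Fin.sum_univ_two]

theorem cosetMap_surjective (p : ℕ) [Fact p.Prime] : Function.Surjective (cosetMap p) := by
  have hp : p.Prime := Fact.out
  intro q
  obtain ⟨γ, rfl⟩ := coset_surjective p q
  -- `coset γ = coset (rep i)⁻¹` iff `rep i * γ ∈ Γ₀(p)`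
  have key : ∀ i : Option (Fin p), rep p i * γ ∈ Gamma0 p → cosetMap p i = coset p γ := by
    intro i hi
    unfold cosetMap
    rw [coset_eq_coset_iff, inv_inv]
    exact hi
  by_cases hc : ((γ 1 0 : ℤ) : ZMod p) = 0
  · refine ⟨none, key none ?_⟩
    rw [rep_none, one_mul, Gamma0_mem]
    exact hc
  · let j : ZMod p := -((γ 0 0 : ℤ) : ZMod p) * ((γ 1 0 : ℤ) : ZMod p)⁻¹
    have : NeZero p := ⟨hp.ne_zero⟩
    refine ⟨some ⟨j.val, ZMod.val_lt j⟩, key _ ?_⟩
    rw [rep_some, Gamma0_mem, S_mul_T_pow_mul_apply_one_zero]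
    push_cast
    rw [ZMod.natCast_zmod_val]
    simp only [j]
    field_simp
    ring

/-- (F2) The cosets of `Γ₀(p)` in `SL(2,ℤ)`, `p` prime, are indexed by `Option (Fin p)`. -/
noncomputable def cosetEquiv (p : ℕ) [Fact p.Prime] : Option (Fin p) ≃ Q p :=
  Equiv.ofBijective (cosetMap p) ⟨cosetMap_injective p, cosetMap_surjective p⟩

theorem cosetEquiv_apply (p : ℕ) [Fact p.Prime] (i : Option (Fin p)) :
    cosetEquiv p i = coset p (rep p i)⁻¹ := rfl

/-- The conjugate attached to `cosetEquiv p i` is the slash by `rep p i`. -/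
theorem conj_cosetEquiv {p : ℕ} [Fact p.Prime] {k : ℤ} (G : ModularForm (Gamma0 p) k)
    (i : Option (Fin p)) : conj G (cosetEquiv p i) = (G : ℍ → ℂ) ∣[k] rep p i := by
  rw [cosetEquiv_apply, conj_coset, inv_inv]

theorem conj_cosetEquiv_none {p : ℕ} [Fact p.Prime] {k : ℤ} (G : ModularForm (Gamma0 p) k) :
    conj G (cosetEquiv p none) = G := by
  rw [conj_cosetEquiv, rep_none, SlashAction.slash_one]

/-- Sums over the cosets. -/
theorem sum_Q_eq {M : Type*} [AddCommMonoid M] (p : ℕ) [Fact p.Prime] (F : Q p → M) :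
    ∑ q : Q p, F q = F (cosetEquiv p none) + ∑ j : Fin p, F (cosetEquiv p (some j)) := by
  rw [← Equiv.sum_comp (cosetEquiv p) F, Fintype.sum_option]

/-- Products over the cosets. -/
theorem prod_Q_eq {M : Type*} [CommMonoid M] (p : ℕ) [Fact p.Prime] (F : Q p → M) :
    ∏ q : Q p, F q = F (cosetEquiv p none) * ∏ j : Fin p, F (cosetEquiv p (some j)) := by
  rw [← Equiv.prod_comp (cosetEquiv p) F, Fintype.prod_option]

theorem card_Q (p : ℕ) [Fact p.Prime] : Fintype.card (Q p) = p + 1 := by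
  rw [← Fintype.card_congr (cosetEquiv p), Fintype.card_option, Fintype.card_fin]

/-- The Fricke matrix `(0, -1; p, 0)`. -/
noncomputable def frickeMat (p : ℕ) [Fact p.Prime] : GL (Fin 2) ℝ :=
  Matrix.GeneralLinearGroup.mkOfDetNeZero !![0, -1; (p : ℝ), 0] (by
    rw [Matrix.det_fin_two_of]
    have : (p : ℝ) ≠ 0 := by exact_mod_cast (Fact.out : p.Prime).ne_zero
    simpa using this)

theorem val_frickeMat (p : ℕ) [Fact p.Prime] :
    ((frickeMat p : GL (Fin 2) ℝ) : Matrix (Fin 2) (Fin 2) ℝ) = !![0, -1; (p : ℝ), 0] := rfl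

theorem det_frickeMat (p : ℕ) [Fact p.Prime] : ((frickeMat p).det : ℝ) = p := by
  rw [Matrix.GeneralLinearGroup.val_det_apply, val_frickeMat, Matrix.det_fin_two_of]
  ring

/-- Conjugation by the Fricke matrix on `Γ₀(p)`: `(a b; p c' d) ↦ (d -c'; -p b a)`. -/
def frConj (p : ℕ) (γ : SL(2, ℤ)) (c' : ℤ) (h : γ 1 0 = p * c') : SL(2, ℤ) :=
  ⟨!![γ 1 1, -c'; -(p : ℤ) * γ 0 1, γ 0 0], by
    have hd := γ.det_coe
    rw [Matrix.det_fin_two, h] at hd
    rw [Matrix.det_fin_two_of]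
    linear_combination hd⟩

theorem frConj_mem (p : ℕ) (γ : SL(2, ℤ)) (c' : ℤ) (h : γ 1 0 = p * c') :
    frConj p γ c' h ∈ Gamma0 p := by
  rw [Gamma0_mem]
  simp [frConj]

theorem mapGL_entry' (g : SL(2, ℤ)) (i j : Fin 2) :
    ((Matrix.SpecialLinearGroup.mapGL ℝ g : GL (Fin 2) ℝ) i j : ℝ) = ((g i j : ℤ) : ℝ) := rfl

theorem frickeMat_mul_mapGL (p : ℕ) [Fact p.Prime] (γ : SL(2, ℤ)) (c' : ℤ)
    (h : γ 1 0 = p * c') :
    frickeMat p * Matrix.SpecialLinearGroup.mapGL ℝ γ =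
      Matrix.SpecialLinearGroup.mapGL ℝ (frConj p γ c' h) * frickeMat p := by
  apply Matrix.GeneralLinearGroup.ext
  intro i j
  rw [Matrix.GeneralLinearGroup.coe_mul, Matrix.GeneralLinearGroup.coe_mul, val_frickeMat,
    Matrix.mul_apply, Matrix.mul_apply, Fin.sum_univ_two, Fin.sum_univ_two]
  simp only [mapGL_entry']
  have h' : ((γ 1 0 : ℤ) : ℝ) = (p : ℝ) * (c' : ℝ) := by exact_mod_cast h
  have e00 : (frConj p γ c' h) 0 0 = γ 1 1 := rfl
  have e01 : (frConj p γ c' h) 0 1 = -c' := rfl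
  have e10 : (frConj p γ c' h) 1 0 = -(p : ℤ) * γ 0 1 := rfl
  have e11 : (frConj p γ c' h) 1 1 = γ 0 0 := rfl
  fin_cases i <;> fin_cases j <;>
    simp [h', e00, e01, e10, e11, mul_comm]

theorem exists_eq_mul_of_mem_Gamma0 (p : ℕ) {γ : SL(2, ℤ)} (hγ : γ ∈ Gamma0 p) :
    ∃ c' : ℤ, γ 1 0 = p * c' := by
  rw [Gamma0_mem, ZMod.intCast_zmod_eq_zero_iff_dvd] at hγ
  exact hγ

theorem Gamma0_le_conj (p : ℕ) [Fact p.Prime] :
    (Gamma0 p : Subgroup (GL (Fin 2) ℝ)) ≤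
      ConjAct.toConjAct (frickeMat p)⁻¹ • (Gamma0 p : Subgroup (GL (Fin 2) ℝ)) := by
  intro g hg
  rw [Subgroup.mem_pointwise_smul_iff_inv_smul_mem, ← map_inv, inv_inv, ConjAct.toConjAct_smul]
  obtain ⟨γ, hγ, rfl⟩ := hg
  obtain ⟨c', hc'⟩ := exists_eq_mul_of_mem_Gamma0 p hγ
  refine ⟨frConj p γ c' hc', frConj_mem p γ c' hc', ?_⟩
  rw [frickeMat_mul_mapGL p γ c' hc', mul_inv_cancel_right]

/-- (F3) The Fricke transform `G ∣[2] (0, -1; p, 0)` of a weight two form of level `Γ₀(p)`. -/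
noncomputable def fricke {p : ℕ} [Fact p.Prime] (G : ModularForm (Gamma0 p) 2) :
    ModularForm (Gamma0 p) 2 where
  toFun := (G : ℍ → ℂ) ∣[(2 : ℤ)] frickeMat p
  slash_action_eq' γ hγ :=
    (ModularForm.translate G (frickeMat p)).slash_action_eq' γ (Gamma0_le_conj p hγ)
  holo' := (ModularForm.translate G (frickeMat p)).holo'
  bdd_at_cusps' hc :=
    (ModularForm.translate G (frickeMat p)).bdd_at_cusps' (hc.mono (Gamma0_le_conj p))

theorem coe_fricke {p : ℕ} [Fact p.Prime] (G : ModularForm (Gamma0 p) 2) :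
    (fricke G : ℍ → ℂ) = (G : ℍ → ℂ) ∣[(2 : ℤ)] frickeMat p := rfl


/-- In weight two the slash action only depends on the matrix up to a nonzero real scalar. -/
theorem slash_two_eq_of_smul (f : ℍ → ℂ) (A B : GL (Fin 2) ℝ) (c : ℝ) (hc : c ≠ 0)
    (hA : 0 < (A.det : ℝ)) (h : ∀ i j, (B i j : ℝ) = c * A i j) :
    f ∣[(2 : ℤ)] B = f ∣[(2 : ℤ)] A := by
  have hdet : (B.det : ℝ) = c ^ 2 * (A.det : ℝ) := by
    rw [Matrix.GeneralLinearGroup.val_det_apply, Matrix.GeneralLinearGroup.val_det_apply,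
      Matrix.det_fin_two, Matrix.det_fin_two]
    simp only [h]
    ring
  have hB : 0 < (B.det : ℝ) := by
    rw [hdet]
    positivity
  have hnum : ∀ z : ℂ, num B z = c * num A z := by
    intro z
    simp only [num, h]
    push_cast
    ring
  have hden : ∀ z : ℂ, denom B z = c * denom A z := by
    intro z
    simp only [denom, h]
    push_cast
    ring
  have hc' : (c : ℂ) ≠ 0 := by exact_mod_cast hc
  ext z
  have hpt : B • z = A • z := by
    apply UpperHalfPlane.ext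
    rw [UpperHalfPlane.coe_smul_of_det_pos hB, UpperHalfPlane.coe_smul_of_det_pos hA, hnum, hden,
      mul_div_mul_left _ _ hc']
  have hdz : denom A z ≠ 0 := UpperHalfPlane.denom_ne_zero A z
  rw [ModularForm.slash_apply, ModularForm.slash_apply, hpt, hden]
  simp only [UpperHalfPlane.σ, if_pos hA, if_pos hB, ContinuousAlgEquiv.refl_apply]
  rw [hdet, abs_of_pos (by positivity : 0 < c ^ 2 * (A.det : ℝ)), abs_of_pos hA]
  have e1 : (2 : ℤ) - 1 = 1 := by norm_num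
  rw [e1, zpow_one, zpow_one, zpow_neg, zpow_neg]
  push_cast
  have e2 : ((c : ℂ) * denom A z) ^ (2 : ℤ) = (c : ℂ) ^ 2 * denom A z ^ (2 : ℤ) := by
    rw [mul_zpow]
    norm_cast
  rw [e2]
  field_simp


theorem frickeMat_entry (p : ℕ) [Fact p.Prime] (i j : Fin 2) :
    (frickeMat p i j : ℝ) = (!![0, -1; (p : ℝ), 0] : Matrix (Fin 2) (Fin 2) ℝ) i j := rfl

theorem heckeMatrix_entry {p : ℕ} (hp : p ≠ 0) (j : ℕ) (a b : Fin 2) :
    (heckeMatrix p j a b : ℝ) = (!![(1 : ℝ), (j : ℝ); 0, (p : ℝ)] : Matrix (Fin 2) (Fin 2) ℝ) a b := by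
  have := val_heckeMatrix hp j
  exact congrFun (congrFun this a) b

theorem mul_entry (A B : GL (Fin 2) ℝ) (i j : Fin 2) :
    ((A * B : GL (Fin 2) ℝ) i j : ℝ) = A i 0 * B 0 j + A i 1 * B 1 j := by
  rw [Matrix.GeneralLinearGroup.coe_mul, Matrix.mul_apply, Fin.sum_univ_two]

theorem SL_slash_mapGL (k : ℤ) (f : ℍ → ℂ) (γ : SL(2, ℤ)) :
    f ∣[k] γ = f ∣[k] (Matrix.SpecialLinearGroup.mapGL ℝ γ) := rfl

theorem mapGL_S_mul_T_pow_entry (j : ℕ) (a b : Fin 2) :
    ((Matrix.SpecialLinearGroup.mapGL ℝ (ModularGroup.S * ModularGroup.T ^ j : SL(2, ℤ)) :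
      GL (Fin 2) ℝ) a b : ℝ) = (!![0, -1; 1, (j : ℝ)] : Matrix (Fin 2) (Fin 2) ℝ) a b := by
  rw [mapGL_entry', coe_S_mul_T_pow]
  fin_cases a <;> fin_cases b <;> simp

/-- (A) `(G ∣ W) ∣ S T^j = G ∣ (1, j; 0, p)`. -/
theorem fricke_slash_S_mul_T_pow {p : ℕ} [Fact p.Prime] (G : ModularForm (Gamma0 p) 2) (j : ℕ) :
    (fricke G : ℍ → ℂ) ∣[(2 : ℤ)] (ModularGroup.S * ModularGroup.T ^ j : SL(2, ℤ)) =
      (G : ℍ → ℂ) ∣[(2 : ℤ)] heckeMatrix p j := by
  have hp : p ≠ 0 := (Fact.out : p.Prime).ne_zero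
  rw [coe_fricke, SL_slash_mapGL, ← SlashAction.slash_mul]
  refine slash_two_eq_of_smul _ _ _ (-1) (by norm_num) (det_heckeMatrix_pos p j) ?_
  intro a b
  rw [mul_entry]
  simp only [frickeMat_entry, heckeMatrix_entry hp, mapGL_S_mul_T_pow_entry]
  fin_cases a <;> fin_cases b <;> simp

/-- (B) The Fricke transform is an involution in weight two. -/
theorem fricke_fricke {p : ℕ} [Fact p.Prime] (G : ModularForm (Gamma0 p) 2) :
    fricke (fricke G) = G := by
  apply DFunLike.coe_injective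
  rw [coe_fricke, coe_fricke, ← SlashAction.slash_mul]
  have h1 : (G : ℍ → ℂ) ∣[(2 : ℤ)] (frickeMat p * frickeMat p) =
      (G : ℍ → ℂ) ∣[(2 : ℤ)] (1 : GL (Fin 2) ℝ) := by
    refine slash_two_eq_of_smul _ _ _ (-(p : ℝ)) ?_ (by simp) ?_
    · have : (p : ℝ) ≠ 0 := by exact_mod_cast (Fact.out : p.Prime).ne_zero
      simpa using this
    · intro a b
      rw [mul_entry]
      simp only [frickeMat_entry]
      fin_cases a <;> fin_cases b <;> simp
  rw [h1, SlashAction.slash_one]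

/-- (C) `G ∣ S T^j = (G ∣ W) ∣ (1, j; 0, p)`. -/
theorem slash_S_mul_T_pow_eq {p : ℕ} [Fact p.Prime] (G : ModularForm (Gamma0 p) 2) (j : ℕ) :
    (G : ℍ → ℂ) ∣[(2 : ℤ)] (ModularGroup.S * ModularGroup.T ^ j : SL(2, ℤ)) =
      (fricke G : ℍ → ℂ) ∣[(2 : ℤ)] heckeMatrix p j := by
  have hp : p ≠ 0 := (Fact.out : p.Prime).ne_zero
  have hp' : (p : ℝ) ≠ 0 := by exact_mod_cast hp
  rw [coe_fricke, SL_slash_mapGL, ← SlashAction.slash_mul]
  symm
  refine slash_two_eq_of_smul _ _ _ (p : ℝ) hp' ?_ ?_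
  · rw [Matrix.SpecialLinearGroup.det_mapGL]
    simp
  · intro a b
    rw [mul_entry]
    simp only [frickeMat_entry, heckeMatrix_entry hp, mapGL_S_mul_T_pow_entry]
    fin_cases a <;> fin_cases b <;> simp

/-- (F3) `G ∣ W = -U_p G`: the Fricke transform of a weight two form is minus its `U_p`. -/
theorem coe_fricke_eq {p : ℕ} [Fact p.Prime] (G : ModularForm (Gamma0 p) 2) :
    (fricke G : ℍ → ℂ) = -heckeU 2 p (G : ℍ → ℂ) := by
  have : NeZero p := ⟨(Fact.out : p.Prime).ne_zero⟩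
  ext z
  have h := trace_eq_zero (fricke G) z
  rw [sum_Q_eq, conj_cosetEquiv_none] at h
  simp only [conj_cosetEquiv, rep_some, fricke_slash_S_mul_T_pow] at h
  rw [Pi.neg_apply, heckeU_def, Finset.sum_apply, Finset.sum_range]
  exact eq_neg_of_add_eq_zero_left h

/-- (F4) `U_p` is an involution on `M₂(Γ₀(p))`. -/
theorem heckeU_heckeU {p : ℕ} [Fact p.Prime] (G : ModularForm (Gamma0 p) 2) :
    heckeU 2 p (heckeU 2 p (G : ℍ → ℂ)) = G := by
  have h1 := coe_fricke_eq (fricke G)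
  rw [fricke_fricke, coe_fricke_eq G] at h1
  have h2 : heckeU 2 p (-heckeU 2 p (G : ℍ → ℂ)) = -heckeU 2 p (heckeU 2 p (G : ℍ → ℂ)) := by
    have := heckeU_smul 2 p (-1 : ℂ) (heckeU 2 p (G : ℍ → ℂ))
    simpa using this
  rw [h2, neg_neg] at h1
  exact h1.symm

/-- (F5) `(G ∣ S T^j)(z) = -(1/p) (U_p G)((z + j)/p)`. -/
theorem slash_S_mul_T_pow_apply {p : ℕ} [Fact p.Prime] (G : ModularForm (Gamma0 p) 2) (j : ℕ)
    (z : ℍ) :
    ((G : ℍ → ℂ) ∣[(2 : ℤ)] (ModularGroup.S * ModularGroup.T ^ j : SL(2, ℤ))) z =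
      -(p : ℂ)⁻¹ * heckeU 2 p (G : ℍ → ℂ) (heckeMatrix p j • z) := by
  have hp : p ≠ 0 := (Fact.out : p.Prime).ne_zero
  rw [slash_S_mul_T_pow_eq, slash_heckeMatrix_apply 2 hp, coe_fricke_eq, Pi.neg_apply]
  ring

/-- The conjugates of `G` in terms of `U_p G`. -/
theorem conj_cosetEquiv_some_apply {p : ℕ} [Fact p.Prime] (G : ModularForm (Gamma0 p) 2)
    (j : Fin p) (z : ℍ) :
    conj G (cosetEquiv p (some j)) z =
      -(p : ℂ)⁻¹ * heckeU 2 p (G : ℍ → ℂ) (heckeMatrix p j • z) := by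
  rw [conj_cosetEquiv, rep_some, slash_S_mul_T_pow_apply]

end Fermat.Agent.S16.H11
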