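import Mathlib
import Fermat.Statements.S16

/-!
# S16 (Mazur: `T/I ≅ ℤ/n`, `n = (p-1)/gcd(p-1,12)`): definitions shared by all work packages

Plan: board posts NEWTARGET #978/#979 (helper6).  Everything is phrased with the Prelude's
`ModularFormClass.qCoeff f n = (qExpansion 1 f).coeff n`.
-/

set_option autoImplicit false

namespace Fermat.Agent.S16

open UpperHalfPlane ModularForm CongruenceSubgroup ModularFormClass
open scoped MatrixGroups ModularForm

/-- `σ'(n)`: the sum of the divisors of `n` prime to `p` (the `n`-th coefficient of the weight-2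
Eisenstein series of level `Γ₀(p)`). -/
def sigmaP (p n : ℕ) : ℕ := ∑ d ∈ n.divisors with ¬ p ∣ d, d

/-- Formal `U_p`: `∑ aₙ Xⁿ ↦ ∑ a_{n p} Xⁿ` (same index convention as the Prelude's
`coeffHeckeU`). -/
noncomputable def Up {R : Type*} [Semiring R] (p : ℕ) (f : PowerSeries R) : PowerSeries R :=
  PowerSeries.mk fun n => PowerSeries.coeff (n * p) f

/-- Formal `V_p`: `f(X) ↦ f(X^p)`. -/
noncomputable def Vp {R : Type*} [Semiring R] (p : ℕ) (f : PowerSeries R) : PowerSeries R :=
  PowerSeries.mk fun n => if p ∣ n then PowerSeries.coeff (n / p) f else 0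

/-- `E₄ = 1 + 240 ∑ σ₃(n) qⁿ` as a formal power series over any commutative ring. -/
noncomputable def E4q (R : Type*) [CommRing R] : PowerSeries R :=
  PowerSeries.mk fun n => if n = 0 then 1 else 240 * (ArithmeticFunction.sigma 3 n : R)

/-- `E₆ = 1 - 504 ∑ σ₅(n) qⁿ` as a formal power series over any commutative ring. -/
noncomputable def E6q (R : Type*) [CommRing R] : PowerSeries R :=
  PowerSeries.mk fun n => if n = 0 then 1 else -(504 * (ArithmeticFunction.sigma 5 n : R))

/-- The set of `ℓ`-integral algebraic numbers: `x` such that `s x` is an algebraic integer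
for some natural number `s` prime to `ℓ` (it is a subring of `ℂ`: node `StmtRl`). -/
def RlSet (ℓ : ℕ) : Set ℂ := {x | ∃ s : ℕ, ¬ ℓ ∣ s ∧ IsIntegral ℤ ((s : ℂ) * x)}

/-- The primitive `p`-th root of unity `exp(2πi/p)`. -/
noncomputable def zetaP (p : ℕ) : ℂ := Complex.exp (2 * Real.pi * Complex.I / p)

/-- The `q^{1/p}`-expansions (in `x = q^{1/p}`) of the `p+1` conjugates of a weight-2 form of
level `Γ₀(p)` with `q`-expansion `g`: `none ↦ g(x^p)`, `some j ↦ -(1/p) (U_p g)(ζ^j x)`. -/
noncomputable def conjSeries (p : ℕ) (g : PowerSeries ℂ) : Option (Fin p) → PowerSeries ℂ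
  | none => Vp p g
  | some j => (-(1 / (p : ℂ))) • PowerSeries.rescale (zetaP p ^ (j : ℕ)) (Up p g)

/-- The functions `G`, `G ∣[k] S T^j` (`j < p`): the conjugates of a form of level `Γ₀(p)`. -/
noncomputable def conjFun (p : ℕ) (k : ℤ) (G : ℍ → ℂ) : Option (Fin p) → ℍ → ℂ
  | none => G
  | some j => G ∣[k] (ModularGroup.S * ModularGroup.T ^ (j : ℕ))

end Fermat.Agent.S16
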