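import Mathlib
import Fermat.Agent.S16.Defs_helper6

/-!
# S16: node statements (every work package proves one of these Props, literally)

See NEWTARGET #978/#979 for the mathematics.  Notation: `qCoeff f n = (qExpansion 1 f).coeff n`,
`n_p = eisensteinNumerator p = (p-1)/gcd(p-1,12)`.

Convention: a node `X` that needs other nodes `D₁, D₂` is delivered as
`theorem stmtX (h₁ : StmtD₁) (h₂ : StmtD₂) : StmtX`.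
-/

set_option autoImplicit false

namespace Fermat.Agent.S16

open UpperHalfPlane ModularForm CongruenceSubgroup ModularFormClass ModularCurve CuspForm
open scoped MatrixGroups ModularForm Manifold

/-! ## Top level -/

/-- (E) the weight-2 Eisenstein series of level `Γ₀(p)`. -/
def StmtE : Prop := ∀ p : ℕ, p.Prime → ∃ E : ModularForm (Gamma0 p) 2,
  qCoeff ⇑E 0 = ((p : ℂ) - 1) / 24 ∧ ∀ n : ℕ, 1 ≤ n → qCoeff ⇑E n = (sigmaP p n : ℂ)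

/-- (THETA) a weight-2 form with constant term 1 and even higher coefficients. -/
def StmtTheta : Prop := ∀ p : ℕ, p.Prime → 5 ≤ p → ∃ G : ModularForm (Gamma0 p) 2,
  qCoeff ⇑G 0 = 1 ∧ ∀ n : ℕ, 1 ≤ n → ∃ m : ℤ, qCoeff ⇑G n = 2 * (m : ℂ)

/-- The hypothesis of (B): `a₀(G) = 1` and `aₙ(G) ∈ ℓ^e ℤ_(ℓ)` for `n ≥ 1`. -/
def BHyp (p ℓ e : ℕ) (G : ModularForm (Gamma0 p) 2) : Prop :=
  qCoeff ⇑G 0 = 1 ∧ ∀ n : ℕ, 1 ≤ n → ∃ (m : ℤ) (s : ℕ), ¬ ℓ ∣ s ∧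
    (s : ℂ) * qCoeff ⇑G n = (ℓ : ℂ) ^ e * (m : ℂ)

/-- (B) the constant-term bound. -/
def StmtB : Prop := ∀ p ℓ e : ℕ, p.Prime → ℓ.Prime → 1 ≤ e →
  ∀ G : ModularForm (Gamma0 p) 2, BHyp p ℓ e G → ℓ ^ e ∣ 24 / Nat.gcd (p - 1) 12

/-- (H1) a cusp form with integer coefficients congruent to the Eisenstein series mod `n_p`. -/
def StmtH1 : Prop := ∀ p : ℕ, p.Prime → ∃ h : CuspForm (Gamma0 p) 2, ∀ n : ℕ, 1 ≤ n →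
  ∃ m : ℤ, qCoeff ⇑h n = (sigmaP p n : ℂ) + (eisensteinNumerator p : ℂ) * (m : ℂ)

/-- (H2) any modulus of such a congruence divides `n_p`. -/
def StmtH2 : Prop := ∀ p : ℕ, p.Prime → ∀ d : ℕ,
  (∃ h : CuspForm (Gamma0 p) 2, ∀ n : ℕ, 1 ≤ n →
    ∃ m : ℤ, qCoeff ⇑h n = (sigmaP p n : ℂ) + (d : ℂ) * (m : ℂ)) →
  d ∣ eisensteinNumerator p

/-- (CUSP) in weight 2 and prime level, vanishing of the constant term at `∞` suffices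
(the constant term of `F ∣ S T^j` is `-(1/p) a₀(U_p F) = -(1/p) a₀(F)`: node `StmtFricke`). -/
def StmtCusp : Prop := ∀ p : ℕ, p.Prime → ∀ F : ModularForm (Gamma0 p) 2, qCoeff ⇑F 0 = 0 →
  ∃ h : CuspForm (Gamma0 p) 2, (⇑h : ℍ → ℂ) = ⇑F

/-- (G1) glue: `c' (12/ν)(E - ((p-1)/24) G)` for `p ≥ 5`, `h = 0` for `p = 2, 3`. -/
def StmtG1 : Prop := StmtE → StmtTheta → StmtCusp → StmtH1

/-- (G2) glue: `G = 24 (E - h)/(p-1)` and valuations. -/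
def StmtG2 : Prop := StmtE → StmtB → StmtH2

/-- The frozen goal. -/
def Goal : Prop := ∀ (p : ℕ) [Fact p.Prime],
  Nat.card (↥(heckeLatticeAlgebra p ∅) ⧸
      Ideal.map ((latticeRestrictHom p ∅).toRingHom.comp (heckeEvalForms p 2))
        (eisensteinIdeal p)) = eisensteinNumerator p

/-- (R) the algebraic reduction. -/
def StmtR : Prop := StmtH1 → StmtH2 → Goal

theorem goal_of (hE : StmtE) (hT : StmtTheta) (hB : StmtB) (hC : StmtCusp) (hG1 : StmtG1)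
    (hG2 : StmtG2) (hR : StmtR) : Goal :=
  hR (hG1 hE hT hC) (hG2 hE hB)

/-! ## (B) toolkit -/

/-- (B-E4E6) the `q`-expansions of `E₄`, `E₆`. -/
def StmtE4E6 : Prop := qExpansion 1 E₄ = E4q ℂ ∧ qExpansion 1 E₆ = E6q ℂ

/-- (B0a) Fricke/trace: `H = U_p G` is again a form of level `Γ₀(p)`, `U_p H = G`, and the
conjugates `G ∣ S T^j` are `-(1/p) H((z+j)/p)`. -/
def StmtFricke : Prop := ∀ p : ℕ, p.Prime → ∀ G : ModularForm (Gamma0 p) 2,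
  ∃ H : ModularForm (Gamma0 p) 2,
    qExpansion 1 H = Up p (qExpansion 1 G) ∧ Up p (qExpansion 1 H) = qExpansion 1 G ∧
    ∀ (j : ℕ) (z : ℍ), (⇑G ∣[(2 : ℤ)] (ModularGroup.S * ModularGroup.T ^ j)) z =
      -(1 / (p : ℂ)) * H (heckeMatrix p j • z)

/-- (B0b, optional) the `q^{1/p}`-expansions of the conjugates of a weight-2 form. -/
def StmtXExp : Prop := ∀ p : ℕ, p.Prime → ∀ G : ModularForm (Gamma0 p) 2,
  ∀ i : Option (Fin p), qExpansion (p : ℝ) (conjFun p 2 ⇑G i) = conjSeries p (qExpansion 1 G) i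

/-- (B0c, weight 4) symmetric functions of the conjugates of `a G² + b E₄`:
a level-one form with the expected values and the expected `q^{1/p}`-expansion. -/
def StmtSym4 : Prop := ∀ p : ℕ, p.Prime → ∀ (G : ModularForm (Gamma0 p) 2) (a b : ℂ) (m : ℕ),
  ∃ F : ModularForm 𝒮ℒ (4 * (m : ℤ)),
    (∀ z : ℍ, F z = ∑ S ∈ (Finset.univ : Finset (Option (Fin p))).powersetCard m,
      ∏ i ∈ S, (a * conjFun p 2 ⇑G i z ^ 2 + b * E₄ z)) ∧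
    Vp p (qExpansion 1 F) = ∑ S ∈ (Finset.univ : Finset (Option (Fin p))).powersetCard m,
      ∏ i ∈ S, (a • conjSeries p (qExpansion 1 G) i ^ 2 + b • Vp p (E4q ℂ))

/-- (B0c, weight 6) the same for `a G³ + b G E₄ + c E₆`. -/
def StmtSym6 : Prop := ∀ p : ℕ, p.Prime → ∀ (G : ModularForm (Gamma0 p) 2) (a b c : ℂ) (m : ℕ),
  ∃ F : ModularForm 𝒮ℒ (6 * (m : ℤ)),
    (∀ z : ℍ, F z = ∑ S ∈ (Finset.univ : Finset (Option (Fin p))).powersetCard m,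
      ∏ i ∈ S, (a * conjFun p 2 ⇑G i z ^ 3 + b * (conjFun p 2 ⇑G i z * E₄ z) + c * E₆ z)) ∧
    Vp p (qExpansion 1 F) = ∑ S ∈ (Finset.univ : Finset (Option (Fin p))).powersetCard m,
      ∏ i ∈ S, (a • conjSeries p (qExpansion 1 G) i ^ 3 +
        b • (conjSeries p (qExpansion 1 G) i * Vp p (E4q ℂ)) + c • Vp p (E6q ℂ))

/-- (B1) the trace identities Eq2, Eq2' (= Eq2 for `U_p G`), Eq3, Eq3' as identities of power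
series. -/
def StmtEq : Prop := ∀ p : ℕ, p.Prime → ∀ G : ModularForm (Gamma0 p) 2,
  let g := qExpansion 1 G
  let u := Up p g
  let a0 := PowerSeries.coeff 0 g
  Up p u = g ∧
  (p : ℂ) • g ^ 2 + Up p (u ^ 2) = (((p : ℂ) + 1) * a0 ^ 2) • E4q ℂ ∧
  (p : ℂ) • u ^ 2 + Up p (g ^ 2) = (((p : ℂ) + 1) * a0 ^ 2) • E4q ℂ ∧
  (p : ℂ) ^ 2 • g ^ 3 - Up p (u ^ 3) = (((p : ℂ) ^ 2 - 1) * a0 ^ 3) • E6q ℂ ∧
  (p : ℂ) ^ 2 • u ^ 3 - Up p (g ^ 3) = (((p : ℂ) ^ 2 - 1) * a0 ^ 3) • E6q ℂ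

/-- (B3) `RlSet ℓ` is a subring containing `ℤ_(ℓ)` and the algebraic integers, in which an
integer is divisible by `ℓ` only if it is so in `ℤ`. -/
def StmtRl : Prop := ∀ ℓ : ℕ, ℓ.Prime →
  (∃ R : Subring ℂ, (R : Set ℂ) = RlSet ℓ) ∧
  (∀ (a : ℤ) (s : ℕ), ¬ ℓ ∣ s → (a : ℂ) / (s : ℂ) ∈ RlSet ℓ) ∧
  (∀ x : ℂ, IsIntegral ℤ x → x ∈ RlSet ℓ) ∧
  (∀ c : ℤ, (∃ r ∈ RlSet ℓ, (c : ℂ) = (ℓ : ℂ) * r) → (ℓ : ℤ) ∣ c)

/-- (B2) level-one Sturm bound for an additive subgroup `I` of `ℂ` (the triangular basis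
`E₄^a E₆^b Δ^c` has integer coefficients): if `aₙ(f) ∈ I` for `n ≤ k/12` then for all `n`. -/
def StmtSturm : Prop := ∀ (I : AddSubgroup ℂ) (k : ℤ) (f : ModularForm 𝒮ℒ k),
  (∀ n : ℕ, 12 * (n : ℤ) ≤ k → qCoeff ⇑f n ∈ I) → ∀ n : ℕ, qCoeff ⇑f n ∈ I

/-- (B2') evaluation at `ρ`: a form of weight `12 M` whose first `M + 1` coefficients lie in `I`
takes the value `d Δ(ρ)^M` at `ρ` with `d ∈ I`; and `E₄(ρ) = 0`, `E₆(ρ)² = -1728 Δ(ρ) ≠ 0`. -/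
def StmtRho : Prop :=
  (∀ (I : AddSubgroup ℂ) (M : ℕ) (f : ModularForm 𝒮ℒ (12 * (M : ℤ))),
    (∀ n : ℕ, n ≤ M → qCoeff ⇑f n ∈ I) →
    ∃ d ∈ I, f UpperHalfPlane.ρ = d * ModularForm.discriminant UpperHalfPlane.ρ ^ M) ∧
  E₄ UpperHalfPlane.ρ = 0 ∧
  E₆ UpperHalfPlane.ρ ^ 2 = -1728 * ModularForm.discriminant UpperHalfPlane.ρ ∧
  ModularForm.discriminant UpperHalfPlane.ρ ≠ 0

/-! ## (B) formal data and the cases -/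

/-- The formal data extracted from a form `G` as in (B): `g = 1 + ℓ^e A`, `U_p g = 1 + ℓ^e B`,
with `ℓ`-integral rational `A`, `B`, and the identities Eq2, Eq2', Eq3. -/
structure BData (p ℓ e : ℕ) (A B : PowerSeries ℚ) : Prop where
  hA0 : PowerSeries.coeff 0 A = 0
  hB0 : PowerSeries.coeff 0 B = 0
  intA : ∀ n : ℕ, ¬ ℓ ∣ (PowerSeries.coeff n A).den
  intB : ∀ n : ℕ, ¬ ℓ ∣ (PowerSeries.coeff n B).den
  hBA : B = Up p A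
  hAB : A = Up p B
  eq2 : (p : ℚ) • (1 + (ℓ : ℚ) ^ e • A) ^ 2 + Up p ((1 + (ℓ : ℚ) ^ e • B) ^ 2) =
    ((p : ℚ) + 1) • E4q ℚ
  eq2' : (p : ℚ) • (1 + (ℓ : ℚ) ^ e • B) ^ 2 + Up p ((1 + (ℓ : ℚ) ^ e • A) ^ 2) =
    ((p : ℚ) + 1) • E4q ℚ
  eq3 : (p : ℚ) ^ 2 • (1 + (ℓ : ℚ) ^ e • A) ^ 3 - Up p ((1 + (ℓ : ℚ) ^ e • B) ^ 3) =
    ((p : ℚ) ^ 2 - 1) • E6q ℚ
  eq3' : (p : ℚ) ^ 2 • (1 + (ℓ : ℚ) ^ e • B) ^ 3 - Up p ((1 + (ℓ : ℚ) ^ e • A) ^ 3) =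
    ((p : ℚ) ^ 2 - 1) • E6q ℚ

/-- (BD) extraction of the formal data. -/
def StmtBData : Prop := ∀ p ℓ e : ℕ, p.Prime → ℓ.Prime → 1 ≤ e →
  ∀ G : ModularForm (Gamma0 p) 2, BHyp p ℓ e G →
  ∃ A B : PowerSeries ℚ, BData p ℓ e A B ∧
    (∀ n : ℕ, qCoeff ⇑G n = ((PowerSeries.coeff n (1 + (ℓ : ℚ) ^ e • A) : ℚ) : ℂ)) ∧
    (∀ n : ℕ, qCoeff ⇑G (n * p) = ((PowerSeries.coeff n (1 + (ℓ : ℚ) ^ e • B) : ℚ) : ℂ))

/-- (C1) `ℓ = p`. -/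
def StmtC1 : Prop := ∀ (p e : ℕ) (A B : PowerSeries ℚ), p.Prime → 1 ≤ e → BData p p e A B →
  (5 ≤ p → False) ∧ (p = 3 → 2 ≤ e → False) ∧ (p = 2 → 4 ≤ e → False)

/-- (C2) `ℓ ≥ 5`, `ℓ ≠ p`, `ℓ ∤ p + 1`. -/
def StmtC2 : Prop := ∀ (p ℓ e : ℕ) (A B : PowerSeries ℚ), p.Prime → ℓ.Prime → 1 ≤ e →
  BData p ℓ e A B → 5 ≤ ℓ → ℓ ≠ p → ¬ ℓ ∣ p + 1 → False

/-- (C3) `ℓ ≥ 5`, `ℓ ∣ p + 1` (Frobenius–Sturm with `G³ - E₆`, resp. `G² - E₄` for `ℓ = 7`). -/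
def StmtC3 : Prop := ∀ p ℓ e : ℕ, p.Prime → ℓ.Prime → 1 ≤ e → 5 ≤ ℓ → ℓ ∣ p + 1 →
  ∀ G : ModularForm (Gamma0 p) 2, BHyp p ℓ e G → False

/-- (C4) `ℓ = 3`, `p ≡ 1 mod 3`. -/
def StmtC4 : Prop := ∀ (p e : ℕ) (A B : PowerSeries ℚ), p.Prime → 1 ≤ e → BData p 3 e A B →
  p % 3 = 1 → False

/-- (C5a) `ℓ = 3`, `p ≡ 2 mod 3`, `9 ∤ p + 1`, `e ≥ 2`. -/
def StmtC5a : Prop := ∀ (p e : ℕ) (A B : PowerSeries ℚ), p.Prime → 2 ≤ e → BData p 3 e A B →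
  p % 3 = 2 → ¬ 9 ∣ p + 1 → False

/-- (C5b) `ℓ = 3`, `9 ∣ p + 1`, `e ≥ 2` (Frobenius–Sturm with `(G³ - E₆)/9`). -/
def StmtC5b : Prop := ∀ p e : ℕ, p.Prime → 2 ≤ e → 9 ∣ p + 1 →
  ∀ G : ModularForm (Gamma0 p) 2, BHyp p 3 e G → False

/-- (C6) `ℓ = 2`, `p ≡ 1 mod 4`, `e ≥ 2`. -/
def StmtC6 : Prop := ∀ (p e : ℕ) (A B : PowerSeries ℚ), p.Prime → 2 ≤ e → BData p 2 e A B →
  p % 4 = 1 → False

/-- (C7) `ℓ = 2`, `p ≡ 3 mod 8`, `e ≥ 3`. -/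
def StmtC7 : Prop := ∀ (p e : ℕ) (A B : PowerSeries ℚ), p.Prime → 3 ≤ e → BData p 2 e A B →
  p % 8 = 3 → False

/-- (C8) `ℓ = 2`, `p ≡ 7 mod 8`, `e ≥ 3` (norms of `(G² - E₄)/16` and `(G E₄ - E₆)/8` at `ρ`). -/
def StmtC8 : Prop := ∀ p e : ℕ, p.Prime → 3 ≤ e → p % 8 = 7 →
  ∀ G : ModularForm (Gamma0 p) 2, BHyp p 2 e G → False

end Fermat.Agent.S16
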