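import Mathlib
import Fermat.Agent.S16.Stmts_helper6
import Fermat.Agent.S16.Fricke_helper11
import Fermat.Prelude.Thm_ModularFormClass_qCoeff_heckeU
import Fermat.Prelude.Thm_CongruenceSubgroup_one_mem_strictPeriods_Gamma0

/-!
# S16, node `StmtFricke` (bridge from `Fricke_helper11` to the Prop of `Stmts_helper6`)
-/

set_option autoImplicit false

namespace Fermat.Agent.S16.H11

open UpperHalfPlane ModularForm CongruenceSubgroup
open scoped MatrixGroups ModularForm Manifold
open Fermat.Agent.S16

/-- The `q`-expansion of `U_p G` is the formal `U_p` of the `q`-expansion of `G`. -/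
theorem qExpansion_heckeU {p : ℕ} [Fact p.Prime] {k : ℤ} (G : ModularForm (Gamma0 p) k) :
    qExpansion 1 (heckeU k p (G : ℍ → ℂ)) = Up p (qExpansion 1 G) := by
  have hp : p ≠ 0 := (Fact.out : p.Prime).ne_zero
  ext n
  have h := ModularFormClass.qCoeff_heckeU G
    (CongruenceSubgroup.one_mem_strictPeriods_Gamma0 p) hp n
  simpa [Up, ModularFormClass.qCoeff, coeffHeckeU_apply] using h

/-- Node `StmtFricke` of `Stmts_helper6`, with `H = U_p G`. -/
theorem stmtFricke : StmtFricke := by
  intro p hp G
  have : Fact p.Prime := ⟨hp⟩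
  have : NeZero p := ⟨hp.ne_zero⟩
  refine ⟨heckeULin 2 (dvd_refl p) G, ?_, ?_, ?_⟩
  · rw [coe_heckeULin_apply]
    exact qExpansion_heckeU G
  · have h := qExpansion_heckeU (heckeULin 2 (dvd_refl p) G)
    rw [coe_heckeULin_apply, heckeU_heckeU] at h
    exact h.symm
  · intro j z
    rw [slash_S_mul_T_pow_apply, coe_heckeULin_apply, one_div]

end Fermat.Agent.S16.H11
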