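import Mathlib
import Fermat.Agent.S16.Stmts_helper6
import Fermat.Prelude.Thm_CongruenceSubgroup_one_mem_strictPeriods_Gamma0

/-!
# S16, nodes `StmtXExp`, `StmtSym4`, `StmtSym6` (independent copy, helper28)

`stmtXExp : StmtFricke → StmtXExp`, `stmtSym4 / stmtSym6 : StmtFricke → StmtE4E6 → StmtSym4/6`.

Route: the `p + 1` conjugates `G`, `G ∣ S T^j` are permuted by the slash action of `SL(2,ℤ)`
(explicit representatives on `Option (Fin p)`), so their elementary symmetric functions are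
level one forms; their `q^{1/p}`-expansions are computed with the function-level
`UpperHalfPlane.qExpansion p`, which is a ring homomorphism on holomorphic `p`-periodic
functions bounded at `i∞`.
-/

set_option autoImplicit false

namespace Fermat.Agent.S16.H28

open UpperHalfPlane ModularForm CongruenceSubgroup ModularFormClass
open scoped MatrixGroups ModularForm Manifold

/-- Holomorphic, `h`-periodic and bounded at `i∞`. -/
structure NiceP (h : ℝ) (f : ℍ → ℂ) : Prop where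
  per : Function.Periodic (f ∘ ofComplex) h
  mdiff : MDiff f
  bdd : IsBoundedAtImInfty f

theorem NiceP.analytic {h : ℝ} {f : ℍ → ℂ} (hh : 0 < h) (hf : NiceP h f) :
    AnalyticAt ℂ (cuspFunction h f) 0 :=
  analyticAt_cuspFunction_zero hh hf.per hf.mdiff hf.bdd

theorem NiceP.add {h : ℝ} {f g : ℍ → ℂ} (hf : NiceP h f) (hg : NiceP h g) : NiceP h (f + g) where
  per := by
    intro z
    have h1 := hf.per z
    have h2 := hg.per z
    simp only [Function.comp_apply, Pi.add_apply] at h1 h2 ⊢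
    rw [h1, h2]
  mdiff := hf.mdiff.add hg.mdiff
  bdd := hf.bdd.add hg.bdd

theorem NiceP.mul {h : ℝ} {f g : ℍ → ℂ} (hf : NiceP h f) (hg : NiceP h g) : NiceP h (f * g) where
  per := by
    intro z
    have h1 := hf.per z
    have h2 := hg.per z
    simp only [Function.comp_apply, Pi.mul_apply] at h1 h2 ⊢
    rw [h1, h2]
  mdiff := hf.mdiff.mul hg.mdiff
  bdd := hf.bdd.mul hg.bdd

theorem NiceP.const (h : ℝ) (c : ℂ) : NiceP h (fun _ => c) where
  per := by intro z; rfl
  mdiff := mdifferentiable_const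
  bdd := Filter.const_boundedAtFilter _ c

theorem NiceP.smul {h : ℝ} {f : ℍ → ℂ} (c : ℂ) (hf : NiceP h f) : NiceP h (c • f) := by
  have : c • f = (fun _ => c) * f := by
    funext z; simp
  rw [this]
  exact (NiceP.const h c).mul hf

theorem NiceP.pow {h : ℝ} {f : ℍ → ℂ} (hf : NiceP h f) (n : ℕ) : NiceP h (f ^ n) := by
  induction n with
  | zero => rw [pow_zero]; exact NiceP.const h 1
  | succ n ih => rw [pow_succ]; exact ih.mul hf

theorem NiceP.one (h : ℝ) : NiceP h (1 : ℍ → ℂ) := NiceP.const h 1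

theorem NiceP.zero (h : ℝ) : NiceP h (0 : ℍ → ℂ) := NiceP.const h 0

theorem NiceP.sum {h : ℝ} {ι : Type*} (s : Finset ι) (f : ι → ℍ → ℂ)
    (hf : ∀ i ∈ s, NiceP h (f i)) : NiceP h (∑ i ∈ s, f i) := by
  classical
  induction s using Finset.induction_on with
  | empty => simpa using NiceP.zero h
  | insert a s ha ih =>
    rw [Finset.sum_insert ha]
    exact (hf a (Finset.mem_insert_self a s)).add
      (ih fun i hi => hf i (Finset.mem_insert_of_mem hi))

theorem NiceP.prod {h : ℝ} {ι : Type*} (s : Finset ι) (f : ι → ℍ → ℂ)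
    (hf : ∀ i ∈ s, NiceP h (f i)) : NiceP h (∏ i ∈ s, f i) := by
  classical
  induction s using Finset.induction_on with
  | empty => simpa using NiceP.one h
  | insert a s ha ih =>
    rw [Finset.prod_insert ha]
    exact (hf a (Finset.mem_insert_self a s)).mul
      (ih fun i hi => hf i (Finset.mem_insert_of_mem hi))

theorem qExp_add {h : ℝ} (hh : 0 < h) {f g : ℍ → ℂ} (hf : NiceP h f) (hg : NiceP h g) :
    qExpansion h (f + g) = qExpansion h f + qExpansion h g :=
  qExpansion_add (hf.analytic hh) (hg.analytic hh)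

theorem qExp_mul {h : ℝ} (hh : 0 < h) {f g : ℍ → ℂ} (hf : NiceP h f) (hg : NiceP h g) :
    qExpansion h (f * g) = qExpansion h f * qExpansion h g :=
  qExpansion_mul (hf.analytic hh) (hg.analytic hh)

theorem qExp_smul {h : ℝ} (hh : 0 < h) {f : ℍ → ℂ} (c : ℂ) (hf : NiceP h f) :
    qExpansion h (c • f) = c • qExpansion h f :=
  qExpansion_smul (hf.analytic hh) c

theorem qExp_pow {h : ℝ} (hh : 0 < h) {f : ℍ → ℂ} (hf : NiceP h f) (n : ℕ) :
    qExpansion h (f ^ n) = qExpansion h f ^ n := by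
  induction n with
  | zero => simpa using qExpansion_one h
  | succ n ih => rw [pow_succ, pow_succ, qExp_mul hh (hf.pow n) hf, ih]

theorem qExp_sum {h : ℝ} (hh : 0 < h) {ι : Type*} (s : Finset ι) (f : ι → ℍ → ℂ)
    (hf : ∀ i ∈ s, NiceP h (f i)) :
    qExpansion h (∑ i ∈ s, f i) = ∑ i ∈ s, qExpansion h (f i) := by
  classical
  induction s using Finset.induction_on with
  | empty => simpa using qExpansion_zero h
  | insert a s ha ih =>
    rw [Finset.sum_insert ha, Finset.sum_insert ha,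
      qExp_add hh (hf a (Finset.mem_insert_self a s))
        (NiceP.sum s f fun i hi => hf i (Finset.mem_insert_of_mem hi)),
      ih fun i hi => hf i (Finset.mem_insert_of_mem hi)]

theorem qExp_prod {h : ℝ} (hh : 0 < h) {ι : Type*} (s : Finset ι) (f : ι → ℍ → ℂ)
    (hf : ∀ i ∈ s, NiceP h (f i)) :
    qExpansion h (∏ i ∈ s, f i) = ∏ i ∈ s, qExpansion h (f i) := by
  classical
  induction s using Finset.induction_on with
  | empty => simpa using qExpansion_one h
  | insert a s ha ih =>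
    rw [Finset.prod_insert ha, Finset.prod_insert ha,
      qExp_mul hh (hf a (Finset.mem_insert_self a s))
        (NiceP.prod s f fun i hi => hf i (Finset.mem_insert_of_mem hi)),
      ih fun i hi => hf i (Finset.mem_insert_of_mem hi)]

theorem qParam_pow (p : ℕ) (hp : 0 < p) (z : ℂ) :
    Function.Periodic.qParam (p : ℝ) z ^ p = Function.Periodic.qParam 1 z := by
  unfold Function.Periodic.qParam
  rw [← Complex.exp_nat_mul]
  congr 1
  have : (p : ℂ) ≠ 0 := by exact_mod_cast hp.ne'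
  push_cast
  field_simp

theorem NiceP.of_one {f : ℍ → ℂ} (p : ℕ) (hf : NiceP 1 f) : NiceP (p : ℝ) f where
  per := by
    have := hf.per.nat_mul p
    simpa using this
  mdiff := hf.mdiff
  bdd := hf.bdd

theorem coeff_unique' {h : ℝ} (hh : 0 < h) {f : ℍ → ℂ} (hf : NiceP h f) (c : ℕ → ℂ)
    (hc : ∀ τ : ℍ, HasSum (fun m => c m • Function.Periodic.qParam h τ ^ m) (f τ)) :
    qExpansion h f = PowerSeries.mk c := by
  have ha := hf.analytic hh
  have h1 := (hasFPowerSeriesOnBall_cuspFunction hh ha hc).hasFPowerSeriesAt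
  have h2 : HasFPowerSeriesAt (cuspFunction h f)
      (FormalMultilinearSeries.ofScalars ℂ fun m => (qExpansion h f).coeff m) 0 := by
    simpa [qExpansion_coeff, div_eq_mul_inv, mul_comm] using ha.hasFPowerSeriesAt
  have h3 := h1.eq_formalMultilinearSeries h2
  ext m
  have := congr_arg (FormalMultilinearSeries.coeff · m) h3
  simpa [FormalMultilinearSeries.coeff_ofScalars] using this.symm

theorem qExp_period (p : ℕ) (hp : 0 < p) {f : ℍ → ℂ} (hf : NiceP 1 f) :
    qExpansion (p : ℝ) f = Vp p (qExpansion 1 f) := by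
  have hpR : (0 : ℝ) < p := by exact_mod_cast hp
  have hfp := hf.of_one p
  rw [Vp]
  apply coeff_unique' hpR hfp
  intro τ
  have h1 := hasSum_qExpansion one_pos hf.per hf.mdiff hf.bdd τ
  rw [← qParam_pow p hp] at h1
  have hinj : Function.Injective (fun n : ℕ => p * n) :=
    fun a b h => Nat.eq_of_mul_eq_mul_left hp h
  rw [← hinj.hasSum_iff]
  · convert h1 using 2 with n
    simp [pow_mul, hp.ne']
  · intro m hm
    have : ¬ p ∣ m := fun ⟨k, hk⟩ => hm ⟨k, hk.symm⟩
    simp [this]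

theorem niceP_Gamma0 {p : ℕ} [NeZero p] {k : ℤ} (G : ModularForm (Gamma0 p) k) : NiceP 1 ⇑G where
  per := SlashInvariantFormClass.periodic_comp_ofComplex G (one_mem_strictPeriods_Gamma0 p)
  mdiff := ModularFormClass.holo G
  bdd := by
    have := ModularFormClass.bdd_at_infty_slash G (1 : SL(2, ℤ))
    simpa using this

theorem niceP_levelOne {k : ℤ} (F : ModularForm 𝒮ℒ k) : NiceP 1 ⇑F where
  per := SlashInvariantFormClass.periodic_comp_ofComplex F one_mem_strictPeriods_SL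
  mdiff := ModularFormClass.holo F
  bdd := by
    have := ModularFormClass.bdd_at_infty_slash F (1 : SL(2, ℤ))
    simpa using this

theorem niceP_slash {p : ℕ} [NeZero p] {k : ℤ} (G : ModularForm (Gamma0 p) k) (γ : SL(2, ℤ)) :
    MDiff (⇑G ∣[k] γ) ∧ IsBoundedAtImInfty (⇑G ∣[k] γ) :=
  ⟨(ModularFormClass.holo G).slash k _, ModularFormClass.bdd_at_infty_slash G γ⟩

theorem qParam_hecke {p : ℕ} (hp : p ≠ 0) (j : ℕ) (τ : ℍ) :
    Function.Periodic.qParam 1 ((heckeMatrix p j • τ : ℍ) : ℂ) =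
      zetaP p ^ j * Function.Periodic.qParam (p : ℝ) τ := by
  rw [coe_heckeMatrix_smul hp, zetaP, ← Complex.exp_nat_mul]
  unfold Function.Periodic.qParam
  rw [← Complex.exp_add]
  congr 1
  have : (p : ℂ) ≠ 0 := by exact_mod_cast hp
  push_cast
  field_simp
  ring

theorem conj_some {p : ℕ} (hp : p.Prime) (G H : ModularForm (Gamma0 p) 2)
    (hH1 : qExpansion 1 H = Up p (qExpansion 1 G))
    (hH : ∀ (j : ℕ) (z : ℍ), (⇑G ∣[(2 : ℤ)] (ModularGroup.S * ModularGroup.T ^ j)) z =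
      -(1 / (p : ℂ)) * H (heckeMatrix p j • z)) (j : ℕ) :
    NiceP (p : ℝ) (⇑G ∣[(2 : ℤ)] (ModularGroup.S * ModularGroup.T ^ j)) ∧
    qExpansion (p : ℝ) (⇑G ∣[(2 : ℤ)] (ModularGroup.S * ModularGroup.T ^ j)) =
      (-(1 / (p : ℂ))) • PowerSeries.rescale (zetaP p ^ j) (Up p (qExpansion 1 G)) := by
  have : NeZero p := ⟨hp.ne_zero⟩
  have hpR : (0 : ℝ) < p := by exact_mod_cast hp.pos
  have hpC : (p : ℂ) ≠ 0 := by exact_mod_cast hp.ne_zero
  have hnice : NiceP (p : ℝ) (⇑G ∣[(2 : ℤ)] (ModularGroup.S * ModularGroup.T ^ j)) := by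
    refine ⟨?_, (niceP_slash G _).1, (niceP_slash G _).2⟩
    intro w
    by_cases hw : 0 < w.im
    · have hw' : 0 < (w + ((p : ℝ) : ℂ)).im := by simpa using hw
      simp only [Function.comp_apply, ofComplex_apply_of_im_pos hw',
        ofComplex_apply_of_im_pos hw, hH]
      congr 1
      have e1 : heckeMatrix p j • (⟨w + ((p : ℝ) : ℂ), hw'⟩ : ℍ) =
          (1 : ℝ) +ᵥ (heckeMatrix p j • (⟨w, hw⟩ : ℍ)) := by
        apply UpperHalfPlane.ext
        rw [UpperHalfPlane.coe_vadd, coe_heckeMatrix_smul hp.ne_zero,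
          coe_heckeMatrix_smul hp.ne_zero]
        push_cast
        field_simp
        ring
      rw [e1]
      exact SlashInvariantForm.vAdd_apply_of_mem_strictPeriods H _
        (one_mem_strictPeriods_Gamma0 p)
    · have hw' : (w + ((p : ℝ) : ℂ)).im ≤ 0 := by simpa using hw
      simp only [Function.comp_apply, ofComplex_apply_of_im_nonpos hw',
        ofComplex_apply_of_im_nonpos (not_lt.mp hw)]
  refine ⟨hnice, ?_⟩
  rw [coeff_unique' hpR hnice
    (fun m => -(1 / (p : ℂ)) * ((zetaP p ^ j) ^ m * PowerSeries.coeff m (Up p (qExpansion 1 G))))]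
  · ext m
    simp [PowerSeries.coeff_rescale]
  · intro τ
    have hs := hasSum_qExpansion one_pos (niceP_Gamma0 H).per (niceP_Gamma0 H).mdiff
      (niceP_Gamma0 H).bdd (heckeMatrix p j • τ)
    rw [qParam_hecke hp.ne_zero, hH1] at hs
    have hs2 := hs.mul_left (-(1 / (p : ℂ)))
    rw [← hH j τ] at hs2
    have hfun : (fun m : ℕ => -(1 / (p : ℂ)) * (PowerSeries.coeff m (Up p (qExpansion 1 G)) •
        (zetaP p ^ j * Function.Periodic.qParam (p : ℝ) τ) ^ m)) =
        (fun m : ℕ => (-(1 / (p : ℂ)) * ((zetaP p ^ j) ^ m *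
          PowerSeries.coeff m (Up p (qExpansion 1 G)))) • Function.Periodic.qParam (p : ℝ) τ ^ m) := by
      funext m
      simp only [smul_eq_mul, mul_pow]
      ring
    rw [hfun] at hs2
    exact hs2

/-- The coset representatives `1`, `S T^j`. -/
noncomputable def beta (p : ℕ) : Option (Fin p) → SL(2, ℤ)
  | none => 1
  | some j => ModularGroup.S * ModularGroup.T ^ (j : ℕ)

theorem conjFun_eq (p : ℕ) (k : ℤ) (G : ℍ → ℂ) (i : Option (Fin p)) :
    conjFun p k G i = G ∣[k] beta p i := by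
  cases i with
  | none => simp [conjFun, beta]
  | some j => simp [conjFun, beta]

theorem coe_ST (j : ℕ) :
    ((ModularGroup.S * ModularGroup.T ^ j : SL(2, ℤ)) : Matrix (Fin 2) (Fin 2) ℤ) =
      !![0, -1; 1, (j : ℤ)] := by
  rw [Matrix.SpecialLinearGroup.coe_mul, ← zpow_natCast, ModularGroup.coe_T_zpow,
    ModularGroup.coe_S]
  ext a b
  fin_cases a <;> fin_cases b <;> simp [Matrix.mul_apply, Fin.sum_univ_two]

theorem coe_ST_inv (j : ℕ) :
    (((ModularGroup.S * ModularGroup.T ^ j)⁻¹ : SL(2, ℤ)) : Matrix (Fin 2) (Fin 2) ℤ) =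
      !![(j : ℤ), 1; -1, 0] := by
  rw [Matrix.SpecialLinearGroup.coe_inv, coe_ST, Matrix.adjugate_fin_two_of]
  simp

theorem entry_mul_ST_inv (δ : SL(2, ℤ)) (j : ℕ) :
    ((δ * (ModularGroup.S * ModularGroup.T ^ j)⁻¹ : SL(2, ℤ)) : Matrix (Fin 2) (Fin 2) ℤ) 1 0 =
      δ 1 0 * j - δ 1 1 := by
  rw [Matrix.SpecialLinearGroup.coe_mul, coe_ST_inv]
  simp [Matrix.mul_apply, Fin.sum_univ_two]
  ring

theorem exists_rep {p : ℕ} (hp : p.Prime) (δ : SL(2, ℤ)) :
    ∃ i : Option (Fin p), δ * (beta p i)⁻¹ ∈ Gamma0 p := by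
  have : Fact p.Prime := ⟨hp⟩
  by_cases hc : ((δ 1 0 : ℤ) : ZMod p) = 0
  · refine ⟨none, ?_⟩
    simp only [beta, inv_one, mul_one]
    exact Gamma0_mem.mpr hc
  · refine ⟨some ⟨(((δ 1 1 : ℤ) : ZMod p) * ((δ 1 0 : ℤ) : ZMod p)⁻¹).val, ZMod.val_lt _⟩, ?_⟩
    simp only [beta]
    rw [Gamma0_mem, entry_mul_ST_inv]
    push_cast
    rw [ZMod.natCast_zmod_val]
    field_simp
    ring

theorem rep_inj {p : ℕ} (hp : p.Prime) (i i' : Option (Fin p))
    (h : beta p i * (beta p i')⁻¹ ∈ Gamma0 p) : i = i' := by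
  have : Fact p.Prime := ⟨hp⟩
  cases i with
  | none =>
    cases i' with
    | none => rfl
    | some j' =>
      exfalso
      simp only [beta] at h
      rw [Gamma0_mem, entry_mul_ST_inv] at h
      simp at h
  | some j =>
    cases i' with
    | none =>
      exfalso
      simp only [beta, inv_one, mul_one] at h
      rw [Gamma0_mem, coe_ST] at h
      simp at h
    | some j' =>
      simp only [beta] at h
      rw [Gamma0_mem, entry_mul_ST_inv, coe_ST] at h
      simp only [Matrix.of_apply, Matrix.cons_val_one, Matrix.cons_val_zero, one_mul] at h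
      have h2 : ((j' : ℕ) : ZMod p) = ((j : ℕ) : ZMod p) := by
        have := sub_eq_zero.mp (by exact_mod_cast h : (((j' : ℕ) : ZMod p) - ((j : ℕ) : ZMod p)) = 0)
        exact this
      rw [ZMod.natCast_eq_natCast_iff', Nat.mod_eq_of_lt j'.isLt, Nat.mod_eq_of_lt j.isLt] at h2
      exact congrArg some (Fin.ext h2.symm)

theorem slash_Gamma0' {p : ℕ} {k : ℤ} (G : ModularForm (Gamma0 p) k) (γ : SL(2, ℤ))
    (hγ : γ ∈ Gamma0 p) : (G : ℍ → ℂ) ∣[k] γ = G := by
  rw [ModularForm.SL_slash]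
  exact SlashInvariantFormClass.slash_action_eq G _ (Subgroup.mem_map_of_mem _ hγ)

theorem slash_levelOne' {k : ℤ} (a : ModularForm 𝒮ℒ k) (γ : SL(2, ℤ)) :
    (a : ℍ → ℂ) ∣[k] γ = a := by
  rw [ModularForm.SL_slash]
  exact SlashInvariantFormClass.slash_action_eq a _ ⟨γ, rfl⟩

theorem exists_perm {p : ℕ} (hp : p.Prime) {k : ℤ} (G : ModularForm (Gamma0 p) k) (γ : SL(2, ℤ)) :
    ∃ σ : Equiv.Perm (Option (Fin p)), ∀ i,
      (⇑G ∣[k] beta p i) ∣[k] γ = ⇑G ∣[k] beta p (σ i) := by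
  have : NeZero p := ⟨hp.ne_zero⟩
  choose f hf using fun i => exists_rep hp (beta p i * γ)
  have hinj : Function.Injective f := by
    intro i i' h
    apply rep_inj hp
    have h1 := hf i
    have h2 := hf i'
    rw [h] at h1
    have := (Gamma0 p).mul_mem h1 ((Gamma0 p).inv_mem h2)
    convert this using 1
    group
  refine ⟨Equiv.ofBijective f (Finite.injective_iff_bijective.mp hinj), fun i => ?_⟩
  rw [Equiv.ofBijective_apply, ← SlashAction.slash_mul]
  have h1 := hf i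
  have h3 : beta p i * γ = (beta p i * γ * (beta p (f i))⁻¹) * beta p (f i) := by group
  rw [h3, SlashAction.slash_mul, slash_Gamma0' G _ h1]

/-- Constructor for level one forms. -/
noncomputable def levelOneOfInv (k : ℤ) (g : ℍ → ℂ) (hg : MDiff g)
    (hinv : ∀ γ : SL(2, ℤ), g ∣[k] γ = g) (hbdd : IsBoundedAtImInfty g) : ModularForm 𝒮ℒ k where
  toFun := g
  slash_action_eq' := by
    intro γ hγ
    obtain ⟨γ₀, rfl⟩ := hγ
    exact hinv γ₀
  holo' := hg
  bdd_at_cusps' := by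
    intro c hc
    rw [OnePoint.isBoundedAt_iff_forall_SL2Z hc]
    intro γ _
    rw [hinv γ]
    exact hbdd

theorem map_perm_univ {ι : Type*} [Fintype ι] (σ : Equiv.Perm ι) :
    Multiset.map σ (Finset.univ : Finset ι).val = (Finset.univ : Finset ι).val := by
  have h := congrArg Finset.val (Finset.map_univ_equiv σ)
  rwa [Finset.map_val] at h

theorem esymm_perm {ι : Type*} [Fintype ι] (σ : Equiv.Perm ι) (f : ι → ℂ) (m : ℕ) :
    ∑ S ∈ (Finset.univ : Finset ι).powersetCard m, ∏ i ∈ S, f (σ i) =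
      ∑ S ∈ (Finset.univ : Finset ι).powersetCard m, ∏ i ∈ S, f i := by
  rw [← Finset.esymm_map_val, ← Finset.esymm_map_val]
  congr 1
  have : (fun i => f (σ i)) = f ∘ σ := rfl
  rw [this, ← Multiset.map_map, map_perm_univ]

theorem exists_levelOne {p : ℕ} (w : ℤ) (m : ℕ) (K : Option (Fin p) → ℍ → ℂ)
    (hK : ∀ i, NiceP (p : ℝ) (K i))
    (hperm : ∀ γ : SL(2, ℤ), ∃ σ : Equiv.Perm (Option (Fin p)), ∀ i, K i ∣[w] γ = K (σ i)) :
    ∃ F : ModularForm 𝒮ℒ (w * (m : ℤ)), (⇑F : ℍ → ℂ) =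
      ∑ S ∈ (Finset.univ : Finset (Option (Fin p))).powersetCard m, ∏ i ∈ S, K i := by
  have hnice : NiceP (p : ℝ)
      (∑ S ∈ (Finset.univ : Finset (Option (Fin p))).powersetCard m, ∏ i ∈ S, K i) :=
    NiceP.sum _ _ fun S _ => NiceP.prod _ _ fun i _ => hK i
  refine ⟨levelOneOfInv (w * (m : ℤ)) _ hnice.mdiff ?_ hnice.bdd, rfl⟩
  intro γ
  obtain ⟨σ, hσ⟩ := hperm γ
  funext z
  rw [ModularForm.SL_slash_apply]
  simp only [Finset.sum_apply, Finset.prod_apply]
  rw [Finset.sum_mul, ← esymm_perm σ (fun i => K i z) m]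
  refine Finset.sum_congr rfl fun S hS => ?_
  have hcard : S.card = m := (Finset.mem_powersetCard.mp hS).2
  have h1 : ∀ i ∈ S, K (σ i) z = K i (γ • z) *
      denom (Matrix.SpecialLinearGroup.toGL ((Matrix.SpecialLinearGroup.map (Int.castRingHom ℝ)) γ)) ↑z
        ^ (-w) := by
    intro i _
    rw [← hσ i, ModularForm.SL_slash_apply]
  rw [Finset.prod_congr rfl h1, Finset.prod_mul_distrib, Finset.prod_const, hcard,
    ← zpow_natCast, ← zpow_mul, neg_mul]

theorem niceP_conjFun {p : ℕ} (hp : p.Prime) (hF : StmtFricke) (G : ModularForm (Gamma0 p) 2)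
    (i : Option (Fin p)) : NiceP (p : ℝ) (conjFun p 2 ⇑G i) := by
  have : NeZero p := ⟨hp.ne_zero⟩
  obtain ⟨H, hH1, -, hH⟩ := hF p hp G
  cases i with
  | none => exact (niceP_Gamma0 G).of_one p
  | some j => exact (conj_some hp G H hH1 hH j).1

theorem stmtXExp (hF : StmtFricke) : StmtXExp := by
  intro p hp G i
  have : NeZero p := ⟨hp.ne_zero⟩
  obtain ⟨H, hH1, -, hH⟩ := hF p hp G
  cases i with
  | none => exact qExp_period p hp.pos (niceP_Gamma0 G)
  | some j => exact (conj_some hp G H hH1 hH j).2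

theorem stmtSym4 (hF : StmtFricke) (hE : StmtE4E6) : StmtSym4 := by
  intro p hp G a b m
  have : NeZero p := ⟨hp.ne_zero⟩
  have hpR : (0 : ℝ) < p := by exact_mod_cast hp.pos
  have hcN : ∀ i, NiceP (p : ℝ) (conjFun p 2 ⇑G i) := niceP_conjFun hp hF G
  have hE4N : NiceP (p : ℝ) ⇑E₄ := (niceP_levelOne E₄).of_one p
  have hK : ∀ i, NiceP (p : ℝ) (a • conjFun p 2 ⇑G i ^ 2 + b • ⇑E₄) :=
    fun i => (((hcN i).pow 2).smul a).add (hE4N.smul b)
  have hperm : ∀ γ : SL(2, ℤ), ∃ σ : Equiv.Perm (Option (Fin p)), ∀ i,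
      (a • conjFun p 2 ⇑G i ^ 2 + b • ⇑E₄) ∣[(4 : ℤ)] γ =
        a • conjFun p 2 ⇑G (σ i) ^ 2 + b • ⇑E₄ := by
    intro γ
    obtain ⟨σ, hσ⟩ := exists_perm hp G γ
    refine ⟨σ, fun i => ?_⟩
    funext z
    have h1 : conjFun p 2 ⇑G (σ i) z = conjFun p 2 ⇑G i (γ • z) *
        denom (Matrix.SpecialLinearGroup.toGL
          ((Matrix.SpecialLinearGroup.map (Int.castRingHom ℝ)) γ)) ↑z ^ (-(2 : ℤ)) := by
      rw [conjFun_eq, conjFun_eq, ← hσ i, ModularForm.SL_slash_apply]
    have h2 : E₄ z = E₄ (γ • z) *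
        denom (Matrix.SpecialLinearGroup.toGL
          ((Matrix.SpecialLinearGroup.map (Int.castRingHom ℝ)) γ)) ↑z ^ (-(4 : ℤ)) := by
      rw [← ModularForm.SL_slash_apply (k := 4) (⇑E₄) γ z, slash_levelOne']
    rw [ModularForm.SL_slash_apply]
    simp only [Pi.add_apply, Pi.smul_apply, Pi.pow_apply, smul_eq_mul]
    rw [h1, h2]
    have e : ∀ d : ℂ, d ^ (-(4 : ℤ)) = (d ^ (-(2 : ℤ))) ^ 2 := by
      intro d
      rw [← zpow_natCast, ← zpow_mul]
      norm_num
    rw [e]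
    ring
  obtain ⟨F, hFfun⟩ := exists_levelOne 4 m _ hK hperm
  refine ⟨F, fun z => ?_, ?_⟩
  · rw [hFfun]
    simp [Finset.sum_apply, Finset.prod_apply]
  · rw [← qExp_period p hp.pos (niceP_levelOne F), hFfun,
      qExp_sum hpR _ _ (fun S _ => NiceP.prod _ _ fun i _ => hK i)]
    refine Finset.sum_congr rfl fun S _ => ?_
    rw [qExp_prod hpR _ _ (fun i _ => hK i)]
    refine Finset.prod_congr rfl fun i _ => ?_
    rw [qExp_add hpR (((hcN i).pow 2).smul a) (hE4N.smul b), qExp_smul hpR a ((hcN i).pow 2),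
      qExp_smul hpR b hE4N, qExp_pow hpR (hcN i), stmtXExp hF p hp G i,
      qExp_period p hp.pos (niceP_levelOne E₄), hE.1]

theorem stmtSym6 (hF : StmtFricke) (hE : StmtE4E6) : StmtSym6 := by
  intro p hp G a b c m
  have : NeZero p := ⟨hp.ne_zero⟩
  have hpR : (0 : ℝ) < p := by exact_mod_cast hp.pos
  have hcN : ∀ i, NiceP (p : ℝ) (conjFun p 2 ⇑G i) := niceP_conjFun hp hF G
  have hE4N : NiceP (p : ℝ) ⇑E₄ := (niceP_levelOne E₄).of_one p
  have hE6N : NiceP (p : ℝ) ⇑E₆ := (niceP_levelOne E₆).of_one p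
  have hK : ∀ i, NiceP (p : ℝ)
      (a • conjFun p 2 ⇑G i ^ 3 + b • (conjFun p 2 ⇑G i * ⇑E₄) + c • ⇑E₆) :=
    fun i => ((((hcN i).pow 3).smul a).add (((hcN i).mul hE4N).smul b)).add (hE6N.smul c)
  have hperm : ∀ γ : SL(2, ℤ), ∃ σ : Equiv.Perm (Option (Fin p)), ∀ i,
      (a • conjFun p 2 ⇑G i ^ 3 + b • (conjFun p 2 ⇑G i * ⇑E₄) + c • ⇑E₆) ∣[(6 : ℤ)] γ =
        a • conjFun p 2 ⇑G (σ i) ^ 3 + b • (conjFun p 2 ⇑G (σ i) * ⇑E₄) + c • ⇑E₆ := by
    intro γ
    obtain ⟨σ, hσ⟩ := exists_perm hp G γ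
    refine ⟨σ, fun i => ?_⟩
    funext z
    have h1 : conjFun p 2 ⇑G (σ i) z = conjFun p 2 ⇑G i (γ • z) *
        denom (Matrix.SpecialLinearGroup.toGL
          ((Matrix.SpecialLinearGroup.map (Int.castRingHom ℝ)) γ)) ↑z ^ (-(2 : ℤ)) := by
      rw [conjFun_eq, conjFun_eq, ← hσ i, ModularForm.SL_slash_apply]
    have h2 : E₄ z = E₄ (γ • z) *
        denom (Matrix.SpecialLinearGroup.toGL
          ((Matrix.SpecialLinearGroup.map (Int.castRingHom ℝ)) γ)) ↑z ^ (-(4 : ℤ)) := by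
      rw [← ModularForm.SL_slash_apply (k := 4) (⇑E₄) γ z, slash_levelOne']
    have h3 : E₆ z = E₆ (γ • z) *
        denom (Matrix.SpecialLinearGroup.toGL
          ((Matrix.SpecialLinearGroup.map (Int.castRingHom ℝ)) γ)) ↑z ^ (-(6 : ℤ)) := by
      rw [← ModularForm.SL_slash_apply (k := 6) (⇑E₆) γ z, slash_levelOne']
    rw [ModularForm.SL_slash_apply]
    simp only [Pi.add_apply, Pi.smul_apply, Pi.pow_apply, Pi.mul_apply, smul_eq_mul]
    rw [h1, h2, h3]
    have e4 : ∀ d : ℂ, d ^ (-(4 : ℤ)) = (d ^ (-(2 : ℤ))) ^ 2 := by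
      intro d
      rw [← zpow_natCast, ← zpow_mul]
      norm_num
    have e6 : ∀ d : ℂ, d ^ (-(6 : ℤ)) = (d ^ (-(2 : ℤ))) ^ 3 := by
      intro d
      rw [← zpow_natCast, ← zpow_mul]
      norm_num
    rw [e4, e6]
    ring
  obtain ⟨F, hFfun⟩ := exists_levelOne 6 m _ hK hperm
  refine ⟨F, fun z => ?_, ?_⟩
  · rw [hFfun]
    simp [Finset.sum_apply, Finset.prod_apply]
  · rw [← qExp_period p hp.pos (niceP_levelOne F), hFfun,
      qExp_sum hpR _ _ (fun S _ => NiceP.prod _ _ fun i _ => hK i)]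
    refine Finset.sum_congr rfl fun S _ => ?_
    rw [qExp_prod hpR _ _ (fun i _ => hK i)]
    refine Finset.prod_congr rfl fun i _ => ?_
    rw [qExp_add hpR ((((hcN i).pow 3).smul a).add (((hcN i).mul hE4N).smul b)) (hE6N.smul c),
      qExp_add hpR (((hcN i).pow 3).smul a) (((hcN i).mul hE4N).smul b),
      qExp_smul hpR a ((hcN i).pow 3), qExp_smul hpR b ((hcN i).mul hE4N),
      qExp_smul hpR c hE6N, qExp_pow hpR (hcN i), qExp_mul hpR (hcN i) hE4N,
      stmtXExp hF p hp G i,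
      qExp_period p hp.pos (niceP_levelOne E₄), qExp_period p hp.pos (niceP_levelOne E₆),
      hE.1, hE.2]

end Fermat.Agent.S16.H28
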