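import Mathlib
import Fermat.Agent.S16.Stmts_helper6

/-!
# S16 node (BD): extraction of the formal data `BData` from a form `G` with `BHyp`

`stmtBData (hEq : StmtEq) : StmtBData`.
-/

set_option autoImplicit false

namespace Fermat.Agent.S16.H48

open PowerSeries UpperHalfPlane ModularForm CongruenceSubgroup ModularFormClass

noncomputable section

section formal

variable {R S : Type*} [CommRing R] [CommRing S]

theorem bd_coeff_Up (p n : ℕ) (f : PowerSeries R) :
    coeff n (Fermat.Agent.S16.Up p f) = coeff (n * p) f := by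
  simp [Fermat.Agent.S16.Up]

theorem bd_map_Up (φ : R →+* S) (p : ℕ) (f : PowerSeries R) :
    PowerSeries.map φ (Fermat.Agent.S16.Up p f) = Fermat.Agent.S16.Up p (PowerSeries.map φ f) := by
  ext n; simp [bd_coeff_Up]

theorem bd_Up_add (p : ℕ) (f g : PowerSeries R) :
    Fermat.Agent.S16.Up p (f + g) = Fermat.Agent.S16.Up p f + Fermat.Agent.S16.Up p g := by
  ext n; simp [bd_coeff_Up]

theorem bd_Up_smul (p : ℕ) (c : R) (f : PowerSeries R) :
    Fermat.Agent.S16.Up p (c • f) = c • Fermat.Agent.S16.Up p f := by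
  ext n; simp [bd_coeff_Up]

theorem bd_Up_one {p : ℕ} (hp : p ≠ 0) : Fermat.Agent.S16.Up p (1 : PowerSeries R) = 1 := by
  ext n; simp [bd_coeff_Up, coeff_one, hp]

theorem bd_map_smul (φ : R →+* S) (c : R) (f : PowerSeries R) :
    PowerSeries.map φ (c • f) = φ c • PowerSeries.map φ f := by
  ext n; simp

theorem bd_map_E4q (φ : R →+* S) : PowerSeries.map φ (E4q R) = E4q S := by
  ext n; by_cases hn : n = 0 <;> simp [E4q, hn, map_ofNat]

theorem bd_map_E6q (φ : R →+* S) : PowerSeries.map φ (E6q R) = E6q S := by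
  ext n; by_cases hn : n = 0 <;> simp [E6q, hn, map_ofNat]

end formal

theorem bd_map_injective : Function.Injective (PowerSeries.map (algebraMap ℚ ℂ)) := by
  intro f g hfg
  ext n
  have := congrArg (coeff n) hfg
  rw [coeff_map, coeff_map] at this
  exact (algebraMap ℚ ℂ).injective this

/-- (BD) extraction of the formal data. -/
theorem stmtBData (hEq : StmtEq) : StmtBData := by
  intro p l e hp hl he G hG
  obtain ⟨hg0, hgn⟩ := hG
  have hp0 : p ≠ 0 := hp.ne_zero
  have hl0 : (l : ℚ) ^ e ≠ 0 := pow_ne_zero _ (Nat.cast_ne_zero.mpr hl.ne_zero)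
  choose m s hs hms using hgn
  -- the rational coefficients
  set a : ℕ → ℚ := fun n => if h : 1 ≤ n then (m n h : ℚ) / (s n h : ℚ) else 0 with ha
  set A : PowerSeries ℚ := PowerSeries.mk a with hA
  set B : PowerSeries ℚ := Fermat.Agent.S16.Up p A with hB
  set g : PowerSeries ℂ := qExpansion 1 G with hg
  set ι : ℚ →+* ℂ := algebraMap ℚ ℂ with hι
  have hs0 : ∀ n (h : 1 ≤ n), (s n h : ℂ) ≠ 0 := by
    intro n h h0
    have : s n h = 0 := by exact_mod_cast h0
    exact hs n h (this ▸ dvd_zero l)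
  -- `1 + l^e A` maps to `g`
  have hgq : PowerSeries.map ι (1 + (l : ℚ) ^ e • A) = g := by
    ext n
    rw [coeff_map, map_add, coeff_smul, coeff_one, hA, coeff_mk]
    by_cases h : 1 ≤ n
    · have hn0 : n ≠ 0 := by omega
      have h1 := hms n h
      have hq : qCoeff (⇑G) n = coeff n g := rfl
      rw [hq] at h1
      simp only [ha, dif_pos h, hn0, if_false, zero_add, smul_eq_mul, hι]
      have h2 : coeff n g = (l : ℂ) ^ e * ((m n h : ℂ) / (s n h : ℂ)) := by
        rw [← mul_div_assoc, eq_div_iff (hs0 n h)]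
        linear_combination h1
      rw [h2]
      simp only [eq_ratCast]
      push_cast
      rfl
    · have hn0 : n = 0 := by omega
      subst hn0
      have hq : qCoeff (⇑G) 0 = coeff 0 g := rfl
      rw [hq] at hg0
      simp [ha, hg0]
  have hBdef : (1 : PowerSeries ℚ) + (l : ℚ) ^ e • B
      = Fermat.Agent.S16.Up p (1 + (l : ℚ) ^ e • A) := by
    rw [bd_Up_add, bd_Up_smul, bd_Up_one hp0]
  have huq : PowerSeries.map ι (1 + (l : ℚ) ^ e • B) = Fermat.Agent.S16.Up p g := by
    rw [hBdef, bd_map_Up, hgq]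
  obtain ⟨hUU, e2, e2', e3, e3'⟩ := hEq p hp G
  have ha0 : coeff 0 (qExpansion 1 (⇑G)) = 1 := hg0
  simp only [ha0, one_pow, mul_one] at e2 e2' e3 e3'
  simp only [← hg] at e2 e2' e3 e3'
  have hgk : ∀ k : ℕ, PowerSeries.map ι ((1 + (l : ℚ) ^ e • A) ^ k) = g ^ k := by
    intro k; rw [map_pow, hgq]
  have huk : ∀ k : ℕ, PowerSeries.map ι ((1 + (l : ℚ) ^ e • B) ^ k)
      = Fermat.Agent.S16.Up p g ^ k := by
    intro k; rw [map_pow, huq]
  change Fermat.Agent.S16.Up p (Fermat.Agent.S16.Up p g) = g at hUU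
  -- `A = U_p B`
  have hAB : A = Fermat.Agent.S16.Up p B := by
    have h1 : PowerSeries.map ι (Fermat.Agent.S16.Up p (1 + (l : ℚ) ^ e • B))
        = PowerSeries.map ι (1 + (l : ℚ) ^ e • A) := by
      rw [bd_map_Up, huq, hUU, hgq]
    have h2 := bd_map_injective h1
    rw [bd_Up_add, bd_Up_smul, bd_Up_one hp0] at h2
    ext n
    have h3 := congrArg (coeff n) h2
    simp only [map_add, coeff_smul, smul_eq_mul] at h3
    have h4 : (l : ℚ) ^ e * coeff n (Fermat.Agent.S16.Up p B) = (l : ℚ) ^ e * coeff n A := by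
      linarith
    exact (mul_left_cancel₀ hl0 h4).symm
  have hintA : ∀ n : ℕ, ¬ l ∣ (coeff n A).den := by
    intro n
    rw [hA, coeff_mk]
    by_cases h : 1 ≤ n
    · simp only [ha, dif_pos h]
      intro hd
      apply hs n h
      have h2 := Rat.den_dvd (m n h) (s n h)
      rw [Rat.divInt_eq_div] at h2
      have h3 : ((l : ℕ) : ℤ) ∣ ((((m n h : ℤ) : ℚ) / (((s n h : ℕ) : ℤ) : ℚ)).den : ℤ) := by
        exact_mod_cast hd
      exact_mod_cast dvd_trans h3 h2
    · simp only [ha, dif_neg h]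
      simpa using hl.one_lt.ne'
  refine ⟨A, B, ⟨?_, ?_, hintA, ?_, rfl, hAB, ?_, ?_, ?_, ?_⟩, ?_, ?_⟩
  · -- hA0
    simp [hA, ha]
  · -- hB0
    rw [hB, bd_coeff_Up]; simp [hA, ha]
  · -- intB
    intro n
    rw [hB, bd_coeff_Up]
    exact hintA _
  · -- eq2
    apply bd_map_injective
    rw [map_add, bd_map_smul, bd_map_Up, hgk, huk, bd_map_smul, bd_map_E4q]
    simpa [hι] using e2
  · -- eq2'
    apply bd_map_injective
    rw [map_add, bd_map_smul, bd_map_Up, hgk, huk, bd_map_smul, bd_map_E4q]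
    simpa [hι] using e2'
  · -- eq3
    apply bd_map_injective
    rw [map_sub, bd_map_smul, bd_map_Up, hgk, huk, bd_map_smul, bd_map_E6q]
    simpa [hι] using e3
  · -- eq3'
    apply bd_map_injective
    rw [map_sub, bd_map_smul, bd_map_Up, hgk, huk, bd_map_smul, bd_map_E6q]
    simpa [hι] using e3'
  · -- coefficients of G
    intro n
    have := congrArg (coeff n) hgq
    rw [coeff_map] at this
    show coeff n g = _
    rw [← this]; simp [hι]
  · -- coefficients of U_p G
    intro n
    have := congrArg (coeff n) huq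
    rw [coeff_map, bd_coeff_Up] at this
    show coeff (n * p) g = _
    rw [← this]; simp [hι]

end

end Fermat.Agent.S16.H48
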