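import Mathlib
import Fermat.Agent.S20.Util_helper78
import Fermat.Agent.S23.Charpoly_helper73
import Fermat.Prelude.Thm_CongruenceSubgroup_one_mem_strictPeriods_Gamma0

/-!
# S16: a weight two form of level `Γ₀(p)` whose constant term vanishes is a cusp form

`M₂(SL(2,ℤ)) = 0`, so the trace of `F` to level one vanishes; all conjugates other than `F`
itself are translates of `F ∣ S`, hence have the same limit at `i∞`; so this limit is zero.
-/

set_option autoImplicit false

namespace Fermat.Agent.S16.H33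

open CongruenceSubgroup UpperHalfPlane ModularFormClass Filter Topology
open Fermat.Agent.S20
open scoped MatrixGroups ModularForm Manifold

noncomputable section

/-- Existence of the limit at `i∞` for a periodic, holomorphic function bounded at `i∞`. -/
theorem tendsto_valueAtInfty {f : ℍ → ℂ} {h : ℝ} (hh : 0 < h)
    (hfper : Function.Periodic (f ∘ ofComplex) h) (hfhol : MDiff f)
    (hfbdd : IsBoundedAtImInfty f) : Tendsto f atImInfty (𝓝 (valueAtInfty f)) := by
  have han := analyticAt_cuspFunction_zero hh hfper hfhol hfbdd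
  have hcomp : (cuspFunction h f ∘ fun τ : ℍ ↦ Function.Periodic.qParam h τ : ℍ → ℂ) = f := by
    funext τ
    simpa using eq_cuspFunction τ hh.ne' hfper
  have h1 := han.continuousAt.tendsto.comp (qParam_tendsto_atImInfty hh)
  rw [hcomp, cuspFunction_apply_zero hh han hfper] at h1
  exact h1

/-- Periodicity on `ℂ` from invariance under a real translation of `ℍ`. -/
theorem periodic_of_vadd {f : ℍ → ℂ} {h : ℝ} (hf : ∀ z : ℍ, f (h +ᵥ z) = f z) :
    Function.Periodic (f ∘ ofComplex) h := by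
  intro w
  by_cases hw : 0 < w.im
  · have hw' : 0 < (w + h).im := by simp [hw]
    simp only [Function.comp_apply, ofComplex_apply_of_im_pos hw', ofComplex_apply_of_im_pos hw]
    rw [← hf ⟨w, hw⟩]
    congr 1
    ext
    simp [add_comm]
  · have hw' : (w + h).im ≤ 0 := by simpa using not_lt.mp hw
    simp only [Function.comp_apply, ofComplex_apply_of_im_nonpos hw',
      ofComplex_apply_of_im_nonpos (not_lt.mp hw)]

/-- Slash by a power of `T` is a translation. -/
theorem slash_T_zpow_apply (k : ℤ) (f : ℍ → ℂ) (j : ℤ) (z : ℍ) :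
    (f ∣[k] (ModularGroup.T ^ j)) z = f ((j : ℝ) +ᵥ z) := by
  rw [ModularForm.SL_slash_apply, UpperHalfPlane.modular_T_zpow_smul]
  have : denom ((ModularGroup.T ^ j : SL(2, ℤ))) z = 1 := by
    rw [ModularGroup.denom_apply]
    simp [ModularGroup.coe_T_zpow]
  rw [this, one_zpow, mul_one]

theorem tendsto_vadd_atImInfty (x : ℝ) :
    Tendsto (fun z : ℍ => x +ᵥ z) atImInfty atImInfty := by
  rw [atImInfty, tendsto_comap_iff]
  have : (UpperHalfPlane.im ∘ fun z : ℍ => x +ᵥ z) = UpperHalfPlane.im := by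
    funext z
    simp
  rw [this]
  exact tendsto_comap

/-- Coset decomposition: an element of `SL(2,ℤ)` outside `Γ₀(p)` is `δ * S * T ^ j` with
`δ ∈ Γ₀(p)`. -/
theorem exists_decomp (p : ℕ) [Fact p.Prime] (γ : SL(2, ℤ)) (hγ : γ ∉ Gamma0 p) :
    ∃ δ ∈ Gamma0 p, ∃ j : ℤ, γ = δ * ModularGroup.S * ModularGroup.T ^ j := by
  have hp : p.Prime := Fact.out
  rw [Gamma0_mem] at hγ
  have hc : ¬ (p : ℤ) ∣ γ 1 0 := by
    rwa [← ZMod.intCast_zmod_eq_zero_iff_dvd]
  have hcop : IsCoprime (p : ℤ) (γ 1 0) :=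
    (Nat.prime_iff_prime_int.mp hp).irreducible.coprime_iff_not_dvd.mpr hc
  obtain ⟨w, u, huw⟩ := hcop
  refine ⟨γ * ModularGroup.T ^ (-(u * γ 1 1)) * ModularGroup.S⁻¹, ?_, u * γ 1 1, ?_⟩
  · rw [Gamma0_mem]
    have h10 : (γ * ModularGroup.T ^ (-(u * γ 1 1)) * ModularGroup.S⁻¹) 1 0 =
        (u * γ 1 1) * γ 1 0 - γ 1 1 := by
      simp only [Matrix.SpecialLinearGroup.coe_mul, Matrix.SpecialLinearGroup.coe_inv,
        ModularGroup.coe_T_zpow, ModularGroup.coe_S, Matrix.adjugate_fin_two, Matrix.mul_apply,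
        Fin.sum_univ_two]
      simp
      ring
    rw [h10]
    have : (u * γ 1 1) * γ 1 0 - γ 1 1 = (p : ℤ) * (-(w * γ 1 1)) := by
      linear_combination (γ 1 1) * huw
    rw [this]
    push_cast
    simp
  · group

theorem hΓ' (N : ℕ) :
    (1 : ℝ) ∈ (Subgroup.map (Matrix.SpecialLinearGroup.mapGL ℝ) (Gamma0 N)).strictPeriods :=
  CongruenceSubgroup.one_mem_strictPeriods_Gamma0 N

theorem levelOne_two_eq_zero {k : ℤ} (hk : k = 2) (f : ModularForm 𝒮ℒ k) (z : ℍ) : f z = 0 := by
  subst hk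
  have h := rank_zero_iff_forall_zero.mp ModularForm.levelOne_weight_two_rank_zero f
  rw [h]
  rfl

/-- The trace of a weight two form of level `Γ₀(p)` to level one vanishes. -/
theorem trace_eq_zero (p : ℕ) [NeZero p] (F : ModularForm (Gamma0 p) 2) (z : ℍ) :
    ∑ q : Q p, conj F q z = 0 := by
  let : Fintype (↥𝒮ℒ ⧸ ((Gamma0 p : Subgroup (GL (Fin 2) ℝ))).subgroupOf 𝒮ℒ) :=
    Fermat.Agent.S23.H30.instFintypeQ p
  have h := Fermat.Agent.S23.H73.esymmForm_apply 𝒮ℒ F 1 z
  rw [levelOne_two_eq_zero (by norm_num)] at h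
  rw [Finset.powersetCard_one, Finset.sum_map] at h
  simp only [Function.Embedding.coeFn_mk, Finset.prod_singleton] at h
  exact h.symm

/-- A weight two modular form of level `Γ₀(p)` whose constant term at `∞` vanishes is a cusp
form. -/
theorem exists_cuspForm_of_coeff_zero (p : ℕ) [Fact p.Prime] (F : ModularForm (Gamma0 p) 2)
    (h0 : (qExpansion 1 F).coeff 0 = 0) :
    ∃ f : CuspForm (Gamma0 p) 2, ∀ z, f z = F z := by
  have hp : p.Prime := Fact.out
  have : NeZero p := ⟨hp.ne_zero⟩
  have hper1 : Function.Periodic (⇑F ∘ ofComplex) 1 :=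
    SlashInvariantFormClass.periodic_comp_ofComplex F (hΓ' p)
  have hF0 : Tendsto (⇑F) atImInfty (𝓝 0) := by
    have h1 := tendsto_valueAtInfty one_pos hper1 (ModularFormClass.holo F)
      (ModularFormClass.bdd_at_infty F)
    rwa [← qExpansion_coeff_zero one_pos
      (analyticAt_cuspFunction_zero one_pos hper1 (ModularFormClass.holo F)
        (ModularFormClass.bdd_at_infty F)) hper1, h0] at h1
  set H : ℍ → ℂ := (⇑F) ∣[(2 : ℤ)] ModularGroup.S with hH
  have hHhol : MDiff H := (ModularFormClass.holo F).slash 2 _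
  have hHbdd : IsBoundedAtImInfty H := ModularFormClass.bdd_at_infty_slash F ModularGroup.S
  have hHper : ∀ z : ℍ, H (((p : ℝ)) +ᵥ z) = H z := by
    intro z
    have h1 : (H ∣[(2 : ℤ)] (ModularGroup.T ^ (p : ℤ))) z = H (((p : ℝ)) +ᵥ z) := by
      rw [slash_T_zpow_apply]; simp
    rw [← h1, hH, ← SlashAction.slash_mul]
    have hδ : ModularGroup.S * ModularGroup.T ^ (p : ℤ) * ModularGroup.S⁻¹ ∈ Gamma0 p := by
      rw [Gamma0_mem]
      have h10 : (ModularGroup.S * ModularGroup.T ^ (p : ℤ) * ModularGroup.S⁻¹) 1 0 = -(p : ℤ) := by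
        simp only [Matrix.SpecialLinearGroup.coe_mul, Matrix.SpecialLinearGroup.coe_inv,
          ModularGroup.coe_T_zpow, ModularGroup.coe_S, Matrix.adjugate_fin_two, Matrix.mul_apply,
          Fin.sum_univ_two]
        simp
      rw [h10]
      simp
    have hdec : ModularGroup.S * ModularGroup.T ^ (p : ℤ) =
        (ModularGroup.S * ModularGroup.T ^ (p : ℤ) * ModularGroup.S⁻¹) * ModularGroup.S := by
      group
    rw [hdec, SlashAction.slash_mul, slash_Gamma0 F _ hδ]
  set L : ℂ := valueAtInfty H with hL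
  have hHL : Tendsto H atImInfty (𝓝 L) :=
    tendsto_valueAtInfty (Nat.cast_pos.mpr hp.pos) (periodic_of_vadd hHper) hHhol hHbdd
  have claim : ∀ γ : SL(2, ℤ), γ ∉ Gamma0 p →
      Tendsto ((⇑F) ∣[(2 : ℤ)] γ) atImInfty (𝓝 L) := by
    intro γ hγ
    obtain ⟨δ, hδ, j, rfl⟩ := exists_decomp p γ hγ
    have h1 : (⇑F) ∣[(2 : ℤ)] (δ * ModularGroup.S * ModularGroup.T ^ j) =
        fun z => H ((j : ℝ) +ᵥ z) := by
      funext z
      rw [SlashAction.slash_mul, SlashAction.slash_mul, slash_Gamma0 F _ hδ, slash_T_zpow_apply]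
    rw [h1]
    exact hHL.comp (tendsto_vadd_atImInfty (j : ℝ))
  have hq : ∀ q : Q p, ∃ e : ℂ, (e = 0 ∨ e = L) ∧ Tendsto (conj F q) atImInfty (𝓝 e) := by
    intro q
    obtain ⟨δ, rfl⟩ := coset_surjective p q
    rw [conj_coset]
    by_cases h : δ⁻¹ ∈ Gamma0 p
    · exact ⟨0, Or.inl rfl, by rw [slash_Gamma0 F _ h]; exact hF0⟩
    · exact ⟨L, Or.inr rfl, claim _ h⟩
  choose e he using hq
  have hsum : Tendsto (fun z => ∑ q : Q p, conj F q z) atImInfty (𝓝 (∑ q : Q p, e q)) :=
    tendsto_finsetSum _ fun q _ => (he q).2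
  have hzero : (fun z => ∑ q : Q p, conj F q z) = fun _ => (0 : ℂ) :=
    funext fun z => trace_eq_zero p F z
  rw [hzero] at hsum
  have hsum0 : ∑ q : Q p, e q = 0 := (tendsto_nhds_unique hsum tendsto_const_nhds)
  have hL0 : L = 0 := by
    have hS : ModularGroup.S ∉ Gamma0 p := by
      rw [Gamma0_mem]
      simp only [ModularGroup.coe_S]
      simp
    have heS : e (coset p ModularGroup.S⁻¹) = L := by
      have h1 : Tendsto (conj F (coset p ModularGroup.S⁻¹)) atImInfty (𝓝 L) := by
        rw [conj_coset, inv_inv]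
        exact hHL
      exact tendsto_nhds_unique (he _).2 h1
    have hform : ∀ q : Q p, e q = if e q = L then L else 0 := by
      intro q
      rcases (he q).1 with h | h
      · by_cases hc : e q = L
        · rw [if_pos hc, hc]
        · rw [if_neg hc, h]
      · rw [if_pos h, h]
    rw [Finset.sum_congr rfl (fun q _ => hform q), Finset.sum_ite, Finset.sum_const_zero,
      add_zero, Finset.sum_const, nsmul_eq_mul] at hsum0
    rcases mul_eq_zero.mp hsum0 with h | h
    · exfalso
      have hmem : coset p ModularGroup.S⁻¹ ∈ Finset.univ.filter (fun q : Q p => e q = L) := by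
        simp [heS]
      have : (Finset.univ.filter (fun q : Q p => e q = L)).card = 0 := by exact_mod_cast h
      rw [Finset.card_eq_zero] at this
      rw [this] at hmem
      simp at hmem
    · exact h
  have hzeroAt : ∀ γ : SL(2, ℤ), IsZeroAtImInfty ((⇑F) ∣[(2 : ℤ)] γ) := by
    intro γ
    by_cases h : γ ∈ Gamma0 p
    · rw [slash_Gamma0 F _ h]
      exact hF0
    · have := claim γ h
      rw [hL0] at this
      exact this
  exact ⟨mkCuspForm p 2 F (ModularFormClass.holo F) (fun γ hγ => slash_Gamma0 F γ hγ) hzeroAt,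
    fun z => rfl⟩

end

end Fermat.Agent.S16.H33
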