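import Mathlib
import Fermat.Agent.S16.Stmts_helper6
import Fermat.Agent.S16.Cusp_helper33

/-!
# S16: node `StmtCusp` (bridge to `Stmts_helper6`)
-/

set_option autoImplicit false

namespace Fermat.Agent.S16.H33

open UpperHalfPlane CongruenceSubgroup ModularFormClass

/-- Node (CUSP): a weight two form of level `Γ₀(p)` with vanishing constant term is a cusp
form. -/
theorem stmtCusp : Fermat.Agent.S16.StmtCusp := by
  intro p hp F hF
  have : Fact p.Prime := ⟨hp⟩
  obtain ⟨f, hf⟩ := exists_cuspForm_of_coeff_zero p F hF
  exact ⟨f, funext hf⟩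

end Fermat.Agent.S16.H33
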