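import Mathlib
import Fermat.Agent.S20.LevelOne_helper66

/-!
# S16, block B2 (helper37): integrality of level-one `q`-expansions

* `E4Z`, `E6Z`, `DeltaZ`: integral power series with `qExpansion 1 E₄ = E4Z.map _` etc.;
  `DeltaZ = X * DeltaUnit` with `constantCoeff DeltaUnit = 1`.
* `sturm_levelOne_addSubgroup`: for an additive subgroup `I ≤ ℂ`, a level-one form of weight `k`
  whose `q`-coefficients `a_n`, `12 n ≤ k`, lie in `I` has all its coefficients in `I`.
* `rho_value_mem`: a level-one form of weight `12 M` with `a_n ∈ I` for `n ≤ M` takes the value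
  `d * Δ(ρ) ^ M` at `ρ` for some `d ∈ I`.
-/

set_option autoImplicit false

open UpperHalfPlane ModularForm ModularFormClass MatrixGroups EisensteinSeries

namespace Fermat.Agent.S16.H37

local notation "σ" => ArithmeticFunction.sigma

/-! ### Integral `q`-expansions of `E₄`, `E₆`, `Δ` -/

/-- `∑_{n ≥ 1} σ_k(n) qⁿ` as an integral power series. -/
noncomputable def sigmaSeries (k : ℕ) : PowerSeries ℤ := PowerSeries.mk fun n => (σ k n : ℤ)

theorem coeff_sigmaSeries (k n : ℕ) : (sigmaSeries k).coeff n = (σ k n : ℤ) := by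
  simp [sigmaSeries]

theorem constantCoeff_sigmaSeries (k : ℕ) : PowerSeries.constantCoeff (sigmaSeries k) = 0 := by
  rw [← PowerSeries.coeff_zero_eq_constantCoeff_apply, coeff_sigmaSeries]
  simp

/-- The integral `q`-expansion of `E₄`. -/
noncomputable def E4Z : PowerSeries ℤ := 1 + 240 * sigmaSeries 3

/-- The integral `q`-expansion of `E₆`. -/
noncomputable def E6Z : PowerSeries ℤ := 1 - 504 * sigmaSeries 5

theorem constantCoeff_E4Z : PowerSeries.constantCoeff E4Z = 1 := by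
  simp [E4Z, constantCoeff_sigmaSeries]

theorem constantCoeff_E6Z : PowerSeries.constantCoeff E6Z = 1 := by
  simp [E6Z, constantCoeff_sigmaSeries]

theorem coeff_ofNat_mul (c : ℕ) [c.AtLeastTwo] (P : PowerSeries ℤ) (n : ℕ) :
    (OfNat.ofNat c * P).coeff n = OfNat.ofNat c * P.coeff n := by
  have h : (OfNat.ofNat c : PowerSeries ℤ) = PowerSeries.C (OfNat.ofNat c : ℤ) := by
    simp
  rw [h, PowerSeries.coeff_C_mul]

theorem qExpansion_E4 : qExpansion 1 E₄ = E4Z.map (Int.castRingHom ℂ) := by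
  ext m
  rw [PowerSeries.coeff_map, E_qExpansion_coeff (by norm_num) ⟨2, rfl⟩ m]
  have hb : bernoulli 4 = -1 / 30 := by decide +kernel
  rw [E4Z, map_add, coeff_ofNat_mul, coeff_sigmaSeries, PowerSeries.coeff_one]
  split_ifs with h
  · subst h; simp
  · rw [hb]
    simp only [eq_intCast]
    push_cast
    ring

theorem qExpansion_E6 : qExpansion 1 E₆ = E6Z.map (Int.castRingHom ℂ) := by
  ext m
  rw [PowerSeries.coeff_map, E_qExpansion_coeff (by norm_num) ⟨3, rfl⟩ m]
  have hb : bernoulli 6 = 1 / 42 := by decide +kernel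
  rw [E6Z, map_sub, coeff_ofNat_mul, coeff_sigmaSeries, PowerSeries.coeff_one]
  split_ifs with h
  · subst h; simp
  · rw [hb]
    simp only [eq_intCast]
    push_cast
    ring

theorem twelve_dvd_aux (d : ℤ) : (12 : ℤ) ∣ 5 * d ^ 3 + 7 * d ^ 5 := by
  have h : ∀ x : ZMod 12, 5 * x ^ 3 + 7 * x ^ 5 = 0 := by decide
  have h2 := h (d : ZMod 12)
  have h3 : ((5 * d ^ 3 + 7 * d ^ 5 : ℤ) : ZMod 12) = 0 := by
    push_cast
    exact h2
  exact (ZMod.intCast_zmod_eq_zero_iff_dvd _ 12).mp h3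

theorem twelve_dvd_sigma (n : ℕ) : (12 : ℤ) ∣ 5 * (σ 3 n : ℤ) + 7 * (σ 5 n : ℤ) := by
  rw [ArithmeticFunction.sigma_apply, ArithmeticFunction.sigma_apply]
  push_cast
  rw [Finset.mul_sum, Finset.mul_sum, ← Finset.sum_add_distrib]
  exact Finset.dvd_sum fun d _ => twelve_dvd_aux d

/-- `(5 σ₃ + 7 σ₅) / 12` as an integral power series. -/
noncomputable def wSeries : PowerSeries ℤ :=
  PowerSeries.mk fun n => (5 * (σ 3 n : ℤ) + 7 * (σ 5 n : ℤ)) / 12

theorem twelve_mul_wSeries : 12 * wSeries = 5 * sigmaSeries 3 + 7 * sigmaSeries 5 := by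
  ext n
  rw [coeff_ofNat_mul, map_add, coeff_ofNat_mul, coeff_ofNat_mul, coeff_sigmaSeries,
    coeff_sigmaSeries, wSeries, PowerSeries.coeff_mk]
  exact Int.mul_ediv_cancel' (twelve_dvd_sigma n)

/-- The integral `q`-expansion of `Δ`. -/
noncomputable def DeltaZ : PowerSeries ℤ :=
  100 * sigmaSeries 3 ^ 2 + 8000 * sigmaSeries 3 ^ 3 - 147 * sigmaSeries 5 ^ 2 + wSeries

theorem E4Z_cube_sub_E6Z_sq : E4Z ^ 3 - E6Z ^ 2 = 1728 * DeltaZ := by
  rw [E4Z, E6Z, DeltaZ]
  linear_combination (-144 : PowerSeries ℤ) * twelve_mul_wSeries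

/-- `E₄ ^ 3 - E₆ ^ 2` as a weight 12 form. -/
noncomputable def e4e6Form : ModularForm 𝒮ℒ 12 :=
  ModularForm.mcast (by decide) (E₄.pow 3) - ModularForm.mcast (by decide) (E₆.pow 2)

theorem e4e6Form_apply (z : ℍ) : e4e6Form z = E₄ z ^ 3 - E₆ z ^ 2 := by
  simp only [e4e6Form, coe_mcast, coe_pow, sub_apply, Pi.pow_apply]

theorem qExpansion_e4e6Form :
    qExpansion 1 e4e6Form = qExpansion 1 E₄ ^ 3 - qExpansion 1 E₆ ^ 2 := by
  simp only [e4e6Form, FunLike.coe_sub, coe_mcast,
    ModularForm.qExpansion_sub one_pos one_mem_strictPeriods_SL,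
    ModularForm.qExpansion_pow one_pos one_mem_strictPeriods_SL]

theorem qExpansion_discriminant : qExpansion 1 discriminant = DeltaZ.map (Int.castRingHom ℂ) := by
  have h : (discriminant : ℍ → ℂ) = (1 / 1728 : ℂ) • (e4e6Form : ℍ → ℂ) := by
    funext z
    rw [Pi.smul_apply, e4e6Form_apply, discriminant_eq_E₄_cube_sub_E₆_sq, smul_eq_mul]
    ring
  rw [h, ModularForm.qExpansion_smul one_pos one_mem_strictPeriods_SL, qExpansion_e4e6Form,
    qExpansion_E4, qExpansion_E6, ← map_pow, ← map_pow, ← map_sub, E4Z_cube_sub_E6Z_sq]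
  ext n
  rw [PowerSeries.coeff_smul, PowerSeries.coeff_map, PowerSeries.coeff_map, coeff_ofNat_mul]
  simp only [eq_intCast]
  push_cast
  ring

theorem coeff_zero_DeltaZ : DeltaZ.coeff 0 = 0 := by
  have h : ((DeltaZ.coeff 0 : ℤ) : ℂ) = 0 := by
    have h1 := CuspFormClass.qExpansion_coeff_zero CuspForm.discriminant one_pos
      one_mem_strictPeriods_SL
    rw [CuspForm.coe_discriminant, qExpansion_discriminant, PowerSeries.coeff_map] at h1
    simpa using h1
  exact_mod_cast h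

theorem coeff_one_DeltaZ : DeltaZ.coeff 1 = 1 := by
  have h : ((DeltaZ.coeff 1 : ℤ) : ℂ) = 1 := by
    have h1 := discriminant_qExpansion_coeff_one
    rw [qExpansion_discriminant, PowerSeries.coeff_map] at h1
    simpa using h1
  exact_mod_cast h

/-- `Δ / q` as an integral power series. -/
noncomputable def DeltaUnit : PowerSeries ℤ := PowerSeries.mk fun n => DeltaZ.coeff (n + 1)

theorem DeltaZ_eq : DeltaZ = PowerSeries.X * DeltaUnit := by
  ext n
  rcases n with _ | n
  · rw [coeff_zero_DeltaZ]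
    simp
  · rw [PowerSeries.coeff_succ_X_mul, DeltaUnit, PowerSeries.coeff_mk]

theorem constantCoeff_DeltaUnit : PowerSeries.constantCoeff DeltaUnit = 1 := by
  rw [← PowerSeries.coeff_zero_eq_constantCoeff_apply, DeltaUnit, PowerSeries.coeff_mk]
  exact coeff_one_DeltaZ

/-! ### Coefficients in an additive subgroup -/

/-- Multiplying by an integral power series preserves "the first `n + 1` coefficients lie in
`I`". -/
theorem coeff_map_mul_mem (I : AddSubgroup ℂ) (Z : PowerSeries ℤ) (P : PowerSeries ℂ) (n : ℕ)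
    (h : ∀ j ≤ n, P.coeff j ∈ I) : (Z.map (Int.castRingHom ℂ) * P).coeff n ∈ I := by
  rw [PowerSeries.coeff_mul]
  refine I.sum_mem fun x hx => ?_
  rw [PowerSeries.coeff_map, eq_intCast, ← zsmul_eq_mul]
  have hx2 : x.2 ≤ n := by
    have := Finset.HasAntidiagonal.mem_antidiagonal.mp hx
    omega
  exact I.zsmul_mem (h _ hx2) _

/-- Dividing by `Δ`: if `P = Δ * P'` and the first `n + 2` coefficients of `P` lie in `I`, then the
`n`-th coefficient of `P'` lies in `I`. -/
theorem coeff_div_mem (I : AddSubgroup ℂ) (P P' : PowerSeries ℂ)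
    (hP : P = DeltaZ.map (Int.castRingHom ℂ) * P') (n : ℕ) (h : ∀ j ≤ n + 1, P.coeff j ∈ I) :
    P'.coeff n ∈ I := by
  obtain ⟨u, hu⟩ : IsUnit DeltaUnit := by
    rw [PowerSeries.isUnit_iff_constantCoeff, constantCoeff_DeltaUnit]
    exact isUnit_one
  have h1 : ((u⁻¹ : (PowerSeries ℤ)ˣ) : PowerSeries ℤ) * DeltaUnit = 1 := by
    rw [← hu]
    exact u.inv_mul
  have h2 : (((u⁻¹ : (PowerSeries ℤ)ˣ) : PowerSeries ℤ)).map (Int.castRingHom ℂ) * P =
      PowerSeries.X * P' := by
    rw [hP, DeltaZ_eq, ← mul_assoc, ← map_mul, ← mul_assoc, mul_comm _ PowerSeries.X, mul_assoc,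
      h1, mul_one, PowerSeries.map_X]
  rw [← PowerSeries.coeff_succ_X_mul, ← h2]
  exact coeff_map_mul_mem I _ P (n + 1) h

/-! ### The division step -/

/-- One step of the triangular reduction: subtract `a₀(f) • B` and divide by `Δ`. -/
theorem div_step (I : AddSubgroup ℂ) {k : ℤ} (f B : ModularForm 𝒮ℒ k) (Z : PowerSeries ℤ)
    (hZ0 : PowerSeries.constantCoeff Z = 1)
    (hB : qExpansion 1 B = Z.map (Int.castRingHom ℂ)) :
    ∃ f' : ModularForm 𝒮ℒ (k - 12),
      (∀ z, f z = (qExpansion 1 f).coeff 0 * B z + discriminant z * f' z) ∧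
      (∀ n : ℕ, (∀ j ≤ n + 1, (qExpansion 1 f).coeff j ∈ I) → (qExpansion 1 f').coeff n ∈ I) ∧
      ((qExpansion 1 f).coeff 0 ∈ I → (∀ n, (qExpansion 1 f').coeff n ∈ I) →
        ∀ n, (qExpansion 1 f).coeff n ∈ I) := by
  set c : ℂ := (qExpansion 1 f).coeff 0 with hc
  set f₀ : ModularForm 𝒮ℒ k := f - c • B with hf₀
  have hq₀ : qExpansion 1 f₀ = qExpansion 1 f - c • qExpansion 1 B := by
    rw [hf₀, FunLike.coe_sub, ModularForm.qExpansion_sub one_pos one_mem_strictPeriods_SL,
      FunLike.coe_smul, ModularForm.qExpansion_smul one_pos one_mem_strictPeriods_SL]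
  have hcoeff : ∀ j, (qExpansion 1 f₀).coeff j = (qExpansion 1 f).coeff j - c * (Z.coeff j : ℤ) := by
    intro j
    rw [hq₀, map_sub, PowerSeries.coeff_smul, hB, PowerSeries.coeff_map, eq_intCast, smul_eq_mul]
  have hcusp : (qExpansion 1 f₀).coeff 0 = 0 := by
    rw [hcoeff, PowerSeries.coeff_zero_eq_constantCoeff_apply Z, hZ0]
    simp [hc]
  have hfac := qExpansion_eq_qExpansion_discriminant_mul f₀ hcusp
  rw [qExpansion_discriminant] at hfac
  refine ⟨CuspForm.discriminantEquiv (toCuspForm f₀ hcusp), ?_, ?_, ?_⟩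
  · intro z
    rw [discriminant_mul_discriminantEquiv_apply, toCuspForm_apply, hf₀]
    simp
  · intro n hn
    refine coeff_div_mem I _ _ hfac n fun j hj => ?_
    rw [hcoeff, mul_comm, ← zsmul_eq_mul]
    exact I.sub_mem (hn j hj) (I.zsmul_mem (hn 0 (Nat.zero_le _)) _)
  · intro h0 hall n
    have h1 : (qExpansion 1 f₀).coeff n ∈ I := by
      rw [hfac]
      exact coeff_map_mul_mem I _ _ n fun j _ => hall j
    have h2 : (qExpansion 1 f).coeff n = (qExpansion 1 f₀).coeff n + (Z.coeff n : ℤ) • c := by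
      rw [hcoeff, zsmul_eq_mul]
      ring
    rw [h2]
    exact I.add_mem h1 (I.zsmul_mem h0 _)

/-! ### Integral forms with constant term one -/

/-- For every even weight `k ≥ 4` there is a level-one form with integral `q`-expansion and
constant term one; for `k ≥ 8` it can be chosen to vanish at `ρ`. -/
theorem exists_int_form_aux : ∀ (m k : ℕ), k < m → 4 ≤ k → Even k →
    ∃ (B : ModularForm 𝒮ℒ (k : ℤ)) (Z : PowerSeries ℤ), PowerSeries.constantCoeff Z = 1 ∧
      qExpansion 1 B = Z.map (Int.castRingHom ℂ) ∧ (8 ≤ k → B ρ = 0) := by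
  intro m
  induction m with
  | zero => intro k hk; omega
  | succ m ih =>
    intro k hk h4 hev
    rcases Nat.lt_or_ge k 8 with h8 | h8
    · have hk46 : k = 4 ∨ k = 6 := by
        rcases hev with ⟨r, hr⟩
        omega
      rcases hk46 with rfl | rfl
      · exact ⟨E₄, E4Z, constantCoeff_E4Z, qExpansion_E4, fun h => by omega⟩
      · exact ⟨E₆, E6Z, constantCoeff_E6Z, qExpansion_E6, fun h => by omega⟩
    · obtain ⟨B', Z', hZ', hB', -⟩ := ih (k - 4) (by omega) (by omega)
        (by rcases hev with ⟨r, hr⟩; exact ⟨r - 2, by omega⟩)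
      have hw : (4 : ℤ) + ((k - 4 : ℕ) : ℤ) = (k : ℤ) := by omega
      refine ⟨ModularForm.mcast hw (E₄.mul B'), E4Z * Z', ?_, ?_, fun _ => ?_⟩
      · rw [map_mul, constantCoeff_E4Z, hZ', mul_one]
      · rw [ModularForm.qExpansion_mcast,
          ModularForm.qExpansion_mul one_pos one_mem_strictPeriods_SL, qExpansion_E4, hB',
          map_mul]
      · rw [coe_mcast, coe_mul, Pi.mul_apply, Fermat.Agent.S20.H66.E4_rho, zero_mul]

theorem exists_int_form (k : ℕ) (h4 : 4 ≤ k) (hev : Even k) :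
    ∃ (B : ModularForm 𝒮ℒ (k : ℤ)) (Z : PowerSeries ℤ), PowerSeries.constantCoeff Z = 1 ∧
      qExpansion 1 B = Z.map (Int.castRingHom ℂ) ∧ (8 ≤ k → B ρ = 0) :=
  exists_int_form_aux (k + 1) k (Nat.lt_succ_self k) h4 hev

/-! ### Sturm over an additive subgroup -/

theorem coeff_zero_form_mem (I : AddSubgroup ℂ) {k : ℤ} (f : ModularForm 𝒮ℒ k) (hf : f = 0)
    (n : ℕ) : (qExpansion 1 f).coeff n ∈ I := by
  subst hf
  simp [qExpansion_zero]

theorem qExpansion_const_eq (a : ℂ) : qExpansion 1 (Function.const ℍ a) = PowerSeries.C a := by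
  have h1 : (Function.const ℍ a) = a • ((1 : ModularForm 𝒮ℒ 0) : ℍ → ℂ) := by
    funext z
    simp
  rw [h1, ModularForm.qExpansion_smul one_pos one_mem_strictPeriods_SL,
    ModularForm.qExpansion_one]
  ext m
  simp [PowerSeries.coeff_C, PowerSeries.coeff_one]

theorem sturm_aux (I : AddSubgroup ℂ) : ∀ (m : ℕ) (k : ℤ), k < m → ∀ f : ModularForm 𝒮ℒ k,
    (∀ n : ℕ, 12 * (n : ℤ) ≤ k → (qExpansion 1 f).coeff n ∈ I) →
      ∀ n, (qExpansion 1 f).coeff n ∈ I := by
  intro m
  induction m with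
  | zero =>
    intro k hk f _ n
    exact coeff_zero_form_mem I f
      (rank_zero_iff_forall_zero.mp (levelOne_neg_weight_rank_zero (by simpa using hk)) f) n
  | succ m ih =>
    intro k hk f hf n
    rcases lt_or_ge k 0 with hneg | hnn
    · exact coeff_zero_form_mem I f
        (rank_zero_iff_forall_zero.mp (levelOne_neg_weight_rank_zero hneg) f) n
    obtain ⟨k', rfl⟩ := Int.eq_ofNat_of_zero_le hnn
    rcases Nat.even_or_odd k' with hev | hodd
    swap
    · exact coeff_zero_form_mem I f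
        (ModularForm.levelOne_odd_weight_eq_zero (by exact_mod_cast hodd) f) n
    rcases Nat.lt_or_ge k' 4 with h4 | h4
    · have hk02 : k' = 0 ∨ k' = 2 := by
        rcases hev with ⟨r, hr⟩
        omega
      rcases hk02 with rfl | rfl
      · obtain ⟨c, hc⟩ := ModularFormClass.levelOne_weight_zero_const f
        have h0 := hf 0 (by simp)
        rw [hc, qExpansion_const_eq] at h0 ⊢
        rw [PowerSeries.coeff_C] at h0 ⊢
        split_ifs with hn
        · simpa using h0
        · exact I.zero_mem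
      · exact coeff_zero_form_mem I f
          (rank_zero_iff_forall_zero.mp levelOne_weight_two_rank_zero f) n
    · obtain ⟨B, Z, hZ0, hB, -⟩ := exists_int_form k' h4 hev
      obtain ⟨f', -, h2, h3⟩ := div_step I f B Z hZ0 hB
      refine h3 (hf 0 (by positivity)) (ih ((k' : ℤ) - 12) (by omega) f' fun j hj => ?_) n
      refine h2 j fun i hi => hf i ?_
      have : (i : ℤ) ≤ (j : ℤ) + 1 := by exact_mod_cast hi
      omega

/-- **Sturm bound over an additive subgroup**: a level-one modular form of weight `k` whose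
`q`-coefficients `a_n`, `12 n ≤ k`, lie in an additive subgroup `I` of `ℂ` has all its
`q`-coefficients in `I`. -/
theorem sturm_levelOne_addSubgroup (I : AddSubgroup ℂ) (k : ℤ) (f : ModularForm 𝒮ℒ k)
    (h : ∀ n : ℕ, 12 * (n : ℤ) ≤ k → (qExpansion 1 f).coeff n ∈ I) :
    ∀ n, (qExpansion 1 f).coeff n ∈ I :=
  sturm_aux I (k.toNat + 1) k (by omega) f h

/-! ### The value at `ρ` -/

theorem rho_value_aux (I : AddSubgroup ℂ) : ∀ (M : ℕ) (k : ℤ), k = 12 * (M : ℤ) →
    ∀ f : ModularForm 𝒮ℒ k, (∀ n ≤ M, (qExpansion 1 f).coeff n ∈ I) →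
      ∃ d ∈ I, f ρ = d * discriminant ρ ^ M := by
  intro M
  induction M with
  | zero =>
    intro k hk f hf
    have hk0 : k = 0 := by simpa using hk
    subst hk0
    obtain ⟨c, hc⟩ := ModularFormClass.levelOne_weight_zero_const f
    have h0 := hf 0 le_rfl
    rw [hc, qExpansion_const_eq, PowerSeries.coeff_C, if_pos rfl] at h0
    exact ⟨c, h0, by rw [hc]; simp⟩
  | succ M ih =>
    intro k hk f hf
    obtain ⟨B, Z, hZ0, hB, hρ⟩ := exists_int_form (12 * (M + 1)) (by omega) ⟨6 * (M + 1), by ring⟩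
    have hw : ((12 * (M + 1) : ℕ) : ℤ) = k := by rw [hk]; push_cast; ring
    subst hw
    obtain ⟨f', h1, h2, -⟩ := div_step I f B Z hZ0 hB
    obtain ⟨d, hd, hd'⟩ := ih _ (by push_cast; ring) f' fun j hj => h2 j fun i hi =>
      hf i (by omega)
    refine ⟨d, hd, ?_⟩
    rw [h1 ρ, hρ (by omega), hd']
    ring

/-- **Value at `ρ`**: a level-one form of weight `12 M` whose `q`-coefficients `a_0, …, a_M` lie
in an additive subgroup `I` of `ℂ` takes the value `d * Δ(ρ) ^ M` at `ρ`, with `d ∈ I`. -/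
theorem rho_value_mem (I : AddSubgroup ℂ) (M : ℕ) (f : ModularForm 𝒮ℒ (12 * (M : ℤ)))
    (h : ∀ n ≤ M, (qExpansion 1 f).coeff n ∈ I) :
    ∃ d ∈ I, f ρ = d * discriminant ρ ^ M :=
  rho_value_aux I M _ rfl f h

/-- `E₆(ρ)² = -1728 Δ(ρ)`. -/
theorem E6_rho_sq : E₆ ρ ^ 2 = -1728 * discriminant ρ := by
  have h := discriminant_eq_E₄_cube_sub_E₆_sq ρ
  rw [Fermat.Agent.S20.H66.E4_rho] at h
  rw [h]
  ring

end Fermat.Agent.S16.H37
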