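import Mathlib
import Fermat.Agent.S16.LevelOneInt_helper37

/-!
# S16, block B1 (helper37): the trace identities Eq2 / Eq3

Interface-free cores:

* `Up p f`: the operator `U_p` on power series, `coeff n (Up p f) = coeff (p * n) f`.
* `sum_rescale_pow`: `∑_{j < p} f(ζ^j x) = p • (U_p f)(x^p)` for a primitive `p`-th root of unity.
* `qExpansion_weight_four` / `qExpansion_weight_six`: `M_4 = ℂ E₄`, `M_6 = ℂ E₆` on `q`-expansions.
* `eq2_core` / `eq3_core`: if the trace of `G²` (resp. `G³`), written in `x = q^{1/p}` through the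
  conjugates `g(x^p)`, `-(1/p) u(ζ^j x)`, is the expansion of a level-one form, then
  `p g² + U_p(u²) = (p + 1) E₄` resp. `p² g³ - U_p(u³) = (p² - 1) E₆`.
-/

set_option autoImplicit false

open UpperHalfPlane ModularForm ModularFormClass MatrixGroups EisensteinSeries

namespace Fermat.Agent.S16.H37

/-- The operator `U_p` on power series. -/
noncomputable def Up {R : Type*} [Semiring R] (p : ℕ) (f : PowerSeries R) : PowerSeries R :=
  PowerSeries.mk fun n => f.coeff (p * n)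

@[simp]
theorem coeff_Up {R : Type*} [Semiring R] (p : ℕ) (f : PowerSeries R) (n : ℕ) :
    (Up p f).coeff n = f.coeff (p * n) := by
  simp [Up]

theorem Up_add {R : Type*} [Semiring R] (p : ℕ) (f g : PowerSeries R) :
    Up p (f + g) = Up p f + Up p g := by
  ext n; simp

theorem Up_smul {R : Type*} [Semiring R] (p : ℕ) (c : R) (f : PowerSeries R) :
    Up p (c • f) = c • Up p f := by
  ext n; simp

theorem Up_expand {R : Type*} [CommRing R] (p : ℕ) (hp : p ≠ 0) (f : PowerSeries R) :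
    Up p (PowerSeries.expand p hp f) = f := by
  ext n; simp

/-- Sum of the powers of a `p`-th root of unity. -/
theorem sum_pow_pow_eq (p : ℕ) {ζ : ℂ} (hζ : IsPrimitiveRoot ζ p) (n : ℕ) :
    ∑ j ∈ Finset.range p, (ζ ^ j) ^ n = if p ∣ n then (p : ℂ) else 0 := by
  have h1 : ∀ j, (ζ ^ j) ^ n = (ζ ^ n) ^ j := fun j => by rw [← pow_mul, ← pow_mul, mul_comm]
  simp_rw [h1]
  split_ifs with h
  · have h2 : ζ ^ n = 1 := (hζ.pow_eq_one_iff_dvd n).mpr h
    simp [h2]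
  · have h2 : ζ ^ n ≠ 1 := fun h' => h ((hζ.pow_eq_one_iff_dvd n).mp h')
    have h3 : (ζ ^ n) ^ p = 1 := by rw [← pow_mul, mul_comm, pow_mul, hζ.pow_eq_one, one_pow]
    have h4 := geom_sum_mul (ζ ^ n) p
    rw [h3, sub_self] at h4
    rcases mul_eq_zero.mp h4 with h5 | h5
    · exact h5
    · exact absurd (sub_eq_zero.mp h5) h2

/-- Root-of-unity filter: `∑_{j < p} f(ζ^j x) = p • (U_p f)(x^p)`. -/
theorem sum_rescale_pow (p : ℕ) (hp : p ≠ 0) {ζ : ℂ} (hζ : IsPrimitiveRoot ζ p)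
    (f : PowerSeries ℂ) :
    ∑ j ∈ Finset.range p, PowerSeries.rescale (ζ ^ j) f =
      (p : ℂ) • PowerSeries.expand p hp (Up p f) := by
  ext n
  rw [map_sum, PowerSeries.coeff_smul, PowerSeries.coeff_expand]
  simp_rw [PowerSeries.coeff_rescale]
  rw [← Finset.sum_mul, sum_pow_pow_eq p hζ n]
  split_ifs with h
  · obtain ⟨m, rfl⟩ := h
    rw [coeff_Up, Nat.mul_div_cancel_left _ (Nat.pos_of_ne_zero hp), smul_eq_mul]
  · simp

/-! ### Weights four and six -/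

theorem qExpansion_eq_smul_of_sturm {k : ℤ} (hk : k < 12) (e B : ModularForm 𝒮ℒ k)
    (hB : (qExpansion 1 B).coeff 0 = 1) :
    qExpansion 1 e = (qExpansion 1 e).coeff 0 • qExpansion 1 B := by
  set c : ℂ := (qExpansion 1 e).coeff 0 with hc
  set f₀ : ModularForm 𝒮ℒ k := e - c • B with hf₀
  have hq : qExpansion 1 f₀ = qExpansion 1 e - c • qExpansion 1 B := by
    rw [hf₀, FunLike.coe_sub, ModularForm.qExpansion_sub one_pos one_mem_strictPeriods_SL,
      FunLike.coe_smul, ModularForm.qExpansion_smul one_pos one_mem_strictPeriods_SL]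
  have h := sturm_levelOne_addSubgroup ⊥ k f₀ (fun n hn => by
    have hn0 : n = 0 := by omega
    subst hn0
    rw [AddSubgroup.mem_bot, hq, map_sub, PowerSeries.coeff_smul, hB]
    simp [hc])
  ext n
  have hn := h n
  rw [AddSubgroup.mem_bot, hq, map_sub, sub_eq_zero] at hn
  exact hn

/-- `M_4(SL₂ℤ) = ℂ E₄`, on `q`-expansions. -/
theorem qExpansion_weight_four (e : ModularForm 𝒮ℒ 4) :
    qExpansion 1 e = (qExpansion 1 e).coeff 0 • qExpansion 1 E₄ :=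
  qExpansion_eq_smul_of_sturm (by norm_num) e E₄ (E_qExpansion_coeff_zero _ ⟨2, rfl⟩)

/-- `M_6(SL₂ℤ) = ℂ E₆`, on `q`-expansions. -/
theorem qExpansion_weight_six (e : ModularForm 𝒮ℒ 6) :
    qExpansion 1 e = (qExpansion 1 e).coeff 0 • qExpansion 1 E₆ :=
  qExpansion_eq_smul_of_sturm (by norm_num) e E₆ (E_qExpansion_coeff_zero _ ⟨3, rfl⟩)

/-! ### The trace identities -/

theorem expand_injective (p : ℕ) (hp : p ≠ 0) :
    Function.Injective (PowerSeries.expand p hp : PowerSeries ℂ → PowerSeries ℂ) := by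
  intro a b hab
  have := congrArg (Up p) hab
  rwa [Up_expand, Up_expand] at this

/-- The power sum of the `p + 1` conjugates `g(x^p)`, `c u(ζ^j x)` is the expansion of
`g^m + c^m p U_p(u^m)`. -/
theorem conj_power_sum (p : ℕ) (hp : p ≠ 0) {ζ : ℂ} (hζ : IsPrimitiveRoot ζ p)
    (g u : PowerSeries ℂ) (c : ℂ) (m : ℕ) :
    (PowerSeries.expand p hp g) ^ m +
        ∑ j ∈ Finset.range p, (c • PowerSeries.rescale (ζ ^ j) u) ^ m =
      PowerSeries.expand p hp (g ^ m + (c ^ m * p) • Up p (u ^ m)) := by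
  rw [map_add, map_pow, PowerSeries.expand_smul, mul_smul, ← sum_rescale_pow p hp hζ,
    Finset.smul_sum]
  congr 1
  refine Finset.sum_congr rfl fun j _ => ?_
  rw [smul_pow, map_pow]

theorem coeff_zero_conj (p : ℕ) (g u : PowerSeries ℂ) (a : ℂ) (m : ℕ) :
    (g ^ m + a • Up p (u ^ m)).coeff 0 = g.coeff 0 ^ m + a * u.coeff 0 ^ m := by
  rw [map_add, PowerSeries.coeff_smul, coeff_Up, mul_zero,
    PowerSeries.coeff_zero_eq_constantCoeff_apply, PowerSeries.coeff_zero_eq_constantCoeff_apply,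
    map_pow, map_pow, ← PowerSeries.coeff_zero_eq_constantCoeff_apply,
    ← PowerSeries.coeff_zero_eq_constantCoeff_apply, smul_eq_mul]

/-- **Eq2** from the `q`-expansion of the trace of `G²` (constant terms `a₀`). -/
theorem eq2_of_qExp (p : ℕ) (hp : p ≠ 0) (g u : PowerSeries ℂ) {a0 : ℂ} (hg0 : g.coeff 0 = a0)
    (hu0 : u.coeff 0 = a0) (e : ModularForm 𝒮ℒ 4)
    (he' : qExpansion 1 e = g ^ 2 + ((-(1 / (p : ℂ))) ^ 2 * p) • Up p (u ^ 2)) :
    (p : ℂ) • g ^ 2 + Up p (u ^ 2) = (((p : ℂ) + 1) * a0 ^ 2) • qExpansion 1 E₄ := by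
  have hp' : (p : ℂ) ≠ 0 := Nat.cast_ne_zero.mpr hp
  set c : ℂ := 1 / (p : ℂ) with hc
  have hpc : (p : ℂ) * c = 1 := by rw [hc]; field_simp
  have h4 := qExpansion_weight_four e
  rw [he', coeff_zero_conj p g u, hg0, hu0] at h4
  have h5 := congrArg (fun P : PowerSeries ℂ => (p : ℂ) • P) h4
  simp only [smul_add, smul_smul] at h5
  rw [show ((p : ℂ) * ((-c) ^ 2 * p)) = 1 by linear_combination ((p : ℂ) * c + 1) * hpc,
    one_smul,
    show ((p : ℂ) * (a0 ^ 2 + (-c) ^ 2 * p * a0 ^ 2)) = ((p : ℂ) + 1) * a0 ^ 2 by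
      linear_combination (a0 ^ 2 * ((p : ℂ) * c + 1)) * hpc] at h5
  exact h5

/-- **Eq3** from the `q`-expansion of the trace of `G³` (constant terms `a₀`). -/
theorem eq3_of_qExp (p : ℕ) (hp : p ≠ 0) (g u : PowerSeries ℂ) {a0 : ℂ} (hg0 : g.coeff 0 = a0)
    (hu0 : u.coeff 0 = a0) (e : ModularForm 𝒮ℒ 6)
    (he' : qExpansion 1 e = g ^ 3 + ((-(1 / (p : ℂ))) ^ 3 * p) • Up p (u ^ 3)) :
    ((p : ℂ) ^ 2) • g ^ 3 - Up p (u ^ 3) = (((p : ℂ) ^ 2 - 1) * a0 ^ 3) • qExpansion 1 E₆ := by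
  have hp' : (p : ℂ) ≠ 0 := Nat.cast_ne_zero.mpr hp
  set c : ℂ := 1 / (p : ℂ) with hc
  have hpc : (p : ℂ) * c = 1 := by rw [hc]; field_simp
  have h6 := qExpansion_weight_six e
  rw [he', coeff_zero_conj p g u, hg0, hu0] at h6
  have h5 := congrArg (fun P : PowerSeries ℂ => ((p : ℂ) ^ 2) • P) h6
  simp only [smul_add, smul_smul] at h5
  rw [show ((p : ℂ) ^ 2 * ((-c) ^ 3 * p)) = -1 by
      linear_combination (-((p : ℂ) * c) ^ 2 - (p : ℂ) * c - 1) * hpc,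
    show ((p : ℂ) ^ 2 * (a0 ^ 3 + (-c) ^ 3 * p * a0 ^ 3)) = ((p : ℂ) ^ 2 - 1) * a0 ^ 3 by
      linear_combination (a0 ^ 3 * (-((p : ℂ) * c) ^ 2 - (p : ℂ) * c - 1)) * hpc] at h5
  rw [← h5, neg_one_smul, sub_eq_add_neg]

/-- **Eq2**: `p g² + U_p(u²) = (p + 1) a₀² E₄`, from the `x = q^{1/p}`-expansion of the trace. -/
theorem eq2_core (p : ℕ) (hp : p ≠ 0) {ζ : ℂ} (hζ : IsPrimitiveRoot ζ p)
    (g u : PowerSeries ℂ) {a0 : ℂ} (hg0 : g.coeff 0 = a0) (hu0 : u.coeff 0 = a0)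
    (e : ModularForm 𝒮ℒ 4)
    (he : PowerSeries.expand p hp (qExpansion 1 e) = (PowerSeries.expand p hp g) ^ 2 +
      ∑ j ∈ Finset.range p, (-(1 / (p : ℂ)) • PowerSeries.rescale (ζ ^ j) u) ^ 2) :
    (p : ℂ) • g ^ 2 + Up p (u ^ 2) = (((p : ℂ) + 1) * a0 ^ 2) • qExpansion 1 E₄ := by
  rw [conj_power_sum p hp hζ] at he
  exact eq2_of_qExp p hp g u hg0 hu0 e (expand_injective p hp he)

/-- **Eq3**: `p² g³ - U_p(u³) = (p² - 1) a₀³ E₆`, from the `x = q^{1/p}`-expansion of the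
trace. -/
theorem eq3_core (p : ℕ) (hp : p ≠ 0) {ζ : ℂ} (hζ : IsPrimitiveRoot ζ p)
    (g u : PowerSeries ℂ) {a0 : ℂ} (hg0 : g.coeff 0 = a0) (hu0 : u.coeff 0 = a0)
    (e : ModularForm 𝒮ℒ 6)
    (he : PowerSeries.expand p hp (qExpansion 1 e) = (PowerSeries.expand p hp g) ^ 3 +
      ∑ j ∈ Finset.range p, (-(1 / (p : ℂ)) • PowerSeries.rescale (ζ ^ j) u) ^ 3) :
    ((p : ℂ) ^ 2) • g ^ 3 - Up p (u ^ 3) = (((p : ℂ) ^ 2 - 1) * a0 ^ 3) • qExpansion 1 E₆ := by
  rw [conj_power_sum p hp hζ] at he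
  exact eq3_of_qExp p hp g u hg0 hu0 e (expand_injective p hp he)

end Fermat.Agent.S16.H37
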