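import Mathlib
import Fermat.Prelude.Def_ModularForm_HeckeOperatorForms
import Fermat.Prelude.Thm_CongruenceSubgroup_one_mem_strictPeriods_Gamma0
import Fermat.Prelude.Thm_ModularFormClass_qCoeff_heckeU
import Fermat.Agent.S16.TraceEq_helper37

/-!
# S16, block B1 (helper37): Eq2 / Eq3 directly from the coset decomposition of the trace

No `q^{1/p}`-expansions are needed: if `e` is a level-one form of weight `2m` with
`e z = G z ^ m + ∑_{j < p} (-(1/p) (U_p G)((z + j)/p)) ^ m` (the trace of `G ^ m`, written with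
the coset representatives `1`, `S T^j`), then `qExpansion e = g^m + (-1/p)^m p U_p(u^m)`
because `∑_j (U_p G)^m((z + j)/p) = p U_p((U_p G)^m)`.
-/

set_option autoImplicit false

open UpperHalfPlane ModularForm ModularFormClass MatrixGroups EisensteinSeries CongruenceSubgroup

namespace Fermat.Agent.S16.H37

theorem one_mem_periods_Gamma0 (N : ℕ) :
    (1 : ℝ) ∈ (Subgroup.map (Matrix.SpecialLinearGroup.mapGL ℝ) (Gamma0 N)).strictPeriods :=
  CongruenceSubgroup.one_mem_strictPeriods_Gamma0 N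

/-- `heckeU` does not depend on the weight. -/
theorem heckeU_weight_irrel (k k' : ℤ) {p : ℕ} (hp : p ≠ 0) (f : ℍ → ℂ) :
    heckeU k p f = heckeU k' p f := by
  funext z
  rw [heckeU_apply k hp, heckeU_apply k' hp]

/-- The `q`-expansion of `U_p f` is `U_p` of the `q`-expansion. -/
theorem qExpansion_heckeU {N : ℕ} {k : ℤ} (f : ModularForm (Gamma0 N) k) (k' : ℤ) {p : ℕ}
    (hp : p ≠ 0) : qExpansion 1 (heckeU k' p ⇑f) = Up p (qExpansion 1 f) := by
  ext n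
  have h := ModularFormClass.qCoeff_heckeU f (one_mem_periods_Gamma0 N) hp n
  rw [ModularForm.coeffHeckeU_apply] at h
  rw [heckeU_weight_irrel k' k hp, coeff_Up, mul_comm]
  exact h

/-- The `q`-expansion of the trace of `G ^ m`. -/
theorem trace_qExpansion (p : ℕ) [NeZero p] (G U : ModularForm (Gamma0 p) 2) (m : ℕ) {k : ℤ}
    (e : ModularForm 𝒮ℒ k)
    (he : ∀ z : ℍ, e z = G z ^ m +
      ∑ j ∈ Finset.range p, (-(p : ℂ)⁻¹ * U (heckeMatrix p j • z)) ^ m) :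
    qExpansion 1 e =
      (qExpansion 1 G) ^ m + ((-(1 / (p : ℂ))) ^ m * p) • Up p ((qExpansion 1 U) ^ m) := by
  have hp : p ≠ 0 := NeZero.ne p
  have hp' : (p : ℂ) ≠ 0 := Nat.cast_ne_zero.mpr hp
  set H : ModularForm (Gamma0 p) (m * 2) := ModularForm.heckeULin (m * 2) (dvd_refl p) (U.pow m)
    with hH
  have hHcoe : (⇑H : ℍ → ℂ) = heckeU (m * 2) p ⇑(U.pow m) := rfl
  have hfun : (⇑e : ℍ → ℂ) = ⇑(G.pow m) + ((-(1 / (p : ℂ))) ^ m * p) • ⇑H := by
    funext z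
    rw [he z, Pi.add_apply, Pi.smul_apply, hHcoe, heckeU_apply _ hp, coe_pow, Pi.pow_apply,
      smul_eq_mul, Finset.mul_sum, Finset.mul_sum]
    congr 1
    refine Finset.sum_congr rfl fun j _ => ?_
    rw [coe_pow, Pi.pow_apply, mul_pow, one_div]
    field_simp
  have hsm : (((-(1 / (p : ℂ))) ^ m * p) • (⇑H : ℍ → ℂ)) = ⇑(((-(1 / (p : ℂ))) ^ m * p) • H) := by
    funext z
    simp
  rw [hfun, hsm, ModularForm.qExpansion_add one_pos (one_mem_periods_Gamma0 p) (G.pow m)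
      (((-(1 / (p : ℂ))) ^ m * p) • H), ← hsm,
    ModularForm.qExpansion_smul one_pos (one_mem_periods_Gamma0 p),
    ModularForm.qExpansion_pow one_pos (one_mem_periods_Gamma0 p), hHcoe,
    qExpansion_heckeU (U.pow m) _ hp,
    ModularForm.qExpansion_pow one_pos (one_mem_periods_Gamma0 p)]

/-- **Eq2, direct form.** -/
theorem eq2_direct (p : ℕ) [NeZero p] (G U : ModularForm (Gamma0 p) 2)
    (hU : ⇑U = heckeU 2 p ⇑G) (e : ModularForm 𝒮ℒ 4)
    (he : ∀ z : ℍ, e z = G z ^ 2 +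
      ∑ j ∈ Finset.range p, (-(p : ℂ)⁻¹ * U (heckeMatrix p j • z)) ^ 2) :
    (p : ℂ) • (qExpansion 1 G) ^ 2 + Up p ((qExpansion 1 U) ^ 2) =
      (((p : ℂ) + 1) * (qExpansion 1 G).coeff 0 ^ 2) • qExpansion 1 E₄ := by
  have hp : p ≠ 0 := NeZero.ne p
  have hu : qExpansion 1 U = Up p (qExpansion 1 G) := by rw [hU, qExpansion_heckeU G 2 hp]
  have hu0 : (qExpansion 1 U).coeff 0 = (qExpansion 1 G).coeff 0 := by
    rw [hu, coeff_Up, mul_zero]
  exact eq2_of_qExp p hp _ _ rfl hu0 e (trace_qExpansion p G U 2 e he)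

/-- **Eq3, direct form.** -/
theorem eq3_direct (p : ℕ) [NeZero p] (G U : ModularForm (Gamma0 p) 2)
    (hU : ⇑U = heckeU 2 p ⇑G) (e : ModularForm 𝒮ℒ 6)
    (he : ∀ z : ℍ, e z = G z ^ 3 +
      ∑ j ∈ Finset.range p, (-(p : ℂ)⁻¹ * U (heckeMatrix p j • z)) ^ 3) :
    ((p : ℂ) ^ 2) • (qExpansion 1 G) ^ 3 - Up p ((qExpansion 1 U) ^ 3) =
      (((p : ℂ) ^ 2 - 1) * (qExpansion 1 G).coeff 0 ^ 3) • qExpansion 1 E₆ := by
  have hp : p ≠ 0 := NeZero.ne p
  have hu : qExpansion 1 U = Up p (qExpansion 1 G) := by rw [hU, qExpansion_heckeU G 2 hp]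
  have hu0 : (qExpansion 1 U).coeff 0 = (qExpansion 1 G).coeff 0 := by
    rw [hu, coeff_Up, mul_zero]
  exact eq3_of_qExp p hp _ _ rfl hu0 e (trace_qExpansion p G U 3 e he)

/-! ### Consumer form -/

/-- The B0a input: for every `G' ∈ M_2(Γ₀(p))` and every `m`, the trace of `G' ^ m` to level one,
written with the coset representatives `1`, `S T^j` (`j < p`): a level-one form of weight `2m`
with value `G'(z)^m + ∑_{j<p} (-(1/p) (U_p G')((z+j)/p))^m`. -/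
def TraceInput (p : ℕ) : Prop :=
  ∀ (G' : ModularForm (Gamma0 p) 2) (m : ℕ), ∃ e : ModularForm 𝒮ℒ ((m : ℤ) * 2), ∀ z : ℍ,
    e z = G' z ^ m +
      ∑ j ∈ Finset.range p, (-(p : ℂ)⁻¹ * heckeU 2 p ⇑G' (heckeMatrix p j • z)) ^ m

/-- The B0a input `U_p U_p = id` on `M_2(Γ₀(p))`. -/
def UpUpInput (p : ℕ) : Prop :=
  ∀ G' : ModularForm (Gamma0 p) 2, heckeU 2 p (heckeU 2 p ⇑G') = ⇑G'

/-- `qExpansion E₄ = 1 + 240 ∑ σ₃(n) qⁿ` over `ℂ`. -/
theorem qExpansion_E4_complex :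
    qExpansion 1 E₄ =
      1 + 240 * PowerSeries.mk fun n => ((ArithmeticFunction.sigma 3 n : ℕ) : ℂ) := by
  have h : (sigmaSeries 3).map (Int.castRingHom ℂ) =
      PowerSeries.mk fun n => ((ArithmeticFunction.sigma 3 n : ℕ) : ℂ) := by
    ext n
    simp [sigmaSeries]
  rw [qExpansion_E4, E4Z, map_add, map_one, map_mul, map_ofNat, h]

/-- `qExpansion E₆ = 1 - 504 ∑ σ₅(n) qⁿ` over `ℂ`. -/
theorem qExpansion_E6_complex :
    qExpansion 1 E₆ =
      1 - 504 * PowerSeries.mk fun n => ((ArithmeticFunction.sigma 5 n : ℕ) : ℂ) := by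
  have h : (sigmaSeries 5).map (Int.castRingHom ℂ) =
      PowerSeries.mk fun n => ((ArithmeticFunction.sigma 5 n : ℕ) : ℂ) := by
    ext n
    simp [sigmaSeries]
  rw [qExpansion_E6, E6Z, map_sub, map_one, map_mul, map_ofNat, h]

/-- **B1, consumer form**: for `G ∈ M_2(Γ₀(p))` with constant term `a₀`, `g` its `q`-expansion
and `u = U_p g`: `U_p u = g`, and Eq2, Eq2', Eq3, Eq3' hold. -/
theorem b1_all (p : ℕ) [NeZero p] (htr : TraceInput p) (hUU : UpUpInput p)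
    (G : ModularForm (Gamma0 p) 2) :
    Up p (Up p (qExpansion 1 G)) = qExpansion 1 G ∧
    (p : ℂ) • (qExpansion 1 G) ^ 2 + Up p ((Up p (qExpansion 1 G)) ^ 2) =
      (((p : ℂ) + 1) * (qExpansion 1 G).coeff 0 ^ 2) • qExpansion 1 E₄ ∧
    (p : ℂ) • (Up p (qExpansion 1 G)) ^ 2 + Up p ((qExpansion 1 G) ^ 2) =
      (((p : ℂ) + 1) * (qExpansion 1 G).coeff 0 ^ 2) • qExpansion 1 E₄ ∧
    ((p : ℂ) ^ 2) • (qExpansion 1 G) ^ 3 - Up p ((Up p (qExpansion 1 G)) ^ 3) =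
      (((p : ℂ) ^ 2 - 1) * (qExpansion 1 G).coeff 0 ^ 3) • qExpansion 1 E₆ ∧
    ((p : ℂ) ^ 2) • (Up p (qExpansion 1 G)) ^ 3 - Up p ((qExpansion 1 G) ^ 3) =
      (((p : ℂ) ^ 2 - 1) * (qExpansion 1 G).coeff 0 ^ 3) • qExpansion 1 E₆ := by
  have hp : p ≠ 0 := NeZero.ne p
  set U : ModularForm (Gamma0 p) 2 := ModularForm.heckeULin 2 (dvd_refl p) G with hUdef
  have hU : (⇑U : ℍ → ℂ) = heckeU 2 p ⇑G := rfl
  have hu : qExpansion 1 U = Up p (qExpansion 1 G) := by rw [hU, qExpansion_heckeU G 2 hp]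
  have hUU' : heckeU 2 p ⇑U = ⇑G := by rw [hU]; exact hUU G
  have hg : qExpansion 1 G = Up p (qExpansion 1 U) := by
    rw [← qExpansion_heckeU U 2 hp, hUU']
  have hu0 : (qExpansion 1 U).coeff 0 = (qExpansion 1 G).coeff 0 := by
    rw [hu, coeff_Up, mul_zero]
  have hG' : (⇑G : ℍ → ℂ) = heckeU 2 p ⇑U := hUU'.symm
  obtain ⟨e2, he2⟩ := htr G 2
  obtain ⟨e3, he3⟩ := htr G 3
  obtain ⟨e2', he2'⟩ := htr U 2
  obtain ⟨e3', he3'⟩ := htr U 3
  have h2 := eq2_direct p G U hU (ModularForm.mcast (by norm_num) e2) (fun z => by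
    rw [coe_mcast, he2 z, hU])
  have h3 := eq3_direct p G U hU (ModularForm.mcast (by norm_num) e3) (fun z => by
    rw [coe_mcast, he3 z, hU])
  have h2' := eq2_direct p U G hG' (ModularForm.mcast (by norm_num) e2') (fun z => by
    rw [coe_mcast, he2' z, hUU'])
  have h3' := eq3_direct p U G hG' (ModularForm.mcast (by norm_num) e3') (fun z => by
    rw [coe_mcast, he3' z, hUU'])
  rw [hu0] at h2' h3'
  rw [hu] at h2 h3 h2' h3'
  refine ⟨?_, h2, h2', h3, h3'⟩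
  rw [← hu]; exact hg.symm

end Fermat.Agent.S16.H37
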