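import Mathlib
import Fermat.Agent.S16.Stmts_helper6
import Fermat.Agent.S16.Fricke_helper11
import Fermat.Agent.S16.TraceDirect_helper37

/-!
# S16, node `StmtEq` (helper37): the trace identities Eq2, Eq2', Eq3, Eq3'

Trace route, no `q^{1/p}`-expansions: the trace of `G^m` to level one (Mathlib
`ModularForm.trace`), the coset representatives `1`, `S T^j` and `G ∣ S T^j = -(1/p) (U_p G)((z+j)/p)`
(`Fricke_helper11`), the Prelude's `qCoeff_heckeU`, and `M_4 = ℂ E₄`, `M_6 = ℂ E₆`.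
-/

set_option autoImplicit false

open UpperHalfPlane ModularForm ModularFormClass MatrixGroups EisensteinSeries CongruenceSubgroup

namespace Fermat.Agent.S16.H37

open Fermat.Agent.S20 Fermat.Agent.S16.H11

/-- The slash of a power under `SL(2,ℤ)`. -/
theorem pow_slash_SL_apply (f : ℍ → ℂ) (m : ℕ) (γ : SL(2, ℤ)) (z : ℍ) :
    ((f ^ m) ∣[(m : ℤ) * 2] γ) z = ((f ∣[(2 : ℤ)] γ) z) ^ m := by
  rw [ModularForm.SL_slash_apply, ModularForm.SL_slash_apply, Pi.pow_apply, mul_pow,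
    ← zpow_natCast (denom (γ : GL (Fin 2) ℝ) z ^ (-2 : ℤ)) m, ← zpow_mul]
  congr 2
  ring

/-- The trace of `G' ^ m` in coset form. -/
theorem traceInput (p : ℕ) [Fact p.Prime] : TraceInput p := by
  intro G' m
  have : NeZero p := ⟨(Fact.out : p.Prime).ne_zero⟩
  refine ⟨ModularForm.trace 𝒮ℒ (G'.pow m), fun z => ?_⟩
  have h1 : (ModularForm.trace 𝒮ℒ (G'.pow m) : ℍ → ℂ) z = ∑ q : Q p, conj (G'.pow m) q z := by
    rw [ModularForm.coe_trace, Finset.sum_apply]
    have hsum : ∀ (i1 i2 : Fintype (Q p)) (F : Q p → ℂ),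
        (@Finset.univ _ i1).sum F = (@Finset.univ _ i2).sum F := by
      intro i1 i2 F
      rw [Subsingleton.elim i1 i2]
    exact hsum _ _ _
  rw [h1, sum_Q_eq, conj_cosetEquiv_none, coe_pow, Pi.pow_apply,
    ← Fin.sum_univ_eq_sum_range (fun j => (-(p : ℂ)⁻¹ * heckeU 2 p ⇑G' (heckeMatrix p j • z)) ^ m) p]
  congr 1
  refine Finset.sum_congr rfl fun j _ => ?_
  rw [conj_cosetEquiv, rep_some, coe_pow, pow_slash_SL_apply, slash_S_mul_T_pow_apply]

/-- `U_p U_p = id` on `M_2(Γ₀(p))`. -/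
theorem upUpInput (p : ℕ) [Fact p.Prime] : UpUpInput p := fun G' => heckeU_heckeU G'

/-- The two conventions for the formal `U_p` agree. -/
theorem Up_eq (p : ℕ) (f : PowerSeries ℂ) : Fermat.Agent.S16.Up p f = Up p f := by
  ext n
  simp [Fermat.Agent.S16.Up, mul_comm]

theorem qExpansion_E4_eq : qExpansion 1 E₄ = E4q ℂ := by
  ext n
  rw [qExpansion_E4_complex, E4q, PowerSeries.coeff_mk, map_add, PowerSeries.coeff_one]
  have h : ((240 : PowerSeries ℂ) * PowerSeries.mk fun n =>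
      ((ArithmeticFunction.sigma 3 n : ℕ) : ℂ)).coeff n =
      240 * ((ArithmeticFunction.sigma 3 n : ℕ) : ℂ) := by
    have h' : (240 : PowerSeries ℂ) = PowerSeries.C (240 : ℂ) :=
      (map_ofNat (PowerSeries.C (R := ℂ)) 240).symm
    rw [h', PowerSeries.coeff_C_mul, PowerSeries.coeff_mk]
  rw [h]
  split_ifs with hn
  · subst hn; simp
  · simp

theorem qExpansion_E6_eq : qExpansion 1 E₆ = E6q ℂ := by
  ext n
  rw [qExpansion_E6_complex, E6q, PowerSeries.coeff_mk, map_sub, PowerSeries.coeff_one]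
  have h : ((504 : PowerSeries ℂ) * PowerSeries.mk fun n =>
      ((ArithmeticFunction.sigma 5 n : ℕ) : ℂ)).coeff n =
      504 * ((ArithmeticFunction.sigma 5 n : ℕ) : ℂ) := by
    have h' : (504 : PowerSeries ℂ) = PowerSeries.C (504 : ℂ) :=
      (map_ofNat (PowerSeries.C (R := ℂ)) 504).symm
    rw [h', PowerSeries.coeff_C_mul, PowerSeries.coeff_mk]
  rw [h]
  split_ifs with hn
  · subst hn; simp
  · simp

/-- Node `StmtE4E6`. -/
theorem stmtE4E6 : Fermat.Agent.S16.StmtE4E6 := ⟨qExpansion_E4_eq, qExpansion_E6_eq⟩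

/-- Node `StmtEq`: the trace identities. -/
theorem stmtEq : Fermat.Agent.S16.StmtEq := by
  intro p hp G
  have : Fact p.Prime := ⟨hp⟩
  have : NeZero p := ⟨hp.ne_zero⟩
  have h := b1_all p (traceInput p) (upUpInput p) G
  simp only [Up_eq, ← qExpansion_E4_eq, ← qExpansion_E6_eq]
  exact h

/-- Node `StmtSturm`. -/
theorem stmtSturm : Fermat.Agent.S16.StmtSturm :=
  fun I k f h => sturm_levelOne_addSubgroup I k f h

/-- Node `StmtRho`. -/
theorem stmtRho : Fermat.Agent.S16.StmtRho :=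
  ⟨fun I M f h => rho_value_mem I M f h, Fermat.Agent.S20.H66.E4_rho, E6_rho_sq,
    discriminant_ne_zero _⟩

end Fermat.Agent.S16.H37
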