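import Fermat.Agent.S16.Quat_helper75

/-!
# S16 (TH4): the Gauss sum of the quaternary form `Q4` modulo `p` (helper75)
-/

set_option autoImplicit false

namespace Fermat.Agent.S16.H75

open Matrix

section Field

variable {F : Type*} [Field F]

/-- The first linear form of the diagonalisation of `Q4` modulo `p`. -/
def X4 (t : F) (x : Fin 4 → F) : F := 2 * x 0 + x 1 - t * x 3

/-- The second linear form of the diagonalisation of `Q4` modulo `p`. -/
def Y4 (k t : F) (x : Fin 4 → F) : F := (4 * k - 1) * x 1 + t * (2 * x 2 + x 3)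

theorem Q4_modp (k t c : F) (hP : P4 k t c = 0) (x : Fin 4 → F) :
    4 * (4 * k - 1) * Q4 k t c x = (4 * k - 1) * X4 t x ^ 2 + Y4 k t x ^ 2 := by
  rw [Q4_sos, hP]
  simp [X4, Y4]

theorem polar_modp (k t c : F) (hP : P4 k t c = 0) (x y : Fin 4 → F) :
    2 * (4 * k - 1) * (x ⬝ᵥ (A4 k t c *ᵥ y)) =
      (4 * k - 1) * (X4 t x * X4 t y) + Y4 k t x * Y4 k t y := by
  rw [Q4_polar_sos, hP]
  simp [X4, Y4]

/-- The triangular change of variables `(X, Y, x₂, x₃) ↦ x`. -/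
def T4 (k t : F) (h2 : (2 : F) ≠ 0) (hq : 4 * k - 1 ≠ 0) : (Fin 4 → F) ≃ (Fin 4 → F) where
  toFun h := ![(h 0 - (h 1 - t * (2 * h 2 + h 3)) / (4 * k - 1) + t * h 3) / 2,
    (h 1 - t * (2 * h 2 + h 3)) / (4 * k - 1), h 2, h 3]
  invFun g := ![X4 t g, Y4 k t g, g 2, g 3]
  left_inv h := by
    have hq' : k * 4 - 1 ≠ 0 := by rwa [mul_comm]
    ext i
    fin_cases i
    · simp [X4]
      field_simp
      ring
    · simp [Y4]
      field_simp
      ring
    · simp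
    · simp
  right_inv g := by
    have hq' : k * 4 - 1 ≠ 0 := by rwa [mul_comm]
    ext i
    fin_cases i
    · simp [X4, Y4]
      field_simp
      ring
    · simp [Y4]
      field_simp
    · simp
    · simp

theorem X4_T4 (k t : F) (h2 : (2 : F) ≠ 0) (hq : 4 * k - 1 ≠ 0) (h : Fin 4 → F) :
    X4 t (T4 k t h2 hq h) = h 0 := by
  have := congrFun ((T4 k t h2 hq).left_inv h) 0
  simpa [T4] using this

theorem Y4_T4 (k t : F) (h2 : (2 : F) ≠ 0) (hq : 4 * k - 1 ≠ 0) (h : Fin 4 → F) :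
    Y4 k t (T4 k t h2 hq h) = h 1 := by
  have := congrFun ((T4 k t h2 hq).left_inv h) 1
  simpa [T4] using this

theorem Q4_T4 (k t c : F) (hP : P4 k t c = 0) (h2 : (2 : F) ≠ 0) (hq : 4 * k - 1 ≠ 0)
    (h : Fin 4 → F) :
    Q4 k t c (T4 k t h2 hq h) = h 0 ^ 2 / 4 + h 1 ^ 2 / (4 * (4 * k - 1)) := by
  have h4 : (4 : F) ≠ 0 := by
    have : (4 : F) = 2 * 2 := by norm_num
    rw [this]
    exact mul_ne_zero h2 h2
  have e := Q4_modp k t c hP (T4 k t h2 hq h)
  rw [X4_T4, Y4_T4] at e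
  field_simp
  linear_combination e

/-- The coefficients of the linear form `y ⬝ᵥ T4 h` in the new variables. -/
def coefT (k t : F) (y : Fin 4 → F) : Fin 4 → F :=
  ![y 0 / 2, (2 * y 1 - y 0) / (2 * (4 * k - 1)), y 2 - t * (2 * y 1 - y 0) / (4 * k - 1),
    y 3 + t * y 0 / 2 - t * (2 * y 1 - y 0) / (2 * (4 * k - 1))]

theorem dotProduct_T4 (k t : F) (h2 : (2 : F) ≠ 0) (hq : 4 * k - 1 ≠ 0) (y h : Fin 4 → F) :
    y ⬝ᵥ T4 k t h2 hq h = coefT k t y 0 * h 0 + coefT k t y 1 * h 1 + coefT k t y 2 * h 2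
      + coefT k t y 3 * h 3 := by
  have hq' : k * 4 - 1 ≠ 0 := by rwa [mul_comm]
  simp [T4, coefT, dotProduct, Fin.sum_univ_four]
  field_simp
  ring

/-- Characterisation of the range of the Gram matrix modulo `p`. -/
theorem exists_eq_A4_mulVec_iff (k t c : F) (hP : P4 k t c = 0) (h2 : (2 : F) ≠ 0)
    (hq : 4 * k - 1 ≠ 0) (y : Fin 4 → F) :
    (∃ x, y = A4 k t c *ᵥ x) ↔ coefT k t y 2 = 0 ∧ coefT k t y 3 = 0 := by
  have hP' : (4 * k - 1) * c = t ^ 2 := by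
    have := hP
    simp only [P4] at this
    linear_combination this
  have hq' : k * 4 - 1 ≠ 0 := by rwa [mul_comm]
  constructor
  · rintro ⟨x, rfl⟩
    rw [A4_mulVec]
    constructor
    · simp [coefT]
      field_simp
      linear_combination (2 * x 2 + x 3) * hP'
    · simp [coefT]
      field_simp
      linear_combination (2 * x 2 + x 3 + (4 * k - 1) * x 3) * hP'
  · rintro ⟨h3, h4⟩
    refine ⟨T4 k t h2 hq ![y 0, 2 * y 1 - y 0, 0, 0], ?_⟩
    rw [A4_mulVec]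
    simp only [coefT, Matrix.cons_val_two, Matrix.cons_val_three, Matrix.head_cons,
      Matrix.tail_cons] at h3 h4
    ext i
    fin_cases i
    · simp [T4]
      field_simp
      ring
    · simp [T4]
      field_simp
      ring
    · simp [T4]
      field_simp
      field_simp at h3
      linear_combination h3
    · simp [T4]
      field_simp
      field_simp at h4
      linear_combination h4

theorem coefT_A4 (k t c : F) (hP : P4 k t c = 0) (h2 : (2 : F) ≠ 0)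
    (hq : 4 * k - 1 ≠ 0) (x : Fin 4 → F) :
    coefT k t (A4 k t c *ᵥ x) 0 ^ 2 + (4 * k - 1) * coefT k t (A4 k t c *ᵥ x) 1 ^ 2
      = Q4 k t c x := by
  have hq' : k * 4 - 1 ≠ 0 := by rwa [mul_comm]
  have e := Q4_modp k t c hP x
  rw [A4_mulVec]
  simp only [X4, Y4] at e
  simp [coefT]
  field_simp
  linear_combination -e

end Field

section Gauss

variable {F : Type*} [Field F] [Fintype F] [DecidableEq F]

/-- The quadratic character of `F` with complex values. -/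
noncomputable def chiC (F : Type*) [Field F] [Fintype F] [DecidableEq F] : MulChar F ℂ :=
  (quadraticChar F).ringHomComp (Int.castRingHom ℂ)

theorem chiC_apply (a : F) : chiC F a = ((quadraticChar F a : ℤ) : ℂ) := rfl

theorem chiC_sq (a : F) (ha : a ≠ 0) : chiC F a ^ 2 = 1 := by
  rw [chiC_apply]
  have := quadraticChar_sq_one ha
  exact_mod_cast this

theorem chiC_mul_self (a : F) (ha : a ≠ 0) : chiC F (a ^ 2) = 1 := by
  rw [chiC_apply, quadraticChar_sq_one' ha]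
  simp

theorem chiC_of_not_isSquare (a : F) (ha : ¬ IsSquare a) : chiC F a = -1 := by
  rw [chiC_apply, quadraticChar_neg_one_iff_not_isSquare.mpr ha]
  simp

theorem chiC_ne_one (hF : ringChar F ≠ 2) : chiC F ≠ 1 := by
  obtain ⟨a, ha⟩ := quadraticChar_exists_neg_one' hF
  refine MulChar.ne_one_iff.mpr ⟨a, ?_⟩
  rw [chiC_apply, ha]
  norm_num

theorem chiC_isQuadratic : (chiC F).IsQuadratic :=
  (quadraticChar_isQuadratic F).comp _

variable (ψ : AddChar F ℂ)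

theorem sum_psi_mul (hψ : ψ.IsPrimitive) (b : F) :
    ∑ x : F, ψ (b * x) = if b = 0 then (Fintype.card F : ℂ) else 0 := by
  have := AddChar.sum_mulShift b hψ
  simp_rw [mul_comm b]
  rw [this]
  split_ifs <;> simp

theorem sum_psi_sq (hF : ringChar F ≠ 2) (hψ : ψ.IsPrimitive) (a : F) (ha : a ≠ 0) :
    ∑ x : F, ψ (a * x ^ 2) = chiC F a * gaussSum (chiC F) ψ := by
  have h1 : ∑ x : F, ψ (a * x ^ 2) = ∑ y : F, (chiC F y + 1) * ψ (a * y) := by
    rw [← Finset.sum_fiberwise Finset.univ (fun x : F => x ^ 2) (fun x => ψ (a * x ^ 2))]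
    refine Finset.sum_congr rfl fun y _ => ?_
    have h2 : ∀ x ∈ Finset.univ.filter (fun x : F => x ^ 2 = y), ψ (a * x ^ 2) = ψ (a * y) := by
      intro x hx
      rw [(Finset.mem_filter.mp hx).2]
    rw [Finset.sum_congr rfl h2, Finset.sum_const, nsmul_eq_mul]
    congr 1
    have h3 := quadraticChar_card_sqrts hF y
    have h4 : ({x : F | x ^ 2 = y}.toFinset) = Finset.univ.filter (fun x : F => x ^ 2 = y) := by
      ext x
      simp
    rw [h4] at h3
    rw [chiC_apply]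
    have h5 : (((Finset.univ.filter (fun x : F => x ^ 2 = y)).card : ℤ) : ℂ)
        = ((quadraticChar F y + 1 : ℤ) : ℂ) := by rw [h3]
    push_cast at h5
    exact h5
  rw [h1]
  simp_rw [add_mul, one_mul]
  rw [Finset.sum_add_distrib, sum_psi_mul ψ hψ a, if_neg ha, add_zero]
  have h6 := gaussSum_mulShift (chiC F) ψ (Units.mk0 a ha)
  have h7 : gaussSum (chiC F) (AddChar.mulShift ψ (Units.mk0 a ha))
      = ∑ y : F, chiC F y * ψ (a * y) := by
    simp [gaussSum, AddChar.mulShift_apply]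
  rw [← h7]
  have h8 : chiC F a * (chiC F a * gaussSum (chiC F) (AddChar.mulShift ψ (Units.mk0 a ha)))
      = chiC F a * gaussSum (chiC F) ψ := congrArg (chiC F a * ·) h6
  rw [← mul_assoc, ← pow_two, chiC_sq a ha, one_mul] at h8
  exact h8

theorem sum_psi_quad (hF : ringChar F ≠ 2) (hψ : ψ.IsPrimitive) (a b : F) (ha : a ≠ 0) :
    ∑ x : F, ψ (a * x ^ 2 + b * x) =
      ψ (-(b ^ 2 / (4 * a))) * (chiC F a * gaussSum (chiC F) ψ) := by
  have h2 : (2 : F) ≠ 0 := Ring.two_ne_zero hF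
  have h4 : (4 : F) ≠ 0 := by
    have : (4 : F) = 2 * 2 := by norm_num
    rw [this]
    exact mul_ne_zero h2 h2
  rw [← sum_psi_sq ψ hF hψ a ha, Finset.mul_sum]
  rw [← Equiv.sum_comp (Equiv.subRight (b / (2 * a)))]
  refine Finset.sum_congr rfl fun x _ => ?_
  rw [← AddChar.map_add_eq_mul]
  congr 1
  simp only [Equiv.subRight_apply]
  field_simp
  ring

omit [DecidableEq F] in
theorem sum_psi_Q4_aux (hF : ringChar F ≠ 2) (k t c : F)
    (hP : P4 k t c = 0) (hq : 4 * k - 1 ≠ 0) (j : F) (y : Fin 4 → F) :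
    ∑ g : Fin 4 → F, ψ (j * Q4 k t c g + y ⬝ᵥ g) =
      (∑ a : F, ψ (j / 4 * a ^ 2 + coefT k t y 0 * a)) *
      (∑ a : F, ψ (j / (4 * (4 * k - 1)) * a ^ 2 + coefT k t y 1 * a)) *
      (∑ a : F, ψ (coefT k t y 2 * a)) * (∑ a : F, ψ (coefT k t y 3 * a)) := by
  have h2 : (2 : F) ≠ 0 := Ring.two_ne_zero hF
  have h4 : (4 : F) ≠ 0 := by
    have : (4 : F) = 2 * 2 := by norm_num
    rw [this]
    exact mul_ne_zero h2 h2
  have hq' : k * 4 - 1 ≠ 0 := by rwa [mul_comm]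
  rw [← Equiv.sum_comp (T4 k t h2 hq)]
  let fi : Fin 4 → F → ℂ := ![fun a => ψ (j / 4 * a ^ 2 + coefT k t y 0 * a),
    fun a => ψ (j / (4 * (4 * k - 1)) * a ^ 2 + coefT k t y 1 * a),
    fun a => ψ (coefT k t y 2 * a), fun a => ψ (coefT k t y 3 * a)]
  have h1 : ∀ h : Fin 4 → F,
      ψ (j * Q4 k t c (T4 k t h2 hq h) + y ⬝ᵥ T4 k t h2 hq h) = ∏ i, fi i (h i) := by
    intro h
    rw [Fin.prod_univ_four, Q4_T4 k t c hP h2 hq, dotProduct_T4]
    show _ = ψ (j / 4 * h 0 ^ 2 + coefT k t y 0 * h 0) *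
      ψ (j / (4 * (4 * k - 1)) * h 1 ^ 2 + coefT k t y 1 * h 1) *
      ψ (coefT k t y 2 * h 2) * ψ (coefT k t y 3 * h 3)
    rw [← AddChar.map_add_eq_mul, ← AddChar.map_add_eq_mul, ← AddChar.map_add_eq_mul]
    congr 1
    field_simp
    ring
  simp_rw [h1]
  have h3 := Finset.sum_prod_piFinset (Finset.univ : Finset F) fi
  rw [Fintype.piFinset_univ] at h3
  rw [h3, Fin.prod_univ_four]
  rfl

/-- **The Gauss sum of `Q4`** over a finite field in which `P4 k t c = 0` and the binary form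
`a² + (4k-1) b²` is anisotropic. -/
theorem sum_psi_Q4 (hF : ringChar F ≠ 2) (hψ : ψ.IsPrimitive) (k t c : F)
    (hP : P4 k t c = 0)
    (haniso : ∀ a b : F, a ^ 2 + (4 * k - 1) * b ^ 2 = 0 → a = 0 ∧ b = 0)
    (j : F) (hj : j ≠ 0) (y : Fin 4 → F) :
    ∑ g : Fin 4 → F, ψ (j * Q4 k t c g + y ⬝ᵥ g) =
      if (∃ x, y = A4 k t c *ᵥ x) then
        -(Fintype.card F : ℂ) ^ 3 *
          ψ (-j⁻¹ * (coefT k t y 0 ^ 2 + (4 * k - 1) * coefT k t y 1 ^ 2))
      else 0 := by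
  have h2 : (2 : F) ≠ 0 := Ring.two_ne_zero hF
  have h4 : (4 : F) ≠ 0 := by
    have : (4 : F) = 2 * 2 := by norm_num
    rw [this]
    exact mul_ne_zero h2 h2
  have hq : 4 * k - 1 ≠ 0 := by
    intro h0
    have := (haniso 0 1 (by rw [h0]; ring)).2
    exact one_ne_zero this
  have hq' : k * 4 - 1 ≠ 0 := by rwa [mul_comm]
  have hns : ¬ IsSquare (-(4 * k - 1)) := by
    rintro ⟨s, hs⟩
    have := (haniso s 1 (by linear_combination -hs)).2
    exact one_ne_zero this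
  have ha1 : j / 4 ≠ 0 := div_ne_zero hj h4
  have ha2 : j / (4 * (4 * k - 1)) ≠ 0 := div_ne_zero hj (mul_ne_zero h4 hq)
  rw [sum_psi_Q4_aux ψ hF k t c hP hq j y, sum_psi_quad ψ hF hψ _ _ ha1,
    sum_psi_quad ψ hF hψ _ _ ha2, sum_psi_mul ψ hψ, sum_psi_mul ψ hψ]
  simp only [exists_eq_A4_mulVec_iff k t c hP h2 hq y]
  by_cases h3 : coefT k t y 2 = 0
  · by_cases h4' : coefT k t y 3 = 0
    · rw [if_pos h3, if_pos h4', if_pos ⟨h3, h4'⟩]
      have hchi : chiC F (j / 4) * chiC F (j / (4 * (4 * k - 1))) * chiC F (-1) = -1 := by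
        rw [← map_mul, ← map_mul]
        have e : j / 4 * (j / (4 * (4 * k - 1))) * -1
            = (j / (4 * (4 * k - 1))) ^ 2 * (-(4 * k - 1)) := by
          field_simp
        rw [e, map_mul, chiC_mul_self _ ha2, one_mul, chiC_of_not_isSquare _ hns]
      have hg := gaussSum_sq (chiC_ne_one hF) chiC_isQuadratic hψ
      have harg : -(coefT k t y 0 ^ 2 / (4 * (j / 4)))
          + -(coefT k t y 1 ^ 2 / (4 * (j / (4 * (4 * k - 1)))))
          = -j⁻¹ * (coefT k t y 0 ^ 2 + (4 * k - 1) * coefT k t y 1 ^ 2) := by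
        field_simp
        ring
      rw [← harg, AddChar.map_add_eq_mul]
      set g := gaussSum (chiC F) ψ with hgdef
      set N := (Fintype.card F : ℂ) with hN
      set u := ψ (-(coefT k t y 0 ^ 2 / (4 * (j / 4)))) with hu
      set v := ψ (-(coefT k t y 1 ^ 2 / (4 * (j / (4 * (4 * k - 1)))))) with hv
      calc u * (chiC F (j / 4) * g) * (v * (chiC F (j / (4 * (4 * k - 1))) * g)) * N * N
          = u * v * (chiC F (j / 4) * chiC F (j / (4 * (4 * k - 1)))) * g ^ 2 * N ^ 2 := by ring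
        _ = u * v * (chiC F (j / 4) * chiC F (j / (4 * (4 * k - 1))) * chiC F (-1)) * N ^ 3 := by
            rw [hg]; ring
        _ = -N ^ 3 * (u * v) := by rw [hchi]; ring
    · rw [if_pos h3, if_neg h4',
        if_neg (show ¬ (coefT k t y 2 = 0 ∧ coefT k t y 3 = 0) from fun h => h4' h.2)]
      ring
  · rw [if_neg h3,
      if_neg (show ¬ (coefT k t y 2 = 0 ∧ coefT k t y 3 = 0) from fun h => h3 h.1)]
    ring

theorem sum_psi_Q4_range (hF : ringChar F ≠ 2) (hψ : ψ.IsPrimitive) (k t c : F)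
    (hP : P4 k t c = 0)
    (haniso : ∀ a b : F, a ^ 2 + (4 * k - 1) * b ^ 2 = 0 → a = 0 ∧ b = 0)
    (j : F) (hj : j ≠ 0) (x : Fin 4 → F) :
    ∑ g : Fin 4 → F, ψ (j * Q4 k t c g + (A4 k t c *ᵥ x) ⬝ᵥ g) =
      -(Fintype.card F : ℂ) ^ 3 * ψ (-j⁻¹ * Q4 k t c x) := by
  have h2 : (2 : F) ≠ 0 := Ring.two_ne_zero hF
  have hq : 4 * k - 1 ≠ 0 := by
    intro h0
    have := (haniso 0 1 (by rw [h0]; ring)).2
    exact one_ne_zero this
  rw [sum_psi_Q4 ψ hF hψ k t c hP haniso j hj, if_pos ⟨x, rfl⟩, coefT_A4 k t c hP h2 hq]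

theorem sum_psi_Q4_not_range (hF : ringChar F ≠ 2) (hψ : ψ.IsPrimitive) (k t c : F)
    (hP : P4 k t c = 0)
    (haniso : ∀ a b : F, a ^ 2 + (4 * k - 1) * b ^ 2 = 0 → a = 0 ∧ b = 0)
    (j : F) (hj : j ≠ 0) (y : Fin 4 → F) (hy : ¬ ∃ x, y = A4 k t c *ᵥ x) :
    ∑ g : Fin 4 → F, ψ (j * Q4 k t c g + y ⬝ᵥ g) = 0 := by
  rw [sum_psi_Q4 ψ hF hψ k t c hP haniso j hj, if_neg hy]

end Gauss

section Map

variable {R S : Type*} [CommRing R] [CommRing S]

theorem map_Q4 (f : R →+* S) (k t c : R) (x : Fin 4 → R) :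
    f (Q4 k t c x) = Q4 (f k) (f t) (f c) (fun i => f (x i)) := by
  simp [Q4]

theorem map_A4_mulVec (f : R →+* S) (k t c : R) (x : Fin 4 → R) (i : Fin 4) :
    f ((A4 k t c *ᵥ x) i) = (A4 (f k) (f t) (f c) *ᵥ (fun i => f (x i))) i := by
  have h2 : f 2 = 2 := map_ofNat f 2
  rw [A4_mulVec, A4_mulVec]
  fin_cases i <;> simp [h2]

theorem map_P4 (f : R →+* S) (k t c : R) : f (P4 k t c) = P4 (f k) (f t) (f c) := by
  have h4 : f 4 = 4 := map_ofNat f 4
  simp [P4, h4]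

end Map

section ZModp

variable (p : ℕ) [Fact p.Prime]

theorem P4_zmod_eq_zero (k t c : ℤ) (hP : (p : ℤ) = P4 k t c) :
    P4 (k : ZMod p) (t : ZMod p) (c : ZMod p) = 0 := by
  have h := map_P4 (Int.castRingHom (ZMod p)) k t c
  simp only [eq_intCast] at h
  rw [← h, ← hP]
  simp

/-- (GS1) the Gauss sum of `Q4` modulo `p` on the range of the Gram matrix. -/
theorem gaussSum_Q4_range (hp2 : p ≠ 2) (k t c : ℤ) (hP : (p : ℤ) = P4 k t c)
    (haniso : ∀ a b : ZMod p, a ^ 2 + ((4 * k - 1 : ℤ) : ZMod p) * b ^ 2 = 0 → a = 0 ∧ b = 0)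
    (j : ZMod p) (hj : j ≠ 0) (x : Fin 4 → ZMod p) :
    ∑ g : Fin 4 → ZMod p,
      ZMod.stdAddChar (j * Q4 (k : ZMod p) (t : ZMod p) (c : ZMod p) g
        + (A4 (k : ZMod p) (t : ZMod p) (c : ZMod p) *ᵥ x) ⬝ᵥ g) =
      -(p : ℂ) ^ 3 * ZMod.stdAddChar (-j⁻¹ * Q4 (k : ZMod p) (t : ZMod p) (c : ZMod p) x) := by
  have hF : ringChar (ZMod p) ≠ 2 := by rwa [ZMod.ringChar_zmod_n]
  have haniso' : ∀ a b : ZMod p, a ^ 2 + (4 * (k : ZMod p) - 1) * b ^ 2 = 0 → a = 0 ∧ b = 0 := by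
    intro a b h
    apply haniso a b
    push_cast
    exact h
  have h := sum_psi_Q4_range (ZMod.stdAddChar (N := p)) hF (ZMod.isPrimitive_stdAddChar p)
    (k : ZMod p) (t : ZMod p) (c : ZMod p) (P4_zmod_eq_zero p k t c hP) haniso' j hj x
  rw [h, ZMod.card]

/-- (GS0) the Gauss sum of `Q4` modulo `p` vanishes off the range of the Gram matrix. -/
theorem gaussSum_Q4_not_range (hp2 : p ≠ 2) (k t c : ℤ) (hP : (p : ℤ) = P4 k t c)
    (haniso : ∀ a b : ZMod p, a ^ 2 + ((4 * k - 1 : ℤ) : ZMod p) * b ^ 2 = 0 → a = 0 ∧ b = 0)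
    (j : ZMod p) (hj : j ≠ 0) (y : Fin 4 → ZMod p)
    (hy : ¬ ∃ x, y = A4 (k : ZMod p) (t : ZMod p) (c : ZMod p) *ᵥ x) :
    ∑ g : Fin 4 → ZMod p,
      ZMod.stdAddChar (j * Q4 (k : ZMod p) (t : ZMod p) (c : ZMod p) g + y ⬝ᵥ g) = 0 := by
  have hF : ringChar (ZMod p) ≠ 2 := by rwa [ZMod.ringChar_zmod_n]
  have haniso' : ∀ a b : ZMod p, a ^ 2 + (4 * (k : ZMod p) - 1) * b ^ 2 = 0 → a = 0 ∧ b = 0 := by
    intro a b h
    apply haniso a b
    push_cast
    exact h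
  exact sum_psi_Q4_not_range (ZMod.stdAddChar (N := p)) hF (ZMod.isPrimitive_stdAddChar p)
    (k : ZMod p) (t : ZMod p) (c : ZMod p) (P4_zmod_eq_zero p k t c hP) haniso' j hj y hy

/-- An integer vector is in `A4 ℤ⁴` iff its reduction modulo `p` is in the range of `A4` over
`ZMod p` (because `p ℤ⁴ = A4 A4' ℤ⁴ ⊆ A4 ℤ⁴`). -/
theorem exists_int_eq_A4_mulVec_iff (k t c : ℤ) (hP : (p : ℤ) = P4 k t c) (y : Fin 4 → ℤ) :
    (∃ x : Fin 4 → ℤ, y = A4 k t c *ᵥ x) ↔
      ∃ x : Fin 4 → ZMod p, (fun i => (y i : ZMod p))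
        = A4 (k : ZMod p) (t : ZMod p) (c : ZMod p) *ᵥ x := by
  constructor
  · rintro ⟨x, rfl⟩
    refine ⟨fun i => (x i : ZMod p), ?_⟩
    ext i
    have := map_A4_mulVec (Int.castRingHom (ZMod p)) k t c x i
    simpa using this
  · rintro ⟨x, hx⟩
    have hsurj : ∀ i, ∃ z : ℤ, (z : ZMod p) = x i := fun i => ZMod.intCast_surjective (x i)
    choose x0 hx0 using hsurj
    have hdvd : ∀ i, (p : ℤ) ∣ y i - (A4 k t c *ᵥ x0) i := by
      intro i
      rw [← ZMod.intCast_zmod_eq_zero_iff_dvd]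
      have h1 := map_A4_mulVec (Int.castRingHom (ZMod p)) k t c x0 i
      simp only [eq_intCast] at h1
      have h2 : (fun i => ((x0 i : ℤ) : ZMod p)) = x := funext hx0
      rw [h2, ← hx] at h1
      push_cast
      rw [h1]
      ring
    choose w hw using hdvd
    refine ⟨x0 + A4' k t c *ᵥ w, ?_⟩
    rw [Matrix.mulVec_add, A4_mulVec_A4'_mulVec, ← hP]
    ext i
    have := hw i
    simp only [Pi.add_apply, Pi.smul_apply, smul_eq_mul]
    linarith

end ZModp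

end Fermat.Agent.S16.H75
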