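import Mathlib

/-!
S16 / TH1 (helper77): the parameters `(q, t, c)` of the quaternary form.

For a prime `p ≥ 5` there is a prime `q ≡ 3 mod 4`, `q ≠ p`, with `(-q / p) = -1`; then
`(-p / q) = 1`, so `p = q * c - t ^ 2` with integers `t`, `c > 0`.
-/

set_option autoImplicit false

namespace Fermat.Agent.S16.H77

open ZMod

/-- Dirichlet + CRT: a prime `q ≡ 3 mod 4`, `q > p`, in a prescribed nonzero class mod `p`. -/
lemma exists_prime_three_mod_four (p : ℕ) [hp : Fact p.Prime] (hp2 : p ≠ 2) (r : ZMod p)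
    (hr : r ≠ 0) : ∃ q : ℕ, q.Prime ∧ p < q ∧ q % 4 = 3 ∧ (q : ZMod p) = r := by
  have hcop4 : Nat.Coprime 4 p := by
    have h2 : Nat.Coprime 2 p := (Nat.coprime_primes Nat.prime_two hp.out).mpr (Ne.symm hp2)
    have : Nat.Coprime (2 ^ 2) p := Nat.Coprime.pow_left 2 h2
    simpa using this
  obtain ⟨a₀, h4, hp'⟩ := Nat.chineseRemainder hcop4 3 r.val
  have hcop : Nat.Coprime a₀ (4 * p) := by
    apply Nat.Coprime.mul_right
    · have := h4.gcd_eq
      rw [Nat.Coprime, this]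
      rfl
    · have := hp'.gcd_eq
      rw [Nat.Coprime, this, Nat.gcd_comm]
      refine (Nat.Prime.coprime_iff_not_dvd hp.out).mpr fun hdvd => hr ?_
      have h0 := (ZMod.natCast_eq_zero_iff r.val p).mpr hdvd
      rwa [ZMod.natCast_zmod_val] at h0
  have : NeZero (4 * p) := ⟨by have := hp.out.pos; omega⟩
  have hunit : IsUnit ((a₀ : ℕ) : ZMod (4 * p)) := (ZMod.isUnit_iff_coprime a₀ (4 * p)).mpr hcop
  obtain ⟨q, hqp, hq, hqa⟩ := Nat.forall_exists_prime_gt_and_eq_mod hunit p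
  have hmod : q ≡ a₀ [MOD 4 * p] := (ZMod.natCast_eq_natCast_iff q a₀ (4 * p)).mp hqa
  refine ⟨q, hq, hqp, ?_, ?_⟩
  · have h1 : q ≡ 3 [MOD 4] := (Nat.ModEq.of_mul_right p hmod).trans h4
    exact h1
  · have h2 : q ≡ r.val [MOD p] := (Nat.ModEq.of_mul_left 4 hmod).trans hp'
    have h3 := (ZMod.natCast_eq_natCast_iff q r.val p).mpr h2
    rwa [ZMod.natCast_zmod_val] at h3

/-- **TH1, prime form.** -/
theorem exists_prime_params (p : ℕ) [hp : Fact p.Prime] (hp5 : 5 ≤ p) :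
    ∃ q : ℕ, q.Prime ∧ q % 4 = 3 ∧ q ≠ p ∧ legendreSym p (-(q : ℤ)) = -1 ∧
      ∃ t c : ℤ, 0 < c ∧ (p : ℤ) = q * c - t ^ 2 := by
  have hp2 : p ≠ 2 := by omega
  -- a nonresidue
  obtain ⟨n, hn⟩ := FiniteField.exists_nonsquare (F := ZMod p)
    (by rw [ZMod.ringChar_zmod_n]; exact hp2)
  have hn0 : n ≠ 0 := by
    rintro rfl
    exact hn IsSquare.zero
  obtain ⟨q, hq, hpq, hq4, hqr⟩ := exists_prime_three_mod_four p hp2 (-n) (neg_ne_zero.mpr hn0)
  have : Fact q.Prime := ⟨hq⟩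
  have hqp : q ≠ p := hpq.ne'
  have hq2 : q ≠ 2 := by
    rintro rfl
    omega
  have hleg : legendreSym p (-(q : ℤ)) = -1 := by
    rw [legendreSym.eq_neg_one_iff]
    have h1 : (((-(q : ℤ)) : ℤ) : ZMod p) = n := by
      push_cast
      rw [hqr, neg_neg]
    rwa [h1]
  have hχq : legendreSym q (-1) = -1 := by
    rw [legendreSym.at_neg_one hq2, ZMod.χ₄_nat_three_mod_four hq4]
  have hmul : legendreSym p (-(q : ℤ)) = legendreSym p (-1) * legendreSym p q := by
    rw [← legendreSym.mul]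
    congr 1
    ring
  have hpodd : p % 4 = 1 ∨ p % 4 = 3 := by
    have := hp.out.eq_two_or_odd
    omega
  have hqp' : legendreSym q p = -1 := by
    rcases hpodd with h1 | h3
    · have hχp : legendreSym p (-1) = 1 := by
        rw [legendreSym.at_neg_one hp2, ZMod.χ₄_nat_one_mod_four h1]
      rw [hleg, hχp, one_mul] at hmul
      rw [legendreSym.quadratic_reciprocity_one_mod_four h1 hq2, ← hmul]
    · have hχp : legendreSym p (-1) = -1 := by
        rw [legendreSym.at_neg_one hp2, ZMod.χ₄_nat_three_mod_four h3]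
      rw [hleg, hχp] at hmul
      have h1 : legendreSym p q = 1 := by linarith
      rw [legendreSym.quadratic_reciprocity_three_mod_four h3 hq4, h1]
  have hsq : legendreSym q (-(p : ℤ)) = 1 := by
    have h1 : legendreSym q (-(p : ℤ)) = legendreSym q (-1) * legendreSym q p := by
      rw [← legendreSym.mul]
      congr 1
      ring
    rw [h1, hχq, hqp']
    norm_num
  have hp0 : (((-(p : ℤ)) : ℤ) : ZMod q) ≠ 0 := by
    push_cast
    rw [neg_ne_zero]
    intro h
    have h1 := (ZMod.natCast_eq_zero_iff p q).mp h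
    exact hqp ((Nat.prime_dvd_prime_iff_eq hq hp.out).mp h1)
  obtain ⟨s, hs⟩ := (legendreSym.eq_one_iff q hp0).mp hsq
  have hdvd : (q : ℤ) ∣ (s.val : ℤ) ^ 2 + p := by
    rw [← ZMod.intCast_zmod_eq_zero_iff_dvd]
    push_cast at hs ⊢
    rw [ZMod.natCast_zmod_val]
    linear_combination -hs
  obtain ⟨c, hc⟩ := hdvd
  refine ⟨q, hq, hq4, hqp, hleg, (s.val : ℤ), c, ?_, ?_⟩
  · have hpos : (0 : ℤ) < (s.val : ℤ) ^ 2 + p := by
      have := hp.out.pos
      positivity
    rw [hc] at hpos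
    have hq0 : (0 : ℤ) < q := by exact_mod_cast hq.pos
    exact (mul_pos_iff_of_pos_left hq0).mp hpos
  · linarith

/-- **TH1.** The parameters of the quaternary form, in the shape consumed by TH2/TH4
(`q = 4 * k - 1`). -/
theorem exists_params (p : ℕ) [hp : Fact p.Prime] (hp5 : 5 ≤ p) :
    ∃ k t c : ℤ, 0 < k ∧ 0 < c ∧ (p : ℤ) = (4 * k - 1) * c - t ^ 2 ∧
      ∀ a b : ZMod p, a ^ 2 + ((4 * k - 1 : ℤ) : ZMod p) * b ^ 2 = 0 → a = 0 ∧ b = 0 := by
  obtain ⟨q, hq, hq4, hqp, hleg, t, c, hc, hpc⟩ := exists_prime_params p hp5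
  have hk : (4 * (((q + 1) / 4 : ℕ) : ℤ) - 1) = (q : ℤ) := by omega
  refine ⟨((q + 1) / 4 : ℕ), t, c, ?_, hc, ?_, ?_⟩
  · omega
  · rw [hk]
    exact hpc
  · intro a b hab
    rw [hk] at hab
    have hns : ¬ IsSquare (-(q : ZMod p)) := by
      rw [legendreSym.eq_neg_one_iff] at hleg
      simpa using hleg
    by_cases hb : b = 0
    · subst hb
      simp at hab
      exact ⟨hab, rfl⟩
    · exfalso
      apply hns
      refine ⟨a / b, ?_⟩
      field_simp
      push_cast at hab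
      linear_combination -hab

end Fermat.Agent.S16.H77
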