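import Mathlib

/-!
# S16 (TH2): algebra of the quaternary form `Q4` (helper75)

`Q4 k t c x = f(x₀,x₁) + t (x₁ x₂ - x₀ x₃) + c f(x₂,x₃)`, `f(a,b) = a² + a b + k b²`
(so `q = 4k - 1` in the notation of the plan, and `p = q c - t²`).
-/

set_option autoImplicit false

namespace Fermat.Agent.S16.H75

open Matrix

section Ring

variable {R : Type*} [CommRing R]

/-- The quaternary form. -/
def Q4 (k t c : R) (x : Fin 4 → R) : R :=
  x 0 ^ 2 + x 0 * x 1 + k * x 1 ^ 2 + t * (x 1 * x 2 - x 0 * x 3)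
    + c * (x 2 ^ 2 + x 2 * x 3 + k * x 3 ^ 2)

/-- The Gram matrix of `Q4`. -/
def A4 (k t c : R) : Matrix (Fin 4) (Fin 4) R :=
  !![2, 1, 0, -t; 1, 2 * k, t, 0; 0, t, 2 * c, c; -t, 0, c, 2 * c * k]

/-- `p` times the inverse of the Gram matrix. -/
def A4' (k t c : R) : Matrix (Fin 4) (Fin 4) R :=
  !![2 * c * k, -c, 0, t; -c, 2 * c, -t, 0; 0, -t, 2 * k, -1; t, 0, -1, 2]

/-- The signed permutation identifying `Q4` with its `p`-dual. -/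
def iota4 (y : Fin 4 → R) : Fin 4 → R := ![y 3, -y 2, y 1, -y 0]

/-- The "level" `p = (4k-1) c - t²`. -/
def P4 (k t c : R) : R := (4 * k - 1) * c - t ^ 2

set_option linter.unnecessarySeqFocus false in
theorem A4_mulVec (k t c : R) (x : Fin 4 → R) :
    A4 k t c *ᵥ x = ![2 * x 0 + x 1 - t * x 3, x 0 + 2 * k * x 1 + t * x 2,
      t * x 1 + 2 * c * x 2 + c * x 3, -t * x 0 + c * x 2 + 2 * c * k * x 3] := by
  ext i
  fin_cases i <;> simp [A4, Matrix.mulVec, dotProduct, Fin.sum_univ_four] <;> ring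

set_option linter.unnecessarySeqFocus false in
theorem A4'_mulVec (k t c : R) (x : Fin 4 → R) :
    A4' k t c *ᵥ x = ![2 * c * k * x 0 - c * x 1 + t * x 3, -c * x 0 + 2 * c * x 1 - t * x 2,
      -t * x 1 + 2 * k * x 2 - x 3, t * x 0 - x 2 + 2 * x 3] := by
  ext i
  fin_cases i <;> simp [A4', Matrix.mulVec, dotProduct, Fin.sum_univ_four] <;> ring

theorem A4_transpose (k t c : R) : (A4 k t c)ᵀ = A4 k t c := by
  ext i j
  fin_cases i <;> fin_cases j <;> simp [A4, Matrix.transpose]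

theorem A4'_transpose (k t c : R) : (A4' k t c)ᵀ = A4' k t c := by
  ext i j
  fin_cases i <;> fin_cases j <;> simp [A4', Matrix.transpose]

theorem Q4_add (k t c : R) (x y : Fin 4 → R) :
    Q4 k t c (x + y) = Q4 k t c x + Q4 k t c y + x ⬝ᵥ (A4 k t c *ᵥ y) := by
  rw [A4_mulVec]
  simp [Q4, dotProduct, Fin.sum_univ_four]
  ring

theorem two_mul_Q4 (k t c : R) (x : Fin 4 → R) :
    2 * Q4 k t c x = x ⬝ᵥ (A4 k t c *ᵥ x) := by
  rw [A4_mulVec]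
  simp [Q4, dotProduct, Fin.sum_univ_four]
  ring

theorem Q4_neg (k t c : R) (x : Fin 4 → R) : Q4 k t c (-x) = Q4 k t c x := by
  simp [Q4]

theorem Q4_smul (k t c a : R) (x : Fin 4 → R) : Q4 k t c (a • x) = a ^ 2 * Q4 k t c x := by
  simp [Q4]
  ring

theorem Q4_zero (k t c : R) : Q4 k t c 0 = 0 := by
  simp [Q4]

theorem A4_mul_A4' (k t c : R) : A4 k t c * A4' k t c = P4 k t c • (1 : Matrix (Fin 4) (Fin 4) R) := by
  ext i j
  fin_cases i <;> fin_cases j <;>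
    simp [A4, A4', P4, Matrix.mul_apply, Fin.sum_univ_four] <;> ring

theorem A4'_mul_A4 (k t c : R) : A4' k t c * A4 k t c = P4 k t c • (1 : Matrix (Fin 4) (Fin 4) R) := by
  ext i j
  fin_cases i <;> fin_cases j <;>
    simp [A4, A4', P4, Matrix.mul_apply, Fin.sum_univ_four] <;> ring

theorem A4_mulVec_A4'_mulVec (k t c : R) (x : Fin 4 → R) :
    A4 k t c *ᵥ (A4' k t c *ᵥ x) = P4 k t c • x := by
  rw [Matrix.mulVec_mulVec, A4_mul_A4', Matrix.smul_mulVec, Matrix.one_mulVec]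

theorem A4'_mulVec_A4_mulVec (k t c : R) (x : Fin 4 → R) :
    A4' k t c *ᵥ (A4 k t c *ᵥ x) = P4 k t c • x := by
  rw [Matrix.mulVec_mulVec, A4'_mul_A4, Matrix.smul_mulVec, Matrix.one_mulVec]

/-- `p * Q^*(y) = Q (ι y)`, written without division: `yᵀ A' y = 2 Q (ι y)`. -/
theorem dotProduct_A4'_mulVec (k t c : R) (y : Fin 4 → R) :
    y ⬝ᵥ (A4' k t c *ᵥ y) = 2 * Q4 k t c (iota4 y) := by
  rw [A4'_mulVec]
  simp [Q4, iota4, dotProduct, Fin.sum_univ_four]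
  ring

theorem iota4_iota4 (y : Fin 4 → R) : iota4 (iota4 y) = -y := by
  ext i
  fin_cases i <;> simp [iota4]

theorem iota4_bijective : Function.Bijective (iota4 : (Fin 4 → R) → (Fin 4 → R)) := by
  refine Function.bijective_iff_has_inverse.mpr ⟨fun y => -iota4 y, fun y => ?_, fun y => ?_⟩
  · ext i
    fin_cases i <;> simp [iota4]
  · ext i
    fin_cases i <;> simp [iota4]

/-- The sum-of-squares decomposition of `Q4` (times `4 (4k-1)`). -/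
theorem Q4_sos (k t c : R) (x : Fin 4 → R) :
    4 * (4 * k - 1) * Q4 k t c x =
      (4 * k - 1) * (2 * x 0 + x 1 - t * x 3) ^ 2
        + ((4 * k - 1) * x 1 + t * (2 * x 2 + x 3)) ^ 2
        + P4 k t c * (2 * x 2 + x 3) ^ 2 + P4 k t c * (4 * k - 1) * x 3 ^ 2 := by
  simp only [Q4, P4]
  ring

theorem det_A4 (k t c : R) : (A4 k t c).det = P4 k t c ^ 2 := by
  rw [Matrix.det_succ_row_zero]
  simp [A4, P4, Fin.sum_univ_four, Matrix.det_fin_three, Fin.succAbove, Matrix.submatrix]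
  ring

/-- Polarised form of `Q4_sos`. -/
theorem Q4_polar_sos (k t c : R) (x y : Fin 4 → R) :
    2 * (4 * k - 1) * (x ⬝ᵥ (A4 k t c *ᵥ y)) =
      (4 * k - 1) * ((2 * x 0 + x 1 - t * x 3) * (2 * y 0 + y 1 - t * y 3))
        + ((4 * k - 1) * x 1 + t * (2 * x 2 + x 3)) * ((4 * k - 1) * y 1 + t * (2 * y 2 + y 3))
        + P4 k t c * ((2 * x 2 + x 3) * (2 * y 2 + y 3)) + P4 k t c * (4 * k - 1) * (x 3 * y 3) := by
  rw [A4_mulVec]
  simp [P4, dotProduct, Fin.sum_univ_four]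
  ring

end Ring

section Real

private theorem sos_aux (q t p x0 x1 x2 x3 : ℝ) (hq : 1 ≤ q) (hp : 1 ≤ p) :
    x0 ^ 2 + x1 ^ 2 + x2 ^ 2 + x3 ^ 2 ≤
      (5 + 3 * t ^ 2) * (q * (2 * x0 + x1 - t * x3) ^ 2 + (q * x1 + t * (2 * x2 + x3)) ^ 2
        + p * (2 * x2 + x3) ^ 2 + p * q * x3 ^ 2) := by
  set L1 := 2 * x0 + x1 - t * x3 with hL1
  set L2 := q * x1 + t * (2 * x2 + x3) with hL2
  set L3 := 2 * x2 + x3 with hL3
  have hS : L1 ^ 2 + L2 ^ 2 + L3 ^ 2 + x3 ^ 2 ≤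
      q * L1 ^ 2 + L2 ^ 2 + p * L3 ^ 2 + p * q * x3 ^ 2 := by
    have h1 : L1 ^ 2 ≤ q * L1 ^ 2 := le_mul_of_one_le_left (sq_nonneg _) hq
    have h3 : L3 ^ 2 ≤ p * L3 ^ 2 := le_mul_of_one_le_left (sq_nonneg _) hp
    have h4 : x3 ^ 2 ≤ p * q * x3 ^ 2 :=
      le_mul_of_one_le_left (sq_nonneg _) (one_le_mul_of_one_le_of_one_le hp hq)
    linarith
  have h2 : x2 ^ 2 ≤ (L3 ^ 2 + x3 ^ 2) / 2 := by
    have : x2 = (L3 - x3) / 2 := by rw [hL3]; ring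
    rw [this]
    nlinarith [sq_nonneg (L3 + x3)]
  have h1 : x1 ^ 2 ≤ (1 + t ^ 2) * (L2 ^ 2 + L3 ^ 2) := by
    have e : q * x1 = L2 - t * L3 := by rw [hL2]; ring
    have h : (q * x1) ^ 2 ≤ (1 + t ^ 2) * (L2 ^ 2 + L3 ^ 2) := by
      rw [e]
      nlinarith [sq_nonneg (t * L2 + L3)]
    have h' : x1 ^ 2 ≤ (q * x1) ^ 2 := by
      rw [mul_pow]
      exact le_mul_of_one_le_left (sq_nonneg _) (by nlinarith)
    linarith
  have h0 : x0 ^ 2 ≤ 3 / 4 * (L1 ^ 2 + x1 ^ 2 + t ^ 2 * x3 ^ 2) := by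
    have : x0 = (L1 - x1 + t * x3) / 2 := by rw [hL1]; ring
    rw [this]
    nlinarith [sq_nonneg (L1 + x1), sq_nonneg (L1 - t * x3), sq_nonneg (x1 + t * x3)]
  have ht : 0 ≤ t ^ 2 := sq_nonneg t
  have n1 : 0 ≤ L1 ^ 2 := sq_nonneg _
  have n2 : 0 ≤ L2 ^ 2 := sq_nonneg _
  have n3 : 0 ≤ L3 ^ 2 := sq_nonneg _
  have n4 : 0 ≤ x3 ^ 2 := sq_nonneg _
  have key : x0 ^ 2 + x1 ^ 2 + x2 ^ 2 + x3 ^ 2 ≤
      (5 + 3 * t ^ 2) * (L1 ^ 2 + L2 ^ 2 + L3 ^ 2 + x3 ^ 2) := by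
    nlinarith [mul_nonneg ht n1, mul_nonneg ht n2, mul_nonneg ht n3, mul_nonneg ht n4]
  calc x0 ^ 2 + x1 ^ 2 + x2 ^ 2 + x3 ^ 2
      ≤ (5 + 3 * t ^ 2) * (L1 ^ 2 + L2 ^ 2 + L3 ^ 2 + x3 ^ 2) := key
    _ ≤ _ := mul_le_mul_of_nonneg_left hS (by positivity)

/-- Explicit lower bound: `Q4` dominates the sum of squares. -/
theorem sum_sq_le_Q4 (k t c : ℝ) (hk : 1 ≤ 4 * k - 1) (hp : 1 ≤ P4 k t c) (x : Fin 4 → ℝ) :
    ∑ i, x i ^ 2 ≤ (5 + 3 * t ^ 2) * (4 * (4 * k - 1)) * Q4 k t c x := by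
  have h := sos_aux (4 * k - 1) t (P4 k t c) (x 0) (x 1) (x 2) (x 3) hk hp
  rw [Fin.sum_univ_four, mul_assoc, Q4_sos]
  exact h

/-- Positive definiteness with a constant (what Gaussian summability needs). -/
theorem exists_pos_mul_sum_sq_le_Q4 (k t c : ℤ) (hk : 0 < k) (hp : 0 < P4 k t c) :
    ∃ δ : ℝ, 0 < δ ∧ ∀ x : Fin 4 → ℝ, δ * ∑ i, x i ^ 2 ≤ Q4 (k : ℝ) (t : ℝ) (c : ℝ) x := by
  have hk' : (1 : ℝ) ≤ 4 * (k : ℝ) - 1 := by
    have : (1 : ℝ) ≤ (k : ℝ) := by exact_mod_cast hk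
    linarith
  have hp' : (1 : ℝ) ≤ P4 (k : ℝ) (t : ℝ) (c : ℝ) := by
    have h1 : (1 : ℤ) ≤ P4 k t c := hp
    have h2 : ((P4 k t c : ℤ) : ℝ) = P4 (k : ℝ) (t : ℝ) (c : ℝ) := by
      simp [P4]
    rw [← h2]
    exact_mod_cast h1
  have hC : (0 : ℝ) < (5 + 3 * (t : ℝ) ^ 2) * (4 * (4 * (k : ℝ) - 1)) := by positivity
  refine ⟨((5 + 3 * (t : ℝ) ^ 2) * (4 * (4 * (k : ℝ) - 1)))⁻¹, inv_pos.mpr hC, fun x => ?_⟩
  have h := sum_sq_le_Q4 (k : ℝ) (t : ℝ) (c : ℝ) hk' hp' x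
  rw [inv_mul_le_iff₀ hC]
  exact h

end Real

section Int

theorem Q4_cast_real (k t c : ℤ) (x : Fin 4 → ℤ) :
    ((Q4 k t c x : ℤ) : ℝ) = Q4 (k : ℝ) (t : ℝ) (c : ℝ) (fun i => (x i : ℝ)) := by
  simp [Q4]

theorem Q4_nonneg (k t c : ℤ) (hk : 0 < k) (hp : 0 < P4 k t c) (x : Fin 4 → ℤ) :
    0 ≤ Q4 k t c x := by
  obtain ⟨δ, hδ, h⟩ := exists_pos_mul_sum_sq_le_Q4 k t c hk hp
  have h1 := h (fun i => (x i : ℝ))
  rw [← Q4_cast_real] at h1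
  have h2 : (0 : ℝ) ≤ δ * ∑ i, ((x i : ℤ) : ℝ) ^ 2 :=
    mul_nonneg hδ.le (Finset.sum_nonneg fun i _ => sq_nonneg _)
  have : (0 : ℝ) ≤ ((Q4 k t c x : ℤ) : ℝ) := le_trans h2 h1
  exact_mod_cast this

theorem Q4_eq_zero_iff (k t c : ℤ) (hk : 0 < k) (hp : 0 < P4 k t c) (x : Fin 4 → ℤ) :
    Q4 k t c x = 0 ↔ x = 0 := by
  constructor
  · intro h0
    obtain ⟨δ, hδ, h⟩ := exists_pos_mul_sum_sq_le_Q4 k t c hk hp
    have h1 := h (fun i => (x i : ℝ))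
    rw [← Q4_cast_real, h0, Int.cast_zero] at h1
    have h2 : ∑ i, ((x i : ℤ) : ℝ) ^ 2 ≤ 0 := by
      by_contra hc
      have := mul_pos hδ (not_le.mp hc)
      linarith
    have h3 : ∀ i, ((x i : ℤ) : ℝ) ^ 2 = 0 := by
      have := (Finset.sum_eq_zero_iff_of_nonneg (fun i _ => sq_nonneg ((x i : ℤ) : ℝ))).mp
        (le_antisymm h2 (Finset.sum_nonneg fun i _ => sq_nonneg _))
      intro i
      exact this i (Finset.mem_univ i)
    ext i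
    have := h3 i
    simpa using this
  · rintro rfl
    exact Q4_zero k t c

theorem Q4_pos (k t c : ℤ) (hk : 0 < k) (hp : 0 < P4 k t c) (x : Fin 4 → ℤ) (hx : x ≠ 0) :
    0 < Q4 k t c x :=
  lt_of_le_of_ne (Q4_nonneg k t c hk hp x) fun h => hx ((Q4_eq_zero_iff k t c hk hp x).mp h.symm)

/-- Level sets of `Q4` on `ℤ⁴` are finite. -/
theorem finite_Q4_le (k t c : ℤ) (hk : 0 < k) (hp : 0 < P4 k t c) (n : ℤ) :
    {x : Fin 4 → ℤ | Q4 k t c x ≤ n}.Finite := by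
  obtain ⟨δ, hδ, h⟩ := exists_pos_mul_sum_sq_le_Q4 k t c hk hp
  obtain ⟨M, hM⟩ := exists_nat_gt ((n : ℝ) / δ)
  refine Set.Finite.subset (Set.Finite.pi' (fun _ : Fin 4 => Set.finite_Icc (-(M + 1 : ℤ)) (M + 1))) ?_
  intro x hx
  have hx : Q4 k t c x ≤ n := hx
  intro i
  have h1 := h (fun i => (x i : ℝ))
  rw [← Q4_cast_real] at h1
  have h2 : ((x i : ℤ) : ℝ) ^ 2 ≤ ∑ j, ((x j : ℤ) : ℝ) ^ 2 :=
    Finset.single_le_sum (f := fun j => ((x j : ℤ) : ℝ) ^ 2) (fun j _ => sq_nonneg _)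
      (Finset.mem_univ i)
  have h3 : ((Q4 k t c x : ℤ) : ℝ) ≤ (n : ℝ) := by exact_mod_cast hx
  have h4 : ((x i : ℤ) : ℝ) ^ 2 ≤ (n : ℝ) / δ := by
    rw [le_div_iff₀ hδ]
    nlinarith
  have h5 : ((x i : ℤ) : ℝ) ^ 2 < (M : ℝ) := lt_of_le_of_lt h4 hM
  have h6 : (x i) ^ 2 < (M : ℤ) := by exact_mod_cast h5
  have h7 : |x i| ≤ (M : ℤ) := by
    by_contra hc
    have hc := not_le.mp hc
    have : (M : ℤ) ^ 2 < (x i) ^ 2 := by
      rw [← sq_abs (x i)]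
      exact pow_lt_pow_left₀ hc (by positivity) (by norm_num)
    have hM0 : (0 : ℤ) ≤ M := by positivity
    nlinarith [abs_nonneg (x i)]
  rw [abs_le] at h7
  exact ⟨by linarith [h7.1], by linarith [h7.2]⟩

theorem finite_Q4_eq (k t c : ℤ) (hk : 0 < k) (hp : 0 < P4 k t c) (n : ℤ) :
    {x : Fin 4 → ℤ | Q4 k t c x = n}.Finite :=
  (finite_Q4_le k t c hk hp n).subset fun _ hx => le_of_eq hx

end Int

end Fermat.Agent.S16.H75
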