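import Mathlib

/-!
# S16 / TH5: analytic facts about theta series of `ℕ`-valued functions with polynomial growth

For `Q : ι → ℕ` with finite sublevel sets of polynomial size, the series
`thetaQ Q z = ∑' x, exp (2 π i Q(x) z)` converges on the upper half plane, is holomorphic,
`1`-periodic, bounded on `{Im z ≥ c}`, and has the `q`-expansion `∑ r_Q(k) q^k` where
`r_Q(k) = #{x | Q x = k}`.
-/

namespace Fermat.Agent.S16.H58

open Complex
open scoped Real Manifold

variable {ι : Type*}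

/-- The number of representations of `k` by `Q`. -/
noncomputable def repCount (Q : ι → ℕ) (k : ℕ) : ℕ := Nat.card {x // Q x = k}

/-- The theta series of `Q`. -/
noncomputable def thetaQ (Q : ι → ℕ) (z : ℂ) : ℂ := ∑' x : ι, cexp (2 * π * I * (Q x : ℂ) * z)

/-- Finite sublevel sets of polynomially bounded size. -/
structure PolyGrowth (Q : ι → ℕ) : Prop where
  finite : ∀ N : ℕ, {x | Q x ≤ N}.Finite
  bound : ∃ C m : ℕ, ∀ N : ℕ, Nat.card {x // Q x ≤ N} ≤ C * (N + 1) ^ m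

theorem norm_cexp_two_pi_I_nat_mul (n : ℕ) (z : ℂ) :
    ‖cexp (2 * π * I * (n : ℂ) * z)‖ = Real.exp (-2 * π * z.im) ^ n := by
  rw [Complex.norm_exp, ← Real.exp_nat_mul]
  congr 1
  have : (2 * (π : ℂ) * I * (n : ℂ) * z).re = -(2 * π * n * z.im) := by
    simp [Complex.mul_re, Complex.mul_im]
  rw [this]
  ring

theorem cexp_two_pi_I_nat_mul (n : ℕ) (z : ℂ) :
    cexp (2 * π * I * (n : ℂ) * z) = Function.Periodic.qParam 1 z ^ n := by
  rw [Function.Periodic.qParam, ← Complex.exp_nat_mul]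
  congr 1
  push_cast
  ring

/-- The sum of a constant over a finite type. -/
theorem hasSum_const_finite {α E : Type*} [Finite α] [AddCommMonoid E] [TopologicalSpace E]
    (c : E) : HasSum (fun _ : α ↦ c) (Nat.card α • c) := by
  classical
  let _ : Fintype α := Fintype.ofFinite α
  have := hasSum_fintype (fun _ : α ↦ c)
  simpa [Finset.sum_const, Nat.card_eq_fintype_card] using this

namespace PolyGrowth

variable {Q : ι → ℕ} (hQ : PolyGrowth Q)

include hQ

theorem finite_fiber (k : ℕ) : Finite {x // Q x = k} :=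
  ((hQ.finite k).subset (fun x (hx : Q x = k) ↦ (le_of_eq hx : Q x ≤ k))).to_subtype

theorem finite_sublevel (N : ℕ) : Finite {x // Q x ≤ N} := (hQ.finite N).to_subtype

theorem repCount_le_sublevel (k : ℕ) : repCount Q k ≤ Nat.card {x // Q x ≤ k} := by
  have := hQ.finite_sublevel k
  exact Nat.card_le_card_of_injective
    (fun x : {x // Q x = k} ↦ (⟨x.1, le_of_eq x.2⟩ : {x // Q x ≤ k}))
    (fun a b hab ↦ Subtype.ext (congrArg (fun y : {x // Q x ≤ k} ↦ y.1) hab))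

/-- The weighted geometric series of the representation numbers converges. -/
theorem summable_repCount_mul_pow {r : ℝ} (hr0 : 0 < r) (hr1 : r < 1) :
    Summable (fun k : ℕ ↦ (repCount Q k : ℝ) * r ^ k) := by
  obtain ⟨C, m, hCm⟩ := hQ.bound
  have h1 : Summable (fun n : ℕ ↦ ((n : ℝ)) ^ m * r ^ n) :=
    summable_pow_mul_geometric_of_norm_lt_one m (by rwa [Real.norm_of_nonneg hr0.le])
  have h2 : Summable (fun n : ℕ ↦ ((n + 1 : ℕ) : ℝ) ^ m * r ^ (n + 1)) :=
    (summable_nat_add_iff 1).mpr h1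
  have h3 : Summable (fun n : ℕ ↦ (C : ℝ) * r⁻¹ * (((n + 1 : ℕ) : ℝ) ^ m * r ^ (n + 1))) :=
    h2.mul_left _
  refine Summable.of_nonneg_of_le (fun k ↦ by positivity) (fun k ↦ ?_) h3
  have hk : (repCount Q k : ℝ) ≤ (C : ℝ) * ((k + 1 : ℕ) : ℝ) ^ m := by
    have := (hQ.repCount_le_sublevel k).trans (hCm k)
    exact_mod_cast this
  calc (repCount Q k : ℝ) * r ^ k ≤ (C : ℝ) * ((k + 1 : ℕ) : ℝ) ^ m * r ^ k :=
        mul_le_mul_of_nonneg_right hk (by positivity)
    _ = (C : ℝ) * r⁻¹ * (((k + 1 : ℕ) : ℝ) ^ m * r ^ (k + 1)) := by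
        rw [pow_succ]
        field_simp

/-- The theta series regrouped over the fibres of `Q`. -/
theorem hasSum_sigma {z : ℂ} (hz : 0 < z.im) :
    HasSum (fun p : Σ k : ℕ, {x // Q x = k} ↦ cexp (2 * π * I * (p.1 : ℂ) * z))
      (∑' p : Σ k : ℕ, {x // Q x = k}, cexp (2 * π * I * (p.1 : ℂ) * z)) := by
  apply Summable.hasSum
  apply Summable.of_norm
  have hr0 : 0 < Real.exp (-2 * π * z.im) := Real.exp_pos _
  have hr1 : Real.exp (-2 * π * z.im) < 1 := by
    rw [Real.exp_lt_one_iff]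
    have := Real.pi_pos
    nlinarith
  rw [summable_sigma_of_nonneg (fun _ ↦ norm_nonneg _)]
  refine ⟨fun k ↦ ?_, ?_⟩
  · have := hQ.finite_fiber k
    exact Summable.of_finite
  · have hsum := hQ.summable_repCount_mul_pow hr0 hr1
    refine hsum.congr fun k ↦ ?_
    have := hQ.finite_fiber k
    have h := (hasSum_const_finite (α := {x // Q x = k})
      ‖cexp (2 * π * I * (k : ℂ) * z)‖).tsum_eq
    rw [h, norm_cexp_two_pi_I_nat_mul, nsmul_eq_mul]
    rfl

omit hQ in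
theorem comp_sigmaFiberEquiv (z : ℂ) :
    (fun x : ι ↦ cexp (2 * π * I * (Q x : ℂ) * z)) ∘ (Equiv.sigmaFiberEquiv Q) =
      fun p : Σ k : ℕ, {x // Q x = k} ↦ cexp (2 * π * I * (p.1 : ℂ) * z) := by
  funext p
  obtain ⟨k, x, hx⟩ := p
  simp [Equiv.sigmaFiberEquiv, hx]

/-- (T1) The theta series converges on the upper half plane. -/
theorem summable_term {z : ℂ} (hz : 0 < z.im) :
    Summable (fun x : ι ↦ cexp (2 * π * I * (Q x : ℂ) * z)) := by
  rw [← (Equiv.sigmaFiberEquiv Q).summable_iff, comp_sigmaFiberEquiv]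
  exact (hQ.hasSum_sigma hz).summable

theorem summable_norm_term {z : ℂ} (hz : 0 < z.im) :
    Summable (fun x : ι ↦ Real.exp (-2 * π * z.im) ^ Q x) := by
  have := (hQ.summable_term hz).norm
  simpa only [norm_cexp_two_pi_I_nat_mul] using this

/-- (T2) The `q`-expansion of the theta series: regrouping by the value of `Q`. -/
theorem hasSum_repCount {z : ℂ} (hz : 0 < z.im) :
    HasSum (fun k : ℕ ↦ (repCount Q k : ℂ) * cexp (2 * π * I * (k : ℂ) * z)) (thetaQ Q z) := by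
  have h := hQ.hasSum_sigma hz
  have htot : (∑' p : Σ k : ℕ, {x // Q x = k}, cexp (2 * π * I * (p.1 : ℂ) * z)) =
      thetaQ Q z := by
    rw [thetaQ, ← (Equiv.sigmaFiberEquiv Q).tsum_eq]
    exact tsum_congr fun p ↦ (congrFun (comp_sigmaFiberEquiv (Q := Q) z) p).symm
  rw [htot] at h
  refine (h.sigma fun k ↦ ?_)
  have := hQ.finite_fiber k
  have h2 := hasSum_const_finite (α := {x // Q x = k}) (cexp (2 * π * I * (k : ℂ) * z))
  rw [nsmul_eq_mul] at h2
  exact h2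

/-- (T2') The `q`-expansion in terms of `Function.Periodic.qParam 1`. -/
theorem hasSum_qParam {z : ℂ} (hz : 0 < z.im) :
    HasSum (fun k : ℕ ↦ (repCount Q k : ℂ) • Function.Periodic.qParam 1 z ^ k) (thetaQ Q z) := by
  have := hQ.hasSum_repCount hz
  simpa only [cexp_two_pi_I_nat_mul, smul_eq_mul] using this

omit hQ in
/-- (T4) The theta series is `1`-periodic. -/
theorem thetaQ_add_one (Q : ι → ℕ) (z : ℂ) : thetaQ Q (z + 1) = thetaQ Q z := by
  unfold thetaQ
  refine tsum_congr fun x ↦ ?_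
  have : 2 * (π : ℂ) * I * (Q x : ℂ) * (z + 1) =
      2 * π * I * (Q x : ℂ) * z + (Q x : ℂ) * (2 * π * I) := by ring
  rw [this, Complex.exp_add, Complex.exp_nat_mul_two_pi_mul_I, mul_one]

/-- (T5) The theta series is bounded on every half plane `{c ≤ Im z}`, `c > 0`. -/
theorem exists_bound {c : ℝ} (hc : 0 < c) :
    ∃ B : ℝ, ∀ z : ℂ, c ≤ z.im → ‖thetaQ Q z‖ ≤ B := by
  have hcI : 0 < ((c : ℂ) * I).im := by simpa using hc
  have hsum := hQ.summable_norm_term hcI
  have hcim : ((c : ℂ) * I).im = c := by simp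
  rw [hcim] at hsum
  refine ⟨∑' x : ι, Real.exp (-2 * π * c) ^ Q x, fun z hz ↦ ?_⟩
  have hz0 : 0 < z.im := lt_of_lt_of_le hc hz
  have hn := hQ.summable_norm_term hz0
  have h1 : ‖thetaQ Q z‖ ≤ ∑' x : ι, ‖cexp (2 * π * I * (Q x : ℂ) * z)‖ :=
    norm_tsum_le_tsum_norm (hQ.summable_term hz0).norm
  refine h1.trans ?_
  simp only [norm_cexp_two_pi_I_nat_mul]
  refine hn.tsum_le_tsum (fun x ↦ ?_) hsum
  apply pow_le_pow_left₀ (Real.exp_pos _).le
  apply Real.exp_le_exp.mpr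
  have := Real.pi_pos
  nlinarith

/-- (T3) The theta series is holomorphic on the upper half plane. -/
theorem differentiableOn_thetaQ : DifferentiableOn ℂ (thetaQ Q) {z : ℂ | 0 < z.im} := by
  intro z₀ hz₀
  have hz₀' : 0 < z₀.im := hz₀
  set c := z₀.im / 2 with hc
  have hc0 : 0 < c := by positivity
  have hU : IsOpen {z : ℂ | c < z.im} := isOpen_lt continuous_const Complex.continuous_im
  have hcI : 0 < ((c : ℂ) * I).im := by simpa using hc0
  have hsum := hQ.summable_norm_term hcI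
  have hcim : ((c : ℂ) * I).im = c := by simp
  rw [hcim] at hsum
  have hdiff : DifferentiableOn ℂ
      (fun w : ℂ ↦ ∑' x : ι, cexp (2 * π * I * (Q x : ℂ) * w)) {z : ℂ | c < z.im} := by
    refine differentiableOn_tsum_of_summable_norm hsum (fun x ↦ ?_) hU (fun x w hw ↦ ?_)
    · exact (Complex.differentiable_exp.comp
        (differentiable_const _ |>.mul differentiable_id)).differentiableOn
    · rw [norm_cexp_two_pi_I_nat_mul]
      apply pow_le_pow_left₀ (Real.exp_pos _).le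
      apply Real.exp_le_exp.mpr
      have := Real.pi_pos
      have hw' : c < w.im := hw
      nlinarith
  have hmem : z₀ ∈ {z : ℂ | c < z.im} := by
    show c < z₀.im
    rw [hc]
    linarith
  exact ((hdiff z₀ hmem).differentiableAt (hU.mem_nhds hmem)).differentiableWithinAt

end PolyGrowth

/-! ### Representation numbers -/

/-- A finite type with a fixed-point-free involution has even cardinality. -/
theorem even_card_of_involutive {α : Type*} [Finite α] (σ : α → α)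
    (hσ : Function.Involutive σ) (hfix : ∀ a, σ a ≠ a) : Even (Nat.card α) := by
  classical
  let _ : Fintype α := Fintype.ofFinite α
  let f : Function.End α := σ
  have hpow : f ^ 2 ^ 1 = 1 := by
    rw [pow_one, pow_two]
    funext a
    exact hσ a
  have : Fact (Nat.Prime 2) := ⟨Nat.prime_two⟩
  have h := Equiv.Perm.card_fixedPoints_modEq (p := 2) (n := 1) (f := f) hpow
  have hempty : Fintype.card (Function.fixedPoints f) = 0 := by
    rw [Fintype.card_eq_zero_iff]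
    exact ⟨fun a ↦ hfix a.1 a.2⟩
  rw [hempty] at h
  rw [Nat.card_eq_fintype_card, Nat.even_iff]
  exact h

/-- (T6a) If `Q` vanishes at exactly one point then `r_Q(0) = 1`. -/
theorem repCount_zero_eq_one {Q : ι → ℕ} {x₀ : ι} (h : ∀ x, Q x = 0 ↔ x = x₀) :
    repCount Q 0 = 1 := by
  rw [repCount, Nat.card_eq_one_iff_unique]
  refine ⟨⟨fun a b ↦ Subtype.ext (((h a.1).mp a.2).trans ((h b.1).mp b.2).symm)⟩,
    ⟨⟨x₀, (h x₀).mpr rfl⟩⟩⟩

/-- (T6b) If `Q` is invariant under an involution whose fixed points all have `Q = 0`, then the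
representation numbers `r_Q(k)`, `k ≥ 1`, are even. -/
theorem PolyGrowth.even_repCount {Q : ι → ℕ} (hQ : PolyGrowth Q) (σ : ι → ι)
    (hσ : Function.Involutive σ) (hQσ : ∀ x, Q (σ x) = Q x) (hfix : ∀ x, σ x = x → Q x = 0)
    {k : ℕ} (hk : k ≠ 0) : Even (repCount Q k) := by
  have := hQ.finite_fiber k
  refine even_card_of_involutive (α := {x // Q x = k})
    (fun a ↦ ⟨σ a.1, (hQσ a.1).trans a.2⟩) (fun a ↦ Subtype.ext (hσ a.1)) (fun a ha ↦ ?_)
  have h1 : σ a.1 = a.1 := congrArg Subtype.val ha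
  exact hk (a.2.symm.trans (hfix a.1 h1))

/-! ### Integer-valued positive definite forms on `ℤ^n` -/

section IntValued

variable {n : ℕ}

/-- The theta series of an integer-valued function. -/
noncomputable def thetaZ {κ : Type*} (Qz : κ → ℤ) (z : ℂ) : ℂ :=
  ∑' x : κ, cexp (2 * π * I * (Qz x : ℂ) * z)

/-- The number of representations of `k` by an integer-valued function. -/
noncomputable def repCountZ {κ : Type*} (Qz : κ → ℤ) (k : ℕ) : ℕ :=
  Nat.card {x // Qz x = (k : ℤ)}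

theorem abs_le_of_sq_le {a : ℤ} {M : ℕ} {R : ℝ} (hR : R < M + 1) (h : (a : ℝ) ^ 2 ≤ R) :
    |a| ≤ (M : ℤ) := by
  have h1 : (|a| : ℤ) ≤ a ^ 2 := by
    rcases abs_cases a with ⟨h, -⟩ | ⟨h, -⟩ <;> nlinarith [sq_nonneg (|a| - 1), abs_nonneg a]
  have h2 : ((|a| : ℤ) : ℝ) ≤ (a : ℝ) ^ 2 := by exact_mod_cast h1
  have h3 : ((|a| : ℤ) : ℝ) < (M : ℝ) + 1 := lt_of_le_of_lt (h2.trans h) hR
  have h4 : (|a| : ℤ) < (M : ℤ) + 1 := by exact_mod_cast h3
  linarith

/-- (T7) A function on `ℤ^n` bounded below by a positive multiple of the sum of squares has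
finite sublevel sets of polynomial size. -/
theorem polyGrowth_of_posDef (Qz : (Fin n → ℤ) → ℤ) {δ : ℝ} (hδ : 0 < δ)
    (h : ∀ x : Fin n → ℤ, δ * ∑ i, (x i : ℝ) ^ 2 ≤ (Qz x : ℝ)) :
    PolyGrowth (fun x ↦ (Qz x).toNat) := by
  classical
  have hnn : ∀ x, 0 ≤ Qz x := by
    intro x
    have h1 : (0 : ℝ) ≤ (Qz x : ℝ) :=
      le_trans (mul_nonneg hδ.le (Finset.sum_nonneg fun i _ ↦ sq_nonneg _)) (h x)
    exact_mod_cast h1
  -- the box containing the sublevel set
  have hbox : ∀ N : ℕ, {x : Fin n → ℤ | (Qz x).toNat ≤ N} ⊆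
      ↑(Fintype.piFinset fun _ : Fin n ↦ Finset.Icc (-(⌊(N : ℝ) / δ⌋₊ : ℤ)) (⌊(N : ℝ) / δ⌋₊ : ℤ)) := by
    intro N x hx
    have hx' : (Qz x).toNat ≤ N := hx
    have hx1 : (Qz x : ℝ) ≤ N := by
      have : Qz x ≤ (N : ℤ) := by
        have := Int.toNat_le.mp hx'
        exact this
      exact_mod_cast this
    rw [Finset.mem_coe, Fintype.mem_piFinset]
    intro i
    have hi : (x i : ℝ) ^ 2 ≤ (N : ℝ) / δ := by
      rw [le_div_iff₀ hδ, mul_comm]
      have h1 : (x i : ℝ) ^ 2 ≤ ∑ j, (x j : ℝ) ^ 2 :=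
        Finset.single_le_sum (f := fun j ↦ (x j : ℝ) ^ 2) (fun j _ ↦ sq_nonneg _)
          (Finset.mem_univ i)
      exact (mul_le_mul_of_nonneg_left h1 hδ.le).trans ((h x).trans hx1)
    have := abs_le_of_sq_le (Nat.lt_floor_add_one ((N : ℝ) / δ)) hi
    rw [Finset.mem_Icc]
    exact abs_le.mp this
  refine ⟨fun N ↦ (Finset.finite_toSet _).subset (hbox N), ?_⟩
  refine ⟨(2 * ⌈1 / δ⌉₊ + 1) ^ n, n, fun N ↦ ?_⟩
  have hfin := (Finset.finite_toSet (Fintype.piFinset fun _ : Fin n ↦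
    Finset.Icc (-(⌊(N : ℝ) / δ⌋₊ : ℤ)) (⌊(N : ℝ) / δ⌋₊ : ℤ)))
  have h1 : Nat.card {x : Fin n → ℤ // (Qz x).toNat ≤ N} ≤
      Nat.card ↥(Fintype.piFinset fun _ : Fin n ↦
        Finset.Icc (-(⌊(N : ℝ) / δ⌋₊ : ℤ)) (⌊(N : ℝ) / δ⌋₊ : ℤ)) := by
    apply Nat.card_le_card_of_injective
      (fun x : {x : Fin n → ℤ // (Qz x).toNat ≤ N} ↦
        (⟨x.1, hbox N x.2⟩ : ↥(Fintype.piFinset fun _ : Fin n ↦
          Finset.Icc (-(⌊(N : ℝ) / δ⌋₊ : ℤ)) (⌊(N : ℝ) / δ⌋₊ : ℤ))))
    intro a b hab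
    dsimp only at hab
    exact Subtype.ext (Subtype.mk.inj hab)
  refine h1.trans ?_
  rw [Nat.card_eq_fintype_card, Fintype.card_coe, Fintype.card_piFinset, Finset.prod_const,
    Finset.card_univ, Fintype.card_fin, Int.card_Icc, ← mul_pow]
  apply Nat.pow_le_pow_left
  -- `2 * ⌊N / δ⌋ + 1 ≤ (2 * ⌈1 / δ⌉ + 1) * (N + 1)`
  have hfl : ⌊(N : ℝ) / δ⌋₊ ≤ N * ⌈1 / δ⌉₊ := by
    apply Nat.floor_le_of_le
    rw [Nat.cast_mul, div_eq_mul_one_div]
    exact mul_le_mul_of_nonneg_left (Nat.le_ceil _) (Nat.cast_nonneg _)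
  have : ((⌊(N : ℝ) / δ⌋₊ : ℤ) + 1 - -(⌊(N : ℝ) / δ⌋₊ : ℤ)).toNat = 2 * ⌊(N : ℝ) / δ⌋₊ + 1 := by
    omega
  rw [this]
  nlinarith [Nat.zero_le (⌈1 / δ⌉₊), Nat.zero_le N]

section PosDef

variable (Qz : (Fin n → ℤ) → ℤ) {δ : ℝ} (hδ : 0 < δ)
  (h : ∀ x : Fin n → ℤ, δ * ∑ i, (x i : ℝ) ^ 2 ≤ (Qz x : ℝ))

include hδ h

theorem nonneg_of_posDef (x : Fin n → ℤ) : 0 ≤ Qz x := by
  have h1 : (0 : ℝ) ≤ (Qz x : ℝ) :=
    le_trans (mul_nonneg hδ.le (Finset.sum_nonneg fun i _ ↦ sq_nonneg _)) (h x)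
  exact_mod_cast h1

theorem toNat_cast (x : Fin n → ℤ) : (((Qz x).toNat : ℕ) : ℂ) = ((Qz x : ℤ) : ℂ) := by
  have := Int.toNat_of_nonneg (nonneg_of_posDef Qz hδ h x)
  exact_mod_cast congrArg (fun a : ℤ ↦ (a : ℂ)) this

theorem thetaZ_eq_thetaQ (z : ℂ) : thetaZ Qz z = thetaQ (fun x ↦ (Qz x).toNat) z := by
  unfold thetaZ thetaQ
  exact tsum_congr fun x ↦ by rw [toNat_cast Qz hδ h x]

theorem repCountZ_eq_repCount (k : ℕ) :
    repCountZ Qz k = repCount (fun x ↦ (Qz x).toNat) k := by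
  unfold repCountZ repCount
  refine Nat.card_congr (Equiv.subtypeEquivRight fun x ↦ ?_)
  have hx := nonneg_of_posDef Qz hδ h x
  constructor
  · intro hk
    show (Qz x).toNat = k
    rw [hk]
    exact Int.toNat_natCast k
  · intro hk
    have hk' : (Qz x).toNat = k := hk
    rw [← hk']
    exact (Int.toNat_of_nonneg hx).symm

/-- (SUM) The theta series of a positive definite integral form converges on the upper half
plane. -/
theorem summable_thetaZ_term {z : ℂ} (hz : 0 < z.im) :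
    Summable (fun x : Fin n → ℤ ↦ cexp (2 * π * I * (Qz x : ℂ) * z)) := by
  have := (polyGrowth_of_posDef Qz hδ h).summable_term hz
  simpa only [toNat_cast Qz hδ h] using this

/-- (a) The theta series is holomorphic on the upper half plane. -/
theorem differentiableOn_thetaZ : DifferentiableOn ℂ (thetaZ Qz) {z : ℂ | 0 < z.im} := by
  have := (polyGrowth_of_posDef Qz hδ h).differentiableOn_thetaQ
  exact this.congr fun z _ ↦ thetaZ_eq_thetaQ Qz hδ h z

/-- (a) The theta series is bounded on `{c ≤ Im z}` for every `c > 0`. -/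
theorem exists_bound_thetaZ {c : ℝ} (hc : 0 < c) :
    ∃ B : ℝ, ∀ z : ℂ, c ≤ z.im → ‖thetaZ Qz z‖ ≤ B := by
  obtain ⟨B, hB⟩ := (polyGrowth_of_posDef Qz hδ h).exists_bound hc
  exact ⟨B, fun z hz ↦ by rw [thetaZ_eq_thetaQ Qz hδ h]; exact hB z hz⟩

/-- (QEXP) The `q`-expansion of the theta series. -/
theorem hasSum_repCountZ {z : ℂ} (hz : 0 < z.im) :
    HasSum (fun k : ℕ ↦ (repCountZ Qz k : ℂ) * cexp (2 * π * I * (k : ℂ) * z))
      (thetaZ Qz z) := by
  have := (polyGrowth_of_posDef Qz hδ h).hasSum_repCount hz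
  simpa only [thetaZ_eq_thetaQ Qz hδ h, repCountZ_eq_repCount Qz hδ h] using this

/-- (QEXP) The `q`-expansion of the theta series, in terms of `Function.Periodic.qParam 1`. -/
theorem hasSum_qParam_thetaZ {z : ℂ} (hz : 0 < z.im) :
    HasSum (fun k : ℕ ↦ (repCountZ Qz k : ℂ) • Function.Periodic.qParam 1 z ^ k)
      (thetaZ Qz z) := by
  have := hasSum_repCountZ Qz hδ h hz
  simpa only [cexp_two_pi_I_nat_mul, smul_eq_mul] using this

theorem eq_zero_of_posDef {x : Fin n → ℤ} (hx : Qz x = 0) : x = 0 := by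
  have h1 := h x
  rw [hx, Int.cast_zero] at h1
  have h2 : ∑ i, (x i : ℝ) ^ 2 ≤ 0 := by
    by_contra hcon
    rw [not_le] at hcon
    nlinarith
  have h3 : ∀ i, (x i : ℝ) ^ 2 = 0 := by
    intro i
    have hle : (x i : ℝ) ^ 2 ≤ ∑ j, (x j : ℝ) ^ 2 :=
      Finset.single_le_sum (f := fun j ↦ (x j : ℝ) ^ 2) (fun j _ ↦ sq_nonneg _)
        (Finset.mem_univ i)
    exact le_antisymm (hle.trans h2) (sq_nonneg _)
  funext i
  have := pow_eq_zero_iff (two_ne_zero) |>.mp (h3 i)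
  exact_mod_cast this

/-- (QEXP) `a_0 = 1`. -/
theorem repCountZ_zero (h0 : Qz 0 = 0) : repCountZ Qz 0 = 1 := by
  rw [repCountZ, Nat.card_eq_one_iff_unique]
  refine ⟨⟨fun a b ↦ Subtype.ext ?_⟩, ⟨⟨0, by simpa using h0⟩⟩⟩
  have ha : Qz a.1 = 0 := by simpa using a.2
  have hb : Qz b.1 = 0 := by simpa using b.2
  rw [eq_zero_of_posDef Qz hδ h ha, eq_zero_of_posDef Qz hδ h hb]

/-- (QEXP) `a_k` is even for `k ≥ 1` if the form is even (`Q(-x) = Q(x)`) and `Q(0) = 0`. -/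
theorem even_repCountZ (h0 : Qz 0 = 0) (hneg : ∀ x, Qz (-x) = Qz x) {k : ℕ} (hk : k ≠ 0) :
    Even (repCountZ Qz k) := by
  rw [repCountZ_eq_repCount Qz hδ h]
  refine (polyGrowth_of_posDef Qz hδ h).even_repCount (fun x ↦ -x) (fun x ↦ neg_neg x)
    (fun x ↦ by rw [hneg]) (fun x hx ↦ ?_) hk
  have hx0 : x = 0 := by
    funext i
    have := congrFun hx i
    simp only [Pi.neg_apply, Pi.zero_apply] at this ⊢
    omega
  rw [hx0, h0]
  rfl

/-- (a) The theta series as a holomorphic function on `ℍ`. -/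
theorem mdifferentiable_thetaZ :
    MDifferentiable 𝓘(ℂ) 𝓘(ℂ) (fun τ : UpperHalfPlane ↦ thetaZ Qz (τ : ℂ)) := by
  rw [UpperHalfPlane.mdifferentiable_iff]
  refine (differentiableOn_thetaZ Qz hδ h).congr fun z hz ↦ ?_
  have hz' : 0 < z.im := hz
  simp [Function.comp, UpperHalfPlane.ofComplex_apply_of_im_pos hz']

/-- (a) The theta series is bounded at `i∞`. -/
theorem isBoundedAtImInfty_thetaZ :
    UpperHalfPlane.IsBoundedAtImInfty (fun τ : UpperHalfPlane ↦ thetaZ Qz (τ : ℂ)) :=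
  UpperHalfPlane.isBoundedAtImInfty_of_hasSum_qExpansion (h := 1) one_pos
    (c := fun m ↦ (repCountZ Qz m : ℂ))
    (fun τ ↦ hasSum_qParam_thetaZ Qz hδ h τ.im_pos)

/-- (QEXP) If a modular form agrees with the theta series on `ℍ`, its `q`-expansion
coefficients are the representation numbers. -/
theorem qExpansion_coeff_eq_repCountZ {F : Type*} [FunLike F UpperHalfPlane ℂ]
    {Γ : Subgroup (GL (Fin 2) ℝ)} {k' : ℤ} [ModularFormClass F Γ k'] (f : F)
    (hΓ : (1 : ℝ) ∈ Γ.strictPeriods) (hf : ∀ τ : UpperHalfPlane, f τ = thetaZ Qz (τ : ℂ))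
    (m : ℕ) : (UpperHalfPlane.qExpansion 1 f).coeff m = (repCountZ Qz m : ℂ) := by
  have := ModularFormClass.qExpansion_coeff_unique (c := fun m ↦ (repCountZ Qz m : ℂ))
    one_pos hΓ (f := f)
    (fun τ ↦ by rw [hf τ]; exact hasSum_qParam_thetaZ Qz hδ h τ.im_pos) m
  exact this.symm

end PosDef

/-- (b) The theta series of an integer-valued function is `1`-periodic. -/
theorem thetaZ_add_one {κ : Type*} (Qz : κ → ℤ) (z : ℂ) : thetaZ Qz (z + 1) = thetaZ Qz z := by
  unfold thetaZ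
  refine tsum_congr fun x ↦ ?_
  have : 2 * (π : ℂ) * I * (Qz x : ℂ) * (z + 1) =
      2 * π * I * (Qz x : ℂ) * z + (Qz x : ℂ) * (2 * π * I) := by ring
  rw [this, Complex.exp_add, Complex.exp_int_mul_two_pi_mul_I, mul_one]

end IntValued

end Fermat.Agent.S16.H58
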