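import Mathlib

set_option autoImplicit false

namespace Fermat.Agent.S16.H92

open Complex Real Matrix
open scoped BigOperators

noncomputable section

/-- The quaternary form of the S16 plan (helper75's `Q4`, same text). -/
def Q4 {R : Type*} [CommRing R] (k t c : R) (x : Fin 4 → R) : R :=
  x 0 ^ 2 + x 0 * x 1 + k * x 1 ^ 2 + t * (x 1 * x 2 - x 0 * x 3) +
    c * (x 2 ^ 2 + x 2 * x 3 + k * x 3 ^ 2)

/-- Gram matrix of `Q4`. -/
def A4 {R : Type*} [CommRing R] (k t c : R) : Matrix (Fin 4) (Fin 4) R :=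
  !![2, 1, 0, -t; 1, 2 * k, t, 0; 0, t, 2 * c, c; -t, 0, c, 2 * c * k]

/-- `p` times the inverse Gram matrix. -/
def A4' {R : Type*} [CommRing R] (k t c : R) : Matrix (Fin 4) (Fin 4) R :=
  !![2 * c * k, -c, 0, t; -c, 2 * c, -t, 0; 0, -t, 2 * k, -1; t, 0, -1, 2]

/-- The signed permutation with `p * Qstar y = Q4 (iota4 y)`. -/
def iota4 {R : Type*} [CommRing R] (y : Fin 4 → R) : Fin 4 → R := ![y 3, -y 2, y 1, -y 0]

section algebra

variable {R : Type*} [CommRing R]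

theorem Q4_map {S : Type*} [CommRing S] (φ : R →+* S) (k t c : R) (x : Fin 4 → R) :
    φ (Q4 k t c x) = Q4 (φ k) (φ t) (φ c) (fun i => φ (x i)) := by
  simp [Q4]

theorem Q4_iota4_A4 (k t c : R) (x : Fin 4 → R) :
    Q4 k t c (iota4 (A4 k t c *ᵥ x)) = ((4 * k - 1) * c - t ^ 2) * Q4 k t c x := by
  simp [Q4, iota4, A4, Matrix.mulVec, dotProduct, Fin.sum_univ_four]
  ring

theorem A4_mulVec_A4' (k t c : R) (v : Fin 4 → R) :
    A4 k t c *ᵥ (A4' k t c *ᵥ v) = ((4 * k - 1) * c - t ^ 2) • v := by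
  funext i
  fin_cases i <;>
    simp [A4, A4', Matrix.mulVec, dotProduct, Fin.sum_univ_four] <;> ring

theorem A4'_mulVec_A4 (k t c : R) (v : Fin 4 → R) :
    A4' k t c *ᵥ (A4 k t c *ᵥ v) = ((4 * k - 1) * c - t ^ 2) • v := by
  funext i
  fin_cases i <;>
    simp [A4, A4', Matrix.mulVec, dotProduct, Fin.sum_univ_four] <;> ring

theorem A4_map {S : Type*} [CommRing S] (φ : R →+* S) (k t c : R) (x : Fin 4 → R) (i : Fin 4) :
    φ ((A4 k t c *ᵥ x) i) = (A4 (φ k) (φ t) (φ c) *ᵥ (fun i => φ (x i))) i := by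
  fin_cases i <;> simp [A4, Matrix.mulVec, dotProduct, Fin.sum_univ_four, map_ofNat]

theorem iota4_iota4 (y : Fin 4 → R) : iota4 (iota4 y) = -y := by
  funext i
  fin_cases i <;> simp [iota4]

theorem iota4_neg (y : Fin 4 → R) : iota4 (-y) = -iota4 y := by
  funext i
  fin_cases i <;> simp [iota4]

end algebra

/-- `iota4` as a permutation of `ℤ^4`. -/
def iotaEquiv : (Fin 4 → ℤ) ≃ (Fin 4 → ℤ) where
  toFun := iota4
  invFun y := -iota4 y
  left_inv y := by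
    show -iota4 (iota4 y) = y
    rw [iota4_iota4, neg_neg]
  right_inv y := by
    show iota4 (-iota4 y) = y
    rw [iota4_neg, iota4_iota4, neg_neg]

@[simp] theorem iotaEquiv_apply (y : Fin 4 → ℤ) : iotaEquiv y = iota4 y := rfl

theorem Q4_homog (K T C P : ℝ) (hP : P ≠ 0) (g m : Fin 4 → ℝ) :
    Q4 K T C (fun i => g i + P * m i) = P ^ 2 * Q4 K T C (fun i => m i + g i / P) := by
  simp only [Q4]
  field_simp
  ring

theorem A4_injective (k t c : ℤ) (h : (4 * k - 1) * c - t ^ 2 ≠ 0) :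
    Function.Injective (fun x : Fin 4 → ℤ => A4 k t c *ᵥ x) := by
  intro x x' hxx
  have h1 := congrArg (fun v => A4' k t c *ᵥ v) hxx
  simp only [A4'_mulVec_A4] at h1
  funext i
  have h2 := congrFun h1 i
  simp only [Pi.smul_apply, smul_eq_mul] at h2
  exact mul_left_cancel₀ h h2

/-- coordinatewise splitting `x = (x mod p) + p * (x / p)` -/
def splitEquiv (p : ℕ) [NeZero p] : (Fin 4 → ℤ) ≃ (Fin 4 → ZMod p) × (Fin 4 → ℤ) where
  toFun x := (fun i => (x i : ZMod p), fun i => x i / p)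
  invFun gm := fun i => ((gm.1 i).val : ℤ) + p * gm.2 i
  left_inv x := by
    funext i
    simp only [ZMod.val_intCast]
    exact Int.emod_add_mul_ediv (x i) p
  right_inv gm := by
    obtain ⟨g, m⟩ := gm
    refine Prod.ext ?_ ?_
    · funext i
      simp
    · funext i
      have hp : (p : ℤ) ≠ 0 := by exact_mod_cast NeZero.ne p
      have h0 : ((g i).val : ℤ) / p = 0 :=
        Int.ediv_eq_zero_of_lt (by positivity) (by exact_mod_cast ZMod.val_lt (g i))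
      simp only
      rw [Int.add_mul_ediv_left _ _ hp, h0, zero_add]

theorem splitEquiv_symm_apply (p : ℕ) [NeZero p] (g : Fin 4 → ZMod p) (m : Fin 4 → ℤ) (i : Fin 4) :
    (splitEquiv p).symm (g, m) i = ((g i).val : ℤ) + p * m i := rfl

/-- `e(x) = exp(2πi x)`. -/
def ee (x : ℂ) : ℂ := cexp (2 * π * I * x)

theorem ee_add (x y : ℂ) : ee (x + y) = ee x * ee y := by
  simp [ee, mul_add, Complex.exp_add]

theorem ee_zero : ee 0 = 1 := by simp [ee]

theorem stdAddChar_intCast_eq_ee (p : ℕ) [NeZero p] (n : ℤ) :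
    ZMod.stdAddChar (N := p) (n : ZMod p) = ee ((n : ℂ) / p) := by
  rw [ZMod.stdAddChar_coe, ee]
  congr 1
  ring

theorem norm_stdAddChar (p : ℕ) [NeZero p] (a : ZMod p) : ‖ZMod.stdAddChar (N := p) a‖ = 1 := by
  rw [ZMod.stdAddChar_apply]
  exact Circle.norm_coe _

/-- The theta series of `Q4`. -/
def theta (k t c : ℤ) (z : ℂ) : ℂ := ∑' x : Fin 4 → ℤ, ee (((Q4 k t c x : ℤ) : ℂ) * z)

/-- (TH5, T1) summability of the theta series. -/
def SumHyp (k t c : ℤ) : Prop :=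
  ∀ τ : ℂ, 0 < τ.im → Summable (fun x : Fin 4 → ℤ => ee (((Q4 k t c x : ℤ) : ℂ) * τ))

/-- (TH3) theta inversion with characteristic `w`. -/
def InvHyp (k t c : ℤ) (p : ℕ) : Prop :=
  ∀ (w : Fin 4 → ℝ) (z : ℂ), 0 < z.im →
    ∑' m : Fin 4 → ℤ,
        ee (-((Q4 (k : ℝ) (t : ℝ) (c : ℝ) (fun i => (m i : ℝ) + w i) : ℝ) : ℂ) / z) =
      -(z ^ 2 / p) * ∑' y : Fin 4 → ℤ,
        ee (∑ i, (y i : ℂ) * (w i : ℂ)) * ee (((Q4 k t c (iota4 y) : ℤ) : ℂ) / p * z)

/-- (TH4) the Gauss sums of `Q4` modulo `p`. -/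
def GaussHyp (k t c : ℤ) (p : ℕ) [NeZero p] : Prop :=
  ∀ j : ZMod p, j ≠ 0 →
    (∀ y : Fin 4 → ZMod p,
      (¬ ∃ x : Fin 4 → ZMod p, y = A4 (k : ZMod p) (t : ZMod p) (c : ZMod p) *ᵥ x) →
        ∑ g : Fin 4 → ZMod p,
          ZMod.stdAddChar (N := p) (j * Q4 (k : ZMod p) (t : ZMod p) (c : ZMod p) g + y ⬝ᵥ g) = 0) ∧
    (∀ x : Fin 4 → ZMod p,
      ∑ g : Fin 4 → ZMod p,
          ZMod.stdAddChar (N := p) (j * Q4 (k : ZMod p) (t : ZMod p) (c : ZMod p) g +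
            (A4 (k : ZMod p) (t : ZMod p) (c : ZMod p) *ᵥ x) ⬝ᵥ g) =
        -(p : ℂ) ^ 3 * ZMod.stdAddChar (N := p) (-j⁻¹ * Q4 (k : ZMod p) (t : ZMod p) (c : ZMod p) x))

section main

variable (k t c : ℤ) (p : ℕ)

theorem Q4_cast_real (x : Fin 4 → ℤ) :
    ((Q4 k t c x : ℤ) : ℝ) = Q4 (k : ℝ) (t : ℝ) (c : ℝ) (fun i => (x i : ℝ)) := by
  simpa using Q4_map (Int.castRingHom ℝ) k t c x

theorem Q4_cast_zmod (x : Fin 4 → ℤ) :
    ((Q4 k t c x : ℤ) : ZMod p) =
      Q4 (k : ZMod p) (t : ZMod p) (c : ZMod p) (fun i => (x i : ZMod p)) := by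
  simpa using Q4_map (Int.castRingHom (ZMod p)) k t c x

/-- (c): the behaviour of the theta series under `z ↦ -1/z`. -/
theorem theta_S (hinv : InvHyp k t c p) (z : ℂ) (hz : 0 < z.im) :
    theta k t c (-1 / z) = -(z ^ 2 / p) * theta k t c (z / p) := by
  have h := hinv (fun _ => 0) z hz
  have hL : ∀ m : Fin 4 → ℤ,
      ee (-((Q4 (k : ℝ) (t : ℝ) (c : ℝ) (fun i => (m i : ℝ) + (0 : ℝ)) : ℝ) : ℂ) / z) =
        ee (((Q4 k t c m : ℤ) : ℂ) * (-1 / z)) := by
    intro m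
    congr 1
    simp only [add_zero]
    rw [← Q4_cast_real]
    push_cast
    ring
  have hR : ∀ y : Fin 4 → ℤ,
      ee (∑ i, (y i : ℂ) * ((0 : ℝ) : ℂ)) * ee (((Q4 k t c (iota4 y) : ℤ) : ℂ) / p * z) =
        ee (((Q4 k t c (iotaEquiv y) : ℤ) : ℂ) * (z / p)) := by
    intro y
    simp only [Complex.ofReal_zero, mul_zero, Finset.sum_const_zero, ee_zero, one_mul,
      iotaEquiv_apply]
    congr 1
    ring
  simp only [hL, hR] at h
  rw [iotaEquiv.tsum_eq (fun x => ee (((Q4 k t c x : ℤ) : ℂ) * (z / p)))] at h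
  exact h

theorem im_tau_pos (hp : 0 < p) (j : ℤ) (z : ℂ) (hz : 0 < z.im) :
    0 < (((j : ℂ) * z - 1) / (p * z)).im := by
  have hz0 : z ≠ 0 := by
    rintro rfl
    simp at hz
  have hp0 : (p : ℂ) ≠ 0 := by exact_mod_cast hp.ne'
  have hpr : (0 : ℝ) < p := by exact_mod_cast hp
  have h1 : ((j : ℂ) * z - 1) / (p * z) = ((j / p : ℝ) : ℂ) + ((1 / p : ℝ) : ℂ) * (-z⁻¹) := by
    push_cast
    field_simp
    ring
  rw [h1, Complex.add_im, Complex.ofReal_im, zero_add, Complex.im_ofReal_mul, Complex.neg_im,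
    Complex.inv_im, neg_div, neg_neg]
  have h2 : 0 < Complex.normSq z := Complex.normSq_pos.mpr hz0
  positivity

theorem term_split [NeZero p] (j : ℤ) (z : ℂ) (hz : z ≠ 0) (g : Fin 4 → ZMod p)
    (m : Fin 4 → ℤ) :
    ee (((Q4 k t c ((splitEquiv p).symm (g, m)) : ℤ) : ℂ) * (((j : ℂ) * z - 1) / (p * z))) =
      ZMod.stdAddChar (N := p) ((j : ZMod p) * Q4 (k : ZMod p) (t : ZMod p) (c : ZMod p) g) *
        ee (-((Q4 (k : ℝ) (t : ℝ) (c : ℝ)
          (fun i => (m i : ℝ) + ((g i).val : ℝ) / p) : ℝ) : ℂ) / (z / p)) := by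
  set x := (splitEquiv p).symm (g, m) with hx
  have hp0 : (p : ℂ) ≠ 0 := by exact_mod_cast NeZero.ne p
  have hpr : (p : ℝ) ≠ 0 := by exact_mod_cast NeZero.ne p
  have h1 : ((Q4 k t c x : ℤ) : ℂ) * (((j : ℂ) * z - 1) / (p * z)) =
      ((j * Q4 k t c x : ℤ) : ℂ) / p + (-((Q4 k t c x : ℤ) : ℂ) / (p * z)) := by
    push_cast
    field_simp
    ring
  rw [h1, ee_add, ← stdAddChar_intCast_eq_ee]
  have hA : ((j * Q4 k t c x : ℤ) : ZMod p) =
      (j : ZMod p) * Q4 (k : ZMod p) (t : ZMod p) (c : ZMod p) g := by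
    rw [Int.cast_mul, Q4_cast_zmod]
    congr 2
    funext i
    simp [hx, splitEquiv_symm_apply]
  have h2 : ((Q4 k t c x : ℤ) : ℝ) = (p : ℝ) ^ 2 *
      Q4 (k : ℝ) (t : ℝ) (c : ℝ) (fun i => (m i : ℝ) + ((g i).val : ℝ) / p) := by
    rw [Q4_cast_real, ← Q4_homog _ _ _ _ hpr]
    congr 1
    funext i
    simp [hx, splitEquiv_symm_apply]
  have h3 : ((Q4 k t c x : ℤ) : ℂ) = (p : ℂ) ^ 2 *
      ((Q4 (k : ℝ) (t : ℝ) (c : ℝ) (fun i => (m i : ℝ) + ((g i).val : ℝ) / p) : ℝ) : ℂ) := by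
    have := congrArg (fun r : ℝ => (r : ℂ)) h2
    simpa using this
  rw [hA, h3]
  generalize Q4 (k : ℝ) (t : ℝ) (c : ℝ) (fun i => (m i : ℝ) + ((g i).val : ℝ) / p) = r
  congr 2
  field_simp

theorem char_eq [NeZero p] (y : Fin 4 → ℤ) (g : Fin 4 → ZMod p) :
    ee (∑ i, (y i : ℂ) * ((((g i).val : ℝ) / p : ℝ) : ℂ)) =
      ZMod.stdAddChar (N := p) ((fun i => (y i : ZMod p)) ⬝ᵥ g) := by
  have h1 : (fun i => (y i : ZMod p)) ⬝ᵥ g = ((∑ i, y i * ((g i).val : ℤ) : ℤ) : ZMod p) := by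
    simp [dotProduct]
  rw [h1, stdAddChar_intCast_eq_ee]
  congr 1
  push_cast
  rw [Finset.sum_div]
  refine Finset.sum_congr rfl fun i _ => ?_
  ring

theorem A4_cast_zmod (x : Fin 4 → ℤ) :
    (fun i => (((A4 k t c *ᵥ x) i : ℤ) : ZMod p)) =
      A4 (k : ZMod p) (t : ZMod p) (c : ZMod p) *ᵥ (fun i => (x i : ZMod p)) := by
  funext i
  simpa using A4_map (Int.castRingHom (ZMod p)) k t c x i

theorem exists_lift [NeZero p] (hp : (p : ℤ) = (4 * k - 1) * c - t ^ 2) (y : Fin 4 → ℤ)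
    (h : ∃ xb : Fin 4 → ZMod p, (fun i => (y i : ZMod p)) =
      A4 (k : ZMod p) (t : ZMod p) (c : ZMod p) *ᵥ xb) :
    ∃ x : Fin 4 → ℤ, y = A4 k t c *ᵥ x := by
  obtain ⟨xb, hxb⟩ := h
  set x0 : Fin 4 → ℤ := fun i => ((xb i).val : ℤ) with hx0
  have hx0b : (fun i => (x0 i : ZMod p)) = xb := by
    funext i
    simp [hx0]
  have h1 : ∀ i, (p : ℤ) ∣ y i - (A4 k t c *ᵥ x0) i := by
    intro i
    rw [← ZMod.intCast_zmod_eq_zero_iff_dvd, Int.cast_sub]
    have h2 : (((A4 k t c *ᵥ x0) i : ℤ) : ZMod p) =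
        (A4 (k : ZMod p) (t : ZMod p) (c : ZMod p) *ᵥ (fun i => (x0 i : ZMod p))) i :=
      congrFun (A4_cast_zmod k t c p x0) i
    rw [h2, hx0b, ← hxb, sub_self]
  choose v hv using h1
  refine ⟨x0 + A4' k t c *ᵥ v, ?_⟩
  rw [Matrix.mulVec_add, A4_mulVec_A4', ← hp]
  funext i
  have := hv i
  simp only [Pi.add_apply, Pi.smul_apply, smul_eq_mul]
  linarith

/-- (d): the behaviour of the theta series under the remaining coset representatives. -/
theorem theta_jS [Fact p.Prime] (hp : (p : ℤ) = (4 * k - 1) * c - t ^ 2)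
    (hsum : SumHyp k t c) (hinv : InvHyp k t c p) (hgs : GaussHyp k t c p)
    (j j' : ℤ) (z : ℂ) (hjj : (p : ℤ) ∣ j * j' + 1) (hz : 0 < z.im) :
    theta k t c (((j : ℂ) * z - 1) / (p * z)) = z ^ 2 * theta k t c ((z + j') / p) := by
  have hpp : p.Prime := Fact.out
  have hp0 : (p : ℂ) ≠ 0 := by exact_mod_cast hpp.ne_zero
  have hpr : (0 : ℝ) < p := by exact_mod_cast hpp.pos
  have hpne : (4 * k - 1) * c - t ^ 2 ≠ 0 := by
    rw [← hp]
    exact_mod_cast hpp.ne_zero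
  have hz0 : z ≠ 0 := by
    rintro rfl
    simp at hz
  have hjj' : (j : ZMod p) * (j' : ZMod p) = -1 := by
    have h1 := (ZMod.intCast_zmod_eq_zero_iff_dvd (j * j' + 1) p).mpr hjj
    push_cast at h1
    exact eq_neg_of_add_eq_zero_left h1
  have hj0 : (j : ZMod p) ≠ 0 := by
    intro h
    rw [h, zero_mul] at hjj'
    exact one_ne_zero (neg_eq_zero.mp hjj'.symm)
  have hjinv : -(j : ZMod p)⁻¹ = (j' : ZMod p) := by
    have h1 : (j' : ZMod p) = (j : ZMod p)⁻¹ * ((j : ZMod p) * (j' : ZMod p)) := by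
      rw [← mul_assoc, inv_mul_cancel₀ hj0, one_mul]
    rw [h1, hjj', mul_neg, mul_one]
  obtain ⟨hgs1, hgs2⟩ := hgs (j : ZMod p) hj0
  have hτim : 0 < (((j : ℂ) * z - 1) / (p * z)).im := im_tau_pos p hpp.pos j z hz
  have hzp : 0 < (z / p).im := by
    rw [Complex.div_natCast_im]
    positivity
  have hzpp : 0 < (z / p / p).im := by
    rw [Complex.div_natCast_im]
    positivity
  -- the dual exponential
  set E : (Fin 4 → ℤ) → ℂ :=
    fun y => ee (((Q4 k t c (iota4 y) : ℤ) : ℂ) / p * (z / p)) with hE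
  have hEsum : Summable E := by
    have h1 := hsum (z / p / p) hzpp
    have h2 := (iotaEquiv.summable_iff).mpr h1
    refine h2.congr ?_
    intro y
    simp only [hE, Function.comp, iotaEquiv_apply]
    congr 1
    ring
  have hEnorm : Summable (fun y => ‖E y‖) := summable_norm_iff.mpr hEsum
  set H : (Fin 4 → ℤ) → ℂ := fun y =>
    (∑ g : Fin 4 → ZMod p, ZMod.stdAddChar (N := p)
      ((j : ZMod p) * Q4 (k : ZMod p) (t : ZMod p) (c : ZMod p) g +
        (fun i => (y i : ZMod p)) ⬝ᵥ g)) * E y with hH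
  -- Step A: split the sum into residue classes
  have step1 : theta k t c (((j : ℂ) * z - 1) / (p * z)) =
      ∑ g : Fin 4 → ZMod p, ∑' m : Fin 4 → ℤ,
        ee (((Q4 k t c ((splitEquiv p).symm (g, m)) : ℤ) : ℂ) *
          (((j : ℂ) * z - 1) / (p * z))) := by
    have hs := hsum _ hτim
    have hs' : Summable (fun gm : (Fin 4 → ZMod p) × (Fin 4 → ℤ) =>
        ee (((Q4 k t c ((splitEquiv p).symm gm) : ℤ) : ℂ) *
          (((j : ℂ) * z - 1) / (p * z)))) :=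
      ((splitEquiv p).symm.summable_iff).mpr hs
    rw [theta, ← (splitEquiv p).symm.tsum_eq
      (fun x => ee (((Q4 k t c x : ℤ) : ℂ) * (((j : ℂ) * z - 1) / (p * z)))),
      hs'.tsum_prod' (fun g => hs'.prod_factor g), tsum_fintype]
  -- Steps B, C: inversion on each residue class
  have step2 : ∀ g : Fin 4 → ZMod p, ∑' m : Fin 4 → ℤ,
      ee (((Q4 k t c ((splitEquiv p).symm (g, m)) : ℤ) : ℂ) *
        (((j : ℂ) * z - 1) / (p * z))) =
      -((z / p) ^ 2 / p) * ∑' y : Fin 4 → ℤ, ZMod.stdAddChar (N := p)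
        ((j : ZMod p) * Q4 (k : ZMod p) (t : ZMod p) (c : ZMod p) g +
          (fun i => (y i : ZMod p)) ⬝ᵥ g) * E y := by
    intro g
    have h := hinv (fun i => ((g i).val : ℝ) / p) (z / p) hzp
    simp only [char_eq] at h
    simp only [term_split k t c p j z hz0 g]
    rw [tsum_mul_left, h, ← mul_assoc, mul_comm _ (-((z / p) ^ 2 / p)), mul_assoc,
      ← tsum_mul_left]
    congr 1
    refine tsum_congr fun y => ?_
    rw [AddChar.map_add_eq_mul, mul_assoc]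
  -- Step D: exchange the finite sum and the series
  have step3 : ∑ g : Fin 4 → ZMod p, -((z / p) ^ 2 / p) * ∑' y : Fin 4 → ℤ,
        ZMod.stdAddChar (N := p)
        ((j : ZMod p) * Q4 (k : ZMod p) (t : ZMod p) (c : ZMod p) g +
          (fun i => (y i : ZMod p)) ⬝ᵥ g) * E y =
      -((z / p) ^ 2 / p) * ∑' y : Fin 4 → ℤ, H y := by
    rw [← Finset.mul_sum, ← Summable.tsum_finsetSum]
    · congr 1
      refine tsum_congr fun y => ?_
      simp only [hH]
      rw [Finset.sum_mul]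
    · intro g _
      refine Summable.of_norm_bounded hEnorm fun y => ?_
      rw [norm_mul, norm_stdAddChar, one_mul]
  -- Step E: only the image of `A4` contributes
  have step4 : ∑' y : Fin 4 → ℤ, H y = ∑' x : Fin 4 → ℤ, H (A4 k t c *ᵥ x) := by
    symm
    refine (A4_injective k t c hpne).tsum_eq ?_
    intro y hy
    by_contra hrange
    apply hy
    have h1 : ¬ ∃ xb : Fin 4 → ZMod p, (fun i => (y i : ZMod p)) =
        A4 (k : ZMod p) (t : ZMod p) (c : ZMod p) *ᵥ xb := by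
      intro hex
      obtain ⟨x, hx⟩ := exists_lift k t c p hp y hex
      exact hrange ⟨x, hx.symm⟩
    simp only [hH]
    rw [hgs1 _ h1, zero_mul]
  -- Step F: evaluation of the Gauss sums
  have step5 : ∀ x : Fin 4 → ℤ, H (A4 k t c *ᵥ x) =
      -(p : ℂ) ^ 3 * ee (((Q4 k t c x : ℤ) : ℂ) * ((z + j') / p)) := by
    intro x
    simp only [hH, hE]
    rw [A4_cast_zmod, hgs2, hjinv, ← Q4_cast_zmod, ← Int.cast_mul, stdAddChar_intCast_eq_ee,
      Q4_iota4_A4, ← hp, mul_assoc, ← ee_add]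
    congr 2
    push_cast
    field_simp
    ring
  rw [step1]
  simp only [step2]
  rw [step3, step4]
  simp only [step5]
  rw [tsum_mul_left, ← mul_assoc, theta]
  congr 1
  field_simp

end main

end

end Fermat.Agent.S16.H92
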