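import Mathlib

/-!
# S16, node TH3: theta inversion (INV) for a quaternary quadratic form

Main results (namespace `Fermat.Agent.S16.H56`):

* `tsum_peel`: partial Poisson summation in one integer variable (from Mathlib's
  `tsum_exp_neg_quadratic`), inside a sum over an arbitrary further index type.
* `tri4_inversion`: theta inversion for a *triangular* positive quadratic form
  `a₁ X₁² + a₂ X₂² + a₃ X₃² + a₄ X₄²` in four variables, with characteristic `w`, together with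
  the summability of both sides.
* `theta_inv_Q4`: the specialisation to the quaternary form `Q4 k t c` of the S16 plan
  (`q = 4k - 1`, `p = q c - t²`):
  `∑_m e(-Q4(m + w)/z) = -(z²/p) ∑_y e(y·w) e(Q4(iota4 y) z / p)`.

The proof peels the four variables one at a time; each intermediate family is a Gaussian in
triangular coordinates, hence absolutely summable (`summable_gauss_tri4`).
-/

set_option autoImplicit false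

open Complex Real

namespace Fermat.Agent.S16.H56

/-- Summability of the Gaussian `n ↦ exp (-ε n²)` over `ℤ`. -/
theorem summable_gauss_int (ε : ℝ) (hε : 0 < ε) :
    Summable (fun n : ℤ => rexp (-ε * (n : ℝ) ^ 2)) := by
  have h := summable_pow_mul_jacobiTheta₂_term_bound 0 (div_pos hε pi_pos) 0
  refine h.congr (fun n => ?_)
  have hπ : (π : ℝ) ≠ 0 := pi_ne_zero
  simp only [pow_zero, one_mul, mul_zero, zero_mul, sub_zero]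
  congr 1
  field_simp

/-- Uniform bound for shifted Gaussians over `ℤ`. -/
theorem exists_bound_gauss_shift (ε : ℝ) (hε : 0 < ε) :
    ∃ K : ℝ, ∀ s : ℝ, Summable (fun n : ℤ => rexp (-ε * ((n : ℝ) + s) ^ 2)) ∧
      ∑' n : ℤ, rexp (-ε * ((n : ℝ) + s) ^ 2) ≤ K := by
  have h0 := summable_gauss_int ε hε
  have h1 : Summable (fun n : ℤ => rexp (-ε * ((n : ℝ) + 1) ^ 2)) := by
    have := (Equiv.summable_iff (Equiv.addRight (1 : ℤ))).2 h0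
    refine this.congr (fun n => ?_)
    simp [Function.comp]
  -- the case `0 ≤ s < 1`
  have key : ∀ s : ℝ, 0 ≤ s → s < 1 → ∀ n : ℤ,
      rexp (-ε * ((n : ℝ) + s) ^ 2) ≤ rexp (-ε * (n : ℝ) ^ 2) + rexp (-ε * ((n : ℝ) + 1) ^ 2) := by
    intro s hs0 hs1 n
    rcases le_or_gt 0 n with hn | hn
    · have hn' : (0 : ℝ) ≤ n := by exact_mod_cast hn
      have : rexp (-ε * ((n : ℝ) + s) ^ 2) ≤ rexp (-ε * (n : ℝ) ^ 2) := by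
        apply Real.exp_le_exp.2
        nlinarith [mul_nonneg hn' hs0, sq_nonneg s]
      linarith [Real.exp_pos (-ε * ((n : ℝ) + 1) ^ 2)]
    · have hn' : (n : ℝ) + 1 ≤ 0 := by exact_mod_cast hn
      have : rexp (-ε * ((n : ℝ) + s) ^ 2) ≤ rexp (-ε * ((n : ℝ) + 1) ^ 2) := by
        apply Real.exp_le_exp.2
        have h3 : ((n : ℝ) + 1) ^ 2 ≤ ((n : ℝ) + s) ^ 2 := by nlinarith
        nlinarith
      linarith [Real.exp_pos (-ε * (n : ℝ) ^ 2)]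
  have hsum01 : ∀ s : ℝ, 0 ≤ s → s < 1 → Summable (fun n : ℤ => rexp (-ε * ((n : ℝ) + s) ^ 2)) ∧
      ∑' n : ℤ, rexp (-ε * ((n : ℝ) + s) ^ 2) ≤
        ∑' n : ℤ, (rexp (-ε * (n : ℝ) ^ 2) + rexp (-ε * ((n : ℝ) + 1) ^ 2)) := by
    intro s hs0 hs1
    have hs : Summable (fun n : ℤ => rexp (-ε * ((n : ℝ) + s) ^ 2)) :=
      Summable.of_nonneg_of_le (fun n => (Real.exp_pos _).le) (key s hs0 hs1) (h0.add h1)
    exact ⟨hs, hs.tsum_le_tsum (key s hs0 hs1) (h0.add h1)⟩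
  refine ⟨∑' n : ℤ, (rexp (-ε * (n : ℝ) ^ 2) + rexp (-ε * ((n : ℝ) + 1) ^ 2)), fun s => ?_⟩
  obtain ⟨hs, hle⟩ := hsum01 (Int.fract s) (Int.fract_nonneg s) (Int.fract_lt_one s)
  have hfun : (fun n : ℤ => rexp (-ε * ((n : ℝ) + s) ^ 2)) =
      (fun n : ℤ => rexp (-ε * ((n : ℝ) + Int.fract s) ^ 2)) ∘ (Equiv.addRight ⌊s⌋) := by
    funext n
    simp only [Function.comp, Equiv.coe_addRight, Int.cast_add]
    have h := Int.floor_add_fract s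
    have h' : (n : ℝ) + (⌊s⌋ : ℝ) + Int.fract s = (n : ℝ) + s := by linarith
    rw [h']
  rw [hfun]
  refine ⟨(Equiv.summable_iff (Equiv.addRight ⌊s⌋)).2 hs, ?_⟩
  rw [show (∑' n : ℤ, ((fun n : ℤ => rexp (-ε * ((n : ℝ) + Int.fract s) ^ 2)) ∘
      (Equiv.addRight ⌊s⌋)) n) = ∑' n : ℤ, rexp (-ε * ((n : ℝ) + Int.fract s) ^ 2) from
    (Equiv.addRight ⌊s⌋).tsum_eq (fun n : ℤ => rexp (-ε * ((n : ℝ) + Int.fract s) ^ 2))]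
  exact hle

/-- Adding one triangular Gaussian variable preserves summability. -/
theorem summable_gauss_step {ι : Type*} (ε : ℝ) (hε : 0 < ε) (H : ι → ℝ) (hH0 : ∀ k, 0 ≤ H k)
    (hH : Summable H) (s : ι → ℝ) :
    Summable (fun p : ι × ℤ => H p.1 * rexp (-ε * ((p.2 : ℝ) + s p.1) ^ 2)) := by
  obtain ⟨K, hK⟩ := exists_bound_gauss_shift ε hε
  rw [summable_prod_of_nonneg (fun p => mul_nonneg (hH0 p.1) (Real.exp_pos _).le)]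
  refine ⟨fun k => (hK (s k)).1.mul_left (H k), ?_⟩
  refine Summable.of_nonneg_of_le (fun k => tsum_nonneg (fun n => mul_nonneg (hH0 k) (Real.exp_pos _).le))
    (fun k => ?_) (hH.mul_right K)
  show ∑' n : ℤ, H k * rexp (-ε * ((n : ℝ) + s k) ^ 2) ≤ H k * K
  rw [tsum_mul_left]
  exact mul_le_mul_of_nonneg_left (hK (s k)).2 (hH0 k)

/-- Summability of a triangular Gaussian in four integer variables. -/
theorem summable_gauss_tri4 (ε1 ε2 ε3 ε4 : ℝ) (h1 : 0 < ε1) (h2 : 0 < ε2) (h3 : 0 < ε3)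
    (h4 : 0 < ε4) (s1 : ℝ) (s2 : ℤ → ℝ) (s3 : ℤ × ℤ → ℝ) (s4 : (ℤ × ℤ) × ℤ → ℝ) :
    Summable (fun v : ((ℤ × ℤ) × ℤ) × ℤ =>
      rexp (-ε1 * ((v.1.1.1 : ℝ) + s1) ^ 2) * rexp (-ε2 * ((v.1.1.2 : ℝ) + s2 v.1.1.1) ^ 2) *
        rexp (-ε3 * ((v.1.2 : ℝ) + s3 v.1.1) ^ 2) * rexp (-ε4 * ((v.2 : ℝ) + s4 v.1) ^ 2)) := by
  obtain ⟨K, hK⟩ := exists_bound_gauss_shift ε1 h1
  have hA : Summable (fun n : ℤ => rexp (-ε1 * ((n : ℝ) + s1) ^ 2)) := (hK s1).1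
  have hB := summable_gauss_step ε2 h2 _ (fun k => (Real.exp_pos _).le) hA s2
  have hC := summable_gauss_step ε3 h3 _
    (fun k => mul_nonneg (Real.exp_pos _).le (Real.exp_pos _).le) hB s3
  exact summable_gauss_step ε4 h4 _
    (fun k => mul_nonneg (mul_nonneg (Real.exp_pos _).le (Real.exp_pos _).le) (Real.exp_pos _).le)
    hC s4

theorem peel_exponent (a τ c β n Cst : ℂ) (ha : a ≠ 0) (hτ : τ ≠ 0) :
    Cst + 2 * π * I * (τ * a * c ^ 2) +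
      -π / (-2 * I * a * τ) * (n + I * (I * (2 * a * τ * c + β))) ^ 2 =
    2 * π * I * ((n - β) * c + (-1 / τ) * ((n - β) ^ 2 / (4 * a))) + Cst := by
  have hI : I ≠ 0 := I_ne_zero
  have h1 : I * (I * (2 * a * τ * c + β)) = -(2 * a * τ * c + β) := by
    rw [← mul_assoc, I_mul_I]; ring
  rw [h1]
  have h2 : -(π : ℂ) / (-2 * I * a * τ) = -(π * I) / (2 * a * τ) := by
    field_simp
    rw [I_sq]
    ring
  rw [h2]
  field_simp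
  ring

/-- Partial Poisson summation in one integer variable. -/
theorem tsum_peel {ι : Type*} (a : ℝ) (ha : 0 < a) (τ : ℂ) (hτ : 0 < τ.im)
    (c β : ι → ℝ) (Cst : ι → ℂ) (f g : ι × ℤ → ℂ)
    (hf : ∀ p, f p = cexp (2 * π * I * (τ * a * ((p.2 : ℂ) + c p.1) ^ 2 + β p.1 * p.2) + Cst p.1))
    (hg : ∀ p, g p = cexp (2 * π * I * (((p.2 : ℂ) - β p.1) * c p.1 +
        (-1 / τ) * (((p.2 : ℂ) - β p.1) ^ 2 / (4 * a))) + Cst p.1))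
    (hfs : Summable f) (hgs : Summable g) :
    ∑' p, f p = 1 / (-2 * I * a * τ) ^ (1 / 2 : ℂ) * ∑' p, g p := by
  have hτ0 : τ ≠ 0 := by
    rintro rfl
    simp at hτ
  have ha0 : (a : ℂ) ≠ 0 := by exact_mod_cast ha.ne'
  have hA : 0 < (-2 * I * a * τ).re := by
    have : (-2 * I * a * τ).re = 2 * a * τ.im := by
      simp [mul_re, mul_im]
    rw [this]
    positivity
  rw [hfs.tsum_prod' (fun k => hfs.prod_factor k), hgs.tsum_prod' (fun k => hgs.prod_factor k),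
    ← tsum_mul_left]
  congr 1
  funext k
  have hq := tsum_exp_neg_quadratic hA (I * (2 * a * τ * c k + β k))
  calc ∑' n : ℤ, f (k, n)
      = ∑' n : ℤ, cexp (Cst k + 2 * π * I * (τ * a * (c k : ℂ) ^ 2)) *
          cexp (-π * (-2 * I * a * τ) * (n : ℂ) ^ 2 +
            2 * π * (I * (2 * a * τ * c k + β k)) * n) := by
        apply tsum_congr
        intro n
        rw [hf, ← Complex.exp_add]
        congr 1
        ring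
    _ = cexp (Cst k + 2 * π * I * (τ * a * (c k : ℂ) ^ 2)) *
          (1 / (-2 * I * a * τ) ^ (1 / 2 : ℂ) *
            ∑' n : ℤ, cexp (-π / (-2 * I * a * τ) *
              ((n : ℂ) + I * (I * (2 * a * τ * c k + β k))) ^ 2)) := by
        rw [tsum_mul_left, hq]
    _ = 1 / (-2 * I * a * τ) ^ (1 / 2 : ℂ) *
          ∑' n : ℤ, cexp (Cst k + 2 * π * I * (τ * a * (c k : ℂ) ^ 2)) *
            cexp (-π / (-2 * I * a * τ) *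
              ((n : ℂ) + I * (I * (2 * a * τ * c k + β k))) ^ 2) := by
        rw [tsum_mul_left]
        ring
    _ = 1 / (-2 * I * a * τ) ^ (1 / 2 : ℂ) * ∑' n : ℤ, g (k, n) := by
        congr 1
        apply tsum_congr
        intro n
        rw [hg, ← Complex.exp_add]
        congr 1
        exact peel_exponent (a : ℂ) τ (c k : ℂ) (β k : ℂ) (n : ℂ) (Cst k) ha0 hτ0

theorem norm_cexp_form (R P D : ℝ) (τ : ℂ) :
    ‖cexp (2 * π * I * ((R : ℂ) + τ * P + (-1 / τ) * D))‖ =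
      rexp (-(2 * π) * (P * τ.im + D * (-1 / τ).im)) := by
  rw [Complex.norm_exp]
  congr 1
  have h1 : (2 * (π : ℂ) * I * ((R : ℂ) + τ * P + (-1 / τ) * D)).re =
      -(2 * π) * ((R : ℂ) + τ * P + (-1 / τ) * D).im := by
    simp [mul_re, mul_im]
  rw [h1]
  congr 1
  simp [mul_im, add_im]
  ring

theorem im_neg_inv_pos (τ : ℂ) (hτ : 0 < τ.im) : 0 < (-1 / τ).im := by
  have hτ0 : τ ≠ 0 := by
    rintro rfl
    simp at hτ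
  have : (-1 / τ).im = τ.im / Complex.normSq τ := by
    rw [neg_div, neg_im, one_div, inv_im]
    ring
  rw [this]
  exact div_pos hτ (Complex.normSq_pos.2 hτ0)

section Tri

variable (a1 a2 a3 a4 r12 r13 r14 r23 r24 r34 w1 w2 w3 w4 : ℝ) (τ : ℂ)

/-- stage-0 family, coordinates `(((x4, x3), x2), x1)` -/
noncomputable def G0 : ((ℤ × ℤ) × ℤ) × ℤ → ℂ := fun v =>
  cexp (2 * π * I * (((0 : ℝ) : ℂ) + τ *
    ((a1 * ((v.2 : ℝ) + (w1 + r12 * (v.1.2 + w2) + r13 * (v.1.1.2 + w3) + r14 * (v.1.1.1 + w4))) ^ 2 +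
      a2 * ((v.1.2 : ℝ) + (w2 + r23 * (v.1.1.2 + w3) + r24 * (v.1.1.1 + w4))) ^ 2 +
      a3 * ((v.1.1.2 : ℝ) + (w3 + r34 * (v.1.1.1 + w4))) ^ 2 +
      a4 * ((v.1.1.1 : ℝ) + w4) ^ 2 : ℝ) : ℂ) + (-1 / τ) * ((0 : ℝ) : ℂ)))

/-- stage-1 family, coordinates `(((x4, x3), x2), y1)` -/
noncomputable def G1 : ((ℤ × ℤ) × ℤ) × ℤ → ℂ := fun v =>
  cexp (2 * π * I * ((((v.2 : ℝ) * (w1 + r12 * (v.1.2 + w2) + r13 * (v.1.1.2 + w3) +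
      r14 * (v.1.1.1 + w4)) : ℝ) : ℂ) + τ *
    ((a2 * ((v.1.2 : ℝ) + (w2 + r23 * (v.1.1.2 + w3) + r24 * (v.1.1.1 + w4))) ^ 2 +
      a3 * ((v.1.1.2 : ℝ) + (w3 + r34 * (v.1.1.1 + w4))) ^ 2 +
      a4 * ((v.1.1.1 : ℝ) + w4) ^ 2 : ℝ) : ℂ) +
    (-1 / τ) * (((v.2 : ℝ) ^ 2 / (4 * a1) : ℝ) : ℂ)))

/-- stage-2 family, coordinates `(((x4, x3), y1), y2)` -/
noncomputable def G2 : ((ℤ × ℤ) × ℤ) × ℤ → ℂ := fun v =>
  cexp (2 * π * I * ((((v.1.2 : ℝ) * (w1 + r12 * w2 + r13 * (v.1.1.2 + w3) + r14 * (v.1.1.1 + w4)) +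
      ((v.2 : ℝ) - r12 * v.1.2) * (w2 + r23 * (v.1.1.2 + w3) + r24 * (v.1.1.1 + w4)) : ℝ) : ℂ) + τ *
    ((a3 * ((v.1.1.2 : ℝ) + (w3 + r34 * (v.1.1.1 + w4))) ^ 2 +
      a4 * ((v.1.1.1 : ℝ) + w4) ^ 2 : ℝ) : ℂ) +
    (-1 / τ) * (((v.1.2 : ℝ) ^ 2 / (4 * a1) + ((v.2 : ℝ) - r12 * v.1.2) ^ 2 / (4 * a2) : ℝ) : ℂ)))

/-- stage-3 family, coordinates `(((x4, y1), y2), y3)` -/
noncomputable def G3 : ((ℤ × ℤ) × ℤ) × ℤ → ℂ := fun v =>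
  cexp (2 * π * I * ((((v.1.1.2 : ℝ) * (w1 + r12 * w2 + r13 * w3 + r14 * (v.1.1.1 + w4)) +
      ((v.1.2 : ℝ) - r12 * v.1.1.2) * (w2 + r23 * w3 + r24 * (v.1.1.1 + w4)) +
      ((v.2 : ℝ) - r13 * v.1.1.2 - r23 * ((v.1.2 : ℝ) - r12 * v.1.1.2)) *
        (w3 + r34 * (v.1.1.1 + w4)) : ℝ) : ℂ) + τ *
    ((a4 * ((v.1.1.1 : ℝ) + w4) ^ 2 : ℝ) : ℂ) +
    (-1 / τ) * (((v.1.1.2 : ℝ) ^ 2 / (4 * a1) + ((v.1.2 : ℝ) - r12 * v.1.1.2) ^ 2 / (4 * a2) +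
      ((v.2 : ℝ) - r13 * v.1.1.2 - r23 * ((v.1.2 : ℝ) - r12 * v.1.1.2)) ^ 2 / (4 * a3) : ℝ) : ℂ)))

/-- stage-4 family, coordinates `(((y1, y2), y3), y4)` -/
noncomputable def G4 : ((ℤ × ℤ) × ℤ) × ℤ → ℂ := fun v =>
  cexp (2 * π * I * ((((v.1.1.1 : ℝ) * (w1 + r12 * w2 + r13 * w3 + r14 * w4) +
      ((v.1.1.2 : ℝ) - r12 * v.1.1.1) * (w2 + r23 * w3 + r24 * w4) +
      ((v.1.2 : ℝ) - r13 * v.1.1.1 - r23 * ((v.1.1.2 : ℝ) - r12 * v.1.1.1)) * (w3 + r34 * w4) +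
      ((v.2 : ℝ) - r14 * v.1.1.1 - r24 * ((v.1.1.2 : ℝ) - r12 * v.1.1.1) -
        r34 * ((v.1.2 : ℝ) - r13 * v.1.1.1 - r23 * ((v.1.1.2 : ℝ) - r12 * v.1.1.1))) * w4 : ℝ) : ℂ) +
    τ * ((0 : ℝ) : ℂ) +
    (-1 / τ) * (((v.1.1.1 : ℝ) ^ 2 / (4 * a1) + ((v.1.1.2 : ℝ) - r12 * v.1.1.1) ^ 2 / (4 * a2) +
      ((v.1.2 : ℝ) - r13 * v.1.1.1 - r23 * ((v.1.1.2 : ℝ) - r12 * v.1.1.1)) ^ 2 / (4 * a3) +
      ((v.2 : ℝ) - r14 * v.1.1.1 - r24 * ((v.1.1.2 : ℝ) - r12 * v.1.1.1) -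
        r34 * ((v.1.2 : ℝ) - r13 * v.1.1.1 - r23 * ((v.1.1.2 : ℝ) - r12 * v.1.1.1))) ^ 2 /
          (4 * a4) : ℝ) : ℂ)))

variable (ha1 : 0 < a1) (ha2 : 0 < a2) (ha3 : 0 < a3) (ha4 : 0 < a4) (hτ : 0 < τ.im)

include ha1 ha2 ha3 ha4 hτ

theorem summable_G0 : Summable (G0 a1 a2 a3 a4 r12 r13 r14 r23 r24 r34 w1 w2 w3 w4 τ) := by
  have hπ := pi_pos
  refine Summable.of_norm_bounded (summable_gauss_tri4 (2 * π * a4 * τ.im) (2 * π * a3 * τ.im)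
    (2 * π * a2 * τ.im) (2 * π * a1 * τ.im) (by positivity) (by positivity) (by positivity)
    (by positivity) w4 (fun x4 => w3 + r34 * (x4 + w4))
    (fun k => w2 + r23 * (k.2 + w3) + r24 * (k.1 + w4))
    (fun k => w1 + r12 * (k.2 + w2) + r13 * (k.1.2 + w3) + r14 * (k.1.1 + w4))) (fun v => ?_)
  rw [G0, norm_cexp_form, ← Real.exp_add, ← Real.exp_add, ← Real.exp_add]
  apply le_of_eq
  congr 1
  ring

theorem summable_G1 : Summable (G1 a1 a2 a3 a4 r12 r13 r14 r23 r24 r34 w1 w2 w3 w4 τ) := by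
  have hπ := pi_pos
  have hi := im_neg_inv_pos τ hτ
  refine Summable.of_norm_bounded (summable_gauss_tri4 (2 * π * a4 * τ.im) (2 * π * a3 * τ.im)
    (2 * π * a2 * τ.im) (2 * π * (-1 / τ).im / (4 * a1)) (by positivity) (by positivity)
    (by positivity) (by positivity) w4 (fun x4 => w3 + r34 * (x4 + w4))
    (fun k => w2 + r23 * (k.2 + w3) + r24 * (k.1 + w4))
    (fun _ => 0)) (fun v => ?_)
  rw [G1, norm_cexp_form, ← Real.exp_add, ← Real.exp_add, ← Real.exp_add]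
  apply le_of_eq
  congr 1
  ring

theorem summable_G2 : Summable (G2 a1 a2 a3 a4 r12 r13 r14 r23 r24 r34 w1 w2 w3 w4 τ) := by
  have hπ := pi_pos
  have hi := im_neg_inv_pos τ hτ
  refine Summable.of_norm_bounded (summable_gauss_tri4 (2 * π * a4 * τ.im) (2 * π * a3 * τ.im)
    (2 * π * (-1 / τ).im / (4 * a1)) (2 * π * (-1 / τ).im / (4 * a2)) (by positivity)
    (by positivity) (by positivity) (by positivity) w4 (fun x4 => w3 + r34 * (x4 + w4))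
    (fun _ => 0) (fun k => -(r12 * k.2))) (fun v => ?_)
  rw [G2, norm_cexp_form, ← Real.exp_add, ← Real.exp_add, ← Real.exp_add]
  apply le_of_eq
  congr 1
  ring

theorem summable_G3 : Summable (G3 a1 a2 a3 a4 r12 r13 r14 r23 r24 r34 w1 w2 w3 w4 τ) := by
  have hπ := pi_pos
  have hi := im_neg_inv_pos τ hτ
  refine Summable.of_norm_bounded (summable_gauss_tri4 (2 * π * a4 * τ.im)
    (2 * π * (-1 / τ).im / (4 * a1)) (2 * π * (-1 / τ).im / (4 * a2))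
    (2 * π * (-1 / τ).im / (4 * a3)) (by positivity)
    (by positivity) (by positivity) (by positivity) w4 (fun _ => 0)
    (fun k => -(r12 * k.2)) (fun k => -(r13 * k.1.2) - r23 * ((k.2 : ℝ) - r12 * k.1.2)))
    (fun v => ?_)
  rw [G3, norm_cexp_form, ← Real.exp_add, ← Real.exp_add, ← Real.exp_add]
  apply le_of_eq
  congr 1
  ring

theorem summable_G4 : Summable (G4 a1 a2 a3 a4 r12 r13 r14 r23 r24 r34 w1 w2 w3 w4 τ) := by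
  have hπ := pi_pos
  have hi := im_neg_inv_pos τ hτ
  refine Summable.of_norm_bounded (summable_gauss_tri4 (2 * π * (-1 / τ).im / (4 * a1))
    (2 * π * (-1 / τ).im / (4 * a2)) (2 * π * (-1 / τ).im / (4 * a3))
    (2 * π * (-1 / τ).im / (4 * a4)) (by positivity)
    (by positivity) (by positivity) (by positivity) 0 (fun y1 => -(r12 * y1))
    (fun k => -(r13 * k.1) - r23 * ((k.2 : ℝ) - r12 * k.1))
    (fun k => -(r14 * k.1.1) - r24 * ((k.1.2 : ℝ) - r12 * k.1.1) -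
      r34 * ((k.2 : ℝ) - r13 * k.1.1 - r23 * ((k.1.2 : ℝ) - r12 * k.1.1))))
    (fun v => ?_)
  rw [G4, norm_cexp_form, ← Real.exp_add, ← Real.exp_add, ← Real.exp_add]
  apply le_of_eq
  congr 1
  ring

end Tri

/-- `(((a, b), c), d) ↦ (((a, b), d), c)` -/
def eqv1 : ((ℤ × ℤ) × ℤ) × ℤ ≃ ((ℤ × ℤ) × ℤ) × ℤ where
  toFun v := ((v.1.1, v.2), v.1.2)
  invFun v := ((v.1.1, v.2), v.1.2)
  left_inv _ := rfl
  right_inv _ := rfl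

/-- `(((a, b), c), d) ↦ (((a, d), b), c)` -/
def eqv2 : ((ℤ × ℤ) × ℤ) × ℤ ≃ ((ℤ × ℤ) × ℤ) × ℤ where
  toFun v := (((v.1.1.1, v.2), v.1.1.2), v.1.2)
  invFun v := (((v.1.1.1, v.1.2), v.2), v.1.1.2)
  left_inv _ := rfl
  right_inv _ := rfl

/-- `(((a, b), c), d) ↦ (((d, a), b), c)` -/
def eqv3 : ((ℤ × ℤ) × ℤ) × ℤ ≃ ((ℤ × ℤ) × ℤ) × ℤ where
  toFun v := (((v.2, v.1.1.1), v.1.1.2), v.1.2)
  invFun v := (((v.1.1.2, v.1.2), v.2), v.1.1.1)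
  left_inv _ := rfl
  right_inv _ := rfl

section Tri

variable (a1 a2 a3 a4 r12 r13 r14 r23 r24 r34 w1 w2 w3 w4 : ℝ) (τ : ℂ)
variable (ha1 : 0 < a1) (ha2 : 0 < a2) (ha3 : 0 < a3) (ha4 : 0 < a4) (hτ : 0 < τ.im)

include ha1 ha2 ha3 ha4 hτ

theorem stage01 :
    ∑' v, G0 a1 a2 a3 a4 r12 r13 r14 r23 r24 r34 w1 w2 w3 w4 τ v =
      1 / (-2 * I * a1 * τ) ^ (1 / 2 : ℂ) *
        ∑' v, G1 a1 a2 a3 a4 r12 r13 r14 r23 r24 r34 w1 w2 w3 w4 τ v := by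
  refine tsum_peel a1 ha1 τ hτ
    (fun k => w1 + r12 * (k.2 + w2) + r13 * (k.1.2 + w3) + r14 * (k.1.1 + w4))
    (fun _ => 0)
    (fun k => 2 * π * I * (τ *
      ((a2 * ((k.2 : ℝ) + (w2 + r23 * (k.1.2 + w3) + r24 * (k.1.1 + w4))) ^ 2 +
        a3 * ((k.1.2 : ℝ) + (w3 + r34 * (k.1.1 + w4))) ^ 2 +
        a4 * ((k.1.1 : ℝ) + w4) ^ 2 : ℝ) : ℂ))) _ _ (fun p => ?_) (fun p => ?_)
    (summable_G0 a1 a2 a3 a4 r12 r13 r14 r23 r24 r34 w1 w2 w3 w4 τ ha1 ha2 ha3 ha4 hτ)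
    (summable_G1 a1 a2 a3 a4 r12 r13 r14 r23 r24 r34 w1 w2 w3 w4 τ ha1 ha2 ha3 ha4 hτ)
  · rw [G0]
    congr 1
    push_cast
    ring
  · rw [G1]
    congr 1
    push_cast
    ring

theorem stage12 :
    ∑' v, G1 a1 a2 a3 a4 r12 r13 r14 r23 r24 r34 w1 w2 w3 w4 τ v =
      1 / (-2 * I * a2 * τ) ^ (1 / 2 : ℂ) *
        ∑' v, G2 a1 a2 a3 a4 r12 r13 r14 r23 r24 r34 w1 w2 w3 w4 τ v := by
  rw [← eqv1.tsum_eq (G1 a1 a2 a3 a4 r12 r13 r14 r23 r24 r34 w1 w2 w3 w4 τ)]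
  refine tsum_peel a2 ha2 τ hτ
    (fun k => w2 + r23 * (k.1.2 + w3) + r24 * (k.1.1 + w4))
    (fun k => r12 * k.2)
    (fun k => 2 * π * I * ((((k.2 : ℝ) * (w1 + r12 * w2 + r13 * (k.1.2 + w3) +
        r14 * (k.1.1 + w4)) : ℝ) : ℂ) + τ *
      ((a3 * ((k.1.2 : ℝ) + (w3 + r34 * (k.1.1 + w4))) ^ 2 +
        a4 * ((k.1.1 : ℝ) + w4) ^ 2 : ℝ) : ℂ) +
      (-1 / τ) * (((k.2 : ℝ) ^ 2 / (4 * a1) : ℝ) : ℂ))) _ _ (fun p => ?_) (fun p => ?_)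
    ((Equiv.summable_iff eqv1).2
      (summable_G1 a1 a2 a3 a4 r12 r13 r14 r23 r24 r34 w1 w2 w3 w4 τ ha1 ha2 ha3 ha4 hτ))
    (summable_G2 a1 a2 a3 a4 r12 r13 r14 r23 r24 r34 w1 w2 w3 w4 τ ha1 ha2 ha3 ha4 hτ)
  · show G1 a1 a2 a3 a4 r12 r13 r14 r23 r24 r34 w1 w2 w3 w4 τ ((p.1.1, p.2), p.1.2) = _
    rw [G1]
    congr 1
    push_cast
    ring
  · rw [G2]
    congr 1
    push_cast
    ring

theorem stage23 :
    ∑' v, G2 a1 a2 a3 a4 r12 r13 r14 r23 r24 r34 w1 w2 w3 w4 τ v =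
      1 / (-2 * I * a3 * τ) ^ (1 / 2 : ℂ) *
        ∑' v, G3 a1 a2 a3 a4 r12 r13 r14 r23 r24 r34 w1 w2 w3 w4 τ v := by
  rw [← eqv2.tsum_eq (G2 a1 a2 a3 a4 r12 r13 r14 r23 r24 r34 w1 w2 w3 w4 τ)]
  refine tsum_peel a3 ha3 τ hτ
    (fun k => w3 + r34 * (k.1.1 + w4))
    (fun k => r13 * k.1.2 + r23 * ((k.2 : ℝ) - r12 * k.1.2))
    (fun k => 2 * π * I * ((((k.1.2 : ℝ) * (w1 + r12 * w2 + r13 * w3 + r14 * (k.1.1 + w4)) +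
        ((k.2 : ℝ) - r12 * k.1.2) * (w2 + r23 * w3 + r24 * (k.1.1 + w4)) : ℝ) : ℂ) + τ *
      ((a4 * ((k.1.1 : ℝ) + w4) ^ 2 : ℝ) : ℂ) +
      (-1 / τ) * (((k.1.2 : ℝ) ^ 2 / (4 * a1) +
        ((k.2 : ℝ) - r12 * k.1.2) ^ 2 / (4 * a2) : ℝ) : ℂ))) _ _ (fun p => ?_) (fun p => ?_)
    ((Equiv.summable_iff eqv2).2
      (summable_G2 a1 a2 a3 a4 r12 r13 r14 r23 r24 r34 w1 w2 w3 w4 τ ha1 ha2 ha3 ha4 hτ))
    (summable_G3 a1 a2 a3 a4 r12 r13 r14 r23 r24 r34 w1 w2 w3 w4 τ ha1 ha2 ha3 ha4 hτ)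
  · show G2 a1 a2 a3 a4 r12 r13 r14 r23 r24 r34 w1 w2 w3 w4 τ
      (((p.1.1.1, p.2), p.1.1.2), p.1.2) = _
    rw [G2]
    congr 1
    push_cast
    ring
  · rw [G3]
    congr 1
    push_cast
    ring

theorem stage34 :
    ∑' v, G3 a1 a2 a3 a4 r12 r13 r14 r23 r24 r34 w1 w2 w3 w4 τ v =
      1 / (-2 * I * a4 * τ) ^ (1 / 2 : ℂ) *
        ∑' v, G4 a1 a2 a3 a4 r12 r13 r14 r23 r24 r34 w1 w2 w3 w4 τ v := by
  rw [← eqv3.tsum_eq (G3 a1 a2 a3 a4 r12 r13 r14 r23 r24 r34 w1 w2 w3 w4 τ)]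
  refine tsum_peel a4 ha4 τ hτ
    (fun _ => w4)
    (fun k => r14 * k.1.1 + r24 * ((k.1.2 : ℝ) - r12 * k.1.1) +
      r34 * ((k.2 : ℝ) - r13 * k.1.1 - r23 * ((k.1.2 : ℝ) - r12 * k.1.1)))
    (fun k => 2 * π * I * ((((k.1.1 : ℝ) * (w1 + r12 * w2 + r13 * w3 + r14 * w4) +
        ((k.1.2 : ℝ) - r12 * k.1.1) * (w2 + r23 * w3 + r24 * w4) +
        ((k.2 : ℝ) - r13 * k.1.1 - r23 * ((k.1.2 : ℝ) - r12 * k.1.1)) * (w3 + r34 * w4) : ℝ) : ℂ) +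
      (-1 / τ) * (((k.1.1 : ℝ) ^ 2 / (4 * a1) + ((k.1.2 : ℝ) - r12 * k.1.1) ^ 2 / (4 * a2) +
        ((k.2 : ℝ) - r13 * k.1.1 - r23 * ((k.1.2 : ℝ) - r12 * k.1.1)) ^ 2 / (4 * a3) : ℝ) : ℂ)))
    _ _ (fun p => ?_) (fun p => ?_)
    ((Equiv.summable_iff eqv3).2
      (summable_G3 a1 a2 a3 a4 r12 r13 r14 r23 r24 r34 w1 w2 w3 w4 τ ha1 ha2 ha3 ha4 hτ))
    (summable_G4 a1 a2 a3 a4 r12 r13 r14 r23 r24 r34 w1 w2 w3 w4 τ ha1 ha2 ha3 ha4 hτ)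
  · show G3 a1 a2 a3 a4 r12 r13 r14 r23 r24 r34 w1 w2 w3 w4 τ
      (((p.2, p.1.1.1), p.1.1.2), p.1.2) = _
    rw [G3]
    congr 1
    push_cast
    ring
  · rw [G4]
    congr 1
    push_cast
    ring

theorem stage04 :
    ∑' v, G0 a1 a2 a3 a4 r12 r13 r14 r23 r24 r34 w1 w2 w3 w4 τ v =
      1 / (-2 * I * a1 * τ) ^ (1 / 2 : ℂ) * (1 / (-2 * I * a2 * τ) ^ (1 / 2 : ℂ)) *
        (1 / (-2 * I * a3 * τ) ^ (1 / 2 : ℂ)) * (1 / (-2 * I * a4 * τ) ^ (1 / 2 : ℂ)) *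
        ∑' v, G4 a1 a2 a3 a4 r12 r13 r14 r23 r24 r34 w1 w2 w3 w4 τ v := by
  rw [stage01 a1 a2 a3 a4 r12 r13 r14 r23 r24 r34 w1 w2 w3 w4 τ ha1 ha2 ha3 ha4 hτ,
    stage12 a1 a2 a3 a4 r12 r13 r14 r23 r24 r34 w1 w2 w3 w4 τ ha1 ha2 ha3 ha4 hτ,
    stage23 a1 a2 a3 a4 r12 r13 r14 r23 r24 r34 w1 w2 w3 w4 τ ha1 ha2 ha3 ha4 hτ,
    stage34 a1 a2 a3 a4 r12 r13 r14 r23 r24 r34 w1 w2 w3 w4 τ ha1 ha2 ha3 ha4 hτ]
  ring

end Tri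

theorem cpow_half_ofReal_mul (x : ℝ) (hx : 0 < x) (u : ℂ) (hu : u ≠ 0) :
    ((x : ℂ) * u) ^ (1 / 2 : ℂ) = (Real.sqrt x : ℂ) * u ^ (1 / 2 : ℂ) := by
  have hx0 : (x : ℂ) ≠ 0 := by exact_mod_cast hx.ne'
  rw [Complex.cpow_def_of_ne_zero (mul_ne_zero hx0 hu), Complex.cpow_def_of_ne_zero hu,
    Complex.log_ofReal_mul hx hu, add_mul, Complex.exp_add]
  congr 1
  rw [Real.sqrt_eq_rpow, Real.rpow_def_of_pos hx]
  push_cast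
  ring_nf

theorem cpow_half_pow_four (u : ℂ) : (u ^ (1 / 2 : ℂ)) ^ 4 = u ^ 2 := by
  have h : (u ^ (1 / 2 : ℂ)) ^ 2 = u := by
    simp [one_div]
  calc (u ^ (1 / 2 : ℂ)) ^ 4 = ((u ^ (1 / 2 : ℂ)) ^ 2) ^ 2 := by ring
    _ = u ^ 2 := by rw [h]

theorem tri4_const (a1 a2 a3 a4 : ℝ) (ha1 : 0 < a1) (ha2 : 0 < a2) (ha3 : 0 < a3) (ha4 : 0 < a4)
    (τ : ℂ) (hτ : 0 < τ.im) :
    1 / (-2 * I * a1 * τ) ^ (1 / 2 : ℂ) * (1 / (-2 * I * a2 * τ) ^ (1 / 2 : ℂ)) *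
        (1 / (-2 * I * a3 * τ) ^ (1 / 2 : ℂ)) * (1 / (-2 * I * a4 * τ) ^ (1 / 2 : ℂ)) =
      -1 / (4 * (Real.sqrt (a1 * a2 * a3 * a4) : ℂ) * τ ^ 2) := by
  have hτ0 : τ ≠ 0 := by
    rintro rfl
    simp at hτ
  have hu : -I * τ ≠ 0 := mul_ne_zero (neg_ne_zero.2 I_ne_zero) hτ0
  have key : ∀ a : ℝ, 0 < a → (-2 * I * a * τ) ^ (1 / 2 : ℂ) =
      (Real.sqrt (2 * a) : ℂ) * (-I * τ) ^ (1 / 2 : ℂ) := by
    intro a ha
    rw [← cpow_half_ofReal_mul (2 * a) (by positivity) _ hu]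
    congr 1
    push_cast
    ring
  rw [key a1 ha1, key a2 ha2, key a3 ha3, key a4 ha4]
  have hs : Real.sqrt (2 * a1) * Real.sqrt (2 * a2) * Real.sqrt (2 * a3) * Real.sqrt (2 * a4) =
      4 * Real.sqrt (a1 * a2 * a3 * a4) := by
    rw [← Real.sqrt_mul (by positivity), ← Real.sqrt_mul (by positivity),
      ← Real.sqrt_mul (by positivity)]
    have h16 : 2 * a1 * (2 * a2) * (2 * a3) * (2 * a4) = 4 ^ 2 * (a1 * a2 * a3 * a4) := by ring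
    rw [h16, Real.sqrt_mul (by positivity), Real.sqrt_sq (by norm_num)]
  have h4 := cpow_half_pow_four (-I * τ)
  have hpow : (-I * τ) ^ 2 = -τ ^ 2 := by
    rw [mul_pow, neg_sq, I_sq]
    ring
  have hsC : (Real.sqrt (2 * a1) : ℂ) * Real.sqrt (2 * a2) * Real.sqrt (2 * a3) *
      Real.sqrt (2 * a4) = 4 * (Real.sqrt (a1 * a2 * a3 * a4) : ℂ) := by
    exact_mod_cast hs
  have hprod : ((Real.sqrt (2 * a1) : ℂ) * (-I * τ) ^ (1 / 2 : ℂ)) *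
      ((Real.sqrt (2 * a2) : ℂ) * (-I * τ) ^ (1 / 2 : ℂ)) *
      ((Real.sqrt (2 * a3) : ℂ) * (-I * τ) ^ (1 / 2 : ℂ)) *
      ((Real.sqrt (2 * a4) : ℂ) * (-I * τ) ^ (1 / 2 : ℂ)) =
      -(4 * (Real.sqrt (a1 * a2 * a3 * a4) : ℂ) * τ ^ 2) := by
    calc _ = ((Real.sqrt (2 * a1) : ℂ) * Real.sqrt (2 * a2) * Real.sqrt (2 * a3) *
          Real.sqrt (2 * a4)) * ((-I * τ) ^ (1 / 2 : ℂ)) ^ 4 := by ring
      _ = _ := by rw [hsC, h4, hpow]; ring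
  have hgen : ∀ A B C D : ℂ, 1 / A * (1 / B) * (1 / C) * (1 / D) = 1 / (A * B * C * D) := by
    intro A B C D
    ring
  rw [hgen, hprod, neg_div, one_div, inv_neg, one_div]

/-- `m ↦ (((m 3, m 2), m 1), m 0)` -/
def eqvL : (Fin 4 → ℤ) ≃ ((ℤ × ℤ) × ℤ) × ℤ where
  toFun m := (((m 3, m 2), m 1), m 0)
  invFun v := ![v.2, v.1.2, v.1.1.2, v.1.1.1]
  left_inv m := by
    funext i
    fin_cases i <;> rfl
  right_inv _ := rfl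

/-- `y ↦ (((y 0, y 1), y 2), y 3)` -/
def eqvR : (Fin 4 → ℤ) ≃ ((ℤ × ℤ) × ℤ) × ℤ where
  toFun y := (((y 0, y 1), y 2), y 3)
  invFun v := ![v.1.1.1, v.1.1.2, v.1.2, v.2]
  left_inv y := by
    funext i
    fin_cases i <;> rfl
  right_inv _ := rfl

/-- **Theta inversion for a triangular quadratic form in four variables.**
`X₁ = x₁ + r₁₂ x₂ + r₁₃ x₃ + r₁₄ x₄`, `X₂ = x₂ + r₂₃ x₃ + r₂₄ x₄`, `X₃ = x₃ + r₃₄ x₄`, `X₄ = x₄`;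
dual coordinates `Y₁ = y₁`, `Y₂ = y₂ - r₁₂ Y₁`, `Y₃ = y₃ - r₁₃ Y₁ - r₂₃ Y₂`,
`Y₄ = y₄ - r₁₄ Y₁ - r₂₄ Y₂ - r₃₄ Y₃`. -/
theorem tri4_inversion (a1 a2 a3 a4 r12 r13 r14 r23 r24 r34 w1 w2 w3 w4 : ℝ) (τ : ℂ)
    (ha1 : 0 < a1) (ha2 : 0 < a2) (ha3 : 0 < a3) (ha4 : 0 < a4) (hτ : 0 < τ.im)
    (F F' : (Fin 4 → ℤ) → ℂ)
    (hF : ∀ m, F m = cexp (2 * π * I * (τ *
      ((a1 * ((m 0 : ℝ) + w1 + r12 * (m 1 + w2) + r13 * (m 2 + w3) + r14 * (m 3 + w4)) ^ 2 +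
        a2 * ((m 1 : ℝ) + w2 + r23 * (m 2 + w3) + r24 * (m 3 + w4)) ^ 2 +
        a3 * ((m 2 : ℝ) + w3 + r34 * (m 3 + w4)) ^ 2 +
        a4 * ((m 3 : ℝ) + w4) ^ 2 : ℝ) : ℂ))))
    (hF' : ∀ y, F' y = cexp (2 * π * I * ((((y 0 : ℝ) * w1 + y 1 * w2 + y 2 * w3 + y 3 * w4 : ℝ) : ℂ) +
      (-1 / τ) * (((y 0 : ℝ) ^ 2 / (4 * a1) + ((y 1 : ℝ) - r12 * y 0) ^ 2 / (4 * a2) +
        ((y 2 : ℝ) - r13 * y 0 - r23 * ((y 1 : ℝ) - r12 * y 0)) ^ 2 / (4 * a3) +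
        ((y 3 : ℝ) - r14 * y 0 - r24 * ((y 1 : ℝ) - r12 * y 0) -
          r34 * ((y 2 : ℝ) - r13 * y 0 - r23 * ((y 1 : ℝ) - r12 * y 0))) ^ 2 / (4 * a4) : ℝ) : ℂ)))) :
    Summable F ∧ Summable F' ∧
      ∑' m, F m = -1 / (4 * (Real.sqrt (a1 * a2 * a3 * a4) : ℂ) * τ ^ 2) * ∑' y, F' y := by
  have hFe : F = G0 a1 a2 a3 a4 r12 r13 r14 r23 r24 r34 w1 w2 w3 w4 τ ∘ eqvL := by
    funext m
    rw [hF]
    show _ = G0 a1 a2 a3 a4 r12 r13 r14 r23 r24 r34 w1 w2 w3 w4 τ (((m 3, m 2), m 1), m 0)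
    rw [G0]
    congr 1
    push_cast
    ring
  have hFe' : F' = G4 a1 a2 a3 a4 r12 r13 r14 r23 r24 r34 w1 w2 w3 w4 τ ∘ eqvR := by
    funext y
    rw [hF']
    show _ = G4 a1 a2 a3 a4 r12 r13 r14 r23 r24 r34 w1 w2 w3 w4 τ (((y 0, y 1), y 2), y 3)
    rw [G4]
    congr 1
    push_cast
    ring
  have hs0 := summable_G0 a1 a2 a3 a4 r12 r13 r14 r23 r24 r34 w1 w2 w3 w4 τ ha1 ha2 ha3 ha4 hτ
  have hs4 := summable_G4 a1 a2 a3 a4 r12 r13 r14 r23 r24 r34 w1 w2 w3 w4 τ ha1 ha2 ha3 ha4 hτ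
  refine ⟨?_, ?_, ?_⟩
  · rw [hFe]
    exact (Equiv.summable_iff eqvL).2 hs0
  · rw [hFe']
    exact (Equiv.summable_iff eqvR).2 hs4
  · rw [hFe, hFe']
    rw [show (∑' m, (G0 a1 a2 a3 a4 r12 r13 r14 r23 r24 r34 w1 w2 w3 w4 τ ∘ eqvL) m) =
        ∑' v, G0 a1 a2 a3 a4 r12 r13 r14 r23 r24 r34 w1 w2 w3 w4 τ v from eqvL.tsum_eq _,
      show (∑' y, (G4 a1 a2 a3 a4 r12 r13 r14 r23 r24 r34 w1 w2 w3 w4 τ ∘ eqvR) y) =
        ∑' v, G4 a1 a2 a3 a4 r12 r13 r14 r23 r24 r34 w1 w2 w3 w4 τ v from eqvR.tsum_eq _,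
      stage04 a1 a2 a3 a4 r12 r13 r14 r23 r24 r34 w1 w2 w3 w4 τ ha1 ha2 ha3 ha4 hτ,
      tri4_const a1 a2 a3 a4 ha1 ha2 ha3 ha4 τ hτ]

/-- The quaternary form of the S16 plan (`q = 4k - 1`, `p = q c - t²`), over any commutative
ring. -/
def Q4 {R : Type*} [CommRing R] (k t c : R) (x : Fin 4 → R) : R :=
  x 0 ^ 2 + x 0 * x 1 + k * x 1 ^ 2 + t * (x 1 * x 2 - x 0 * x 3) +
    c * (x 2 ^ 2 + x 2 * x 3 + k * x 3 ^ 2)

/-- The signed permutation with `p * Q4^*(y) = Q4 (iota4 y)`. -/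
def iota4 {R : Type*} [CommRing R] (y : Fin 4 → R) : Fin 4 → R := ![y 3, -y 2, y 1, -y 0]

theorem Q4_tri_aux (k t c q P x0 x1 x2 x3 : ℝ) (hq : q = 4 * k - 1) (hP : P = q * c - t ^ 2)
    (hq0 : q ≠ 0) :
    x0 ^ 2 + x0 * x1 + k * x1 ^ 2 + t * (x1 * x2 - x0 * x3) + c * (x2 ^ 2 + x2 * x3 + k * x3 ^ 2) =
      1 * (x0 + 1 / 2 * x1 + 0 * x2 + -t / 2 * x3) ^ 2 +
        q / 4 * (x1 + 2 * t / q * x2 + t / q * x3) ^ 2 +
        P / q * (x2 + 1 / 2 * x3) ^ 2 + P / 4 * x3 ^ 2 := by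
  have hk : k = (q + 1) / 4 := by linarith
  subst hP
  rw [hk]
  field_simp
  ring

theorem Q4_dual_aux (k t c q P y0 y1 y2 y3 : ℝ) (hq : q = 4 * k - 1) (hP : P = q * c - t ^ 2)
    (hq0 : q ≠ 0) (hP0 : P ≠ 0) :
    (y3 ^ 2 + y3 * -y2 + k * (-y2) ^ 2 + t * (-y2 * y1 - y3 * -y0) +
        c * (y1 ^ 2 + y1 * -y0 + k * (-y0) ^ 2)) / P =
      y0 ^ 2 / (4 * 1) + (y1 - 1 / 2 * y0) ^ 2 / (4 * (q / 4)) +
        (y2 - 0 * y0 - 2 * t / q * (y1 - 1 / 2 * y0)) ^ 2 / (4 * (P / q)) +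
        (y3 - -t / 2 * y0 - t / q * (y1 - 1 / 2 * y0) -
          1 / 2 * (y2 - 0 * y0 - 2 * t / q * (y1 - 1 / 2 * y0))) ^ 2 / (4 * (P / 4)) := by
  have hk : k = (q + 1) / 4 := by linarith
  have hc : c = (P + t ^ 2) / q := by
    field_simp
    linarith
  rw [hk, hc]
  field_simp
  ring

/-- **(INV)** theta inversion with characteristic for the quaternary form `Q4`. -/
theorem theta_inv_Q4 (k t c : ℤ) (hq : 0 < 4 * k - 1) (hp : 0 < (4 * k - 1) * c - t ^ 2)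
    (w : Fin 4 → ℝ) (z : ℂ) (hz : 0 < z.im) :
    Summable (fun m : Fin 4 → ℤ =>
      cexp (2 * π * I * (-(Q4 (k : ℝ) t c (fun i => m i + w i) : ℝ) / z))) ∧
    Summable (fun y : Fin 4 → ℤ => cexp (2 * π * I * ((∑ i, (y i : ℝ) * w i : ℝ) : ℂ)) *
      cexp (2 * π * I * ((Q4 k t c (iota4 y) : ℤ) / (((4 * k - 1) * c - t ^ 2 : ℤ) : ℂ)) * z)) ∧
    ∑' m : Fin 4 → ℤ, cexp (2 * π * I * (-(Q4 (k : ℝ) t c (fun i => m i + w i) : ℝ) / z)) =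
      -(z ^ 2 / (((4 * k - 1) * c - t ^ 2 : ℤ) : ℂ)) *
        ∑' y : Fin 4 → ℤ, cexp (2 * π * I * ((∑ i, (y i : ℝ) * w i : ℝ) : ℂ)) *
          cexp (2 * π * I * ((Q4 k t c (iota4 y) : ℤ) / (((4 * k - 1) * c - t ^ 2 : ℤ) : ℂ)) * z) := by
  have hz0 : z ≠ 0 := by
    rintro rfl
    simp at hz
  obtain ⟨q, hqd⟩ : ∃ q : ℝ, q = 4 * (k : ℝ) - 1 := ⟨_, rfl⟩
  obtain ⟨P, hPd⟩ : ∃ P : ℝ, P = q * (c : ℝ) - (t : ℝ) ^ 2 := ⟨_, rfl⟩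
  have hqR : 0 < q := by
    rw [hqd]
    exact_mod_cast hq
  have hPR : 0 < P := by
    rw [hPd, hqd]
    exact_mod_cast hp
  have hPC : (((4 * k - 1) * c - t ^ 2 : ℤ) : ℂ) = ((P : ℝ) : ℂ) := by
    rw [hPd, hqd]
    push_cast
    ring
  have hPC0 : ((P : ℝ) : ℂ) ≠ 0 := by exact_mod_cast hPR.ne'
  rw [hPC]
  have hτ : 0 < (-1 / z).im := im_neg_inv_pos z hz
  have hτinv : -1 / (-1 / z) = z := by
    field_simp
  obtain ⟨h1, h2, h3⟩ := tri4_inversion 1 (q / 4) (P / q) (P / 4)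
    (1 / 2) 0 (-(t : ℝ) / 2) (2 * (t : ℝ) / q) ((t : ℝ) / q) (1 / 2)
    (w 0) (w 1) (w 2) (w 3) (-1 / z) one_pos (by positivity) (by positivity) (by positivity) hτ
    (fun m : Fin 4 → ℤ => cexp (2 * π * I * (-(Q4 (k : ℝ) t c (fun i => m i + w i) : ℝ) / z)))
    (fun y : Fin 4 → ℤ => cexp (2 * π * I * ((∑ i, (y i : ℝ) * w i : ℝ) : ℂ)) *
      cexp (2 * π * I * ((Q4 k t c (iota4 y) : ℤ) / ((P : ℝ) : ℂ)) * z))
    (fun m => by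
      congr 1
      have hQ : Q4 (k : ℝ) t c (fun i => m i + w i) =
          1 * ((m 0 : ℝ) + w 0 + 1 / 2 * (m 1 + w 1) + 0 * (m 2 + w 2) +
              -(t : ℝ) / 2 * (m 3 + w 3)) ^ 2 +
            q / 4 * ((m 1 : ℝ) + w 1 + 2 * (t : ℝ) / q * (m 2 + w 2) +
              (t : ℝ) / q * (m 3 + w 3)) ^ 2 +
            P / q * ((m 2 : ℝ) + w 2 + 1 / 2 * (m 3 + w 3)) ^ 2 +
            P / 4 * ((m 3 : ℝ) + w 3) ^ 2 := by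
        have := Q4_tri_aux (k : ℝ) t c q P (m 0 + w 0) (m 1 + w 1) (m 2 + w 2) (m 3 + w 3)
          hqd hPd hqR.ne'
        simp only [Q4]
        rw [this]
      rw [hQ]
      push_cast
      field_simp)
    (fun y => by
      rw [← Complex.exp_add]
      congr 1
      rw [hτinv]
      have hD : ((Q4 k t c (iota4 y) : ℤ) : ℝ) / P =
          (y 0 : ℝ) ^ 2 / (4 * 1) + ((y 1 : ℝ) - 1 / 2 * y 0) ^ 2 / (4 * (q / 4)) +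
            ((y 2 : ℝ) - 0 * y 0 - 2 * (t : ℝ) / q * ((y 1 : ℝ) - 1 / 2 * y 0)) ^ 2 /
              (4 * (P / q)) +
            ((y 3 : ℝ) - -(t : ℝ) / 2 * y 0 - (t : ℝ) / q * ((y 1 : ℝ) - 1 / 2 * y 0) -
              1 / 2 * ((y 2 : ℝ) - 0 * y 0 -
                2 * (t : ℝ) / q * ((y 1 : ℝ) - 1 / 2 * y 0))) ^ 2 / (4 * (P / 4)) := by
        rw [← Q4_dual_aux (k : ℝ) t c q P (y 0) (y 1) (y 2) (y 3) hqd hPd hqR.ne' hPR.ne']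
        congr 1
        simp [Q4, iota4]
      rw [← hD, Fin.sum_univ_four]
      push_cast
      ring)
  refine ⟨h1, h2, ?_⟩
  rw [h3]
  congr 1
  have hsqrt : Real.sqrt (1 * (q / 4) * (P / q) * (P / 4)) = P / 4 := by
    rw [show 1 * (q / 4) * (P / q) * (P / 4) = (P / 4) ^ 2 by
      have := hqR.ne'
      field_simp]
    exact Real.sqrt_sq (by positivity)
  rw [hsqrt]
  push_cast
  field_simp

end Fermat.Agent.S16.H56
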