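import Mathlib
import Fermat.Agent.S20.Util_helper78

/-!
# S16, package TH7: from the `S`/`T` transformation laws of a theta function to a modular form
of weight `2` on `Γ₀(p)`.

`θ : ℂ → ℂ` is any function (typically an infinite sum; its values outside the upper half plane
are irrelevant).  Hypotheses: holomorphic and bounded for `Im z ≥ 1`, `θ (z + 1) = θ z`,
`θ (-1/z) = -(z²/p) θ (z/p)` and, for `j j' ≡ -1 mod p`,
`θ ((j z - 1)/(p z)) = z² θ ((z + j')/p)`.
Conclusion: `θ` is (the restriction to `ℍ` of) a modular form of weight `2` on `Γ₀(p)`.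
-/

set_option autoImplicit false

namespace Fermat.Agent.S16.H34

open UpperHalfPlane ModularForm CongruenceSubgroup ModularGroup
open scoped MatrixGroups ModularForm Manifold

section Index

variable (p : ℕ)

/-- The action of `T` on the index set `ℙ¹(𝔽_p) = Option (ZMod p)` (`none = ∞`). -/
def sigT : Option (ZMod p) → Option (ZMod p)
  | none => none
  | some j => some (j + 1)

/-- The action of `S` on the index set. -/
def sigS : Option (ZMod p) → Option (ZMod p)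
  | none => some 0
  | some j => if j = 0 then none else some (-j⁻¹)

/-- The index `d/c mod p` (resp. `∞` if `p ∣ c`) attached to the bottom row `(c, d)`. -/
def idx [Fact p.Prime] (γ : SL(2, ℤ)) : Option (ZMod p) :=
  if ((γ 1 0 : ℤ) : ZMod p) = 0 then none
  else some (((γ 1 1 : ℤ) : ZMod p) / ((γ 1 0 : ℤ) : ZMod p))

theorem idx_one [Fact p.Prime] : idx p 1 = none := by
  simp [idx]

theorem idx_of_mem_Gamma0 [Fact p.Prime] {γ : SL(2, ℤ)} (hγ : γ ∈ Gamma0 p) : idx p γ = none := by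
  rw [Gamma0_mem] at hγ
  simp [idx, hγ]

theorem idx_mul_T [Fact p.Prime] (γ : SL(2, ℤ)) : idx p (γ * T) = sigT p (idx p γ) := by
  have h10 : (γ * T) 1 0 = γ 1 0 := by
    simp [Matrix.SpecialLinearGroup.coe_mul, coe_T, Matrix.mul_apply, Fin.sum_univ_two]
  have h11 : (γ * T) 1 1 = γ 1 0 + γ 1 1 := by
    simp [Matrix.SpecialLinearGroup.coe_mul, coe_T, Matrix.mul_apply, Fin.sum_univ_two]
  unfold idx
  rw [h10, h11]
  by_cases hc : ((γ 1 0 : ℤ) : ZMod p) = 0
  · simp [hc, sigT]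
  · simp only [hc, if_false, sigT, Int.cast_add, Option.some.injEq]
    field_simp
    ring

theorem idx_mul_S [Fact p.Prime] (γ : SL(2, ℤ)) : idx p (γ * S) = sigS p (idx p γ) := by
  have h10 : (γ * S) 1 0 = γ 1 1 := by
    simp [Matrix.SpecialLinearGroup.coe_mul, coe_S, Matrix.mul_apply, Fin.sum_univ_two]
  have h11 : (γ * S) 1 1 = -γ 1 0 := by
    simp [Matrix.SpecialLinearGroup.coe_mul, coe_S, Matrix.mul_apply, Fin.sum_univ_two]
  have hdet : ((γ 0 0 : ℤ) : ZMod p) * ((γ 1 1 : ℤ) : ZMod p)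
      - ((γ 0 1 : ℤ) : ZMod p) * ((γ 1 0 : ℤ) : ZMod p) = 1 := by
    have h := γ.det_coe
    rw [Matrix.det_fin_two] at h
    have h2 := congrArg (Int.cast : ℤ → ZMod p) h
    push_cast at h2
    exact h2
  unfold idx
  rw [h10, h11]
  by_cases hc : ((γ 1 0 : ℤ) : ZMod p) = 0
  · have hd : ((γ 1 1 : ℤ) : ZMod p) ≠ 0 := by
      intro hd
      rw [hc, hd] at hdet
      simp at hdet
    simp [hc, hd, sigS]
  · by_cases hd : ((γ 1 1 : ℤ) : ZMod p) = 0
    · simp [hc, hd, sigS]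
    · simp only [hc, hd, if_false, sigS, Int.cast_neg, div_eq_zero_iff, or_self,
        Option.some.injEq]
      field_simp

theorem sigS_sigS [Fact p.Prime] (i : Option (ZMod p)) : sigS p (sigS p i) = i := by
  cases i with
  | none => simp [sigS]
  | some j =>
    by_cases hj : j = 0
    · simp [sigS, hj]
    · simp [sigS, hj]

end Index

section Family

variable (p : ℕ) (θ : ℂ → ℂ)

/-- The family of conjugates: `G_∞ = θ`, `G_j(z) = -(1/p) θ((z + j)/p)`. -/
noncomputable def Gfam : Option (ZMod p) → ℍ → ℂ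
  | none => fun z => θ z
  | some j => fun z => -(1 / (p : ℂ)) * θ (((z : ℂ) + (j.val : ℂ)) / p)

theorem Gfam_none (z : ℍ) : Gfam p θ none z = θ z := rfl

theorem Gfam_some (j : ZMod p) (z : ℍ) :
    Gfam p θ (some j) z = -(1 / (p : ℂ)) * θ (((z : ℂ) + (j.val : ℂ)) / p) := rfl

variable {p θ} [Fact p.Prime]

theorem theta_add_int (hper : ∀ z : ℂ, 0 < z.im → θ (z + 1) = θ z) (z : ℂ) (hz : 0 < z.im)
    (n : ℤ) : θ (z + n) = θ z := by
  induction n using Int.induction_on with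
  | zero => simp
  | succ n ih =>
    have h1 : 0 < (z + (n : ℂ)).im := by simpa using hz
    have := hper (z + n) h1
    push_cast at ih ⊢
    rw [← add_assoc, this, ih]
  | pred n ih =>
    have h1 : 0 < (z + ((-(n : ℤ) - 1 : ℤ) : ℂ)).im := by simpa using hz
    have := hper (z + ((-(n : ℤ) - 1 : ℤ) : ℂ)) h1
    rw [← this, ← ih]
    congr 1
    push_cast
    ring

theorem im_div_p_pos {w : ℂ} (hw : 0 < w.im) : 0 < (w / (p : ℂ)).im := by
  have hp : (0 : ℝ) < p := by exact_mod_cast (Fact.out : p.Prime).pos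
  have : (w / (p : ℂ)).im = w.im / p := by
    rw [show (p : ℂ) = ((p : ℝ) : ℂ) by push_cast; rfl, Complex.div_ofReal_im]
  rw [this]
  positivity

theorem Gfam_some_eq (hper : ∀ z : ℂ, 0 < z.im → θ (z + 1) = θ z) (j : ZMod p) (m : ℤ)
    (hm : (m : ZMod p) = j) (z : ℍ) :
    Gfam p θ (some j) z = -(1 / (p : ℂ)) * θ (((z : ℂ) + (m : ℂ)) / p) := by
  rw [Gfam_some]
  have hp0 : (p : ℂ) ≠ 0 := by exact_mod_cast (Fact.out : p.Prime).ne_zero
  have h1 : ((m - (j.val : ℤ) : ℤ) : ZMod p) = 0 := by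
    push_cast
    rw [hm, ZMod.natCast_zmod_val, sub_self]
  obtain ⟨k, hk⟩ := (ZMod.intCast_zmod_eq_zero_iff_dvd _ _).mp h1
  have hmk : (m : ℂ) = (j.val : ℂ) + (p : ℂ) * k := by
    have : m = (j.val : ℤ) + (p : ℤ) * k := by linarith
    rw [this]; push_cast; ring
  have h2 : ((z : ℂ) + (m : ℂ)) / p = ((z : ℂ) + (j.val : ℂ)) / p + k := by
    rw [hmk]; field_simp; ring
  rw [h2, theta_add_int hper _ _ k]
  apply im_div_p_pos
  rw [Complex.add_im, Complex.natCast_im, add_zero]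
  exact z.im_pos

theorem Gfam_slash_T (hper : ∀ z : ℂ, 0 < z.im → θ (z + 1) = θ z) (i : Option (ZMod p)) :
    Gfam p θ i ∣[(2 : ℤ)] T = Gfam p θ (sigT p i) := by
  ext z
  have hden : denom T z = 1 := by simp [denom_apply, coe_T]
  rw [SL_slash_apply, modular_T_smul, hden, one_zpow, mul_one]
  cases i with
  | none =>
    simp only [sigT, Gfam_none, coe_vadd]
    have := hper z (by simpa using z.im_pos)
    rw [← this, add_comm]
    simp
  | some j =>
    simp only [sigT]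
    rw [Gfam_some_eq hper (j + 1) ((j.val : ℤ) + 1) (by simp) z, Gfam_some, coe_vadd]
    congr 3
    push_cast
    ring

theorem Gfam_slash_S (hper : ∀ z : ℂ, 0 < z.im → θ (z + 1) = θ z)
    (hc : ∀ z : ℂ, 0 < z.im → θ (-1 / z) = -(z ^ 2 / p) * θ (z / p))
    (hd : ∀ (j j' : ℤ) (z : ℂ), (p : ℤ) ∣ j * j' + 1 → 0 < z.im →
      θ ((j * z - 1) / (p * z)) = z ^ 2 * θ ((z + j') / p))
    (i : Option (ZMod p)) :
    Gfam p θ i ∣[(2 : ℤ)] S = Gfam p θ (sigS p i) := by
  ext z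
  have hz0 : (z : ℂ) ≠ 0 := ne_zero z
  have hzim : 0 < (z : ℂ).im := z.im_pos
  have hp0 : (p : ℂ) ≠ 0 := by exact_mod_cast (Fact.out : p.Prime).ne_zero
  have hppos : (0 : ℝ) < p := by exact_mod_cast (Fact.out : p.Prime).pos
  rw [SlashInvariantForm.slash_S_apply]
  cases i with
  | none =>
    simp only [sigS, Gfam_none, Gfam_some, ZMod.val_zero, Nat.cast_zero, add_zero]
    have h1 : (-(z : ℂ))⁻¹ = -1 / (z : ℂ) := by field_simp
    rw [h1, hc z hzim, zpow_neg, zpow_ofNat]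
    field_simp
  | some j =>
    by_cases hj : j = 0
    · subst hj
      simp only [sigS, if_true, Gfam_none, Gfam_some, ZMod.val_zero, Nat.cast_zero,
        add_zero]
      have h1 : (-(z : ℂ))⁻¹ / (p : ℂ) = -1 / ((p : ℂ) * z) := by field_simp
      have h2 : 0 < ((p : ℂ) * z).im := by
        rw [show (p : ℂ) = ((p : ℝ) : ℂ) by push_cast; rfl, Complex.im_ofReal_mul]
        positivity
      rw [h1, hc _ h2, zpow_neg, zpow_ofNat]
      have h3 : (p : ℂ) * z / p = z := by field_simp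
      rw [h3]
      field_simp
    · simp only [sigS, hj, if_false]
      rw [Gfam_some_eq hper (-j⁻¹) (((-j⁻¹ : ZMod p).val : ℕ) : ℤ) (by simp) z, Gfam_some, coe_mk]
      have hdvd : (p : ℤ) ∣ ((j.val : ℕ) : ℤ) * (((-j⁻¹ : ZMod p).val : ℕ) : ℤ) + 1 := by
        rw [← ZMod.intCast_zmod_eq_zero_iff_dvd]
        push_cast
        rw [ZMod.natCast_zmod_val, ZMod.natCast_zmod_val]
        field_simp
        ring
      have h1 : ((-(z : ℂ))⁻¹ + ((j.val : ℕ) : ℂ)) / (p : ℂ)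
          = ((((j.val : ℕ) : ℤ) : ℂ) * z - 1) / ((p : ℂ) * z) := by
        push_cast
        field_simp
        ring
      rw [h1, hd _ _ z hdvd hzim, zpow_neg, zpow_ofNat]
      push_cast
      field_simp

theorem Gfam_slash_gen (hper : ∀ z : ℂ, 0 < z.im → θ (z + 1) = θ z)
    (hc : ∀ z : ℂ, 0 < z.im → θ (-1 / z) = -(z ^ 2 / p) * θ (z / p))
    (hd : ∀ (j j' : ℤ) (z : ℂ), (p : ℤ) ∣ j * j' + 1 → 0 < z.im →
      θ ((j * z - 1) / (p * z)) = z ^ 2 * θ ((z + j') / p))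
    (γ y : SL(2, ℤ)) (hy : y ∈ ({S, T} : Set SL(2, ℤ))) :
    Gfam p θ (idx p γ) ∣[(2 : ℤ)] y = Gfam p θ (idx p (γ * y)) := by
  rcases hy with rfl | hy
  · rw [Gfam_slash_S hper hc hd, idx_mul_S]
  · rw [Set.mem_singleton_iff] at hy
    subst hy
    rw [Gfam_slash_T hper, idx_mul_T]

/-- The transformation law of `θ` under all of `SL(2, ℤ)`. -/
theorem Gfam_slash (hper : ∀ z : ℂ, 0 < z.im → θ (z + 1) = θ z)
    (hc : ∀ z : ℂ, 0 < z.im → θ (-1 / z) = -(z ^ 2 / p) * θ (z / p))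
    (hd : ∀ (j j' : ℤ) (z : ℂ), (p : ℤ) ∣ j * j' + 1 → 0 < z.im →
      θ ((j * z - 1) / (p * z)) = z ^ 2 * θ ((z + j') / p))
    (γ : SL(2, ℤ)) :
    Gfam p θ none ∣[(2 : ℤ)] γ = Gfam p θ (idx p γ) := by
  have hγ : γ ∈ Subgroup.closure ({S, T} : Set SL(2, ℤ)) := by
    rw [SpecialLinearGroup.SL2Z_generators]; exact Subgroup.mem_top _
  induction hγ using Subgroup.closure_induction_right with
  | one => rw [SlashAction.slash_one, idx_one]
  | mul_right x hx y hy ih =>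
    rw [SlashAction.slash_mul, ih, Gfam_slash_gen hper hc hd x y hy]
  | mul_inv_cancel x hx y hy ih =>
    rw [SlashAction.slash_mul, ih]
    have h := Gfam_slash_gen hper hc hd (x * y⁻¹) y hy
    rw [inv_mul_cancel_right] at h
    rw [← h, ← SlashAction.slash_mul, mul_inv_cancel, SlashAction.slash_one]

theorem Gfam_bdd (hbdd : ∃ C, ∀ z : ℂ, 1 ≤ z.im → ‖θ z‖ ≤ C) (i : Option (ZMod p)) :
    IsBoundedAtImInfty (Gfam p θ i) := by
  obtain ⟨C, hC⟩ := hbdd
  have hppos : (0 : ℝ) < p := by exact_mod_cast (Fact.out : p.Prime).pos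
  rw [isBoundedAtImInfty_iff]
  cases i with
  | none =>
    exact ⟨C, 1, fun z hz => hC z hz⟩
  | some j =>
    refine ⟨‖-(1 / (p : ℂ))‖ * C, p, fun z hz => ?_⟩
    rw [Gfam_some, norm_mul]
    refine mul_le_mul_of_nonneg_left (hC _ ?_) (norm_nonneg _)
    have : ((((z : ℂ) + ((j.val : ℕ) : ℂ))) / (p : ℂ)).im = z.im / p := by
      rw [show (p : ℂ) = ((p : ℝ) : ℂ) by push_cast; rfl, Complex.div_ofReal_im, Complex.add_im,
        Complex.natCast_im, add_zero]
      rfl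
    rw [this, le_div_iff₀ hppos]
    simpa using hz

/-- **TH7.** A function with the transformation laws of the theta series of a quaternary form of
level `p` is a modular form of weight `2` on `Γ₀(p)`. -/
theorem modularForm_of_theta (p : ℕ) [Fact p.Prime] (θ : ℂ → ℂ)
    (hol : DifferentiableOn ℂ θ {z | 0 < z.im})
    (hbdd : ∃ C, ∀ z : ℂ, 1 ≤ z.im → ‖θ z‖ ≤ C)
    (hper : ∀ z : ℂ, 0 < z.im → θ (z + 1) = θ z)
    (hc : ∀ z : ℂ, 0 < z.im → θ (-1 / z) = -(z ^ 2 / p) * θ (z / p))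
    (hd : ∀ (j j' : ℤ) (z : ℂ), (p : ℤ) ∣ j * j' + 1 → 0 < z.im →
      θ ((j * z - 1) / (p * z)) = z ^ 2 * θ ((z + j') / p)) :
    ∃ F : ModularForm (Gamma0 p) 2, ∀ z : ℍ, F z = θ z := by
  have : NeZero p := ⟨(Fact.out : p.Prime).ne_zero⟩
  have hmd : MDiff (Gfam p θ none) := by
    rw [UpperHalfPlane.mdifferentiable_iff]
    refine hol.congr fun z hz => ?_
    simp only [Function.comp_apply, Gfam_none]
    rw [ofComplex_apply_of_im_pos hz]
  refine ⟨Fermat.Agent.S20.mkModularForm p 2 (Gfam p θ none) hmd ?_ ?_, fun z => rfl⟩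
  · intro γ hγ
    rw [Gfam_slash hper hc hd, idx_of_mem_Gamma0 p hγ]
  · intro γ
    rw [Gfam_slash hper hc hd]
    exact Gfam_bdd hbdd _

/-- Variant of `modularForm_of_theta` which also records all `SL(2, ℤ)`-translates of the form:
`F ∣[2] γ = G_{[γ]}` with `G_∞ = θ`, `G_j(z) = -(1/p) θ((z + j)/p)`. -/
theorem modularForm_of_theta' (p : ℕ) [Fact p.Prime] (θ : ℂ → ℂ)
    (hol : DifferentiableOn ℂ θ {z | 0 < z.im})
    (hbdd : ∃ C, ∀ z : ℂ, 1 ≤ z.im → ‖θ z‖ ≤ C)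
    (hper : ∀ z : ℂ, 0 < z.im → θ (z + 1) = θ z)
    (hc : ∀ z : ℂ, 0 < z.im → θ (-1 / z) = -(z ^ 2 / p) * θ (z / p))
    (hd : ∀ (j j' : ℤ) (z : ℂ), (p : ℤ) ∣ j * j' + 1 → 0 < z.im →
      θ ((j * z - 1) / (p * z)) = z ^ 2 * θ ((z + j') / p)) :
    ∃ F : ModularForm (Gamma0 p) 2, (∀ z : ℍ, F z = θ z) ∧
      ∀ γ : SL(2, ℤ), (F : ℍ → ℂ) ∣[(2 : ℤ)] γ = Gfam p θ (idx p γ) := by
  obtain ⟨F, hF⟩ := modularForm_of_theta p θ hol hbdd hper hc hd
  refine ⟨F, hF, fun γ => ?_⟩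
  have : (F : ℍ → ℂ) = Gfam p θ none := funext fun z => hF z
  rw [this, Gfam_slash hper hc hd]

end Family

end Fermat.Agent.S16.H34
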