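import Mathlib
import Fermat.Prelude.Thm_CongruenceSubgroup_one_mem_strictPeriods_Gamma0
import Fermat.Agent.S16.Stmts_helper6
import Fermat.Agent.S16.ThetaMod_helper34
import Fermat.Agent.S16.ThetaCD_helper92
import Fermat.Agent.S16.ThetaAnalytic_helper58
import Fermat.Agent.S16.Quat_helper75
import Fermat.Agent.S16.Params_helper77
import Fermat.Agent.S16.ThetaInv_helper56
import Fermat.Agent.S16.GaussQ_helper75

/-!
# S16, node (THETA): integration

`stmtTheta_of : StmtInv → StmtGauss → StmtTheta`, where `StmtInv` (TH3, theta inversion with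
characteristic for the quaternary form `Q4`) and `StmtGauss` (TH4, the Gauss sums of `Q4`
modulo `p`) are the two remaining inputs, in the shapes `InvHyp` / `GaussHyp` of
`ThetaCD_helper92`.

Pieces: TH1 `Params_helper77` (parameters `k, t, c`), TH2 `Quat_helper75` (positive
definiteness), TH5 `ThetaAnalytic_helper58` (analytic facts and `q`-expansion), TH6
`ThetaCD_helper92` (the laws (c), (d)), TH7 `ThetaMod_helper34` (modularity).
-/

set_option autoImplicit false

namespace Fermat.Agent.S16.H34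

open UpperHalfPlane ModularForm CongruenceSubgroup ModularFormClass
open scoped MatrixGroups ModularForm Manifold

/-- (TH3) theta inversion with characteristic, for all admissible parameters. -/
def StmtInv : Prop := ∀ (p : ℕ) (k t c : ℤ), p.Prime → 0 < k → 0 < c →
  (p : ℤ) = (4 * k - 1) * c - t ^ 2 → H92.InvHyp k t c p

/-- (TH4) the Gauss sums of `Q4` modulo `p`, for all admissible parameters. -/
def StmtGauss : Prop := ∀ (p : ℕ) [Fact p.Prime] (k t c : ℤ), 5 ≤ p → 0 < k → 0 < c →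
  (p : ℤ) = (4 * k - 1) * c - t ^ 2 →
  (∀ a b : ZMod p, a ^ 2 + ((4 * k - 1 : ℤ) : ZMod p) * b ^ 2 = 0 → a = 0 ∧ b = 0) →
  H92.GaussHyp k t c p

theorem theta_eq_thetaZ (k t c : ℤ) :
    H92.theta k t c = H58.thetaZ (fun x : Fin 4 → ℤ => H92.Q4 k t c x) := by
  funext z
  unfold H92.theta H58.thetaZ H92.ee
  refine tsum_congr fun x => ?_
  beta_reduce
  congr 1
  ring

theorem posDef_Q4 (k t c : ℤ) (hk : 0 < k) (hp : 0 < (4 * k - 1) * c - t ^ 2) :
    ∃ δ : ℝ, 0 < δ ∧ ∀ x : Fin 4 → ℤ, δ * ∑ i, (x i : ℝ) ^ 2 ≤ ((H92.Q4 k t c x : ℤ) : ℝ) := by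
  obtain ⟨δ, hδ, h⟩ := H75.exists_pos_mul_sum_sq_le_Q4 k t c hk (by simpa [H75.P4] using hp)
  refine ⟨δ, hδ, fun x => ?_⟩
  have h1 := h (fun i => (x i : ℝ))
  rw [← H75.Q4_cast_real] at h1
  exact h1

/-- The node (THETA), modulo theta inversion (TH3) and the Gauss sums (TH4). -/
theorem stmtTheta_of (hInv : StmtInv) (hGS : StmtGauss) : StmtTheta := by
  intro p hp hp5
  have : Fact p.Prime := ⟨hp⟩
  obtain ⟨k, t, c, hk, hc, hpkc, haniso⟩ := H77.exists_params p hp5
  have hpos : 0 < (4 * k - 1) * c - t ^ 2 := by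
    rw [← hpkc]
    exact_mod_cast hp.pos
  obtain ⟨δ, hδ, hQ⟩ := posDef_Q4 k t c hk hpos
  set Qz : (Fin 4 → ℤ) → ℤ := fun x => H92.Q4 k t c x with hQz
  have hθ : H92.theta k t c = H58.thetaZ Qz := theta_eq_thetaZ k t c
  have hsum : H92.SumHyp k t c := by
    intro τ hτ
    have := H58.summable_thetaZ_term Qz hδ hQ hτ
    refine this.congr fun x => ?_
    simp only [H92.ee, hQz]
    rw [mul_assoc]
  have hinv : H92.InvHyp k t c p := hInv p k t c hp hk hc hpkc
  have hgs : H92.GaussHyp k t c p := hGS p k t c hp5 hk hc hpkc haniso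
  obtain ⟨B, hB⟩ := H58.exists_bound_thetaZ Qz hδ hQ one_pos
  obtain ⟨F, hF⟩ := modularForm_of_theta p (H92.theta k t c)
    (by rw [hθ]; exact H58.differentiableOn_thetaZ Qz hδ hQ)
    ⟨B, by rw [hθ]; exact hB⟩
    (fun z _ => by rw [hθ]; exact H58.thetaZ_add_one Qz z)
    (fun z hz => H92.theta_S k t c p hinv z hz)
    (fun j j' z hjj hz => H92.theta_jS k t c p hpkc hsum hinv hgs j j' z hjj hz)
  have hF' : ∀ τ : ℍ, F τ = H58.thetaZ Qz (τ : ℂ) := fun τ => by rw [hF τ, hθ]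
  have hcoeff : ∀ m : ℕ, qCoeff (⇑F) m = (H58.repCountZ Qz m : ℂ) := fun m =>
    H58.qExpansion_coeff_eq_repCountZ Qz hδ hQ F
      (CongruenceSubgroup.one_mem_strictPeriods_Gamma0 p) hF' m
  have hQ0 : Qz 0 = 0 := by simp [hQz, H92.Q4]
  have hneg : ∀ x, Qz (-x) = Qz x := fun x => by simp [hQz, H92.Q4]
  refine ⟨F, ?_, fun n hn => ?_⟩
  · rw [hcoeff 0, H58.repCountZ_zero Qz hδ hQ hQ0, Nat.cast_one]
  · obtain ⟨r, hr⟩ := H58.even_repCountZ Qz hδ hQ hQ0 hneg (k := n) (by omega)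
    refine ⟨(r : ℤ), ?_⟩
    rw [hcoeff n, hr]
    push_cast
    ring

/-- (TH4) from `GaussQ_helper75`. -/
theorem stmtGauss : StmtGauss := by
  intro p _ k t c hp5 _ _ hpkc haniso j hj
  have hp2 : p ≠ 2 := by omega
  have hP : (p : ℤ) = H75.P4 k t c := by simpa [H75.P4] using hpkc
  exact ⟨fun y hy => H75.gaussSum_Q4_not_range p hp2 k t c hP haniso j hj y hy,
    fun x => H75.gaussSum_Q4_range p hp2 k t c hP haniso j hj x⟩

/-- (TH3) from `ThetaInv_helper56`. -/
theorem stmtInv : StmtInv := by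
  intro p k t c hp hk _ hpkc w z hz
  have hq : 0 < 4 * k - 1 := by omega
  have hpos : 0 < (4 * k - 1) * c - t ^ 2 := by
    rw [← hpkc]
    exact_mod_cast hp.pos
  obtain ⟨_, _, h3⟩ := H56.theta_inv_Q4 k t c hq hpos w z hz
  have hpc : (((4 * k - 1) * c - t ^ 2 : ℤ) : ℂ) = (p : ℂ) := by
    rw [← hpkc]
    simp
  rw [hpc] at h3
  have hL : ∀ m : Fin 4 → ℤ,
      H92.ee (-((H92.Q4 (k : ℝ) (t : ℝ) (c : ℝ) (fun i => (m i : ℝ) + w i) : ℝ) : ℂ) / z) =
      Complex.exp (2 * Real.pi * Complex.I *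
        (-(H56.Q4 (k : ℝ) t c (fun i => m i + w i) : ℝ) / z)) := fun m => rfl
  have hR : ∀ y : Fin 4 → ℤ,
      H92.ee (∑ i, (y i : ℂ) * (w i : ℂ)) *
        H92.ee (((H92.Q4 k t c (H92.iota4 y) : ℤ) : ℂ) / p * z) =
      Complex.exp (2 * Real.pi * Complex.I * ((∑ i, (y i : ℝ) * w i : ℝ) : ℂ)) *
        Complex.exp (2 * Real.pi * Complex.I *
          ((H56.Q4 k t c (H56.iota4 y) : ℤ) / (p : ℂ)) * z) := by
    intro y
    unfold H92.ee
    congr 1
    · congr 1
      push_cast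
      rfl
    · congr 1
      have : H92.Q4 k t c (H92.iota4 y) = H56.Q4 k t c (H56.iota4 y) := rfl
      rw [this]
      ring
  simp only [hL, hR]
  exact h3

/-- **The node (THETA).** -/
theorem stmtTheta : StmtTheta := stmtTheta_of stmtInv stmtGauss

end Fermat.Agent.S16.H34
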