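import Mathlib
import Fermat.Agent.S16.Stmts_helper6

/-!
# S16: assembly of (B) from the eight cases, `G`-forms of the elementary cases, final glue
-/

set_option autoImplicit false

namespace Fermat.Agent.S16

open UpperHalfPlane ModularForm CongruenceSubgroup ModularFormClass ModularCurve CuspForm
open scoped MatrixGroups ModularForm Manifold

/-! ## `G`-forms of the elementary cases (alternative deliverables) -/

/-- (C1, `G`-form) `ℓ = p`. -/
def StmtC1G : Prop := ∀ p e : ℕ, p.Prime → 1 ≤ e →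
  ∀ G : ModularForm (Gamma0 p) 2, BHyp p p e G →
  (5 ≤ p → False) ∧ (p = 3 → 2 ≤ e → False) ∧ (p = 2 → 4 ≤ e → False)

/-- (C2, `G`-form) `ℓ ≥ 5`, `ℓ ≠ p`, `ℓ ∤ p + 1`. -/
def StmtC2G : Prop := ∀ p ℓ e : ℕ, p.Prime → ℓ.Prime → 1 ≤ e → 5 ≤ ℓ → ℓ ≠ p → ¬ ℓ ∣ p + 1 →
  ∀ G : ModularForm (Gamma0 p) 2, BHyp p ℓ e G → False

/-- (C4, `G`-form) `ℓ = 3`, `p ≡ 1 mod 3`. -/
def StmtC4G : Prop := ∀ p e : ℕ, p.Prime → 1 ≤ e → p % 3 = 1 →
  ∀ G : ModularForm (Gamma0 p) 2, BHyp p 3 e G → False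

/-- (C5a, `G`-form) `ℓ = 3`, `p ≡ 2 mod 3`, `9 ∤ p + 1`, `e ≥ 2`. -/
def StmtC5aG : Prop := ∀ p e : ℕ, p.Prime → 2 ≤ e → p % 3 = 2 → ¬ 9 ∣ p + 1 →
  ∀ G : ModularForm (Gamma0 p) 2, BHyp p 3 e G → False

/-- (C6, `G`-form) `ℓ = 2`, `p ≡ 1 mod 4`, `e ≥ 2`. -/
def StmtC6G : Prop := ∀ p e : ℕ, p.Prime → 2 ≤ e → p % 4 = 1 →
  ∀ G : ModularForm (Gamma0 p) 2, BHyp p 2 e G → False

/-- (C7, `G`-form) `ℓ = 2`, `p ≡ 3 mod 8`, `e ≥ 3`. -/
def StmtC7G : Prop := ∀ p e : ℕ, p.Prime → 3 ≤ e → p % 8 = 3 →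
  ∀ G : ModularForm (Gamma0 p) 2, BHyp p 2 e G → False

/-! ## Generic bridges from the `BData` forms -/

theorem c1G_of (hBD : StmtBData) (h : StmtC1) : StmtC1G := by
  intro p e hp he G hG
  obtain ⟨A, B, hd, -, -⟩ := hBD p p e hp hp he G hG
  exact h p e A B hp he hd

theorem c2G_of (hBD : StmtBData) (h : StmtC2) : StmtC2G := by
  intro p ℓ e hp hℓ he h5 hne hnd G hG
  obtain ⟨A, B, hd, -, -⟩ := hBD p ℓ e hp hℓ he G hG
  exact h p ℓ e A B hp hℓ he hd h5 hne hnd

theorem c4G_of (hBD : StmtBData) (h : StmtC4) : StmtC4G := by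
  intro p e hp he hmod G hG
  obtain ⟨A, B, hd, -, -⟩ := hBD p 3 e hp Nat.prime_three he G hG
  exact h p e A B hp he hd hmod

theorem c5aG_of (hBD : StmtBData) (h : StmtC5a) : StmtC5aG := by
  intro p e hp he hmod h9 G hG
  obtain ⟨A, B, hd, -, -⟩ := hBD p 3 e hp Nat.prime_three (by omega) G hG
  exact h p e A B hp he hd hmod h9

theorem c6G_of (hBD : StmtBData) (h : StmtC6) : StmtC6G := by
  intro p e hp he hmod G hG
  obtain ⟨A, B, hd, -, -⟩ := hBD p 2 e hp Nat.prime_two (by omega) G hG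
  exact h p e A B hp he hd hmod

theorem c7G_of (hBD : StmtBData) (h : StmtC7) : StmtC7G := by
  intro p e hp he hmod G hG
  obtain ⟨A, B, hd, -, -⟩ := hBD p 2 e hp Nat.prime_two (by omega) G hG
  exact h p e A B hp he hd hmod

/-! ## Assembly of (B) -/

theorem b_of_three_dvd_aux (p : ℕ) (h : p % 3 = 2) : 3 ^ 1 ∣ 24 / Nat.gcd (p - 1) 12 := by
  obtain ⟨g, hg⟩ : ∃ g, g = Nat.gcd (p - 1) 12 := ⟨_, rfl⟩
  rw [← hg]
  have h12 : g ∣ 12 := hg ▸ Nat.gcd_dvd_right _ _
  have hp1 : g ∣ p - 1 := hg ▸ Nat.gcd_dvd_left _ _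
  have hle : g ≤ 12 := Nat.le_of_dvd (by norm_num) h12
  have hpos : 0 < g := Nat.pos_of_dvd_of_pos h12 (by norm_num)
  clear hg
  interval_cases g <;> omega

theorem b_of_two_dvd_aux (p : ℕ) : 2 ^ 1 ∣ 24 / Nat.gcd (p - 1) 12 := by
  obtain ⟨g, hg⟩ : ∃ g, g = Nat.gcd (p - 1) 12 := ⟨_, rfl⟩
  rw [← hg]
  have h12 : g ∣ 12 := hg ▸ Nat.gcd_dvd_right _ _
  have hle : g ≤ 12 := Nat.le_of_dvd (by norm_num) h12
  have hpos : 0 < g := Nat.pos_of_dvd_of_pos h12 (by norm_num)
  clear hg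
  interval_cases g <;> omega

theorem b_of_four_dvd_aux (p : ℕ) (h : p % 4 = 3) : 2 ^ 2 ∣ 24 / Nat.gcd (p - 1) 12 := by
  obtain ⟨g, hg⟩ : ∃ g, g = Nat.gcd (p - 1) 12 := ⟨_, rfl⟩
  rw [← hg]
  have h12 : g ∣ 12 := hg ▸ Nat.gcd_dvd_right _ _
  have hp1 : g ∣ p - 1 := hg ▸ Nat.gcd_dvd_left _ _
  have hle : g ≤ 12 := Nat.le_of_dvd (by norm_num) h12
  have hpos : 0 < g := Nat.pos_of_dvd_of_pos h12 (by norm_num)
  clear hg
  interval_cases g <;> omega

/-- (BA) assembly of (B) from the eight cases. -/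
theorem b_of (h1 : StmtC1G) (h2 : StmtC2G) (h3 : StmtC3) (h4 : StmtC4G) (h5a : StmtC5aG)
    (h5b : StmtC5b) (h6 : StmtC6G) (h7 : StmtC7G) (h8 : StmtC8) : StmtB := by
  intro p ℓ e hp hℓ he G hG
  by_cases hℓp : ℓ = p
  · subst hℓp
    obtain ⟨k1, k2, k3⟩ := h1 ℓ e hp he G hG
    have hlt : ℓ < 5 := by
      by_contra hcon
      exact k1 (by omega)
    have h2le := hp.two_le
    interval_cases ℓ
    · -- ℓ = 2
      have he4 : e < 4 := by
        by_contra hcon
        exact k3 rfl (by omega)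
      interval_cases e <;> decide
    · -- ℓ = 3
      have he2 : e < 2 := by
        by_contra hcon
        exact k2 rfl (by omega)
      interval_cases e
      decide
    · exact absurd hp (by decide)
  · by_cases h5 : 5 ≤ ℓ
    · exfalso
      by_cases hd : ℓ ∣ p + 1
      · exact h3 p ℓ e hp hℓ he h5 hd G hG
      · exact h2 p ℓ e hp hℓ he h5 hℓp hd G hG
    · have h2le := hℓ.two_le
      have hℓlt : ℓ < 5 := by omega
      interval_cases ℓ
      · -- ℓ = 2, p odd
        have hodd : p % 2 = 1 := by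
          rcases hp.eq_two_or_odd with h | h
          · exact absurd h.symm hℓp
          · exact h
        by_cases hp4 : p % 4 = 1
        · have he2 : e < 2 := by
            by_contra hcon
            exact h6 p e hp (by omega) hp4 G hG
          interval_cases e
          exact b_of_two_dvd_aux p
        · have hp43 : p % 4 = 3 := by omega
          have he3 : e < 3 := by
            by_contra hcon
            by_cases hp8 : p % 8 = 3
            · exact h7 p e hp (by omega) hp8 G hG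
            · exact h8 p e hp (by omega) (by omega) G hG
          interval_cases e
          · exact b_of_two_dvd_aux p
          · exact b_of_four_dvd_aux p hp43
      · -- ℓ = 3, p ≠ 3
        have hp3 : p % 3 ≠ 0 := by
          intro h0
          have : 3 ∣ p := Nat.dvd_of_mod_eq_zero h0
          rcases (Nat.dvd_prime hp).mp this with h | h
          · omega
          · exact hℓp h
        by_cases hp31 : p % 3 = 1
        · exact (h4 p e hp he hp31 G hG).elim
        · have hp32 : p % 3 = 2 := by omega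
          have he2 : e < 2 := by
            by_contra hcon
            by_cases h9 : 9 ∣ p + 1
            · exact h5b p e hp (by omega) h9 G hG
            · exact h5a p e hp (by omega) hp32 h9 G hG
          interval_cases e
          exact b_of_three_dvd_aux p hp32
      · exact absurd hℓ (by decide)

/-- The frozen statement from `Goal`. -/
theorem result_of (h : Goal) (p : ℕ) [Fact p.Prime] :
    Nat.card (↥(heckeLatticeAlgebra p ∅) ⧸
        Ideal.map ((latticeRestrictHom p ∅).toRingHom.comp (heckeEvalForms p 2))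
          (eisensteinIdeal p)) =
      eisensteinNumerator p := h p

end Fermat.Agent.S16
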