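import Mathlib
import Fermat.Agent.S16.Stmts_helper6
import Fermat.Agent.S16.LevelOneInt_helper37

/-!
# S16: the nodes `StmtSturm`, `StmtRho`, `StmtE4E6` from `LevelOneInt_helper37`
-/

set_option autoImplicit false

namespace Fermat.Agent.S16

open UpperHalfPlane ModularForm CongruenceSubgroup ModularFormClass
open scoped MatrixGroups ModularForm Manifold

theorem stmtSturm : StmtSturm := fun I k f h => H37.sturm_levelOne_addSubgroup I k f h

theorem stmtRho : StmtRho :=
  ⟨fun I M f h => H37.rho_value_mem I M f h, Fermat.Agent.S20.H66.E4_rho, H37.E6_rho_sq,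
    ModularForm.discriminant_ne_zero _⟩

theorem stmtE4E6 : StmtE4E6 := by
  refine ⟨?_, ?_⟩
  · rw [H37.qExpansion_E4]
    ext n
    simp only [PowerSeries.coeff_map, H37.E4Z, E4q, PowerSeries.coeff_mk, map_add, eq_intCast]
    rcases Nat.eq_zero_or_pos n with rfl | hn
    · simp [H37.sigmaSeries]
    · have hn0 : n ≠ 0 := hn.ne'
      have h240 : (240 : PowerSeries ℤ) = PowerSeries.C (240 : ℤ) := by
        simp
      rw [h240, PowerSeries.coeff_C_mul, H37.coeff_sigmaSeries]
      simp [hn0]
  · rw [H37.qExpansion_E6]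
    ext n
    simp only [PowerSeries.coeff_map, H37.E6Z, E6q, PowerSeries.coeff_mk, map_sub, eq_intCast]
    rcases Nat.eq_zero_or_pos n with rfl | hn
    · simp [H37.sigmaSeries]
    · have hn0 : n ≠ 0 := hn.ne'
      have h504 : (504 : PowerSeries ℤ) = PowerSeries.C (504 : ℤ) := by
        simp
      rw [h504, PowerSeries.coeff_C_mul, H37.coeff_sigmaSeries]
      simp [hn0]

end Fermat.Agent.S16
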