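import Mathlib

/-!
# S16, upper bound (B): the six cases that only use the trace identities Eq2 / Eq3

Pure power-series arithmetic (no modular forms).  `g = 1 + l^e A` is the `q`-expansion of a
weight-2 form on `Γ₀(p)` with constant term `1`, `u = U_p g = 1 + l^e B`.
-/

namespace Fermat.Agent.S16.H48

open PowerSeries

noncomputable section

/-- `U_p` on power series: coefficient `n` becomes coefficient `p * n`. -/
def Up {R : Type*} [Semiring R] (p : ℕ) (f : PowerSeries R) : PowerSeries R :=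
  PowerSeries.mk fun n => PowerSeries.coeff (p * n) f

/-- `S_k = ∑ σ_k(n) qⁿ`. -/
def sigmaPS (R : Type*) [Semiring R] (k : ℕ) : PowerSeries R :=
  PowerSeries.mk fun n => ((ArithmeticFunction.sigma k n : ℕ) : R)

section basic

variable {R : Type*} [CommRing R]

@[simp] theorem coeff_Up (p n : ℕ) (f : PowerSeries R) :
    coeff n (Up p f) = coeff (p * n) f := by
  simp [Up]

@[simp] theorem coeff_sigmaPS (k n : ℕ) :
    coeff n (sigmaPS R k) = ((ArithmeticFunction.sigma k n : ℕ) : R) := by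
  simp [sigmaPS]

theorem Up_add (p : ℕ) (f g : PowerSeries R) : Up p (f + g) = Up p f + Up p g := by
  ext n; simp

theorem Up_C_mul (p : ℕ) (c : R) (f : PowerSeries R) : Up p (C c * f) = C c * Up p f := by
  ext n; simp

theorem Up_one {p : ℕ} (hp : p ≠ 0) : Up p (1 : PowerSeries R) = 1 := by
  ext n; simp [coeff_one, hp]

/-- coefficients of `(1 + c f)^2` -/
theorem coeff_one_add_sq (c : R) (f : PowerSeries R) (n : ℕ) :
    coeff n ((1 + C c * f) ^ 2) =
      (if n = 0 then 1 else 0) + 2 * c * coeff n f + c ^ 2 * coeff n (f ^ 2) := by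
  have h : (1 + C c * f) ^ 2 = 1 + C (2 * c) * f + C (c ^ 2) * f ^ 2 := by
    simp only [map_mul, map_pow, map_ofNat]; ring
  rw [h, map_add, map_add, coeff_one, coeff_C_mul, coeff_C_mul]

/-- coefficients of `(1 + c f)^3` -/
theorem coeff_one_add_cube (c : R) (f : PowerSeries R) (n : ℕ) :
    coeff n ((1 + C c * f) ^ 3) =
      (if n = 0 then 1 else 0) + 3 * c * coeff n f + 3 * c ^ 2 * coeff n (f ^ 2)
        + c ^ 3 * coeff n (f ^ 3) := by
  have h : (1 + C c * f) ^ 3 = 1 + C (3 * c) * f + C (3 * c ^ 2) * f ^ 2 + C (c ^ 3) * f ^ 3 := by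
    simp only [map_mul, map_pow, map_ofNat]; ring
  rw [h, map_add, map_add, map_add, coeff_one, coeff_C_mul, coeff_C_mul, coeff_C_mul]

end basic

section core

variable {R : Type*} [CommRing R]

/-- The two weight-4 trace identities for `g = 1 + L A`, `u = U_p g = 1 + L B`. -/
structure Data2 (p : ℕ) (L : R) (A B : PowerSeries R) : Prop where
  upA : Up p A = B
  upB : Up p B = A
  eq2 : C (p : R) * (1 + C L * A) ^ 2 + Up p ((1 + C L * B) ^ 2) =
    C ((p : R) + 1) * (1 + C 240 * sigmaPS R 3)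
  eq2' : C (p : R) * (1 + C L * B) ^ 2 + Up p ((1 + C L * A) ^ 2) =
    C ((p : R) + 1) * (1 + C 240 * sigmaPS R 3)

variable {p : ℕ} {L : R} {A B : PowerSeries R}

theorem Data2.symm (h : Data2 p L A B) : Data2 p L B A := ⟨h.upB, h.upA, h.eq2', h.eq2⟩

/-- Coefficientwise form of Eq2. -/
theorem Data2.coeff_eq (h : Data2 p L A B) (hp : p ≠ 0) (n : ℕ) :
    2 * ((p : R) + 1) * L * coeff n A + L ^ 2 * ((p : R) * coeff n (A ^ 2) + coeff (p * n) (B ^ 2))
      = 240 * ((p : R) + 1) * ((ArithmeticFunction.sigma 3 n : ℕ) : R) := by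
  have h1 := congrArg (coeff n) h.eq2
  have hb : coeff (p * n) B = coeff n A := by rw [← coeff_Up, h.upB]
  rw [map_add, coeff_C_mul, coeff_C_mul, coeff_Up, coeff_one_add_sq, coeff_one_add_sq, map_add,
    coeff_one, coeff_C_mul, coeff_sigmaPS, hb] at h1
  by_cases hn : n = 0
  · subst hn
    simp only [mul_zero, if_true] at h1 ⊢
    simp only [ArithmeticFunction.map_zero, Nat.cast_zero, mul_zero] at h1 ⊢
    linear_combination h1
  · have hpn : p * n ≠ 0 := Nat.mul_ne_zero hp hn
    simp only [hn, hpn, if_false] at h1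
    linear_combination h1

/-- Coefficient `1` of Eq3 gives `L ∣ 504 (p² - 1)`. -/
theorem dvd_of_eq3 (hp : p ≠ 0) (hBA : Up p B = A)
    (eq3 : C ((p : R) ^ 2) * (1 + C L * A) ^ 3 - Up p ((1 + C L * B) ^ 3) =
      C ((p : R) ^ 2 - 1) * (1 - C 504 * sigmaPS R 5)) :
    L ∣ 504 * ((p : R) ^ 2 - 1) := by
  have h1 := congrArg (coeff 1) eq3
  have hb : coeff (p * 1) B = coeff 1 A := by rw [← coeff_Up, hBA]
  have hp1 : p * 1 ≠ 0 := by simpa using hp
  rw [map_sub, coeff_C_mul, coeff_C_mul, coeff_Up, coeff_one_add_cube, coeff_one_add_cube,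
    map_sub, coeff_one, coeff_C_mul, coeff_sigmaPS, hb] at h1
  have hs : (ArithmeticFunction.sigma 5 1 : ℕ) = 1 := by simp [ArithmeticFunction.sigma_apply]
  simp only [hp1, one_ne_zero, if_false, hs, Nat.cast_one] at h1
  refine ⟨-(3 * ((p : R) ^ 2 - 1) * coeff 1 A
      + L * (3 * (p : R) ^ 2 * coeff 1 (A ^ 3 - A ^ 3 + A ^ 2) - 3 * coeff (p * 1) (B ^ 2))
      + L ^ 2 * ((p : R) ^ 2 * coeff 1 (A ^ 3) - coeff (p * 1) (B ^ 3))), ?_⟩
  simp only [sub_self, zero_add]
  linear_combination h1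

end core

section transfer

variable {R : Type*} [CommRing R] [IsDomain R] [CharZero R]

/-- Divisibility by powers of `l` descends from `R` to `ℕ` (given a ring hom `R → ZMod l`). -/
theorem nat_dvd_of_dvd {l : ℕ} (hl : l.Prime) (φ : R →+* ZMod l) :
    ∀ (k n : ℕ), (l : R) ^ k ∣ (n : R) → l ^ k ∣ n := by
  intro k
  induction k with
  | zero => intro n _; simp
  | succ k ih =>
    intro n h
    obtain ⟨r, hr⟩ := h
    have h0 : (n : ZMod l) = 0 := by
      have := congrArg φ hr
      rw [map_natCast, map_mul, map_pow, map_natCast, ZMod.natCast_self,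
        zero_pow (Nat.succ_ne_zero k), zero_mul] at this
      exact this
    obtain ⟨m, rfl⟩ := (ZMod.natCast_eq_zero_iff n l).mp h0
    have hl0 : (l : R) ≠ 0 := Nat.cast_ne_zero.mpr hl.ne_zero
    have hm : (m : R) = (l : R) ^ k * r := by
      apply mul_left_cancel₀ hl0
      rw [← Nat.cast_mul, hr]; ring
    have := ih m ⟨r, hm⟩
    rw [pow_succ']
    exact Nat.mul_dvd_mul_left l this

variable {p l e : ℕ} {A B : PowerSeries R}

theorem sigma_three_one : (ArithmeticFunction.sigma 3 1 : ℕ) = 1 := by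
  simp [ArithmeticFunction.sigma_apply]

theorem sigma_three_prime (hp : p.Prime) : (ArithmeticFunction.sigma 3 p : ℕ) = 1 + p ^ 3 := by
  rw [ArithmeticFunction.sigma_apply, hp.divisors, Finset.sum_pair hp.one_lt.ne, one_pow]

/-- Valuation consequence of Eq2 at `q¹`. -/
theorem Data2.pow_dvd (h : Data2 p ((l : R) ^ e) A B) (hp : p ≠ 0) (hl : l.Prime)
    (φ : R →+* ZMod l) {j : ℕ} (hj : j ≤ e) (hdiv : l ^ j ∣ 2 * (p + 1)) :
    l ^ (e + j) ∣ 240 * (p + 1) := by
  have c := h.coeff_eq hp 1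
  obtain ⟨m, hm⟩ := hdiv
  have hm' : 2 * ((p : R) + 1) = (l : R) ^ j * m := by
    exact_mod_cast congrArg (Nat.cast (R := R)) hm
  rw [sigma_three_one, Nat.cast_one, mul_one (240 * ((p : R) + 1))] at c
  have hL : (l : R) ^ e = (l : R) ^ j * (l : R) ^ (e - j) := by
    rw [← pow_add]; congr 1; omega
  apply nat_dvd_of_dvd hl φ
  refine ⟨m * coeff 1 A + (l : R) ^ (e - j) * ((p : R) * coeff 1 (A ^ 2) + coeff (p * 1) (B ^ 2)), ?_⟩
  push_cast
  rw [pow_add]
  rw [hL] at c ⊢
  linear_combination (-1 : R) * c + ((l : R) ^ j * (l : R) ^ (e - j) * coeff 1 A) * hm'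

/-- Frobenius in characteristic two, for power series over `ZMod 2`. -/
theorem frob_two (F : PowerSeries (ZMod 2)) (n : ℕ) :
    coeff n (F ^ 2) = if 2 ∣ n then coeff (n / 2) F else 0 := by
  rw [pow_two, coeff_mul]
  have hsq : ∀ x : ZMod 2, x * x = x := by decide
  have hadd : ∀ x : ZMod 2, x + x = 0 := by decide
  split_ifs with h
  · obtain ⟨m, rfl⟩ := h
    have hm : (m, m) ∈ Finset.HasAntidiagonal.antidiagonal (2 * m) := by simp [two_mul]
    rw [← Finset.add_sum_erase _ _ hm, hsq]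
    have h0 : ∑ x ∈ (Finset.HasAntidiagonal.antidiagonal (2 * m)).erase (m, m), coeff x.1 F * coeff x.2 F = 0 := by
      refine Finset.sum_involution (fun x _ => x.swap) ?_ ?_ ?_ ?_
      · intro a _
        simp only [Prod.fst_swap, Prod.snd_swap]
        rw [mul_comm (coeff a.2 F)]; exact hadd _
      · intro a ha _ hswap
        rw [Finset.mem_erase, Finset.HasAntidiagonal.mem_antidiagonal] at ha
        apply ha.1
        have h12 : a.2 = a.1 := by simpa using congrArg Prod.fst hswap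
        have := ha.2
        ext <;> simp <;> omega
      · intro a ha
        rw [Finset.mem_erase, Finset.HasAntidiagonal.mem_antidiagonal] at ha ⊢
        refine ⟨fun hh => ha.1 ?_, by simpa [add_comm] using ha.2⟩
        have h1 : a.2 = m := by simpa using congrArg Prod.fst hh
        have h2 : a.1 = m := by simpa using congrArg Prod.snd hh
        ext <;> simp [h1, h2]
      · intro a _; simp
    rw [h0, add_zero]
    simp
  · refine Finset.sum_involution (fun x _ => x.swap) ?_ ?_ ?_ ?_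
    · intro a _
      simp only [Prod.fst_swap, Prod.snd_swap]
      rw [mul_comm (coeff a.2 F)]; exact hadd _
    · intro a ha _ hswap
      rw [Finset.HasAntidiagonal.mem_antidiagonal] at ha
      apply h
      have h12 : a.2 = a.1 := by simpa using congrArg Prod.fst hswap
      exact ⟨a.1, by omega⟩
    · intro a ha
      rw [Finset.HasAntidiagonal.mem_antidiagonal] at ha ⊢
      simpa [add_comm] using ha
    · intro a _; simp

omit [IsDomain R] [CharZero R] in
theorem frob_phi (φ : R →+* ZMod 2) (f : PowerSeries R) (n : ℕ) :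
    φ (coeff n (f ^ 2)) = if 2 ∣ n then φ (coeff (n / 2) f) else 0 := by
  rw [← coeff_map, map_pow, frob_two]
  split_ifs <;> simp

omit [IsDomain R] [CharZero R] in
/-- The Frobenius cancellation `A² + U_p(B²) ≡ 2 V₂ A ≡ 0 (mod 2)`. -/
theorem frob_cancel (φ : R →+* ZMod 2) (hBA : Up p B = A) (hodd : p % 2 = 1) (n : ℕ) :
    φ (coeff n (A ^ 2)) + φ (coeff (p * n) (B ^ 2)) = 0 := by
  have hadd : ∀ x : ZMod 2, x + x = 0 := by decide
  rw [frob_phi, frob_phi]
  by_cases h : 2 ∣ n
  · obtain ⟨m, rfl⟩ := h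
    have h2 : 2 ∣ p * (2 * m) := ⟨p * m, by ring⟩
    rw [if_pos ⟨m, rfl⟩, if_pos h2]
    have e1 : 2 * m / 2 = m := by omega
    have e2 : p * (2 * m) / 2 = p * m := by
      rw [show p * (2 * m) = 2 * (p * m) by ring]; omega
    rw [e1, e2, ← coeff_Up, hBA]
    exact hadd _
  · have h2 : ¬ 2 ∣ p * n := by
      intro hh
      rcases (Nat.Prime.dvd_mul Nat.prime_two).mp hh with h' | h'
      · omega
      · exact h h'
    rw [if_neg h, if_neg h2, add_zero]

omit [IsDomain R] [CharZero R] in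
/-- If `A ≡ κ S₃ ≡ B (mod l)` with `κ` a unit then `l = p`. -/
theorem final_contra (hl : l.Prime) (hp : p.Prime) (hlp : l ≠ p) (φ : R →+* ZMod l)
    (κ : ZMod l) (hκ : κ ≠ 0) (hAB : Up p A = B)
    (ha : ∀ n, φ (coeff n A) = κ * ((ArithmeticFunction.sigma 3 n : ℕ) : ZMod l))
    (hb : ∀ n, φ (coeff n B) = κ * ((ArithmeticFunction.sigma 3 n : ℕ) : ZMod l)) : False := by
  have : Fact l.Prime := Fact.mk hl
  have h1 := hb 1
  rw [← hAB, coeff_Up, mul_one, ha p, sigma_three_one, sigma_three_prime hp] at h1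
  push_cast at h1
  have h2 : κ * (p : ZMod l) ^ 3 = 0 := by linear_combination h1
  have h3 : (p : ZMod l) = 0 := by
    rcases mul_eq_zero.mp h2 with h | h
    · exact absurd h hκ
    · exact pow_eq_zero_iff (by norm_num) |>.mp h
  have h4 : l ∣ p := (ZMod.natCast_eq_zero_iff p l).mp h3
  exact hlp ((Nat.prime_dvd_prime_iff_eq hl hp).mp h4)

end transfer

section cases

open ArithmeticFunction in
/-- Odd `l` with `l ∤ p + 1`, `240 = l^e c`, `l ∤ c`: then `A ≡ (c/2) S₃ ≡ B`, impossible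
unless `l = p`. -/
theorem odd_case {R : Type*} [CommRing R] [IsDomain R] [CharZero R] {p l e : ℕ}
    {A B : PowerSeries R} (hp : p.Prime) (hl : l.Prime) (hlp : l ≠ p) (hl2 : l ≠ 2)
    (he : 1 ≤ e) (φ : R →+* ZMod l) (h : Data2 p ((l : R) ^ e) A B) (hlp1 : ¬ l ∣ p + 1)
    (c : ℕ) (hc : 240 = l ^ e * c) (hlc : ¬ l ∣ c) : False := by
  have : Fact l.Prime := Fact.mk hl
  have hu : ((p : ZMod l) + 1) ≠ 0 := by
    intro h0; apply hlp1; rw [← ZMod.natCast_eq_zero_iff]; push_cast; exact h0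
  have h2 : (2 : ZMod l) ≠ 0 := by
    intro h0
    have : l ∣ 2 := (ZMod.natCast_eq_zero_iff 2 l).mp (by exact_mod_cast h0)
    exact hl2 ((Nat.prime_dvd_prime_iff_eq hl Nat.prime_two).mp this)
  have hc0 : (c : ZMod l) ≠ 0 := fun h0 => hlc ((ZMod.natCast_eq_zero_iff c l).mp h0)
  have hc' : (240 : R) = (l : R) ^ e * c := by exact_mod_cast congrArg (Nat.cast (R := R)) hc
  have hl0 : (l : R) ^ e ≠ 0 := pow_ne_zero _ (Nat.cast_ne_zero.mpr hl.ne_zero)
  have key : ∀ {A B : PowerSeries R}, Data2 p ((l : R) ^ e) A B → ∀ n,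
      φ (coeff n A) = ((c : ZMod l) * 2⁻¹) * ((sigma 3 n : ℕ) : ZMod l) := by
    intro A B h n
    have c1 := h.coeff_eq hp.ne_zero n
    have c2 : 2 * ((p : R) + 1) * coeff n A
        + (l : R) ^ e * ((p : R) * coeff n (A ^ 2) + coeff (p * n) (B ^ 2))
        = c * ((p : R) + 1) * ((sigma 3 n : ℕ) : R) := by
      apply mul_left_cancel₀ hl0
      rw [hc'] at c1
      linear_combination c1
    have c3 := congrArg φ c2
    simp only [map_add, map_mul, map_pow, map_natCast, map_ofNat, map_one, ZMod.natCast_self,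
      zero_pow (by omega : e ≠ 0), zero_mul, add_zero] at c3
    have c4 : ((p : ZMod l) + 1) * (2 * φ (coeff n A) - c * ((sigma 3 n : ℕ) : ZMod l)) = 0 := by
      linear_combination c3
    rcases mul_eq_zero.mp c4 with h' | h'
    · exact absurd h' hu
    · field_simp
      linear_combination h'
  exact final_contra hl hp hlp φ _ (mul_ne_zero hc0 (inv_ne_zero h2)) h.upA (key h) (key h.symm)

section two

variable {R : Type*} [CommRing R] [IsDomain R] [CharZero R] {p : ℕ} {A B : PowerSeries R}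

theorem natCast_zmod_two_of_odd {m : ℕ} (hm : m % 2 = 1) : (m : ZMod 2) = 1 := by
  have : (m : ZMod 2) = ((m % 2 : ℕ) : ZMod 2) := by
    rw [ZMod.natCast_mod]
  rw [this, hm, Nat.cast_one]

open ArithmeticFunction in
/-- `l = 2`, `e = 3`, `p + 1 = 2 m` with `m` odd. -/
theorem two_case_a (hp : p.Prime) (hp2 : p ≠ 2) (φ : R →+* ZMod 2) (h : Data2 p (8 : R) A B)
    (m : ℕ) (hm : p + 1 = 2 * m) (hmodd : m % 2 = 1) : False := by
  have hm' : (p : R) + 1 = 2 * m := by exact_mod_cast congrArg (Nat.cast (R := R)) hm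
  have hmz : (m : ZMod 2) = 1 := natCast_zmod_two_of_odd hmodd
  have h20 : (2 : ZMod 2) = 0 := by decide
  have h15 : (15 : ZMod 2) = 1 := by decide
  have key : ∀ {A B : PowerSeries R}, Data2 p (8 : R) A B → ∀ n,
      φ (coeff n A) = 1 * ((sigma 3 n : ℕ) : ZMod 2) := by
    intro A B h n
    have c1 := h.coeff_eq hp.ne_zero n
    have c2 : (m : R) * coeff n A + 2 * ((p : R) * coeff n (A ^ 2) + coeff (p * n) (B ^ 2))
        = 15 * m * ((sigma 3 n : ℕ) : R) := by
      apply mul_left_cancel₀ (show (32 : R) ≠ 0 by norm_num)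
      rw [hm'] at c1
      linear_combination c1
    have c3 := congrArg φ c2
    simp only [map_add, map_mul, map_natCast, map_ofNat, hmz, h20, h15, zero_mul, add_zero,
      one_mul] at c3
    rw [c3, one_mul]
  exact final_contra Nat.prime_two hp (Ne.symm hp2) φ 1 one_ne_zero h.upA (key h) (key h.symm)

open ArithmeticFunction in
/-- `l = 2`, `e = 3`, `p + 1 = 4 m` with `m` odd. -/
theorem two_case_b (hp : p.Prime) (hp2 : p ≠ 2) (φ : R →+* ZMod 2) (h : Data2 p (8 : R) A B)
    (m : ℕ) (hm : p + 1 = 4 * m) (hmodd : m % 2 = 1) : False := by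
  have hm' : (p : R) + 1 = 4 * m := by exact_mod_cast congrArg (Nat.cast (R := R)) hm
  have hmz : (m : ZMod 2) = 1 := natCast_zmod_two_of_odd hmodd
  have hpodd : p % 2 = 1 := by omega
  have hpz : (p : ZMod 2) = 1 := natCast_zmod_two_of_odd hpodd
  have h15 : (15 : ZMod 2) = 1 := by decide
  have key : ∀ {A B : PowerSeries R}, Data2 p (8 : R) A B → ∀ n,
      φ (coeff n A) = 1 * ((sigma 3 n : ℕ) : ZMod 2) := by
    intro A B h n
    have c1 := h.coeff_eq hp.ne_zero n
    have c2 : (m : R) * coeff n A + ((p : R) * coeff n (A ^ 2) + coeff (p * n) (B ^ 2))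
        = 15 * m * ((sigma 3 n : ℕ) : R) := by
      apply mul_left_cancel₀ (show (64 : R) ≠ 0 by norm_num)
      rw [hm'] at c1
      linear_combination c1
    have c3 := congrArg φ c2
    simp only [map_add, map_mul, map_natCast, map_ofNat, hmz, hpz, h15, one_mul] at c3
    rw [frob_cancel φ h.upB hpodd n, add_zero] at c3
    rw [c3, one_mul]
  exact final_contra Nat.prime_two hp (Ne.symm hp2) φ 1 one_ne_zero h.upA (key h) (key h.symm)

/-- `l = 2`, `e = 2`, `p + 1 = 2 m` with `m` odd: then `A ≡ 0 (mod 2)` and we are in the case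
`e = 3`. -/
theorem two_case_c (hp : p.Prime) (hp2 : p ≠ 2) (φ : R →+* ZMod 2)
    (hφ : ∀ a, φ a = 0 → (2 : R) ∣ a) (h : Data2 p (4 : R) A B)
    (m : ℕ) (hm : p + 1 = 2 * m) (hmodd : m % 2 = 1) : False := by
  have hm' : (p : R) + 1 = 2 * m := by exact_mod_cast congrArg (Nat.cast (R := R)) hm
  have hmz : (m : ZMod 2) = 1 := natCast_zmod_two_of_odd hmodd
  have hpodd : p % 2 = 1 := by omega
  have hpz : (p : ZMod 2) = 1 := natCast_zmod_two_of_odd hpodd
  have h30 : (30 : ZMod 2) = 0 := by decide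
  have key : ∀ n, φ (coeff n A) = 0 := by
    intro n
    have c1 := h.coeff_eq hp.ne_zero n
    have c2 : (m : R) * coeff n A + ((p : R) * coeff n (A ^ 2) + coeff (p * n) (B ^ 2))
        = 30 * m * ((ArithmeticFunction.sigma 3 n : ℕ) : R) := by
      apply mul_left_cancel₀ (show (16 : R) ≠ 0 by norm_num)
      rw [hm'] at c1
      linear_combination c1
    have c3 := congrArg φ c2
    simp only [map_add, map_mul, map_natCast, map_ofNat, hmz, hpz, h30, one_mul, zero_mul] at c3
    rw [frob_cancel φ h.upB hpodd n, add_zero] at c3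
    exact c3
  choose a' ha' using fun n => hφ _ (key n)
  set A' : PowerSeries R := PowerSeries.mk a' with hA'
  have hA : A = C 2 * A' := by
    ext n; rw [coeff_C_mul, hA', coeff_mk]; exact ha' n
  have hB : B = C 2 * Up p A' := by rw [← h.upA, hA, Up_C_mul]
  have hupB : Up p (Up p A') = A' := by
    ext n
    apply mul_left_cancel₀ (show (2 : R) ≠ 0 by norm_num)
    rw [← coeff_C_mul, ← coeff_C_mul, ← Up_C_mul, ← hB, h.upB, hA]
  have e1 : (1 + C (8 : R) * A') = 1 + C 4 * A := by
    rw [hA, ← mul_assoc, ← map_mul]; norm_num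
  have e2 : (1 + C (8 : R) * Up p A') = 1 + C 4 * B := by
    rw [hB, ← mul_assoc, ← map_mul]; norm_num
  have h8 : Data2 p (8 : R) A' (Up p A') :=
    ⟨rfl, hupB, by rw [e1, e2]; exact h.eq2, by rw [e1, e2]; exact h.eq2'⟩
  exact two_case_a hp hp2 φ h8 m hm hmodd

end two

end cases

section main

theorem prime_dvd_240 {l : ℕ} (hl : l.Prime) (h : l ∣ 240) : l = 2 ∨ l = 3 ∨ l = 5 := by
  have h240 : (240 : ℕ) = 2 ^ 4 * (3 * 5) := by norm_num
  rw [h240] at h
  rcases (Nat.Prime.dvd_mul hl).mp h with h | h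
  · exact Or.inl ((Nat.prime_dvd_prime_iff_eq hl Nat.prime_two).mp (hl.dvd_of_dvd_pow h))
  · rcases (Nat.Prime.dvd_mul hl).mp h with h | h
    · exact Or.inr (Or.inl ((Nat.prime_dvd_prime_iff_eq hl Nat.prime_three).mp h))
    · exact Or.inr (Or.inr ((Nat.prime_dvd_prime_iff_eq hl Nat.prime_five).mp h))

theorem two_dvd_T (p : ℕ) : 2 ∣ 24 / Nat.gcd (p - 1) 12 := by
  have hd12 : Nat.gcd (p - 1) 12 ∣ 12 := Nat.gcd_dvd_right _ _
  generalize Nat.gcd (p - 1) 12 = d at hd12 ⊢
  have hle : d ≤ 12 := Nat.le_of_dvd (by norm_num) hd12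
  interval_cases d <;> omega

theorem four_dvd_T {p : ℕ} (h : p % 4 = 3) : 4 ∣ 24 / Nat.gcd (p - 1) 12 := by
  have hd12 : Nat.gcd (p - 1) 12 ∣ 12 := Nat.gcd_dvd_right _ _
  have hdp : Nat.gcd (p - 1) 12 ∣ p - 1 := Nat.gcd_dvd_left _ _
  generalize Nat.gcd (p - 1) 12 = d at hd12 hdp ⊢
  have hle : d ≤ 12 := Nat.le_of_dvd (by norm_num) hd12
  interval_cases d <;> omega

theorem three_dvd_T {p : ℕ} (h : p % 3 = 2) : 3 ∣ 24 / Nat.gcd (p - 1) 12 := by
  have hd12 : Nat.gcd (p - 1) 12 ∣ 12 := Nat.gcd_dvd_right _ _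
  have hdp : Nat.gcd (p - 1) 12 ∣ p - 1 := Nat.gcd_dvd_left _ _
  generalize Nat.gcd (p - 1) 12 = d at hd12 hdp ⊢
  have hle : d ≤ 12 := Nat.le_of_dvd (by norm_num) hd12
  interval_cases d <;> omega

/-- **The six Eq2/Eq3-only cases of (B)**, abstract form: `R` is a characteristic-zero domain
with a ring hom `φ : R → ZMod l` whose kernel is generated by `l` (e.g. `R = ℤ_(l)`). -/
theorem eqCases {R : Type*} [CommRing R] [IsDomain R] [CharZero R] {p l e : ℕ}
    (hp : p.Prime) (hl : l.Prime) (he : 1 ≤ e) (φ : R →+* ZMod l)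
    (hφ : ∀ a, φ a = 0 → (l : R) ∣ a) (A B : PowerSeries R)
    (hAB : Up p A = B) (hBA : Up p B = A)
    (eq2 : (p : R⟦X⟧) * (1 + (l : R⟦X⟧) ^ e * A) ^ 2 + Up p ((1 + (l : R⟦X⟧) ^ e * B) ^ 2)
      = ((p : R⟦X⟧) + 1) * (1 + 240 * sigmaPS R 3))
    (eq2' : (p : R⟦X⟧) * (1 + (l : R⟦X⟧) ^ e * B) ^ 2 + Up p ((1 + (l : R⟦X⟧) ^ e * A) ^ 2)
      = ((p : R⟦X⟧) + 1) * (1 + 240 * sigmaPS R 3))
    (eq3 : (p : R⟦X⟧) ^ 2 * (1 + (l : R⟦X⟧) ^ e * A) ^ 3 - Up p ((1 + (l : R⟦X⟧) ^ e * B) ^ 3)
      = ((p : R⟦X⟧) ^ 2 - 1) * (1 - 504 * sigmaPS R 5))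
    (hcase : ¬ (5 ≤ l ∧ l ∣ p + 1) ∧ ¬ (l = 3 ∧ 9 ∣ p + 1) ∧ ¬ (l = 2 ∧ 8 ∣ p + 1)) :
    l ^ e ∣ 24 / Nat.gcd (p - 1) 12 := by
  -- normalise the constants
  have hC1 : (p : R⟦X⟧) = C (p : R) := (map_natCast (C (R := R)) p).symm
  have hC2 : (l : R⟦X⟧) ^ e = C ((l : R) ^ e) := by rw [map_pow, map_natCast]
  have hC3 : (p : R⟦X⟧) + 1 = C ((p : R) + 1) := by rw [map_add, map_natCast, map_one]
  have hC4 : (240 : R⟦X⟧) = C 240 := (map_ofNat (C (R := R)) 240).symm
  have hC5 : (p : R⟦X⟧) ^ 2 = C ((p : R) ^ 2) := by rw [map_pow, map_natCast]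
  have hC6 : (p : R⟦X⟧) ^ 2 - 1 = C ((p : R) ^ 2 - 1) := by
    rw [map_sub, map_pow, map_natCast, map_one]
  have hC7 : (504 : R⟦X⟧) = C 504 := (map_ofNat (C (R := R)) 504).symm
  rw [hC3, hC1, hC2, hC4] at eq2 eq2'
  rw [hC6, hC5, hC2, hC7] at eq3
  have h2 : Data2 p ((l : R) ^ e) A B := ⟨hAB, hBA, eq2, eq2'⟩
  have D3 : l ^ e ∣ 504 * (p ^ 2 - 1) := by
    apply nat_dvd_of_dvd hl φ
    have h1 : 1 ≤ p ^ 2 := Nat.one_le_pow 2 p hp.pos
    push_cast [Nat.cast_sub h1]
    exact dvd_of_eq3 hp.ne_zero hBA eq3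
  have V : ∀ j, j ≤ e → l ^ j ∣ 2 * (p + 1) → l ^ (e + j) ∣ 240 * (p + 1) :=
    fun j hj hd => h2.pow_dvd hp.ne_zero hl φ hj hd
  have V0 : l ^ e ∣ 240 * (p + 1) := by simpa using V 0 (Nat.zero_le _) (one_dvd _)
  have hle1 : l ∣ l ^ e := dvd_pow_self l (by omega)
  by_cases hlp : l = p
  · -- the case `l = p`
    subst hlp
    have h240 : l ∣ 240 := by
      rcases (Nat.Prime.dvd_mul hl).mp (dvd_trans hle1 V0) with h | h
      · exact h
      · exfalso
        have : l ∣ 1 := (Nat.dvd_add_right (dvd_refl l)).mp h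
        exact hl.one_lt.ne' (Nat.dvd_one.mp this)
    rcases prime_dvd_240 hl h240 with rfl | rfl | rfl
    · -- p = 2
      have he3 : e ≤ 3 := by
        by_contra hcon
        have h16 : 2 ^ 4 ∣ 2 ^ e := Nat.pow_dvd_pow 2 (by omega)
        have := dvd_trans h16 D3
        norm_num at this
      interval_cases e <;> decide
    · -- p = 3
      have he1 : e ≤ 1 := by
        by_contra hcon
        have h9 : 3 ^ 2 ∣ 3 ^ e := Nat.pow_dvd_pow 3 (by omega)
        have := dvd_trans h9 V0
        norm_num at this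
      interval_cases e
      decide
    · -- p = 5
      exfalso
      have := dvd_trans hle1 D3
      norm_num at this
  · by_cases hl2 : l = 2
    · -- `l = 2`, `p` odd
      subst hl2
      have hpodd : p % 2 = 1 := by
        rcases hp.eq_two_or_odd with h | h
        · exact absurd h.symm hlp
        · exact h
      have hp2 : p ≠ 2 := fun h => hlp h.symm
      have hφ2 : ∀ a, φ a = 0 → (2 : R) ∣ a := by
        intro a ha; simpa using hφ a ha
      have h8 : ¬ 8 ∣ p + 1 := fun h => hcase.2.2 ⟨rfl, h⟩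
      by_cases he1 : e = 1
      · subst he1; simpa using two_dvd_T p
      by_cases hp4 : p % 4 = 1
      · -- p ≡ 1 (mod 4)
        exfalso
        have hV := V 2 (by omega) (by norm_num; omega)
        by_cases he4 : 4 ≤ e
        · have h64 : 2 ^ 6 ∣ 2 ^ (e + 2) := Nat.pow_dvd_pow 2 (by omega)
          have := dvd_trans h64 hV
          norm_num at this
          omega
        · have he23 : e = 2 ∨ e = 3 := by omega
          rcases he23 with rfl | rfl
          · have e4 : ((2 : ℕ) : R) ^ 2 = 4 := by norm_num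
            rw [e4] at h2
            exact two_case_c hp hp2 φ hφ2 h2 ((p + 1) / 2) (by omega) (by omega)
          · have e8 : ((2 : ℕ) : R) ^ 3 = 8 := by norm_num
            rw [e8] at h2
            exact two_case_a hp hp2 φ h2 ((p + 1) / 2) (by omega) (by omega)
      · -- p ≡ 3 (mod 8)
        have hp8 : p % 8 = 3 := by omega
        by_cases he2 : e = 2
        · subst he2; simpa using four_dvd_T (p := p) (by omega)
        exfalso
        have hV := V 3 (by omega) (by norm_num; omega)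
        by_cases he4 : 4 ≤ e
        · have h128 : 2 ^ 7 ∣ 2 ^ (e + 3) := Nat.pow_dvd_pow 2 (by omega)
          have := dvd_trans h128 hV
          norm_num at this
          omega
        · obtain rfl : e = 3 := by omega
          have e8 : ((2 : ℕ) : R) ^ 3 = 8 := by norm_num
          rw [e8] at h2
          exact two_case_b hp hp2 φ h2 ((p + 1) / 4) (by omega) (by omega)
    · by_cases hl3 : l = 3
      · -- `l = 3`, `p ≠ 3`
        subst hl3
        have hp3 : p % 3 ≠ 0 := by
          intro h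
          have : 3 ∣ p := Nat.dvd_of_mod_eq_zero h
          exact hlp ((Nat.prime_dvd_prime_iff_eq Nat.prime_three hp).mp this)
        have h9 : ¬ 9 ∣ p + 1 := fun h => hcase.2.1 ⟨rfl, h⟩
        by_cases hp1 : p % 3 = 1
        · exfalso
          by_cases he2 : 2 ≤ e
          · have h9' : 3 ^ 2 ∣ 3 ^ e := Nat.pow_dvd_pow 3 he2
            have := dvd_trans h9' V0
            norm_num at this
            omega
          · obtain rfl : e = 1 := by omega
            exact odd_case hp Nat.prime_three hlp (by norm_num) le_rfl φ h2 (by omega) 80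
              (by norm_num) (by norm_num)
        · have hp2 : p % 3 = 2 := by omega
          by_cases he2 : 2 ≤ e
          · exfalso
            have hV := V 1 (by omega) (by norm_num; omega)
            have h27 : 3 ^ 3 ∣ 3 ^ (e + 1) := Nat.pow_dvd_pow 3 (by omega)
            have := dvd_trans h27 hV
            norm_num at this
            omega
          · obtain rfl : e = 1 := by omega
            simpa using three_dvd_T hp2
      · -- `l ≥ 5`
        exfalso
        have hl5 : 5 ≤ l := by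
          by_contra hcon
          have hl4 : l ≤ 4 := by omega
          interval_cases l
          · exact Nat.not_prime_zero hl
          · exact Nat.not_prime_one hl
          · exact hl2 rfl
          · exact hl3 rfl
          · exact absurd hl (by decide)
        have hlp1 : ¬ l ∣ p + 1 := fun h => hcase.1 ⟨hl5, h⟩
        have h240 : l ∣ 240 := by
          rcases (Nat.Prime.dvd_mul hl).mp (dvd_trans hle1 V0) with h | h
          · exact h
          · exact absurd h hlp1
        rcases prime_dvd_240 hl h240 with rfl | rfl | rfl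
        · exact hl2 rfl
        · exact hl3 rfl
        · by_cases he2 : 2 ≤ e
          · have h25 : 5 ^ 2 ∣ 5 ^ e := Nat.pow_dvd_pow 5 he2
            have := dvd_trans h25 V0
            norm_num at this
            omega
          · obtain rfl : e = 1 := by omega
            exact odd_case hp Nat.prime_five hlp (by norm_num) le_rfl φ h2 hlp1 48
              (by norm_num) (by norm_num)

end main

end

end Fermat.Agent.S16.H48
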