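import Mathlib
import Fermat.Agent.S16.Stmts_helper6
import Fermat.Agent.S16.EqCases_helper48

/-!
# S16: the Eq2/Eq3-only cases of (B) in the `BData` shape of `Stmts_helper6`

`stmtC4 : StmtC4`, `stmtC5a : StmtC5a` (and, from the same abstract theorem `H48.eqCases`,
`stmtC1`, `stmtC2`, `stmtC6`, `stmtC7`).  The bridge `bdata_dvd` transports `BData` (over `ℚ`
with `ℓ`-integrality side conditions) to the ring `ℤ_(ℓ) ⊆ ℚ` with its residue map to `ZMod ℓ`.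
-/

set_option autoImplicit false

namespace Fermat.Agent.S16.H48

open PowerSeries

noncomputable section

/-- `ℤ_(l)` as a subring of `ℚ`. -/
def zl (l : ℕ) [hl : Fact l.Prime] : Subring ℚ where
  carrier := {x : ℚ | ¬ l ∣ x.den}
  mul_mem' {a b} ha hb := fun h => by
    rcases (Nat.Prime.dvd_mul hl.out).mp (dvd_trans h (Rat.mul_den_dvd a b)) with h' | h'
    · exact ha h'
    · exact hb h'
  one_mem' := by
    show ¬ l ∣ (1 : ℚ).den
    simpa using hl.out.one_lt.ne'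
  add_mem' {a b} ha hb := fun h => by
    rcases (Nat.Prime.dvd_mul hl.out).mp (dvd_trans h (Rat.add_den_dvd a b)) with h' | h'
    · exact ha h'
    · exact hb h'
  zero_mem' := by
    show ¬ l ∣ (0 : ℚ).den
    simpa using hl.out.one_lt.ne'
  neg_mem' {a} ha := by
    show ¬ l ∣ (-a).den
    simpa using ha

theorem den_ne_zero_zmod {l : ℕ} {q : ℚ} (h : ¬ l ∣ q.den) : ((q.den : ℕ) : ZMod l) ≠ 0 :=
  fun h0 => h ((ZMod.natCast_eq_zero_iff _ _).mp h0)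

/-- The residue map `ℤ_(l) → 𝔽_l`. -/
def zlRes (l : ℕ) [Fact l.Prime] : zl l →+* ZMod l where
  toFun x := ((x : ℚ) : ZMod l)
  map_one' := by simp
  map_mul' x y := Rat.cast_mul_of_ne_zero (den_ne_zero_zmod x.2) (den_ne_zero_zmod y.2)
  map_zero' := by simp
  map_add' x y := Rat.cast_add_of_ne_zero (den_ne_zero_zmod x.2) (den_ne_zero_zmod y.2)

theorem zlRes_ker (l : ℕ) [Fact l.Prime] (x : zl l) (hx : zlRes l x = 0) :
    ((l : ℕ) : zl l) ∣ x := by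
  obtain ⟨q, hq⟩ := x
  have h1 : ((q : ℚ) : ZMod l) = 0 := hx
  rw [Rat.cast_def, div_eq_zero_iff] at h1
  have hnum : ((q.num : ℤ) : ZMod l) = 0 := h1.resolve_right (den_ne_zero_zmod hq)
  obtain ⟨m, hm⟩ := (ZMod.intCast_zmod_eq_zero_iff_dvd q.num l).mp hnum
  have hy : ¬ l ∣ ((m : ℚ) / (q.den : ℚ)).den := by
    intro h
    apply hq
    have h2 := Rat.den_dvd m q.den
    rw [Rat.divInt_eq_div] at h2
    have h3 : ((l : ℕ) : ℤ) ∣ (((m : ℚ) / ((q.den : ℤ) : ℚ)).den : ℤ) := by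
      exact_mod_cast h
    exact_mod_cast dvd_trans h3 h2
  refine ⟨⟨(m : ℚ) / q.den, hy⟩, Subtype.ext ?_⟩
  have hq' : (q.num : ℚ) / (q.den : ℚ) = q := Rat.num_div_den q
  have hden : (q.den : ℚ) ≠ 0 := Nat.cast_ne_zero.mpr q.den_pos.ne'
  show q = ((l : ℕ) : ℚ) * ((m : ℚ) / (q.den : ℚ))
  rw [← mul_div_assoc, eq_div_iff hden]
  have : (q.num : ℚ) = (l : ℚ) * m := by exact_mod_cast congrArg (Int.cast (R := ℚ)) hm
  rw [← this]
  exact (div_eq_iff hden).mp hq' |>.symm ▸ rfl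

section bridge

variable {R S : Type*} [CommRing R] [CommRing S]

theorem Up_eq (p : ℕ) (f : PowerSeries R) : Fermat.Agent.S16.Up p f = Up p f := by
  ext n; simp [Fermat.Agent.S16.Up, Up, mul_comm]

theorem E4q_eq (R : Type*) [CommRing R] : E4q R = 1 + 240 * sigmaPS R 3 := by
  ext n
  have h240 : (240 : R⟦X⟧) = C 240 := (map_ofNat (C (R := R)) 240).symm
  rw [h240, map_add, coeff_C_mul, coeff_one, coeff_sigmaPS]
  by_cases hn : n = 0
  · subst hn; simp [E4q]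
  · simp [E4q, hn]

theorem E6q_eq (R : Type*) [CommRing R] : E6q R = 1 - 504 * sigmaPS R 5 := by
  ext n
  have h504 : (504 : R⟦X⟧) = C 504 := (map_ofNat (C (R := R)) 504).symm
  rw [h504, map_sub, coeff_C_mul, coeff_one, coeff_sigmaPS]
  by_cases hn : n = 0
  · subst hn; simp [E6q]
  · simp [E6q, hn]

theorem map_Up (f : R →+* S) (p : ℕ) (g : PowerSeries R) :
    PowerSeries.map f (Up p g) = Up p (PowerSeries.map f g) := by
  ext n; simp

theorem map_sigmaPS (f : R →+* S) (k : ℕ) :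
    PowerSeries.map f (sigmaPS R k) = sigmaPS S k := by
  ext n; simp

end bridge

/-- **Bridge**: the formal data `BData` of `Stmts_helper6` satisfy the hypotheses of
`H48.eqCases` over `ℤ_(ℓ)`. -/
theorem bdata_dvd {p l e : ℕ} (hp : p.Prime) (hl : l.Prime) (he : 1 ≤ e) {A B : PowerSeries ℚ}
    (h : BData p l e A B)
    (hcase : ¬ (5 ≤ l ∧ l ∣ p + 1) ∧ ¬ (l = 3 ∧ 9 ∣ p + 1) ∧ ¬ (l = 2 ∧ 8 ∣ p + 1)) :
    l ^ e ∣ 24 / Nat.gcd (p - 1) 12 := by
  have : Fact l.Prime := Fact.mk hl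
  set ι : zl l →+* ℚ := (zl l).subtype with hι
  set A' : PowerSeries (zl l) := PowerSeries.mk fun n => ⟨coeff n A, h.intA n⟩ with hA'def
  set B' : PowerSeries (zl l) := PowerSeries.mk fun n => ⟨coeff n B, h.intB n⟩ with hB'def
  have hA' : PowerSeries.map ι A' = A := by ext n; simp [A', ι]
  have hB' : PowerSeries.map ι B' = B := by ext n; simp [B', ι]
  have hinj : Function.Injective (PowerSeries.map ι) := by
    intro f g hfg
    ext n
    have := congrArg (coeff n) hfg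
    rw [coeff_map, coeff_map] at this
    exact this
  have hCp : C (p : ℚ) = (p : ℚ⟦X⟧) := map_natCast (C (R := ℚ)) p
  have hCl : C ((l : ℚ) ^ e) = (l : ℚ⟦X⟧) ^ e := by rw [map_pow, map_natCast]
  have hCp1 : C ((p : ℚ) + 1) = (p : ℚ⟦X⟧) + 1 := by rw [map_add, map_natCast, map_one]
  have hCp2 : C ((p : ℚ) ^ 2) = (p : ℚ⟦X⟧) ^ 2 := by rw [map_pow, map_natCast]
  have hCp3 : C ((p : ℚ) ^ 2 - 1) = (p : ℚ⟦X⟧) ^ 2 - 1 := by
    rw [map_sub, map_pow, map_natCast, map_one]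
  refine eqCases hp hl he (zlRes l) (zlRes_ker l) A' B' ?_ ?_ ?_ ?_ ?_ hcase
  · apply hinj; rw [map_Up, hA', hB', ← Up_eq]; exact h.hBA.symm
  · apply hinj; rw [map_Up, hA', hB', ← Up_eq]; exact h.hAB.symm
  · apply hinj
    simp only [map_add, map_mul, map_pow, map_natCast, map_one, map_ofNat, map_Up, map_sigmaPS,
      hA', hB']
    have := h.eq2
    rw [smul_eq_C_mul, smul_eq_C_mul, smul_eq_C_mul, smul_eq_C_mul, hCp, hCl, hCp1, Up_eq,
      E4q_eq] at this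
    exact this
  · apply hinj
    simp only [map_add, map_mul, map_pow, map_natCast, map_one, map_ofNat, map_Up, map_sigmaPS,
      hA', hB']
    have := h.eq2'
    rw [smul_eq_C_mul, smul_eq_C_mul, smul_eq_C_mul, smul_eq_C_mul, hCp, hCl, hCp1, Up_eq,
      E4q_eq] at this
    exact this
  · apply hinj
    simp only [map_add, map_sub, map_mul, map_pow, map_natCast, map_one, map_ofNat, map_Up,
      map_sigmaPS, hA', hB']
    have := h.eq3
    rw [smul_eq_C_mul, smul_eq_C_mul, smul_eq_C_mul, smul_eq_C_mul, hCp2, hCl, hCp3, Up_eq,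
      E6q_eq] at this
    exact this

/-! ## The cases, literally as in `Stmts_helper6` -/

theorem T_dvd_24 (p : ℕ) : 24 / Nat.gcd (p - 1) 12 ∣ 24 :=
  Nat.div_dvd_of_dvd (dvd_trans (Nat.gcd_dvd_right _ _) (by norm_num))

theorem prime_dvd_24 {l : ℕ} (hl : l.Prime) (h : l ∣ 24) : l = 2 ∨ l = 3 := by
  have h24 : (24 : ℕ) = 2 ^ 3 * 3 := by norm_num
  rw [h24] at h
  rcases (Nat.Prime.dvd_mul hl).mp h with h | h
  · exact Or.inl ((Nat.prime_dvd_prime_iff_eq hl Nat.prime_two).mp (hl.dvd_of_dvd_pow h))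
  · exact Or.inr ((Nat.prime_dvd_prime_iff_eq hl Nat.prime_three).mp h)

/-- (C4) `ℓ = 3`, `p ≡ 1 mod 3`. -/
theorem stmtC4 : StmtC4 := by
  intro p e A B hp he h hmod
  have hd := bdata_dvd hp Nat.prime_three he h ⟨by omega, by omega, by omega⟩
  have h3 : 3 ∣ 24 / Nat.gcd (p - 1) 12 := dvd_trans (dvd_pow_self 3 (by omega)) hd
  have hd12 : Nat.gcd (p - 1) 12 ∣ 12 := Nat.gcd_dvd_right _ _
  have h3d : 3 ∣ Nat.gcd (p - 1) 12 := Nat.dvd_gcd (by omega) (by norm_num)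
  generalize Nat.gcd (p - 1) 12 = d at h3 hd12 h3d
  have hle : d ≤ 12 := Nat.le_of_dvd (by norm_num) hd12
  interval_cases d <;> omega

/-- (C5a) `ℓ = 3`, `p ≡ 2 mod 3`, `9 ∤ p + 1`, `e ≥ 2`. -/
theorem stmtC5a : StmtC5a := by
  intro p e A B hp he h hmod h9
  have hd := bdata_dvd hp Nat.prime_three (by omega) h ⟨by omega, fun hh => h9 hh.2, by omega⟩
  have h9' : 3 ^ 2 ∣ 24 := dvd_trans (dvd_trans (Nat.pow_dvd_pow 3 he) hd) (T_dvd_24 p)
  norm_num at h9'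

/-- (C1) `ℓ = p`. -/
theorem stmtC1 : StmtC1 := by
  intro p e A B hp he h
  have hcase : ¬ (5 ≤ p ∧ p ∣ p + 1) ∧ ¬ (p = 3 ∧ 9 ∣ p + 1) ∧ ¬ (p = 2 ∧ 8 ∣ p + 1) := by
    refine ⟨fun hh => ?_, fun hh => ?_, fun hh => ?_⟩
    · have : p ∣ 1 := (Nat.dvd_add_right (dvd_refl p)).mp hh.2
      exact hp.one_lt.ne' (Nat.dvd_one.mp this)
    · obtain ⟨rfl, h9⟩ := hh; omega
    · obtain ⟨rfl, h8⟩ := hh; omega
  have hd := bdata_dvd hp hp he h hcase
  refine ⟨fun h5 => ?_, fun h3 he2 => ?_, fun h2 he4 => ?_⟩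
  · have hp24 : p ∣ 24 := dvd_trans (dvd_trans (dvd_pow_self p (by omega)) hd) (T_dvd_24 p)
    rcases prime_dvd_24 hp hp24 with rfl | rfl <;> omega
  · subst h3
    have h9 : 3 ^ 2 ∣ 24 := dvd_trans (dvd_trans (Nat.pow_dvd_pow 3 he2) hd) (T_dvd_24 3)
    norm_num at h9
  · subst h2
    have h16 : 2 ^ 4 ∣ 24 := dvd_trans (dvd_trans (Nat.pow_dvd_pow 2 he4) hd) (T_dvd_24 2)
    norm_num at h16

/-- (C2) `ℓ ≥ 5`, `ℓ ≠ p`, `ℓ ∤ p + 1`. -/
theorem stmtC2 : StmtC2 := by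
  intro p l e A B hp hl he h h5 _hne hnd
  have hd := bdata_dvd hp hl he h ⟨fun hh => hnd hh.2, by omega, by omega⟩
  have hl24 : l ∣ 24 := dvd_trans (dvd_trans (dvd_pow_self l (by omega)) hd) (T_dvd_24 p)
  rcases prime_dvd_24 hl hl24 with rfl | rfl <;> omega

/-- (C6) `ℓ = 2`, `p ≡ 1 mod 4`, `e ≥ 2`. -/
theorem stmtC6 : StmtC6 := by
  intro p e A B hp he h hmod
  have hd := bdata_dvd hp Nat.prime_two (by omega) h ⟨by omega, by omega, by omega⟩
  have h4 : 2 ^ 2 ∣ 24 / Nat.gcd (p - 1) 12 := dvd_trans (Nat.pow_dvd_pow 2 he) hd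
  have hd12 : Nat.gcd (p - 1) 12 ∣ 12 := Nat.gcd_dvd_right _ _
  have h4d : 4 ∣ Nat.gcd (p - 1) 12 := Nat.dvd_gcd (by omega) (by norm_num)
  generalize Nat.gcd (p - 1) 12 = d at h4 hd12 h4d
  have hle : d ≤ 12 := Nat.le_of_dvd (by norm_num) hd12
  interval_cases d <;> omega

/-- (C7) `ℓ = 2`, `p ≡ 3 mod 8`, `e ≥ 3`. -/
theorem stmtC7 : StmtC7 := by
  intro p e A B hp he h hmod
  have hd := bdata_dvd hp Nat.prime_two (by omega) h ⟨by omega, by omega, by omega⟩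
  have h8 : 2 ^ 3 ∣ 24 / Nat.gcd (p - 1) 12 := dvd_trans (Nat.pow_dvd_pow 2 he) hd
  have hd12 : Nat.gcd (p - 1) 12 ∣ 12 := Nat.gcd_dvd_right _ _
  have hdp : Nat.gcd (p - 1) 12 ∣ p - 1 := Nat.gcd_dvd_left _ _
  have h2d : 2 ∣ Nat.gcd (p - 1) 12 := Nat.dvd_gcd (by omega) (by norm_num)
  generalize Nat.gcd (p - 1) 12 = d at h8 hd12 hdp h2d
  have hle : d ≤ 12 := Nat.le_of_dvd (by norm_num) hd12
  interval_cases d <;> omega

end

end Fermat.Agent.S16.H48
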