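import Fermat.Agent.S16.LocRing_helper7

/-!
# S16, block C-CONJ (helper7): the cases of (B) that use the conjugates

Interface-free cores (Mathlib only): power-series arithmetic modulo `l` for the
Frobenius–Sturm cases (`l ≥ 5`, `l ∣ p + 1`; `l = 3`, `9 ∣ p + 1`) and for the case
`l = 2`, `8 ∣ p + 1`.
-/

namespace Fermat.Agent.S16.H07

open PowerSeries Finset

noncomputable section

variable {l : ℕ} [hl : Fact l.Prime]

/-- elementary symmetric functions of a family that is constant modulo `N` -/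
theorem cg_esymm {N : ℕ} {ι : Type*} [Fintype ι] [DecidableEq ι] (K : ι → ℂ⟦X⟧) (Φ : ℂ⟦X⟧)
    (hΦ : Φ ∈ CR l) (hK : ∀ i, Cg l N (K i) Φ) (m : ℕ) :
    Cg l N (∑ t ∈ powersetCard m (univ : Finset ι), ∏ i ∈ t, K i)
      (((Fintype.card ι).choose m : ℂ⟦X⟧) * Φ ^ m) := by
  have h1 : ∀ t ∈ powersetCard m (univ : Finset ι), Cg l N (∏ i ∈ t, K i) (Φ ^ m) := by
    intro t ht
    have := Cg.prod (l := l) (N := N) t (F := K) (F' := fun _ => Φ) (fun i _ => hK i)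
      (fun _ _ => hΦ)
    rw [Finset.prod_const, (mem_powersetCard.mp ht).2] at this
    exact this
  have := Cg.sum (l := l) (N := N) _ h1
  rw [Finset.sum_const, card_powersetCard, card_univ, nsmul_eq_mul] at this
  exact this

/-- Lucas: if `l ^ f ∥ n` then `l ∤ n.choose (l ^ f)`. -/
theorem not_dvd_choose_pow {n f : ℕ} (hf : l ^ f ∣ n) (hf' : ¬ l ^ (f + 1) ∣ n) :
    ¬ l ∣ n.choose (l ^ f) := by
  obtain ⟨m, rfl⟩ := hf
  have hm : ¬ l ∣ m := by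
    intro h
    apply hf'
    rw [pow_succ]
    exact Nat.mul_dvd_mul_left _ h
  have h := Choose.choose_pow_mul_pow_mul_modEq_choose_nat (p := l) (k := f) (a := m) (b := 1)
  rw [mul_one, Nat.choose_one_right] at h
  intro hd
  apply hm
  have h0 : (l ^ f * m).choose (l ^ f) ≡ 0 [MOD l] := (Nat.modEq_zero_iff_dvd).mpr hd
  exact (Nat.modEq_zero_iff_dvd).mp (h.symm.trans h0)

/-- coefficients of a power of a series without constant term -/
theorem coeff_pow_of_constantCoeff_eq_zero (φ : ℤ⟦X⟧) (hφ0 : constantCoeff φ = 0) (m n : ℕ) :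
    (n < m → coeff n (φ ^ m) = 0) ∧ coeff m (φ ^ m) = (coeff 1 φ) ^ m := by
  obtain ⟨ψ, hψ⟩ : ∃ ψ : ℤ⟦X⟧, φ = X * ψ := by
    have := X_dvd_iff.mpr hφ0
    exact this
  have h1 : coeff 1 φ = constantCoeff ψ := by
    rw [hψ]
    have := coeff_succ_X_mul 0 ψ
    simpa using this
  have hpow : φ ^ m = X ^ m * ψ ^ m := by rw [hψ, mul_pow]
  constructor
  · intro hn
    rw [hpow, coeff_X_pow_mul']
    simp [Nat.not_le.mpr hn]
  · rw [hpow, coeff_X_pow_mul', if_pos le_rfl, Nat.sub_self, coeff_zero_eq_constantCoeff_apply,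
      map_pow, h1]

/-- **Frobenius–Sturm core.**  `E` is the `q`-expansion of a level-one form of weight `m * w`
(only the Sturm property `hSt` is used), whose expansion in `x = q^(1/p)` is the `m`-th
elementary symmetric function of series `K i` that are all congruent modulo `l` to
`φ(x^p)`, where `φ = c q + …` with `l ∤ c`.  If `l` does not divide the binomial coefficient
`(#ι choose m)` this is impossible. -/
theorem fs_core (p : ℕ) (hp : p ≠ 0) (m w : ℕ) (hm : 0 < m) (hw : w < 12)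
    {ι : Type*} [Fintype ι] [DecidableEq ι]
    (hch : ¬ l ∣ (Fintype.card ι).choose m)
    (E : ℂ⟦X⟧)
    (hSt : (∀ n : ℕ, 12 * n ≤ m * w → coeff n E ∈ nI l l) → ∀ n, coeff n E ∈ nI l l)
    (K : ι → ℂ⟦X⟧)
    (hE : expand p hp E = ∑ t ∈ powersetCard m (univ : Finset ι), ∏ i ∈ t, K i)
    (φ : ℤ⟦X⟧) (hφ0 : constantCoeff φ = 0) (hφ1 : ¬ (l : ℤ) ∣ coeff 1 φ)
    (hK : ∀ i, Cg l l (K i) (expand p hp (φ.map (Int.castRingHom ℂ)))) : False := by
  set Φ : ℂ⟦X⟧ := expand p hp (φ.map (Int.castRingHom ℂ)) with hΦdef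
  have hΦ : Φ ∈ CR l := expand_mem_CR l hp (map_intCast_mem_CR l φ)
  have h := cg_esymm K Φ hΦ hK m
  rw [← hE] at h
  have hΦm : Φ ^ m = expand p hp ((φ ^ m).map (Int.castRingHom ℂ)) := by
    rw [hΦdef, map_pow, map_pow]
  -- coefficients at `p * n`
  have key : ∀ n : ℕ, coeff n E -
      ((Fintype.card ι).choose m : ℂ) * ((coeff n (φ ^ m) : ℤ) : ℂ) ∈ nI l l := by
    intro n
    have := h.coeff (p * n)
    rw [hΦm, coeff_expand_mul] at this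
    have e : ((Fintype.card ι).choose m : ℂ⟦X⟧) = C (((Fintype.card ι).choose m : ℕ) : ℂ) := by
      simp
    rw [e, coeff_C_mul, coeff_expand_mul, coeff_map] at this
    simpa using this
  have hlow : ∀ n : ℕ, n < m → coeff n E ∈ nI l l := by
    intro n hn
    have := key n
    rw [(coeff_pow_of_constantCoeff_eq_zero φ hφ0 m n).1 hn] at this
    simpa using this
  have hall := hSt (fun n hn => hlow n (by nlinarith))
  have htop := key m
  rw [(coeff_pow_of_constantCoeff_eq_zero φ hφ0 m m).2] at htop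
  have hmem : ((((Fintype.card ι).choose m : ℤ) * (coeff 1 φ) ^ m : ℤ) : ℂ) ∈ nI l l := by
    have := (nI l l).sub_mem (hall m) htop
    rw [sub_sub_cancel] at this
    convert this using 1
    push_cast; ring
  have hdvd := dvd_of_intCast_mem_nI l hmem
  rcases (Nat.prime_iff_prime_int.mp hl.out).dvd_or_dvd hdvd with h' | h'
  · exact hch (by exact_mod_cast h')
  · exact hφ1 ((Nat.prime_iff_prime_int.mp hl.out).dvd_of_dvd_pow h')

/-! ### the conjugates -/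

/-- The `p + 1` conjugates of `G` in the variable `x = q^(1/p)`: `g(x^p)` and
`-(1/p) u(ζ^j x)`, `j < p`. -/
def conjS (p : ℕ) (hp : p ≠ 0) (ζ : ℂ) (g u : ℂ⟦X⟧) : Option (Fin p) → ℂ⟦X⟧
  | none => expand p hp g
  | some j => C (-(p : ℂ)⁻¹) * rescale (ζ ^ (j : ℕ)) u

theorem cg_of_coeff_mul {N : ℕ} {p : ℕ} (hp : p ≠ 0) {g u : ℂ⟦X⟧} (hg : Cg l N g 1)
    (hu : ∀ n, coeff n u = coeff (p * n) g) : Cg l N u 1 := by
  apply Cg.of_coeff
  intro n
  have := hg.coeff (p * n)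
  rw [hu n]
  rcases Nat.eq_zero_or_pos n with rfl | hn
  · simpa using this
  · have h1 : coeff (p * n) (1 : ℂ⟦X⟧) = 0 := by
      rw [coeff_one, if_neg (Nat.mul_ne_zero hp hn.ne')]
    have h2 : coeff n (1 : ℂ⟦X⟧) = 0 := by
      rw [coeff_one, if_neg hn.ne']
    rw [h1] at this
    rw [h2]
    exact this

theorem cg_C_neg_inv {N p : ℕ} (hlp : ¬ l ∣ p) (hN : N ∣ p + 1) :
    Cg l N (C (-(p : ℂ)⁻¹) : ℂ⟦X⟧) 1 := by
  obtain ⟨d, hd⟩ := hN
  have hp0 : (p : ℂ) ≠ 0 := by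
    rintro h
    exact hlp (by simp [Nat.cast_eq_zero.mp h])
  refine ⟨C (-(d : ℂ) * (p : ℂ)⁻¹), C_mem_CR l ((locInt l).mul_mem
    ((locInt l).neg_mem (natCast_mem_locInt l d)) (inv_natCast_mem_locInt l hlp)), ?_⟩
  have e : ((N : ℂ⟦X⟧)) = C (N : ℂ) := (map_natCast (C (R := ℂ)) N).symm
  rw [e, ← map_mul, ← map_one (C (R := ℂ)), ← map_sub]
  congr 1
  have hd' : (p : ℂ) + 1 = (N : ℂ) * d := by exact_mod_cast congrArg (Nat.cast (R := ℂ)) hd
  field_simp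
  linear_combination -hd'

theorem conjS_cg {N p : ℕ} (hp : p ≠ 0) (hlp : ¬ l ∣ p) (hN : N ∣ p + 1) {ζ : ℂ}
    (hζ : ζ ^ p = 1) {g u : ℂ⟦X⟧} (hg : Cg l N g 1) (hu : Cg l N u 1) (i : Option (Fin p)) :
    Cg l N (conjS p hp ζ g u i) 1 := by
  rcases i with _ | j
  · have := hg.expand hp
    simpa [conjS] using this
  · have hζ' : ζ ^ (j : ℕ) ∈ locInt l :=
      (locInt l).pow_mem (mem_locInt_of_pow_eq_one l (Nat.pos_of_ne_zero hp) hζ) _
    have h1 : Cg l N (rescale (ζ ^ (j : ℕ)) u) 1 := by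
      have := hu.rescale hζ'
      simpa using this
    have h2 := cg_C_neg_inv (l := l) hlp hN
    have := h2.mul h1 (CR l).one_mem (h1.mem_left (CR l).one_mem)
    simpa [conjS] using this

/-- if `f ≡ 1 mod 9` then `f ^ 3 ≡ 1 mod 27` -/
theorem cg_cube {f : ℂ⟦X⟧} (h : Cg l 9 f 1) : Cg l 27 (f ^ 3) 1 := by
  obtain ⟨a, ha, ea⟩ := h
  refine ⟨a + 9 * a ^ 2 + 27 * a ^ 3, ?_, ?_⟩
  · have h9 : (9 : ℂ⟦X⟧) ∈ CR l := by exact_mod_cast natCast_mem_CR l 9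
    have h27 : (27 : ℂ⟦X⟧) ∈ CR l := by exact_mod_cast natCast_mem_CR l 27
    exact (CR l).add_mem ((CR l).add_mem ha ((CR l).mul_mem h9 ((CR l).pow_mem ha 2)))
      ((CR l).mul_mem h27 ((CR l).pow_mem ha 3))
  · have : f = 1 + 9 * a := by
      have : f - 1 = 9 * a := by simpa using ea
      rw [← this]; ring
    rw [this]; push_cast; ring

theorem conjS_cube_cg {p : ℕ} (hp : p ≠ 0) (hlp : ¬ l ∣ p) (h9 : 9 ∣ p + 1) {ζ : ℂ}
    (hζ : ζ ^ p = 1) {g u : ℂ⟦X⟧} (hg : Cg l 9 g 1) (hu : Cg l 9 u 1) (i : Option (Fin p)) :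
    Cg l 27 (conjS p hp ζ g u i ^ 3) 1 := by
  rcases i with _ | j
  · have := (hg.expand hp)
    have h1 : Cg l 9 (conjS p hp ζ g u none) 1 := by simpa [conjS] using this
    exact cg_cube h1
  · have hζ' : ζ ^ (j : ℕ) ∈ locInt l :=
      (locInt l).pow_mem (mem_locInt_of_pow_eq_one l (Nat.pos_of_ne_zero hp) hζ) _
    have h1 : Cg l 9 (rescale (ζ ^ (j : ℕ)) u) 1 := by
      have := hu.rescale hζ'
      simpa using this
    have h2 := cg_cube h1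
    -- the constant: (-1/p)^3 ≡ 1 mod 27
    have h27 : 27 ∣ p ^ 3 + 1 := by
      obtain ⟨d, hd⟩ := h9
      have : p ^ 3 + 1 = (p + 1) * (p ^ 2 + 1 - p) := by
        have hp1 : p ≤ p ^ 2 + 1 := by nlinarith
        zify [hp1]; ring
      rw [this, hd]
      have h3 : 3 ∣ p ^ 2 + 1 - p := by
        have hp1 : p ≤ p ^ 2 + 1 := by nlinarith
        have hp9 : p = 9 * d - 1 := by omega
        have hd1 : 1 ≤ d := by omega
        obtain ⟨e, rfl⟩ : ∃ e, d = e + 1 := ⟨d - 1, by omega⟩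
        have hp9' : p = 9 * e + 8 := by omega
        subst hp9'
        refine ⟨27 * e ^ 2 + 45 * e + 19, ?_⟩
        have : (9 * e + 8) ≤ (9 * e + 8) ^ 2 + 1 := by nlinarith
        zify [this]; ring
      obtain ⟨k, hk⟩ := h3
      exact ⟨d * k, by rw [hk]; ring⟩
    obtain ⟨D, hD⟩ := h27
    have hp0 : (p : ℂ) ≠ 0 := by
      rintro h
      exact hlp (by simp [Nat.cast_eq_zero.mp h])
    have hc : Cg l 27 (C (-(p : ℂ)⁻¹) ^ 3 : ℂ⟦X⟧) 1 := by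
      refine ⟨C (-(D : ℂ) * ((p : ℂ)⁻¹) ^ 3), C_mem_CR l ((locInt l).mul_mem
        ((locInt l).neg_mem (natCast_mem_locInt l D))
        ((locInt l).pow_mem (inv_natCast_mem_locInt l hlp) 3)), ?_⟩
      have e : ((27 : ℕ) : ℂ⟦X⟧) = C ((27 : ℕ) : ℂ) := (map_natCast (C (R := ℂ)) 27).symm
      rw [e, ← map_pow, ← map_mul, ← map_one (C (R := ℂ)), ← map_sub]
      congr 1
      have hD' : (p : ℂ) ^ 3 + 1 = 27 * (D : ℂ) := by
        exact_mod_cast congrArg (Nat.cast (R := ℂ)) hD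
      push_cast
      field_simp
      linear_combination -hD'
    have := hc.mul h2 (CR l).one_mem (h2.mem_left (CR l).one_mem)
    rw [mul_one] at this
    show Cg l 27 ((C (-(p : ℂ)⁻¹) * rescale (ζ ^ (j : ℕ)) u) ^ 3) 1
    rw [mul_pow]
    exact this

/-! ### the Frobenius–Sturm cases -/

/-- General Frobenius–Sturm case: all conjugates `c i` are `≡ 1 mod l`, `K i = c i ^ d - Ex`
with `Ex = 1 - φ(x^p)`. -/
theorem case_fs (p : ℕ) (hp : p ≠ 0) (m w d : ℕ) (hm : 0 < m) (hw : w < 12)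
    (hch : ¬ l ∣ (p + 1).choose m)
    (c : Option (Fin p) → ℂ⟦X⟧) (hc : ∀ i, Cg l l (c i) 1)
    (φ : ℤ⟦X⟧) (hφ0 : constantCoeff φ = 0) (hφ1 : ¬ (l : ℤ) ∣ coeff 1 φ)
    (Ex : ℂ⟦X⟧) (hEx : Ex = 1 - expand p hp (φ.map (Int.castRingHom ℂ)))
    (E : ℂ⟦X⟧)
    (hSt : (∀ n : ℕ, 12 * n ≤ m * w → coeff n E ∈ nI l l) → ∀ n, coeff n E ∈ nI l l)
    (hE : expand p hp E =
      ∑ t ∈ powersetCard m (univ : Finset (Option (Fin p))), ∏ i ∈ t, (c i ^ d - Ex)) :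
    False := by
  refine fs_core (l := l) p hp m w hm hw (ι := Option (Fin p)) ?_ E hSt
    (fun i => c i ^ d - Ex) hE φ hφ0 hφ1 ?_
  · simpa using hch
  · intro i
    have h1 : Cg l l (c i ^ d) 1 := by
      have := (hc i).pow (CR l).one_mem d
      simpa using this
    have h2 := h1.sub (Cg.refl l Ex)
    have e : (1 : ℂ⟦X⟧) - Ex = expand p hp (φ.map (Int.castRingHom ℂ)) := by
      rw [hEx]; ring
    rw [e] at h2
    exact h2

theorem not_dvd_504 (hl5 : 5 ≤ l) (hl7 : l ≠ 7) : ¬ (l : ℤ) ∣ 504 := by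
  intro h
  have h' : l ∣ 504 := by exact_mod_cast h
  have e : (504 : ℕ) = 2 ^ 3 * 3 ^ 2 * 7 := by norm_num
  rw [e] at h'
  rcases (Nat.Prime.dvd_mul hl.out).mp h' with h1 | h1
  · rcases (Nat.Prime.dvd_mul hl.out).mp h1 with h2 | h2
    · have := (Nat.prime_dvd_prime_iff_eq hl.out Nat.prime_two).mp (hl.out.dvd_of_dvd_pow h2)
      omega
    · have := (Nat.prime_dvd_prime_iff_eq hl.out Nat.prime_three).mp (hl.out.dvd_of_dvd_pow h2)
      omega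
  · have := (Nat.prime_dvd_prime_iff_eq hl.out (by norm_num : Nat.Prime 7)).mp h1
    omega

/-- **Case C3, `l ≠ 7`** (`l ≥ 5`, `l ∣ p + 1`): weight 6, `K = G^3 - E6`. -/
theorem case_C3_six (p : ℕ) (hp : p ≠ 0) (hl5 : 5 ≤ l) (hl7 : l ≠ 7) (f : ℕ)
    (hf : l ^ f ∣ p + 1) (hf' : ¬ l ^ (f + 1) ∣ p + 1)
    (c : Option (Fin p) → ℂ⟦X⟧) (hc : ∀ i, Cg l l (c i) 1)
    (φ6 : ℤ⟦X⟧) (h60 : constantCoeff φ6 = 0) (h61 : coeff 1 φ6 = 504)
    (E6x : ℂ⟦X⟧) (hE6 : E6x = 1 - expand p hp (φ6.map (Int.castRingHom ℂ)))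
    (E : ℂ⟦X⟧)
    (hSt : (∀ n : ℕ, 12 * n ≤ l ^ f * 6 → coeff n E ∈ nI l l) → ∀ n, coeff n E ∈ nI l l)
    (hE : expand p hp E =
      ∑ t ∈ powersetCard (l ^ f) (univ : Finset (Option (Fin p))), ∏ i ∈ t, (c i ^ 3 - E6x)) :
    False :=
  case_fs p hp (l ^ f) 6 3 (pow_pos hl.out.pos f) (by norm_num) (not_dvd_choose_pow hf hf')
    c hc φ6 h60 (h61 ▸ not_dvd_504 hl5 hl7) E6x hE6 E hSt hE

/-- **Case C3, `l = 7`** (`7 ∣ p + 1`): weight 4, `K = G^2 - E4`. -/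
theorem case_C3_four [Fact (Nat.Prime 7)] (p : ℕ) (hp : p ≠ 0) (f : ℕ)
    (hf : 7 ^ f ∣ p + 1) (hf' : ¬ 7 ^ (f + 1) ∣ p + 1)
    (c : Option (Fin p) → ℂ⟦X⟧) (hc : ∀ i, Cg 7 7 (c i) 1)
    (φ4 : ℤ⟦X⟧) (h40 : constantCoeff φ4 = 0) (h41 : coeff 1 φ4 = 240)
    (E4x : ℂ⟦X⟧) (hE4 : E4x = 1 + expand p hp (φ4.map (Int.castRingHom ℂ)))
    (E : ℂ⟦X⟧)
    (hSt : (∀ n : ℕ, 12 * n ≤ 7 ^ f * 4 → coeff n E ∈ nI 7 7) → ∀ n, coeff n E ∈ nI 7 7)
    (hE : expand p hp E =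
      ∑ t ∈ powersetCard (7 ^ f) (univ : Finset (Option (Fin p))), ∏ i ∈ t, (c i ^ 2 - E4x)) :
    False := by
  refine case_fs (l := 7) p hp (7 ^ f) 4 2 (by positivity) (by norm_num)
    (not_dvd_choose_pow hf hf') c hc (-φ4) (by simp [h40]) ?_ E4x ?_ E hSt hE
  · rw [map_neg, h41]; decide
  · rw [hE4, map_neg, map_neg]; ring

/-- **Case C5b** (`l = 3`, `9 ∣ p + 1`, `e ≥ 2`): weight 6, `K = (G^3 - E6)/9`. -/
theorem case_C5b [Fact (Nat.Prime 3)] (p : ℕ) (hp : p ≠ 0) (f : ℕ)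
    (hf : 3 ^ f ∣ p + 1) (hf' : ¬ 3 ^ (f + 1) ∣ p + 1)
    (c : Option (Fin p) → ℂ⟦X⟧) (hc3 : ∀ i, Cg 3 27 (c i ^ 3) 1)
    (ψ : ℤ⟦X⟧) (hψ0 : constantCoeff ψ = 0) (hψ1 : coeff 1 ψ = 56)
    (E6x : ℂ⟦X⟧) (hE6 : E6x = 1 - 9 * expand p hp (ψ.map (Int.castRingHom ℂ)))
    (K : Option (Fin p) → ℂ⟦X⟧) (hK : ∀ i, 9 * K i = c i ^ 3 - E6x)
    (E : ℂ⟦X⟧)
    (hSt : (∀ n : ℕ, 12 * n ≤ 3 ^ f * 6 → coeff n E ∈ nI 3 3) → ∀ n, coeff n E ∈ nI 3 3)
    (hE : expand p hp E =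
      ∑ t ∈ powersetCard (3 ^ f) (univ : Finset (Option (Fin p))), ∏ i ∈ t, K i) :
    False := by
  refine fs_core (l := 3) p hp (3 ^ f) 6 (by positivity) (by norm_num) (ι := Option (Fin p)) ?_
    E hSt K hE ψ hψ0 ?_ ?_
  · simpa using not_dvd_choose_pow (l := 3) hf hf'
  · rw [hψ1]; decide
  · intro i
    obtain ⟨a, ha, ea⟩ := hc3 i
    refine ⟨a, ha, ?_⟩
    have h9 : (9 : ℂ⟦X⟧) ≠ 0 := by
      intro h
      have := congrArg (coeff 0) h
      have e9 : (9 : ℂ⟦X⟧) = C (9 : ℂ) := (map_ofNat (C (R := ℂ)) 9).symm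
      rw [e9, coeff_zero_C] at this
      norm_num at this
    apply mul_left_cancel₀ h9
    have e1 : c i ^ 3 = 1 + ((27 : ℕ) : ℂ⟦X⟧) * a := by rw [← ea]; ring
    rw [mul_sub, hK i, e1, hE6]
    push_cast
    ring

/-! ### the case `l = 2`, `8 ∣ p + 1` -/

/-- **Case C8, congruence part**: `c i ≡ 1 mod 8`; `K4 = (c^2 - E4)/16`, `K6 = (c E4 - E6)/8`;
then all coefficients of `N(K6) - E4^M N(K4)` are in `2 • locInt 2`. -/
theorem case_C8_coeff [Fact (Nat.Prime 2)] (p : ℕ) (hp : p ≠ 0) {ι : Type*} [Fintype ι]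
    (c : ι → ℂ⟦X⟧) (hc : ∀ i, Cg 2 8 (c i) 1)
    (S3 S5 T : ℤ⟦X⟧) (hS : S3 - S5 = 2 * T)
    (E4q E6q : ℂ⟦X⟧)
    (hE4 : E4q = 1 + 240 * S3.map (Int.castRingHom ℂ))
    (hE6 : E6q = 1 - 504 * S5.map (Int.castRingHom ℂ))
    (K4 K6 : ι → ℂ⟦X⟧)
    (hK4 : ∀ i, 16 * K4 i = c i ^ 2 - expand p hp E4q)
    (hK6 : ∀ i, 8 * K6 i = c i * expand p hp E4q - expand p hp E6q)
    (M : ℕ) (e4 e6 : ℂ⟦X⟧)
    (h4 : expand p hp e4 = ∏ i, K4 i) (h6 : expand p hp e6 = ∏ i, K6 i) (n : ℕ) :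
    coeff n (e6 - E4q ^ M * e4) ∈ nI 2 2 := by
  classical
  set S3x : ℂ⟦X⟧ := expand p hp (S3.map (Int.castRingHom ℂ)) with hS3x
  set S5x : ℂ⟦X⟧ := expand p hp (S5.map (Int.castRingHom ℂ)) with hS5x
  set Tx : ℂ⟦X⟧ := expand p hp (T.map (Int.castRingHom ℂ)) with hTx
  have hS3m : S3x ∈ CR 2 := expand_mem_CR 2 hp (map_intCast_mem_CR 2 S3)
  have hS5m : S5x ∈ CR 2 := expand_mem_CR 2 hp (map_intCast_mem_CR 2 S5)
  have hTm : Tx ∈ CR 2 := expand_mem_CR 2 hp (map_intCast_mem_CR 2 T)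
  have hST : S3x - S5x = 2 * Tx := by
    have := congrArg (fun F : ℤ⟦X⟧ => expand p hp (F.map (Int.castRingHom ℂ))) hS
    simp only [map_sub, map_mul, map_ofNat] at this
    exact this
  have hE4x : expand p hp E4q = 1 + 240 * S3x := by
    rw [hE4, map_add, map_one, map_mul, map_ofNat]
  have hE6x : expand p hp E6q = 1 - 504 * S5x := by
    rw [hE6, map_sub, map_one, map_mul, map_ofNat]
  have h16 : (16 : ℂ⟦X⟧) ≠ 0 := by
    intro h
    have := congrArg (coeff 0) h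
    have e9 : (16 : ℂ⟦X⟧) = C (16 : ℂ) := (map_ofNat (C (R := ℂ)) 16).symm
    rw [e9, coeff_zero_C] at this
    norm_num at this
  have h8 : (8 : ℂ⟦X⟧) ≠ 0 := by
    intro h
    have := congrArg (coeff 0) h
    have e9 : (8 : ℂ⟦X⟧) = C (8 : ℂ) := (map_ofNat (C (R := ℂ)) 8).symm
    rw [e9, coeff_zero_C] at this
    norm_num at this
  have hnat : ∀ k : ℕ, (k : ℂ⟦X⟧) ∈ CR 2 := fun k => natCast_mem_CR 2 k
  -- the structure of the conjugates
  have hβ : ∀ i, ∃ β ∈ CR 2, c i = 1 + 8 * β ∧ K4 i = β + 4 * β ^ 2 - 15 * S3x ∧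
      K6 i = β + 30 * S3x + 240 * β * S3x + 63 * S5x := by
    intro i
    obtain ⟨β, hβ, eβ⟩ := hc i
    have ec : c i = 1 + 8 * β := by
      have : c i - 1 = 8 * β := by simpa using eβ
      rw [← this]; ring
    refine ⟨β, hβ, ec, ?_, ?_⟩
    · apply mul_left_cancel₀ h16
      rw [hK4 i, ec, hE4x]; ring
    · apply mul_left_cancel₀ h8
      rw [hK6 i, ec, hE4x, hE6x]; ring
  have hK4m : ∀ i, K4 i ∈ CR 2 := by
    intro i
    obtain ⟨β, hβ, -, e4', -⟩ := hβ i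
    rw [e4']
    have h4' : (4 : ℂ⟦X⟧) ∈ CR 2 := by exact_mod_cast hnat 4
    have h15 : (15 : ℂ⟦X⟧) ∈ CR 2 := by exact_mod_cast hnat 15
    exact (CR 2).sub_mem ((CR 2).add_mem hβ ((CR 2).mul_mem h4' ((CR 2).pow_mem hβ 2)))
      ((CR 2).mul_mem h15 hS3m)
  have hK : ∀ i, Cg 2 2 (K6 i) (K4 i) := by
    intro i
    obtain ⟨β, hβ, -, e4', e6'⟩ := hβ i
    refine ⟨22 * S3x + 120 * β * S3x + 32 * S5x - 2 * β ^ 2 + Tx, ?_, ?_⟩
    · have h22 : (22 : ℂ⟦X⟧) ∈ CR 2 := by exact_mod_cast hnat 22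
      have h120 : (120 : ℂ⟦X⟧) ∈ CR 2 := by exact_mod_cast hnat 120
      have h32 : (32 : ℂ⟦X⟧) ∈ CR 2 := by exact_mod_cast hnat 32
      have h2 : (2 : ℂ⟦X⟧) ∈ CR 2 := by exact_mod_cast hnat 2
      exact (CR 2).add_mem ((CR 2).sub_mem ((CR 2).add_mem ((CR 2).add_mem
        ((CR 2).mul_mem h22 hS3m) ((CR 2).mul_mem ((CR 2).mul_mem h120 hβ) hS3m))
        ((CR 2).mul_mem h32 hS5m)) ((CR 2).mul_mem h2 ((CR 2).pow_mem hβ 2))) hTm
    · rw [e4', e6']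
      have : S3x = S5x + 2 * Tx := by rw [← hST]; ring
      rw [this]; push_cast; ring
  have hprod : Cg 2 2 (∏ i, K6 i) (∏ i, K4 i) :=
    Cg.prod (l := 2) (N := 2) univ (fun i _ => hK i) (fun i _ => hK4m i)
  have hprod4 : ∏ i, K4 i ∈ CR 2 := (CR 2).prod_mem fun i _ => hK4m i
  have hE41 : Cg 2 2 (expand p hp E4q) 1 := by
    refine ⟨120 * S3x, ?_, ?_⟩
    · have h120 : (120 : ℂ⟦X⟧) ∈ CR 2 := by exact_mod_cast hnat 120
      exact (CR 2).mul_mem h120 hS3m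
    · rw [hE4x]; push_cast; ring
  have hE4M : Cg 2 2 (expand p hp E4q ^ M) 1 := by
    have := hE41.pow (CR 2).one_mem M
    simpa using this
  have h2 : Cg 2 2 (expand p hp E4q ^ M * ∏ i, K4 i) (∏ i, K4 i) := by
    have := hE4M.mul_right _ hprod4
    simpa using this
  have h3 : Cg 2 2 (∏ i, K6 i - expand p hp E4q ^ M * ∏ i, K4 i) 0 := by
    have := hprod.sub h2
    simpa using this
  have hexp : expand p hp (e6 - E4q ^ M * e4) =
      ∏ i, K6 i - expand p hp E4q ^ M * ∏ i, K4 i := by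
    rw [map_sub, map_mul, map_pow, h4, h6]
  have := h3.coeff (p * n)
  rw [← hexp, coeff_expand_mul] at this
  simpa using this

/-- **Case C8, contradiction**: `(-27)^M` is not in `2 • locInt 2`. -/
theorem case_C8_contra [Fact (Nat.Prime 2)] (M : ℕ) {Dρ d v : ℂ} (hD : Dρ ≠ 0)
    (hd : d ∈ nI 2 2) (h1 : v = d * Dρ ^ M) (h2 : v = (-27) ^ M * Dρ ^ M) : False := by
  have hd' : d = (-27) ^ M := by
    have := h1.symm.trans h2
    exact mul_right_cancel₀ (pow_ne_zero M hD) this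
  have hmem : ((((-27) ^ M : ℤ)) : ℂ) ∈ nI 2 2 := by
    rw [hd'] at hd
    convert hd using 1
    push_cast; ring
  have hdvd := dvd_of_intCast_mem_nI 2 hmem
  have h27 : ((2 : ℕ) : ℤ) ∣ (-27 : ℤ) := (Nat.prime_iff_prime_int.mp Nat.prime_two).dvd_of_dvd_pow hdvd
  revert h27; decide

end

end Fermat.Agent.S16.H07
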