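import Fermat.Agent.S16.Stmts_helper6
import Fermat.Agent.S16.ConjCases_helper7

/-!
# S16 (helper7): the nodes `StmtRl`, `StmtC3`, `StmtC5b`, `StmtC8` of `Stmts_helper6`, literally.
-/

set_option autoImplicit false

namespace Fermat.Agent.S16.H07

open PowerSeries Finset UpperHalfPlane ModularForm CongruenceSubgroup ModularFormClass
open scoped MatrixGroups ModularForm

noncomputable section

/-! ### `StmtRl` -/

theorem RlSet_eq (ℓ : ℕ) [Fact ℓ.Prime] : RlSet ℓ = (locInt ℓ : Set ℂ) := by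
  ext x
  constructor
  · rintro ⟨s, hs, hx⟩
    exact ⟨s, by exact_mod_cast hs, by simpa using hx⟩
  · rintro ⟨s, hs, hx⟩
    refine ⟨s.natAbs, ?_, ?_⟩
    · intro h
      exact hs (Int.natCast_dvd.mpr h)
    · rcases Int.natAbs_eq s with h | h
      · have : ((s.natAbs : ℕ) : ℂ) = (s : ℂ) := by
          conv_rhs => rw [h]
          simp
        rw [this]; exact hx
      · have : ((s.natAbs : ℕ) : ℂ) * x = -((s : ℂ) * x) := by
          conv_rhs => rw [h]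
          simp
        rw [this]; exact hx.neg

theorem stmtRl : StmtRl := by
  intro ℓ hℓ
  haveI : Fact ℓ.Prime := ⟨hℓ⟩
  refine ⟨⟨locInt ℓ, (RlSet_eq ℓ).symm⟩, ?_, ?_, ?_⟩
  · intro a s hs
    rw [RlSet_eq, div_eq_mul_inv]
    exact (locInt ℓ).mul_mem (intCast_mem_locInt ℓ a) (inv_natCast_mem_locInt ℓ hs)
  · intro x hx
    rw [RlSet_eq]
    exact mem_locInt_of_isIntegral ℓ hx
  · rintro c ⟨r, hr, h⟩
    rw [RlSet_eq] at hr
    exact dvd_of_intCast_eq_mul ℓ hr h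

/-! ### bridges to the definitions of `Defs_helper6` -/

theorem Vp_eq_expand (p : ℕ) (hp : p ≠ 0) (f : ℂ⟦X⟧) : Vp p f = expand p hp f := by
  ext n
  simp [Vp, coeff_expand]

theorem zetaP_pow (p : ℕ) (hp : p ≠ 0) : zetaP p ^ p = 1 := by
  rw [zetaP, ← Complex.exp_nat_mul]
  have hp' : (p : ℂ) ≠ 0 := by exact_mod_cast hp
  have : (p : ℂ) * (2 * Real.pi * Complex.I / p) = 2 * Real.pi * Complex.I := by
    field_simp
  rw [this]
  exact Complex.exp_two_pi_mul_I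

theorem conjSeries_eq (p : ℕ) (hp : p ≠ 0) (g : ℂ⟦X⟧) (i : Option (Fin p)) :
    conjSeries p g i = conjS p hp (zetaP p) g (Up p g) i := by
  rcases i with _ | j
  · simp [conjSeries, conjS, Vp_eq_expand p hp]
  · simp [conjSeries, conjS, smul_eq_C_mul, one_div]

theorem cg_of_BHyp {p ℓ e : ℕ} [Fact ℓ.Prime] (G : ModularForm (Gamma0 p) 2)
    (h : BHyp p ℓ e G) : Cg ℓ (ℓ ^ e) (qExpansion 1 G) 1 := by
  apply Cg.of_coeff
  intro n
  rcases Nat.eq_zero_or_pos n with rfl | hn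
  · have h0 : (qExpansion 1 G).coeff 0 = 1 := h.1
    rw [h0]
    simpa using (nI ℓ (ℓ ^ e)).zero_mem
  · obtain ⟨m, s, hs, hms⟩ := h.2 n hn
    have hms' : (s : ℂ) * (qExpansion 1 G).coeff n = (ℓ : ℂ) ^ e * (m : ℂ) := hms
    have hs0 : (s : ℂ) ≠ 0 := by
      rintro h0
      exact hs (by simp [Nat.cast_eq_zero.mp h0])
    refine ⟨(m : ℂ) * ((s : ℂ))⁻¹, (locInt ℓ).mul_mem (intCast_mem_locInt ℓ m)
      (inv_natCast_mem_locInt ℓ hs), ?_⟩
    rw [coeff_one, if_neg hn.ne', sub_zero]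
    push_cast
    field_simp
    linear_combination hms'

theorem cg_Up {p ℓ N : ℕ} [Fact ℓ.Prime] (hp : p ≠ 0) {g : ℂ⟦X⟧} (hg : Cg ℓ N g 1) :
    Cg ℓ N (Up p g) 1 :=
  cg_of_coeff_mul hp hg (fun n => by simp [Up, mul_comm])

/-- `E₆ = 1 - φ₆`, `φ₆ = 504 ∑ σ₅(n) qⁿ` -/
def phi6 : ℤ⟦X⟧ := PowerSeries.mk fun n => if n = 0 then 0 else 504 * (ArithmeticFunction.sigma 5 n : ℤ)

/-- `E₄ = 1 + φ₄`, `φ₄ = 240 ∑ σ₃(n) qⁿ` -/
def phi4 : ℤ⟦X⟧ := PowerSeries.mk fun n => if n = 0 then 0 else 240 * (ArithmeticFunction.sigma 3 n : ℤ)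

/-- `ψ = 56 ∑ σ₅(n) qⁿ` -/
def psi56 : ℤ⟦X⟧ := PowerSeries.mk fun n => if n = 0 then 0 else 56 * (ArithmeticFunction.sigma 5 n : ℤ)

/-- `∑ σ₃(n) qⁿ` -/
def S3s : ℤ⟦X⟧ := PowerSeries.mk fun n => if n = 0 then 0 else (ArithmeticFunction.sigma 3 n : ℤ)

/-- `∑ σ₅(n) qⁿ` -/
def S5s : ℤ⟦X⟧ := PowerSeries.mk fun n => if n = 0 then 0 else (ArithmeticFunction.sigma 5 n : ℤ)

theorem E6q_eq_phi6 : E6q ℂ = 1 - phi6.map (Int.castRingHom ℂ) := by
  ext n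
  rw [map_sub, coeff_one, phi6, coeff_map, coeff_mk, E6q, coeff_mk]
  split_ifs <;> simp

theorem E4q_eq_phi4 : E4q ℂ = 1 + phi4.map (Int.castRingHom ℂ) := by
  ext n
  rw [map_add, coeff_one, phi4, coeff_map, coeff_mk, E4q, coeff_mk]
  split_ifs <;> simp

theorem E6q_eq_psi56 : E6q ℂ = 1 - 9 * psi56.map (Int.castRingHom ℂ) := by
  ext n
  have e9 : (9 : ℂ⟦X⟧) = C (9 : ℂ) := (map_ofNat (C (R := ℂ)) 9).symm
  rw [map_sub, e9, coeff_C_mul, coeff_one, psi56, coeff_map, coeff_mk, E6q, coeff_mk]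
  split_ifs
  · simp
  · simp only [zero_sub, eq_intCast, Int.cast_mul, Int.cast_natCast, Int.cast_ofNat]
    ring

theorem E4q_eq_S3s : E4q ℂ = 1 + 240 * S3s.map (Int.castRingHom ℂ) := by
  ext n
  have e9 : (240 : ℂ⟦X⟧) = C (240 : ℂ) := (map_ofNat (C (R := ℂ)) 240).symm
  rw [map_add, e9, coeff_C_mul, coeff_one, S3s, coeff_map, coeff_mk, E4q, coeff_mk]
  split_ifs <;> simp

theorem E6q_eq_S5s : E6q ℂ = 1 - 504 * S5s.map (Int.castRingHom ℂ) := by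
  ext n
  have e9 : (504 : ℂ⟦X⟧) = C (504 : ℂ) := (map_ofNat (C (R := ℂ)) 504).symm
  rw [map_sub, e9, coeff_C_mul, coeff_one, S5s, coeff_map, coeff_mk, E6q, coeff_mk]
  split_ifs <;> simp

theorem sigma_three_sub_five_even (n : ℕ) :
    ∃ t : ℤ, (ArithmeticFunction.sigma 3 n : ℤ) - (ArithmeticFunction.sigma 5 n : ℤ) = 2 * t := by
  rw [ArithmeticFunction.sigma_apply, ArithmeticFunction.sigma_apply]
  push_cast
  rw [← Finset.sum_sub_distrib]
  have : ∀ d ∈ n.divisors, ∃ t : ℤ, (d : ℤ) ^ 3 - (d : ℤ) ^ 5 = 2 * t := by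
    intro d _
    have h2 : (2 : ℤ) ∣ (d : ℤ) ^ 3 - (d : ℤ) ^ 5 := by
      have : (d : ℤ) ^ 3 - (d : ℤ) ^ 5 = -((d : ℤ) ^ 3 * ((d : ℤ) - 1) * ((d : ℤ) + 1)) := by ring
      rw [this]
      rcases Int.even_or_odd (d : ℤ) with hd | hd
      · obtain ⟨k, hk⟩ := hd
        exact ⟨-(k ^ 3 * 4 * (k + k - 1) * (k + k + 1)), by rw [hk]; ring⟩
      · obtain ⟨k, hk⟩ := hd
        exact ⟨-((2 * k + 1) ^ 3 * k * (2 * k + 2)), by rw [hk]; ring⟩
    exact h2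
  choose! t ht using this
  exact ⟨∑ d ∈ n.divisors, t d, by rw [Finset.mul_sum]; exact Finset.sum_congr rfl ht⟩

theorem exists_T : ∃ T : ℤ⟦X⟧, S3s - S5s = 2 * T := by
  choose t ht using sigma_three_sub_five_even
  refine ⟨PowerSeries.mk fun n => if n = 0 then 0 else t n, ?_⟩
  ext n
  have e2 : (2 : ℤ⟦X⟧) = C (2 : ℤ) := (map_ofNat (C (R := ℤ)) 2).symm
  rw [map_sub, e2, coeff_C_mul, S3s, S5s, coeff_mk, coeff_mk, coeff_mk]
  split_ifs
  · simp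
  · exact ht n

theorem constantCoeff_phi6 : constantCoeff phi6 = 0 := by
  rw [← coeff_zero_eq_constantCoeff_apply, phi6, coeff_mk]; simp

theorem coeff_one_phi6 : coeff 1 phi6 = 504 := by
  rw [phi6, coeff_mk]; simp [ArithmeticFunction.sigma_one]

theorem constantCoeff_phi4 : constantCoeff phi4 = 0 := by
  rw [← coeff_zero_eq_constantCoeff_apply, phi4, coeff_mk]; simp

theorem coeff_one_phi4 : coeff 1 phi4 = 240 := by
  rw [phi4, coeff_mk]; simp [ArithmeticFunction.sigma_one]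

theorem constantCoeff_psi56 : constantCoeff psi56 = 0 := by
  rw [← coeff_zero_eq_constantCoeff_apply, psi56, coeff_mk]; simp

theorem coeff_one_psi56 : coeff 1 psi56 = 56 := by
  rw [psi56, coeff_mk]; simp [ArithmeticFunction.sigma_one]

theorem sum_powersetCard_top {ι : Type*} [Fintype ι] [DecidableEq ι] {A : Type*}
    [AddCommMonoid A] (m : ℕ) (hm : m = Fintype.card ι) (f : Finset ι → A) :
    ∑ S ∈ powersetCard m (univ : Finset ι), f S = f univ := by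
  subst hm
  rw [← Finset.card_univ, powersetCard_self, sum_singleton]

/-! ### `StmtC3` -/

theorem stmtC3 (hSym4 : StmtSym4) (hSym6 : StmtSym6) (hSturm : StmtSturm) : StmtC3 := by
  intro p ℓ e hp hℓ he h5 hdvd G hG
  haveI : Fact ℓ.Prime := ⟨hℓ⟩
  have hp0 : p ≠ 0 := hp.ne_zero
  have hlp : ¬ ℓ ∣ p := by
    intro h
    have : ℓ ∣ 1 := (Nat.dvd_add_right h).mp hdvd
    exact hℓ.one_lt.ne' (Nat.dvd_one.mp this)
  have hg : Cg ℓ ℓ (qExpansion 1 G) 1 := (cg_of_BHyp G hG).of_dvd (dvd_pow_self ℓ (by omega))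
  have hu : Cg ℓ ℓ (Up p (qExpansion 1 G)) 1 := cg_Up hp0 hg
  have hc : ∀ i, Cg ℓ ℓ (conjS p hp0 (zetaP p) (qExpansion 1 G) (Up p (qExpansion 1 G)) i) 1 :=
    conjS_cg hp0 hlp hdvd (zetaP_pow p hp0) hg hu
  have hch : ¬ ℓ ∣ (p + 1).choose (p + 1) := by
    rw [Nat.choose_self]
    exact fun h => hℓ.one_lt.ne' (Nat.dvd_one.mp h)
  by_cases h7 : ℓ = 7
  · -- weight 4, `K = G^2 - E4`
    obtain ⟨F, -, hF⟩ := hSym4 p hp G 1 (-1) (p + 1)
    refine case_fs (l := ℓ) p hp0 (p + 1) 4 2 (by omega) (by norm_num) hch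
      (conjS p hp0 (zetaP p) (qExpansion 1 G) (Up p (qExpansion 1 G))) hc (-phi4) ?_ ?_
      (expand p hp0 (E4q ℂ)) ?_ (qExpansion 1 F) ?_ ?_
    · rw [map_neg, constantCoeff_phi4, neg_zero]
    · rw [map_neg, coeff_one_phi4, h7]
      decide
    · rw [E4q_eq_phi4, map_add, map_one, map_neg, map_neg]
      ring
    · intro h n
      exact hSturm (nI ℓ ℓ) _ F (fun n hn => h n (by
        have : 12 * (n : ℤ) ≤ 4 * ((p + 1 : ℕ) : ℤ) := hn
        omega)) n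
    · rw [← Vp_eq_expand, hF]
      refine Finset.sum_congr rfl fun S _ => Finset.prod_congr rfl fun i _ => ?_
      rw [one_smul, neg_one_smul, conjSeries_eq p hp0, Vp_eq_expand p hp0, sub_eq_add_neg]
  · -- weight 6, `K = G^3 - E6`
    obtain ⟨F, -, hF⟩ := hSym6 p hp G 1 0 (-1) (p + 1)
    refine case_fs (l := ℓ) p hp0 (p + 1) 6 3 (by omega) (by norm_num) hch
      (conjS p hp0 (zetaP p) (qExpansion 1 G) (Up p (qExpansion 1 G))) hc phi6 ?_ ?_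
      (expand p hp0 (E6q ℂ)) ?_ (qExpansion 1 F) ?_ ?_
    · exact constantCoeff_phi6
    · rw [coeff_one_phi6]
      exact not_dvd_504 h5 h7
    · rw [E6q_eq_phi6, map_sub, map_one]
    · intro h n
      exact hSturm (nI ℓ ℓ) _ F (fun n hn => h n (by
        have : 12 * (n : ℤ) ≤ 6 * ((p + 1 : ℕ) : ℤ) := hn
        omega)) n
    · rw [← Vp_eq_expand, hF]
      refine Finset.sum_congr rfl fun S _ => Finset.prod_congr rfl fun i _ => ?_
      rw [one_smul, zero_smul, add_zero, neg_one_smul, conjSeries_eq p hp0, Vp_eq_expand p hp0,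
        sub_eq_add_neg]

/-! ### `StmtC5b` -/

theorem stmtC5b (hSym6 : StmtSym6) (hSturm : StmtSturm) : StmtC5b := by
  intro p e hp he h9 G hG
  haveI : Fact (Nat.Prime 3) := ⟨Nat.prime_three⟩
  have hp0 : p ≠ 0 := hp.ne_zero
  have hlp : ¬ 3 ∣ p := by omega
  have h93 : 9 ∣ 3 ^ e := by
    have := pow_dvd_pow 3 he
    norm_num at this
    exact this
  have hg : Cg 3 9 (qExpansion 1 G) 1 := (cg_of_BHyp G hG).of_dvd h93
  have hu : Cg 3 9 (Up p (qExpansion 1 G)) 1 := cg_Up hp0 hg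
  have hc3 : ∀ i, Cg 3 27
      (conjS p hp0 (zetaP p) (qExpansion 1 G) (Up p (qExpansion 1 G)) i ^ 3) 1 :=
    conjS_cube_cg hp0 hlp h9 (zetaP_pow p hp0) hg hu
  obtain ⟨F, -, hF⟩ := hSym6 p hp G (1 / 9) 0 (-(1 / 9)) (p + 1)
  refine fs_core (l := 3) p hp0 (p + 1) 6 (by omega) (by norm_num) (ι := Option (Fin p)) ?_
    (qExpansion 1 F) ?_
    (fun i => (1 / 9 : ℂ) • conjSeries p (qExpansion 1 G) i ^ 3 +
      (0 : ℂ) • (conjSeries p (qExpansion 1 G) i * Vp p (E4q ℂ)) +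
      (-(1 / 9) : ℂ) • Vp p (E6q ℂ)) ?_ psi56 constantCoeff_psi56 ?_ ?_
  · simp
  · intro h n
    exact hSturm (nI 3 3) _ F (fun n hn => h n (by
      have : 12 * (n : ℤ) ≤ 6 * ((p + 1 : ℕ) : ℤ) := hn
      omega)) n
  · rw [← Vp_eq_expand]
    exact hF
  · rw [coeff_one_psi56]
    decide
  · intro i
    obtain ⟨a, ha, ea⟩ := hc3 i
    refine ⟨a, ha, ?_⟩
    have e9 : (9 : ℂ⟦X⟧) = C (9 : ℂ) := (map_ofNat (C (R := ℂ)) 9).symm
    have h9' : (9 : ℂ⟦X⟧) ≠ 0 := by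
      intro h
      have := congrArg (coeff 0) h
      rw [e9, coeff_zero_C] at this
      norm_num at this
    have hD : (9 : ℂ⟦X⟧) * C (1 / 9 : ℂ) = 1 := by
      rw [e9, ← map_mul]
      norm_num
    apply mul_left_cancel₀ h9'
    simp only [smul_eq_C_mul, map_zero, zero_mul, add_zero, map_neg]
    rw [conjSeries_eq p hp0, Vp_eq_expand p hp0 (E6q ℂ), E6q_eq_psi56, map_sub, map_one, map_mul,
      map_ofNat]
    have ea' : conjS p hp0 (zetaP p) (qExpansion 1 G) (Up p (qExpansion 1 G)) i ^ 3 - 1 =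
        27 * a := by
      rw [ea]; push_cast; ring
    push_cast
    linear_combination (conjS p hp0 (zetaP p) (qExpansion 1 G) (Up p (qExpansion 1 G)) i ^ 3 - 1
      + 9 * expand p hp0 (psi56.map (Int.castRingHom ℂ))) * hD + ea'

/-! ### `StmtC8` -/

theorem stmtC8 (hSym4 : StmtSym4) (hSym6 : StmtSym6) (hRho : StmtRho) (hE : StmtE4E6) :
    StmtC8 := by
  intro p e hp he hmod G hG
  haveI : Fact (Nat.Prime 2) := ⟨Nat.prime_two⟩
  have hp0 : p ≠ 0 := hp.ne_zero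
  have hlp : ¬ 2 ∣ p := by omega
  have h8 : 8 ∣ p + 1 := by omega
  obtain ⟨M, hM⟩ : ∃ M, p + 1 = 2 * M := ⟨(p + 1) / 2, by omega⟩
  have h82 : 8 ∣ 2 ^ e := by
    have := pow_dvd_pow 2 he
    norm_num at this
    exact this
  have hg : Cg 2 8 (qExpansion 1 G) 1 := (cg_of_BHyp G hG).of_dvd h82
  have hu : Cg 2 8 (Up p (qExpansion 1 G)) 1 := cg_Up hp0 hg
  have hc : ∀ i, Cg 2 8 (conjS p hp0 (zetaP p) (qExpansion 1 G) (Up p (qExpansion 1 G)) i) 1 :=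
    conjS_cg hp0 hlp h8 (zetaP_pow p hp0) hg hu
  obtain ⟨F4, -, hF4⟩ := hSym4 p hp G (1 / 16) (-(1 / 16)) (p + 1)
  obtain ⟨F6, hF6v, hF6⟩ := hSym6 p hp G 0 (1 / 8) (-(1 / 8)) (p + 1)
  obtain ⟨T, hT⟩ := exists_T
  obtain ⟨hρ1, hE4ρ, hE6ρ, hΔρ⟩ := hRho
  rw [sum_powersetCard_top (p + 1) (by simp)] at hF4 hF6
  -- the level-one form `N(K6) - E4^M N(K4)` of weight `12 M`
  have hw6 : 6 * ((p + 1 : ℕ) : ℤ) = 12 * (M : ℤ) := by rw [hM]; push_cast; ring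
  have hw4 : (M : ℤ) * ((4 : ℕ) : ℤ) + 4 * ((p + 1 : ℕ) : ℤ) = 12 * (M : ℤ) := by
    rw [hM]; push_cast; ring
  let f : ModularForm 𝒮ℒ (12 * (M : ℤ)) := mcast hw6 F6 - mcast hw4 ((E₄.pow M).mul F4)
  have hfcoe : (⇑f : ℍ → ℂ) = ⇑F6 - ⇑((E₄.pow M).mul F4) := rfl
  have hfq : qExpansion 1 f = qExpansion 1 F6 - (E4q ℂ) ^ M * qExpansion 1 F4 := by
    rw [hfcoe, ModularForm.qExpansion_sub one_pos one_mem_strictPeriods_SL F6 ((E₄.pow M).mul F4),
      ModularForm.qExpansion_mul one_pos one_mem_strictPeriods_SL,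
      ModularForm.qExpansion_pow one_pos one_mem_strictPeriods_SL, hE.1]
  have hfρ : f ρ = F6 ρ := by
    have h1 : f ρ = F6 ρ - ((E₄.pow M).mul F4) ρ := rfl
    have h2 : ((E₄.pow M).mul F4) ρ = (E₄ ρ) ^ M * F4 ρ := by
      rw [ModularForm.coe_mul, Pi.mul_apply, ModularForm.coe_pow, Pi.pow_apply]
    have hM0 : M ≠ 0 := by omega
    rw [h1, h2, hE4ρ, zero_pow hM0, zero_mul, sub_zero]
  have e16 : (16 : ℂ⟦X⟧) = C (16 : ℂ) := (map_ofNat (C (R := ℂ)) 16).symm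
  have e8 : (8 : ℂ⟦X⟧) = C (8 : ℂ) := (map_ofNat (C (R := ℂ)) 8).symm
  have hD16 : (16 : ℂ⟦X⟧) * C (1 / 16 : ℂ) = 1 := by
    rw [e16, ← map_mul]; norm_num
  have hD8 : (8 : ℂ⟦X⟧) * C (1 / 8 : ℂ) = 1 := by
    rw [e8, ← map_mul]; norm_num
  have hcoef : ∀ n, (qExpansion 1 f).coeff n ∈ nI 2 2 := by
    intro n
    rw [hfq]
    refine case_C8_coeff p hp0
      (conjS p hp0 (zetaP p) (qExpansion 1 G) (Up p (qExpansion 1 G))) hc S3s S5s T hT
      (E4q ℂ) (E6q ℂ) E4q_eq_S3s E6q_eq_S5s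
      (fun i => (1 / 16 : ℂ) • conjSeries p (qExpansion 1 G) i ^ 2 +
        (-(1 / 16) : ℂ) • Vp p (E4q ℂ))
      (fun i => (0 : ℂ) • conjSeries p (qExpansion 1 G) i ^ 3 +
        (1 / 8 : ℂ) • (conjSeries p (qExpansion 1 G) i * Vp p (E4q ℂ)) +
        (-(1 / 8) : ℂ) • Vp p (E6q ℂ)) ?_ ?_ M (qExpansion 1 F4) (qExpansion 1 F6) ?_ ?_ n
    · intro i
      simp only [smul_eq_C_mul, map_neg]
      rw [conjSeries_eq p hp0, Vp_eq_expand p hp0]
      linear_combination (conjS p hp0 (zetaP p) (qExpansion 1 G) (Up p (qExpansion 1 G)) i ^ 2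
        - expand p hp0 (E4q ℂ)) * hD16
    · intro i
      simp only [smul_eq_C_mul, map_neg, map_zero, zero_mul, zero_add]
      rw [conjSeries_eq p hp0, Vp_eq_expand p hp0, Vp_eq_expand p hp0]
      linear_combination (conjS p hp0 (zetaP p) (qExpansion 1 G) (Up p (qExpansion 1 G)) i
        * expand p hp0 (E4q ℂ) - expand p hp0 (E6q ℂ)) * hD8
    · rw [← Vp_eq_expand]; exact hF4
    · rw [← Vp_eq_expand]; exact hF6
  obtain ⟨d, hd, hfd⟩ := hρ1 (nI 2 2) M f (fun n _ => hcoef n)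
  refine case_C8_contra M hΔρ hd hfd ?_
  rw [hfρ, hF6v ρ, sum_powersetCard_top (p + 1) (by simp)]
  have hterm : ∀ i : Option (Fin p),
      (0 * conjFun p 2 (⇑G) i ρ ^ 3 + 1 / 8 * (conjFun p 2 (⇑G) i ρ * E₄ ρ) + -(1 / 8) * E₆ ρ)
        = -(E₆ ρ / 8) := by
    intro i
    rw [hE4ρ]; ring
  rw [Finset.prod_congr rfl (fun i _ => hterm i), Finset.prod_const, Finset.card_univ,
    Fintype.card_option, Fintype.card_fin, hM, pow_mul]
  have : (-(E₆ ρ / 8)) ^ 2 = -27 * ModularForm.discriminant ρ := by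
    have : (-(E₆ ρ / 8)) ^ 2 = E₆ ρ ^ 2 / 64 := by ring
    rw [this, hE6ρ]; ring
  rw [this, mul_pow]

end

end Fermat.Agent.S16.H07
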