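import Mathlib
import Fermat.Agent.S16.Stmts_helper6
import Fermat.Prelude.Thm_CongruenceSubgroup_one_mem_strictPeriods_Gamma0

/-!
# S16, node (E): the weight-2 Eisenstein series of level `Γ₀(p)`

`E(z) = (p E₂(pz) - E₂(z)) / 24 = (p-1)/24 + ∑_{k ≥ 1} σ'(k) q^k`, `σ'(k) = sigmaP p k` the sum of
the divisors of `k` prime to `p`, as an element `eisP p : ModularForm (Gamma0 p) 2`.

* modularity: Mathlib's `E2_slash_action`; the non-modular correction terms cancel for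
  `γ ∈ Γ₀(p)` because `p (γ z) = γ' (p z)` with `γ' = (a, pb; c/p, d)`;
* boundedness at every cusp: for `γ ∉ Γ₀(p)`, `p (γ z) = γ'' ((z + j)/p)` and
  `(E ∣ γ)(z) = (p⁻¹ E₂((z+j)/p) - E₂(z)) / 24`;
* `q`-expansion: Mathlib's `hasSum_qExpansion_E2` at `z` and at `p z`.

Main results: `eisP`, `eisP_apply`, `hasSum_eisP`, `qCoeff_eisP_zero`, `qCoeff_eisP_of_ne_zero`,
`eisFun_slash_of_not_dvd` (the other conjugates) and `stmtE : StmtE`.
-/

set_option autoImplicit false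

namespace Fermat.Agent.S16.H26

open UpperHalfPlane ModularForm CongruenceSubgroup EisensteinSeries
open scoped MatrixGroups ModularForm Manifold Real

noncomputable section

/-- The constant `1 / (2 ζ(2))` of the quasi-modular transformation law of `E₂`. -/
def kap : ℂ := 1 / (2 * riemannZeta 2)

/-- Pointwise transformation law of `E₂` under `SL(2,ℤ)`. -/
theorem E2_smul (γ : SL(2, ℤ)) (z : ℍ) :
    E2 (γ • z) = ((γ 1 0 : ℂ) * z + γ 1 1) ^ 2 * E2 z
      - kap * (2 * π * Complex.I * γ 1 0) * ((γ 1 0 : ℂ) * z + γ 1 1) := by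
  have h := congrFun (E2_slash_action γ) z
  rw [SL_slash_apply, ModularGroup.denom_apply] at h
  have hd : ((γ 1 0 : ℂ) * z + γ 1 1) ≠ 0 := by
    rw [← ModularGroup.denom_apply]; exact denom_ne_zero _ z
  simp only [Pi.sub_apply, Pi.smul_apply, D2, smul_eq_mul, ModularGroup.denom_apply] at h
  rw [zpow_neg, zpow_ofNat] at h
  unfold kap
  field_simp at h ⊢
  linear_combination h

/-- `z ↦ p z` on the upper half plane. -/
def mulH (p : ℕ) [NeZero p] (z : ℍ) : ℍ :=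
  ⟨(p : ℂ) * z, by
    have hp : 0 < (p : ℝ) := Nat.cast_pos.mpr (NeZero.pos p)
    simpa using mul_pos hp z.im_pos⟩

@[simp] theorem coe_mulH (p : ℕ) [NeZero p] (z : ℍ) : ((mulH p z : ℍ) : ℂ) = (p : ℂ) * z := rfl

/-- `z ↦ (z + j) / p` on the upper half plane. -/
def divH (p : ℕ) [NeZero p] (j : ℤ) (z : ℍ) : ℍ :=
  ⟨((z : ℂ) + j) / p, by
    have hp : 0 < (p : ℝ) := Nat.cast_pos.mpr (NeZero.pos p)
    have : (((z : ℂ) + j) / p).im = z.im / p := by
      rw [show ((p : ℂ)) = ((p : ℝ) : ℂ) by simp, Complex.div_ofReal_im]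
      simp
    rw [this]
    exact div_pos z.im_pos hp⟩

@[simp] theorem coe_divH (p : ℕ) [NeZero p] (j : ℤ) (z : ℍ) :
    ((divH p j z : ℍ) : ℂ) = ((z : ℂ) + j) / p := rfl

theorem denom_ne (γ : SL(2, ℤ)) (z : ℍ) : ((γ 1 0 : ℂ) * z + γ 1 1) ≠ 0 := by
  rw [← ModularGroup.denom_apply]; exact denom_ne_zero _ z

theorem coe_smul_SL (γ : SL(2, ℤ)) (z : ℍ) :
    ((γ • z : ℍ) : ℂ) = ((γ 0 0 : ℂ) * z + γ 0 1) / ((γ 1 0 : ℂ) * z + γ 1 1) := by
  rw [coe_specialLinearGroup_apply]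
  simp

/-- An element of `SL(2,ℤ)` with prescribed entries. -/
theorem exists_SL_of_det (a b c d : ℤ) (h : a * d - b * c = 1) :
    ∃ γ : SL(2, ℤ), γ 0 0 = a ∧ γ 0 1 = b ∧ γ 1 0 = c ∧ γ 1 1 = d :=
  ⟨⟨!![a, b; c, d], by rw [Matrix.det_fin_two_of]; exact h⟩, rfl, rfl, rfl, rfl⟩

/-- For `γ ∈ Γ₀(p)`: `p (γ z) = γ' (p z)` with `γ' = (a, pb; c/p, d)`. -/
theorem exists_conj_of_dvd (p : ℕ) [NeZero p] (γ : SL(2, ℤ)) (h : (p : ℤ) ∣ γ 1 0) :
    ∃ γ' : SL(2, ℤ), γ' 1 0 * p = γ 1 0 ∧ γ' 1 1 = γ 1 1 ∧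
      ∀ z : ℍ, mulH p (γ • z) = γ' • mulH p z := by
  obtain ⟨c, hc⟩ := h
  have hdet := γ.det_coe
  rw [Matrix.det_fin_two] at hdet
  obtain ⟨γ', h00, h01, h10, h11⟩ := exists_SL_of_det (γ 0 0) (p * γ 0 1) c (γ 1 1) (by
    rw [hc] at hdet
    linear_combination hdet)
  refine ⟨γ', ?_, h11, ?_⟩
  · rw [h10, hc, mul_comm]
  · intro z
    apply UpperHalfPlane.ext
    rw [coe_mulH, coe_smul_SL, coe_smul_SL, coe_mulH, h00, h01, h10, h11]
    have h1 := denom_ne γ z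
    have hc' : (γ 1 0 : ℂ) = (p : ℂ) * c := by rw [hc]; push_cast; ring
    have h2 : ((c : ℂ) * ((p : ℂ) * z) + γ 1 1) = (γ 1 0 : ℂ) * z + γ 1 1 := by rw [hc']; ring
    rw [h2]
    push_cast
    field_simp

/-- For `γ ∉ Γ₀(p)`, `p` prime: `p (γ z) = γ'' ((z + j) / p)`. -/
theorem exists_conj_of_not_dvd (p : ℕ) [NeZero p] (hp : p.Prime) (γ : SL(2, ℤ))
    (h : ¬ (p : ℤ) ∣ γ 1 0) :
    ∃ (j : ℤ) (γ' : SL(2, ℤ)), γ' 1 0 = γ 1 0 ∧ γ' 1 1 * p = γ 1 1 - γ 1 0 * j ∧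
      ∀ z : ℍ, mulH p (γ • z) = γ' • divH p j z := by
  have hp' : Prime (p : ℤ) := Nat.prime_iff_prime_int.mp hp
  obtain ⟨u, v, huv⟩ : IsCoprime (p : ℤ) (γ 1 0) := (Prime.coprime_iff_not_dvd hp').mpr h
  have hdet := γ.det_coe
  rw [Matrix.det_fin_two] at hdet
  obtain ⟨γ', h00, h01, h10, h11⟩ := exists_SL_of_det (p * γ 0 0) (γ 0 1 - γ 0 0 * (v * γ 1 1))
    (γ 1 0) (u * γ 1 1) (by linear_combination hdet + γ 0 0 * γ 1 1 * huv)
  refine ⟨v * γ 1 1, γ', h10, ?_, ?_⟩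
  · rw [h11]
    linear_combination γ 1 1 * huv
  · intro z
    apply UpperHalfPlane.ext
    rw [coe_mulH, coe_smul_SL, coe_smul_SL, coe_divH, h00, h01, h10, h11]
    have h1 := denom_ne γ z
    have hp0 : (p : ℂ) ≠ 0 := Nat.cast_ne_zero.mpr (NeZero.ne p)
    have huv' : (u : ℂ) * p + v * γ 1 0 = 1 := by exact_mod_cast congrArg (Int.cast : ℤ → ℂ) huv
    have h2 : ((γ 1 0 : ℂ) * (((z : ℂ) + ((v * γ 1 1 : ℤ) : ℂ)) / p) + ((u * γ 1 1 : ℤ) : ℂ))
        = ((γ 1 0 : ℂ) * z + γ 1 1) / p := by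
      push_cast
      field_simp
      linear_combination (γ 1 1 : ℂ) * huv'
    rw [h2]
    push_cast
    field_simp
    ring

/-- The (non-normalised) Eisenstein series of weight 2 and level `p` as a function:
`E(z) = (p E₂(pz) - E₂(z)) / 24`. -/
def eisFun (p : ℕ) [NeZero p] : ℍ → ℂ := fun z => ((p : ℂ) * E2 (mulH p z) - E2 z) / 24

theorem eisFun_apply (p : ℕ) [NeZero p] (z : ℍ) :
    eisFun p z = ((p : ℂ) * E2 (mulH p z) - E2 z) / 24 := rfl

/-- Slash of `eisFun` by an element of `Γ₀(p)` (stated with `p ∣ c`). -/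
theorem eisFun_slash_of_dvd (p : ℕ) [NeZero p] (γ : SL(2, ℤ)) (h : (p : ℤ) ∣ γ 1 0) :
    eisFun p ∣[(2 : ℤ)] γ = eisFun p := by
  obtain ⟨γ', h10, h11, hz⟩ := exists_conj_of_dvd p γ h
  ext z
  rw [SL_slash_apply, ModularGroup.denom_apply, eisFun_apply, eisFun_apply, hz z, E2_smul γ' (mulH p z),
    E2_smul γ z, coe_mulH, h11]
  have h1 := denom_ne γ z
  have hc : (γ 1 0 : ℂ) = (γ' 1 0 : ℂ) * p := by
    rw [← h10]; push_cast; ring
  have h2 : ((γ' 1 0 : ℂ) * ((p : ℂ) * z) + γ 1 1) = (γ 1 0 : ℂ) * z + γ 1 1 := by rw [hc]; ring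
  rw [h2, zpow_neg, zpow_ofNat]
  field_simp
  rw [hc]
  ring

/-- Slash of `eisFun` by an element of `SL(2,ℤ)` outside `Γ₀(p)`. -/
theorem eisFun_slash_of_not_dvd (p : ℕ) [NeZero p] (hp : p.Prime) (γ : SL(2, ℤ))
    (h : ¬ (p : ℤ) ∣ γ 1 0) :
    ∃ j : ℤ, eisFun p ∣[(2 : ℤ)] γ = fun z => ((p : ℂ)⁻¹ * E2 (divH p j z) - E2 z) / 24 := by
  obtain ⟨j, γ', h10, h11, hz⟩ := exists_conj_of_not_dvd p hp γ h
  refine ⟨j, ?_⟩
  ext z
  rw [SL_slash_apply, ModularGroup.denom_apply, eisFun_apply, hz z, E2_smul γ' (divH p j z),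
    E2_smul γ z, coe_divH, h10]
  have h1 := denom_ne γ z
  have hp0 : (p : ℂ) ≠ 0 := Nat.cast_ne_zero.mpr (NeZero.ne p)
  have h11' : (γ' 1 1 : ℂ) = ((γ 1 1 : ℂ) - γ 1 0 * j) / p := by
    rw [eq_div_iff hp0]
    exact_mod_cast congrArg (Int.cast : ℤ → ℂ) h11
  have h2 : ((γ 1 0 : ℂ) * (((z : ℂ) + j) / p) + γ' 1 1) = ((γ 1 0 : ℂ) * z + γ 1 1) / p := by
    rw [h11']; field_simp; ring
  rw [h2, zpow_neg, zpow_ofNat]
  field_simp
  ring

/-! ### Holomorphy and boundedness -/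

theorem mdiff_comp_mulH (p : ℕ) [NeZero p] {f : ℍ → ℂ} (hf : MDiff f) :
    MDiff (fun z => f (mulH p z)) := by
  rw [UpperHalfPlane.mdifferentiable_iff] at hf ⊢
  have hp : 0 < (p : ℝ) := Nat.cast_pos.mpr (NeZero.pos p)
  have hmaps : Set.MapsTo (fun w : ℂ => (p : ℂ) * w) {z | 0 < z.im} {z | 0 < z.im} := by
    intro w hw
    simpa using mul_pos hp hw
  have h1 : DifferentiableOn ℂ ((f ∘ ofComplex) ∘ (fun w : ℂ => (p : ℂ) * w)) {z | 0 < z.im} :=
    hf.comp (by fun_prop) hmaps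
  refine h1.congr ?_
  intro w hw
  simp only [Function.comp_apply]
  congr 1
  apply UpperHalfPlane.ext
  rw [coe_mulH, ofComplex_apply_of_im_pos hw, ofComplex_apply_of_im_pos (hmaps hw)]

theorem eisFun_mdiff (p : ℕ) [NeZero p] : MDiff (eisFun p) := by
  have h1 : MDiff (fun z => E2 (mulH p z)) := mdiff_comp_mulH p E2_mdifferentiable
  have h2 : MDiff (fun z : ℍ => ((p : ℂ) / 24) * E2 (mulH p z)) := mdifferentiable_const.mul h1
  have h3 : MDiff (fun z : ℍ => ((1 : ℂ) / 24) * E2 z) := mdifferentiable_const.mul E2_mdifferentiable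
  have h4 := h2.sub h3
  convert h4 using 1
  ext z
  simp only [eisFun_apply, Pi.sub_apply]
  ring

theorem im_mulH (p : ℕ) [NeZero p] (z : ℍ) : (mulH p z).im = p * z.im := by
  change ((p : ℂ) * z).im = _
  simp

theorem im_divH (p : ℕ) [NeZero p] (j : ℤ) (z : ℍ) : (divH p j z).im = z.im / p := by
  change (((z : ℂ) + j) / p).im = _
  rw [show ((p : ℂ)) = ((p : ℝ) : ℂ) by simp, Complex.div_ofReal_im]
  simp

theorem bdd_comp_mulH (p : ℕ) [NeZero p] {f : ℍ → ℂ} (hf : IsBoundedAtImInfty f) :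
    IsBoundedAtImInfty (fun z => f (mulH p z)) := by
  rw [isBoundedAtImInfty_iff] at hf ⊢
  obtain ⟨M, A, h⟩ := hf
  refine ⟨M, A, fun z hz => h _ ?_⟩
  have hp : (1 : ℝ) ≤ p := Nat.one_le_cast.mpr (NeZero.pos p)
  rw [im_mulH]
  nlinarith [z.im_pos]

theorem bdd_comp_divH (p : ℕ) [NeZero p] (j : ℤ) {f : ℍ → ℂ} (hf : IsBoundedAtImInfty f) :
    IsBoundedAtImInfty (fun z => f (divH p j z)) := by
  rw [isBoundedAtImInfty_iff] at hf ⊢
  obtain ⟨M, A, h⟩ := hf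
  have hp : 0 < (p : ℝ) := Nat.cast_pos.mpr (NeZero.pos p)
  refine ⟨M, p * A, fun z hz => h _ ?_⟩
  rw [im_divH, le_div_iff₀ hp]
  linarith

theorem bdd_lin {f g : ℍ → ℂ} (hf : IsBoundedAtImInfty f) (hg : IsBoundedAtImInfty g) (a : ℂ) :
    IsBoundedAtImInfty (fun z => (a * f z - g z) / 24) := by
  rw [isBoundedAtImInfty_iff] at hf hg ⊢
  obtain ⟨M1, A1, h1⟩ := hf
  obtain ⟨M2, A2, h2⟩ := hg
  refine ⟨(‖a‖ * M1 + M2) / 24, max A1 A2, fun z hz => ?_⟩
  have e1 := h1 z (le_trans (le_max_left _ _) hz)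
  have e2 := h2 z (le_trans (le_max_right _ _) hz)
  have h24 : ‖(24 : ℂ)‖ = 24 := by norm_num
  rw [norm_div, h24]
  gcongr
  calc ‖a * f z - g z‖ ≤ ‖a * f z‖ + ‖g z‖ := norm_sub_le _ _
    _ ≤ ‖a‖ * M1 + M2 := by rw [norm_mul]; gcongr

theorem eisFun_bdd (p : ℕ) [NeZero p] : IsBoundedAtImInfty (eisFun p) :=
  bdd_lin (bdd_comp_mulH p isBoundedAtImInfty_E2) isBoundedAtImInfty_E2 (p : ℂ)

/-- Every `SL(2,ℤ)`-translate of `eisFun p` is bounded at `i∞` (`p` prime). -/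
theorem eisFun_slash_bdd (p : ℕ) [NeZero p] (hp : p.Prime) (γ : SL(2, ℤ)) :
    IsBoundedAtImInfty (eisFun p ∣[(2 : ℤ)] γ) := by
  by_cases h : (p : ℤ) ∣ γ 1 0
  · rw [eisFun_slash_of_dvd p γ h]
    exact eisFun_bdd p
  · obtain ⟨j, hj⟩ := eisFun_slash_of_not_dvd p hp γ h
    rw [hj]
    exact bdd_lin (bdd_comp_divH p j isBoundedAtImInfty_E2) isBoundedAtImInfty_E2 _

/-! ### The coefficients `s'(k)` -/

theorem sigmaP_of_not_dvd (p k : ℕ) (hk : ¬ p ∣ k) : sigmaP p k = ArithmeticFunction.sigma 1 k := by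
  rw [sigmaP, ArithmeticFunction.sigma_apply, Finset.filter_true_of_mem]
  · simp
  · intro d hd hpd
    exact hk (hpd.trans (Nat.dvd_of_mem_divisors hd))

theorem sigmaP_add_of_dvd (p k : ℕ) (hp : 0 < p) (hk : p ∣ k) (hk0 : k ≠ 0) :
    sigmaP p k + p * ArithmeticFunction.sigma 1 (k / p) = ArithmeticFunction.sigma 1 k := by
  rw [sigmaP, ArithmeticFunction.sigma_apply, ArithmeticFunction.sigma_apply]
  simp only [pow_one]
  rw [← Finset.sum_filter_add_sum_filter_not k.divisors (fun d => ¬ p ∣ d) (fun d => d)]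
  congr 1
  rw [Finset.mul_sum]
  refine Finset.sum_nbij' (fun e => p * e) (fun d => d / p) ?_ ?_ ?_ ?_ ?_
  · intro e he
    rw [Finset.mem_filter, Nat.mem_divisors]
    refine ⟨⟨?_, hk0⟩, not_not.mpr (dvd_mul_right p e)⟩
    have := Nat.dvd_of_mem_divisors he
    obtain ⟨c, hc⟩ := hk
    rw [hc, Nat.mul_div_cancel_left _ hp] at this
    rw [hc]
    exact Nat.mul_dvd_mul_left p this
  · intro d hd
    rw [Finset.mem_filter, Nat.mem_divisors, not_not] at hd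
    obtain ⟨⟨hdk, _⟩, hpd⟩ := hd
    rw [Nat.mem_divisors]
    refine ⟨Nat.div_dvd_div hpd hdk, ?_⟩
    exact (Nat.div_pos (Nat.le_of_dvd (Nat.pos_of_ne_zero hk0) hk) hp).ne'
  · intro e _
    exact Nat.mul_div_cancel_left _ hp
  · intro d hd
    rw [Finset.mem_filter, not_not] at hd
    exact Nat.mul_div_cancel' hd.2
  · intro e _
    rfl

/-- The `q`-expansion coefficients of `eisFun p`. -/
def eisCoeff (p k : ℕ) : ℂ := if k = 0 then ((p : ℂ) - 1) / 24 else (sigmaP p k : ℂ)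

@[simp] theorem eisCoeff_zero (p : ℕ) : eisCoeff p 0 = ((p : ℂ) - 1) / 24 := by simp [eisCoeff]

theorem eisCoeff_of_ne_zero (p : ℕ) {k : ℕ} (hk : k ≠ 0) : eisCoeff p k = (sigmaP p k : ℂ) := by
  simp [eisCoeff, hk]

/-- The `q`-expansion of `eisFun p`. -/
theorem hasSum_eisFun (p : ℕ) [NeZero p] (z : ℍ) :
    HasSum (fun m : ℕ => eisCoeff p m • Function.Periodic.qParam 1 z ^ m) (eisFun p z) := by
  have hp : 0 < p := NeZero.pos p
  set q : ℂ := Complex.exp (2 * π * Complex.I * z) with hq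
  have hq1 : Function.Periodic.qParam 1 z = q := by
    simp [Function.Periodic.qParam, hq]
  have hqp : Complex.exp (2 * π * Complex.I * (mulH p z : ℍ)) = q ^ p := by
    rw [hq, ← Complex.exp_nat_mul, coe_mulH]
    congr 1
    ring
  set c : ℕ → ℂ := fun m => if m = 0 then 1 else -24 * (ArithmeticFunction.sigma 1 m : ℂ) with hc
  have H1 : HasSum (fun m : ℕ => c m • q ^ m) (E2 z) := hasSum_qExpansion_E2 z
  have H2 : HasSum (fun m : ℕ => c m • (q ^ p) ^ m) (E2 (mulH p z)) := by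
    have := hasSum_qExpansion_E2 (mulH p z)
    rw [hqp] at this
    exact this
  -- re-index the second sum
  set f : ℕ → ℂ := fun k => (if p ∣ k then c (k / p) else 0) • q ^ k with hf
  have H2' : HasSum f (E2 (mulH p z)) := by
    have hinj : Function.Injective (fun m : ℕ => p * m) := fun a b hab =>
      Nat.eq_of_mul_eq_mul_left hp hab
    rw [← hinj.hasSum_iff]
    · convert H2 using 1
      funext m
      simp only [Function.comp_apply, hf, dvd_mul_right, if_true, Nat.mul_div_cancel_left _ hp,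
        pow_mul]
    · intro k hk
      have : ¬ p ∣ k := fun ⟨m, hm⟩ => hk ⟨m, hm.symm⟩
      simp [hf, this]
  have H3 := ((H2'.mul_left (p : ℂ)).sub H1).div_const 24
  rw [hq1]
  have H4 : (fun m : ℕ => eisCoeff p m • q ^ m) = fun i => ((p : ℂ) * f i - c i • q ^ i) / 24 := by
    funext k
    by_cases hk0 : k = 0
    · subst hk0
      simp [hf, hc]
    · rw [eisCoeff_of_ne_zero p hk0]
      by_cases hpk : p ∣ k
      · have hkp : k / p ≠ 0 :=
          (Nat.div_pos (Nat.le_of_dvd (Nat.pos_of_ne_zero hk0) hpk) hp).ne'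
        have := sigmaP_add_of_dvd p k hp hpk hk0
        have hC : (sigmaP p k : ℂ) + p * (ArithmeticFunction.sigma 1 (k / p) : ℂ)
            = (ArithmeticFunction.sigma 1 k : ℂ) := by exact_mod_cast this
        simp only [hf, hc, hpk, if_true, hkp, hk0, if_false, smul_eq_mul]
        rw [← hC]
        ring
      · have := sigmaP_of_not_dvd p k hpk
        simp only [hf, hc, hpk, hk0, if_false, smul_eq_mul, this]
        ring
  rw [H4]
  exact H3

/-! ### The modular form -/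

/-- The Eisenstein series `E = (p E₂(pz) - E₂(z)) / 24 = (p-1)/24 + ∑ s'(k) q^k` as an element of
`M₂(Γ₀(p))`, `p` prime. -/
def eisP (p : ℕ) [Fact p.Prime] : ModularForm (Gamma0 p) 2 :=
  haveI : NeZero p := ⟨(Fact.out : p.Prime).ne_zero⟩
  { toFun := eisFun p
    slash_action_eq' := by
      intro γ hγ
      obtain ⟨γ₀, hγ₀, rfl⟩ := Subgroup.mem_map.mp hγ
      have h : (p : ℤ) ∣ γ₀ 1 0 :=
        (ZMod.intCast_zmod_eq_zero_iff_dvd _ _).mp (Gamma0_mem.mp hγ₀)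
      exact eisFun_slash_of_dvd p γ₀ h
    holo' := eisFun_mdiff p
    bdd_at_cusps' := by
      intro c hc
      rw [Subgroup.IsArithmetic.isCusp_iff_isCusp_SL2Z] at hc
      rw [OnePoint.isBoundedAt_iff_forall_SL2Z hc]
      intro γ _
      exact eisFun_slash_bdd p Fact.out γ }

theorem eisP_apply (p : ℕ) [Fact p.Prime] (z : ℍ) :
    haveI : NeZero p := ⟨(Fact.out : p.Prime).ne_zero⟩
    eisP p z = ((p : ℂ) * E2 (mulH p z) - E2 z) / 24 := rfl

theorem coe_eisP (p : ℕ) [Fact p.Prime] :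
    haveI : NeZero p := ⟨(Fact.out : p.Prime).ne_zero⟩
    (eisP p : ℍ → ℂ) = eisFun p := rfl

/-- The `q`-expansion of `eisP p` as a convergent series. -/
theorem hasSum_eisP (p : ℕ) [Fact p.Prime] (z : ℍ) :
    HasSum (fun m : ℕ => eisCoeff p m • Function.Periodic.qParam 1 z ^ m) (eisP p z) :=
  haveI : NeZero p := ⟨(Fact.out : p.Prime).ne_zero⟩
  hasSum_eisFun p z

/-- The `q`-expansion coefficients of `eisP p`. -/
theorem qExpansion_coeff_eisP (p : ℕ) [Fact p.Prime] (m : ℕ) :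
    (qExpansion 1 (eisP p)).coeff m = eisCoeff p m :=
  (ModularFormClass.qExpansion_coeff_unique one_pos
    (CongruenceSubgroup.one_mem_strictPeriods_Gamma0 p) (f := eisP p) (hasSum_eisP p) m).symm

theorem qCoeff_eisP (p : ℕ) [Fact p.Prime] (m : ℕ) :
    ModularFormClass.qCoeff (eisP p) m = eisCoeff p m :=
  qExpansion_coeff_eisP p m

theorem qCoeff_eisP_zero (p : ℕ) [Fact p.Prime] :
    ModularFormClass.qCoeff (eisP p) 0 = ((p : ℂ) - 1) / 24 := by
  rw [qCoeff_eisP, eisCoeff_zero]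

theorem qCoeff_eisP_of_ne_zero (p : ℕ) [Fact p.Prime] {k : ℕ} (hk : k ≠ 0) :
    ModularFormClass.qCoeff (eisP p) k = (sigmaP p k : ℂ) := by
  rw [qCoeff_eisP, eisCoeff_of_ne_zero p hk]

/-- Node (E) of the S16 plan. -/
theorem stmtE : StmtE := by
  intro p hp
  have : Fact p.Prime := ⟨hp⟩
  exact ⟨eisP p, qCoeff_eisP_zero p, fun n hn => qCoeff_eisP_of_ne_zero p (by omega)⟩

end

end Fermat.Agent.S16.H26
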