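import Mathlib
import Fermat.Agent.S16.Stmts_helper6
import Fermat.Prelude.Thm_CongruenceSubgroup_one_mem_strictPeriods_Gamma0

/-!
# S16, glue nodes `(G1)` and `(G2)`

`(G2) : StmtE → StmtB → StmtH2`: from the Eisenstein series `E` of level `p` and the statement
`(B)` we get: if a cusp form `h` has `a_k(h) = σ'(k) + d * (integer)` for all `k ≥ 1`, then
`d ∣ n_p = eisensteinNumerator p` (apply `(B)` to `G = 24 (E - h) / (p - 1)` and compare
valuations; `d = 0` included).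

`(G1) : StmtE → StmtTheta → StmtCusp → StmtH1`: `h0 = c (12/ν) E - c (n_p/2) G` with
`c (12/ν) ≡ 1 mod n_p` (and `h0 = 0` for `p = 2, 3`).

Both are first proved for an arbitrary target sequence `s : ℕ → ℤ`.
-/

set_option autoImplicit false

namespace Fermat.Agent.S16.H53

open CuspForm CongruenceSubgroup ModularFormClass UpperHalfPlane

noncomputable section

variable {N : ℕ}

/-- `1` is a strict period of `Γ0(N)`. -/
theorem hΓ0 (N : ℕ) :
    (1 : ℝ) ∈ (Subgroup.map (Matrix.SpecialLinearGroup.mapGL ℝ) (Gamma0 N)).strictPeriods :=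
  CongruenceSubgroup.one_mem_strictPeriods_Gamma0 N

theorem qCoeff_mf_sub (f g : ModularForm (Gamma0 N) 2) (n : ℕ) :
    qCoeff ⇑(f - g) n = qCoeff ⇑f n - qCoeff ⇑g n := by
  simp only [qCoeff, FunLike.coe_sub]
  rw [ModularForm.qExpansion_sub one_pos (hΓ0 N) f g, map_sub]

theorem qCoeff_mf_smul (c : ℂ) (f : ModularForm (Gamma0 N) 2) (n : ℕ) :
    qCoeff ⇑(c • f) n = c * qCoeff ⇑f n := by
  have h1 : ⇑(c • f) = c • ⇑f := by
    ext z
    simp
  simp only [qCoeff, h1]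
  rw [ModularForm.qExpansion_smul one_pos (hΓ0 N) c f]
  simp

theorem qCoeff_cusp_zero (f : CuspForm (Gamma0 N) 2) : qCoeff ⇑f 0 = 0 :=
  CuspFormClass.qExpansion_coeff_zero f one_pos (hΓ0 N)

theorem eisensteinNumerator_mul_gcd (p : ℕ) :
    ModularCurve.eisensteinNumerator p * Nat.gcd (p - 1) 12 = p - 1 :=
  Nat.div_mul_cancel (Nat.gcd_dvd_left _ _)

/-- **(H1)**, generic form: existence of a cusp form congruent to the sequence `s` modulo the
Eisenstein numerator. -/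
theorem h1_of (p : ℕ) (hp : p.Prime) (s : ℕ → ℤ)
    (hE : ∃ E : ModularForm (Gamma0 p) 2, qCoeff ⇑E 0 = ((p : ℂ) - 1) / 24 ∧
      ∀ k, 1 ≤ k → qCoeff ⇑E k = (s k : ℂ))
    (hCusp : ∀ F : ModularForm (Gamma0 p) 2, qCoeff ⇑F 0 = 0 →
      ∃ f : CuspForm (Gamma0 p) 2, (⇑f : ℍ → ℂ) = ⇑F)
    (hTheta : 5 ≤ p → ∃ G : ModularForm (Gamma0 p) 2, qCoeff ⇑G 0 = 1 ∧
      ∀ k, 1 ≤ k → ∃ m : ℤ, qCoeff ⇑G k = 2 * (m : ℂ)) :
    ∃ h0 : CuspForm (Gamma0 p) 2,
      ∀ k, 1 ≤ k → ∃ m : ℤ,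
        qCoeff ⇑h0 k = (s k : ℂ) + (ModularCurve.eisensteinNumerator p : ℂ) * m := by
  by_cases hp5 : 5 ≤ p
  · obtain ⟨E, hE0, hEk⟩ := hE
    obtain ⟨G, hG0, hGk⟩ := hTheta hp5
    set ν := Nat.gcd (p - 1) 12 with hν
    set n := ModularCurve.eisensteinNumerator p with hn
    have hnν : n * ν = p - 1 := eisensteinNumerator_mul_gcd p
    have hνpos : 0 < ν := Nat.gcd_pos_of_pos_right _ (by norm_num)
    obtain ⟨a, ha⟩ : ν ∣ 12 := Nat.gcd_dvd_right _ _
    have hcop : Nat.Coprime a n := by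
      have h1 : Nat.Coprime ((p - 1) / ν) (12 / ν) := Nat.coprime_div_gcd_div_gcd hνpos
      have h2 : (p - 1) / ν = n := rfl
      have h3 : 12 / ν = a := by
        rw [ha]; exact Nat.mul_div_cancel_left a hνpos
      rw [h2, h3] at h1
      exact h1.symm
    obtain ⟨c, y, hcy⟩ : ∃ c y : ℤ, c * (a : ℤ) + y * (n : ℤ) = 1 := by
      obtain ⟨c, y, h⟩ := Nat.isCoprime_iff_coprime.mpr hcop
      exact ⟨c, y, h⟩
    -- casts
    have hνC : (ν : ℂ) ≠ 0 := by exact_mod_cast hνpos.ne'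
    have haC : (12 : ℂ) = (ν : ℂ) * (a : ℂ) := by exact_mod_cast ha
    have hnC : (n : ℂ) * (ν : ℂ) = (p : ℂ) - 1 := by
      have h1 : 1 ≤ p := hp.one_lt.le
      have : ((n * ν : ℕ) : ℂ) = ((p - 1 : ℕ) : ℂ) := by rw [hnν]
      rw [Nat.cast_mul, Nat.cast_sub h1, Nat.cast_one] at this
      exact this
    let F : ModularForm (Gamma0 p) 2 :=
      ((c : ℂ) * (a : ℂ)) • E - ((c : ℂ) * ((n : ℂ) / 2)) • G
    have hFk : ∀ k, qCoeff ⇑F k =
        ((c : ℂ) * (a : ℂ)) * qCoeff ⇑E k - ((c : ℂ) * ((n : ℂ) / 2)) * qCoeff ⇑G k := by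
      intro k
      rw [qCoeff_mf_sub, qCoeff_mf_smul, qCoeff_mf_smul]
    have hF0 : qCoeff ⇑F 0 = 0 := by
      rw [hFk, hE0, hG0, ← hnC]
      have h24 : (24 : ℂ) = 2 * ((ν : ℂ) * (a : ℂ)) := by rw [← haC]; norm_num
      rw [h24]
      have haC0 : (a : ℂ) ≠ 0 := by
        intro h0
        rw [h0, mul_zero] at haC
        norm_num at haC
      field_simp
      ring
    obtain ⟨f, hf⟩ := hCusp F hF0
    refine ⟨f, fun k hk => ?_⟩
    obtain ⟨m, hm⟩ := hGk k hk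
    refine ⟨-(y * s k) - c * m, ?_⟩
    rw [hf, hFk, hEk k hk, hm]
    have hcyC : (c : ℂ) * (a : ℂ) + (y : ℂ) * (n : ℂ) = 1 := by exact_mod_cast hcy
    have hca : (c : ℂ) * (a : ℂ) = 1 - (y : ℂ) * (n : ℂ) := by linear_combination hcyC
    push_cast
    linear_combination (s k : ℂ) * hca
  · -- `p = 2` or `p = 3`: the numerator is `1`
    have hn1 : ModularCurve.eisensteinNumerator p = 1 := by
      have h2 : 2 ≤ p := hp.two_le
      have hlt : p < 5 := not_le.mp hp5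
      interval_cases p
      · rfl
      · rfl
      · exact absurd hp (by decide)
    refine ⟨0, fun k _ => ⟨-(s k), ?_⟩⟩
    rw [hn1]
    have h0 : qCoeff ⇑(0 : CuspForm (Gamma0 p) 2) k = 0 := by
      have hz : (⇑(0 : CuspForm (Gamma0 p) 2) : ℍ → ℂ) = 0 := rfl
      simp [qCoeff, hz, UpperHalfPlane.qExpansion_zero]
    rw [h0]
    push_cast
    ring

/-- **(H2)**, generic form: a cusp form congruent to the sequence `s` modulo `d` forces
`d ∣ eisensteinNumerator p` (the case `d = 0` is included and impossible). -/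
theorem h2_of (p : ℕ) (hp : p.Prime) (s : ℕ → ℤ)
    (hE : ∃ E : ModularForm (Gamma0 p) 2, qCoeff ⇑E 0 = ((p : ℂ) - 1) / 24 ∧
      ∀ k, 1 ≤ k → qCoeff ⇑E k = (s k : ℂ))
    (hB : ∀ l e : ℕ, l.Prime → 1 ≤ e → ∀ G : ModularForm (Gamma0 p) 2,
      Fermat.Agent.S16.BHyp p l e G → l ^ e ∣ 24 / Nat.gcd (p - 1) 12)
    (d : ℕ) (h : CuspForm (Gamma0 p) 2)
    (hd : ∀ k, 1 ≤ k → ∃ m : ℤ, qCoeff ⇑h k = (s k : ℂ) + (d : ℂ) * m) :
    d ∣ ModularCurve.eisensteinNumerator p := by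
  obtain ⟨E, hE0, hEk⟩ := hE
  set ν := Nat.gcd (p - 1) 12 with hν
  set n := ModularCurve.eisensteinNumerator p with hn
  have hnν : n * ν = p - 1 := eisensteinNumerator_mul_gcd p
  have hνpos : 0 < ν := Nat.gcd_pos_of_pos_right _ (by norm_num)
  have hp1 : p - 1 ≠ 0 := by have := hp.two_le; omega
  have hn0 : n ≠ 0 := by
    intro h0
    rw [h0, zero_mul] at hnν
    exact hp1 hnν.symm
  obtain ⟨r, hr⟩ : ν ∣ 24 := dvd_trans (Nat.gcd_dvd_right _ _) (by norm_num)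
  have hr' : 24 / ν = r := by rw [hr]; exact Nat.mul_div_cancel_left r hνpos
  have hr0 : r ≠ 0 := by
    intro h0
    rw [h0, mul_zero] at hr
    norm_num at hr
  have hpC : ((p : ℂ) - 1) ≠ 0 := by
    have h1 : 1 ≤ p := hp.one_lt.le
    have : ((p - 1 : ℕ) : ℂ) ≠ 0 := by exact_mod_cast hp1
    rwa [Nat.cast_sub h1, Nat.cast_one] at this
  -- the form `G = 24 (E - h) / (p - 1)`
  let G : ModularForm (Gamma0 p) 2 := ((24 : ℂ) / ((p : ℂ) - 1)) • (E - CuspForm.toModularFormₗ h)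
  have hGk : ∀ k, qCoeff ⇑G k = ((24 : ℂ) / ((p : ℂ) - 1)) * (qCoeff ⇑E k - qCoeff ⇑h k) := by
    intro k
    rw [qCoeff_mf_smul, qCoeff_mf_sub]
    rfl
  have hG0 : qCoeff ⇑G 0 = 1 := by
    rw [hGk, hE0, qCoeff_cusp_zero, sub_zero]
    field_simp
  have hGk' : ∀ k, 1 ≤ k →
      ∃ m : ℤ, qCoeff ⇑G k = -((24 : ℂ) * (d : ℂ) * (m : ℂ)) / ((p : ℂ) - 1) := by
    intro k hk
    obtain ⟨m, hm⟩ := hd k hk
    refine ⟨m, ?_⟩
    rw [hGk, hEk k hk, hm]
    field_simp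
    ring
  rw [Nat.dvd_iff_prime_pow_dvd_dvd]
  intro l j hl hlj
  have : Fact l.Prime := ⟨hl⟩
  by_contra hnot
  rcases Nat.eq_zero_or_pos d with hd0 | hdpos
  · -- `d = 0`: all higher coefficients of `G` vanish, contradiction via `l = 5`
    have h5 : 5 ^ 1 ∣ 24 / ν := by
      refine hB 5 1 (by norm_num) le_rfl G ⟨hG0, fun k hk => ⟨0, 1, by norm_num, ?_⟩⟩
      obtain ⟨m, hm⟩ := hGk' k hk
      rw [hm, hd0]
      simp
    rw [hr'] at h5
    have : 5 ∣ 24 := dvd_trans (by simpa using h5) (Dvd.intro_left ν hr.symm)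
    norm_num at this
  · have hd0 : d ≠ 0 := hdpos.ne'
    -- valuations
    set a := padicValNat l (p - 1) with ha
    set b := padicValNat l ν with hb
    set t := padicValNat l 24 with ht
    have hva : padicValNat l n + b = a := by
      rw [ha, ← hnν, padicValNat.mul hn0 hνpos.ne']
    have hvt : padicValNat l r + b = t := by
      rw [ht, hr, mul_comm, padicValNat.mul hr0 hνpos.ne']
    have hjn : padicValNat l n < j := by
      by_contra hcon
      exact hnot ((padicValNat_dvd_iff_le hn0).mpr (not_lt.mp hcon))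
    -- decompositions
    obtain ⟨u, hu⟩ : l ^ a ∣ p - 1 := pow_padicValNat_dvd
    have hlu : ¬ l ∣ u := by
      intro hdiv
      obtain ⟨u', hu'⟩ := hdiv
      have hdv : l ^ (a + 1) ∣ p - 1 := ⟨u', by rw [hu, hu', pow_succ]; ring⟩
      exact pow_succ_padicValNat_not_dvd (p := l) hp1 hdv
    obtain ⟨w1, hw1⟩ : l ^ t ∣ 24 := pow_padicValNat_dvd
    obtain ⟨w2, hw2⟩ := hlj
    set e := t + j - a with he
    have he1 : 1 ≤ e := by omega
    have hea : e + a = t + j := by omega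
    have hdvd : l ^ e ∣ 24 / ν := by
      refine hB l e hl he1 G ⟨hG0, fun k hk => ?_⟩
      obtain ⟨m, hm⟩ := hGk' k hk
      refine ⟨-((w1 : ℤ) * (w2 : ℤ) * m), u, hlu, ?_⟩
      rw [hm]
      have hlC : (l : ℂ) ≠ 0 := by exact_mod_cast hl.ne_zero
      have huC : (u : ℂ) ≠ 0 := by
        intro h0
        have : u = 0 := by exact_mod_cast h0
        rw [this, mul_zero] at hu
        exact hp1 hu
      have hpu : (p : ℂ) - 1 = (l : ℂ) ^ a * (u : ℂ) := by
        have h1 : 1 ≤ p := hp.one_lt.le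
        have : ((p - 1 : ℕ) : ℂ) = ((l ^ a * u : ℕ) : ℂ) := by rw [hu]
        rw [Nat.cast_sub h1, Nat.cast_one] at this
        rw [this]
        push_cast
        ring
      have h24 : (24 : ℂ) = (l : ℂ) ^ t * (w1 : ℂ) := by exact_mod_cast hw1
      have hdC : (d : ℂ) = (l : ℂ) ^ j * (w2 : ℂ) := by exact_mod_cast hw2
      have hpow : (l : ℂ) ^ t * (l : ℂ) ^ j = (l : ℂ) ^ e * (l : ℂ) ^ a := by
        rw [← pow_add, ← pow_add, hea]
      rw [hpu, h24, hdC]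
      push_cast
      field_simp
      linear_combination (-(w1 : ℂ) * (w2 : ℂ) * (m : ℂ)) * hpow
    rw [hr'] at hdvd
    have hle : e ≤ padicValNat l r := (padicValNat_dvd_iff_le hr0).mp hdvd
    omega

/-- Node **(G2)**, literally the Prop of `Stmts_helper6`. -/
theorem stmtG2 : Fermat.Agent.S16.StmtG2 := by
  intro hE hB p hp d hd
  obtain ⟨h, hh⟩ := hd
  exact h2_of p hp (fun n => (Fermat.Agent.S16.sigmaP p n : ℤ))
    (by
      obtain ⟨E, hE0, hEk⟩ := hE p hp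
      exact ⟨E, hE0, fun k hk => by rw [hEk k hk]; push_cast; rfl⟩)
    (fun l e hl he G hG => hB p l e hp hl he G hG) d h
    (fun k hk => by
      obtain ⟨m, hm⟩ := hh k hk
      exact ⟨m, by rw [hm]; push_cast; rfl⟩)

/-- Node **(G1)**, literally the Prop of `Stmts_helper6`. -/
theorem stmtG1 : Fermat.Agent.S16.StmtG1 := by
  intro hE hT hC p hp
  obtain ⟨h0, hh0⟩ := h1_of p hp (fun n => (Fermat.Agent.S16.sigmaP p n : ℤ))
    (by
      obtain ⟨E, hE0, hEk⟩ := hE p hp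
      exact ⟨E, hE0, fun k hk => by rw [hEk k hk]; push_cast; rfl⟩)
    (hC p hp) (hT p hp)
  exact ⟨h0, fun k hk => by
    obtain ⟨m, hm⟩ := hh0 k hk
    exact ⟨m, by rw [hm]; push_cast; rfl⟩⟩

end

end Fermat.Agent.S16.H53
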