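import Mathlib
import Fermat.Prelude.Def_CuspForm_HeckeLocal
import Fermat.Prelude.Def_CuspForm_HeckeEvalForms
import Fermat.Prelude.Def_HeckeGalois_EichlerShimura
import Fermat.Prelude.Def_ModularCurve_ModularUnit
import Fermat.Agent.S49.QCoeff_h78

/-!
# S16, block R: the algebraic reduction (helper79)

`T_L = heckeLatticeAlgebra p ∅`, `L = intLattice p 2`, `J` = image of the Eisenstein ideal.
`T_L ⧸ J = ℤ / m`; `m = n` follows from the two modular inputs (H1) and (H2).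
-/

set_option autoImplicit false
set_option linter.unusedSectionVars false

namespace Fermat.Agent.S16.H79

open CuspForm CongruenceSubgroup ModularFormClass ModularCurve
open Fermat.Agent.S49.H78

noncomputable section

variable (p : ℕ) [Fact p.Prime]

/-- The lattice of cusp forms with integral coefficients. -/
abbrev Lat : Type := ↥(intLattice p 2)

/-- The Hecke algebra acting on the lattice. -/
abbrev TL : Type := ↥(heckeLatticeAlgebra p ∅)

/-- The ring hom `ℤ[X_ℓ] → T_L` of the frozen statement. -/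
abbrev psi : HeckeAlg →+* TL p :=
  (latticeRestrictHom p ∅).toRingHom.comp (heckeEvalForms p 2)

/-- The Eisenstein evaluation `ℤ[X_ℓ] → ℤ`. -/
abbrev eps : HeckeAlg →ₐ[ℤ] ℤ := MvPolynomial.aeval (eisensteinSystem p)

/-- The weight in the coefficient formula: `ℓ` for `ℓ ≠ p`, `0` for `ℓ = p`. -/
def wt (ℓ : ℕ) : ℤ := if ℓ ∣ p then 0 else (ℓ : ℤ)

/-! ### integer coefficients -/

theorem exists_int_coeff (h : Lat p) (k : ℕ) :
    ∃ m : ℤ, qCoeff ⇑(h : CuspForm (Gamma0 p) 2) k = (m : ℂ) :=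
  (mem_intLattice_iff (h : CuspForm (Gamma0 p) 2)).mp h.2 k

/-- The `k`-th coefficient of a lattice element, as an integer. -/
def aZ (h : Lat p) (k : ℕ) : ℤ := Classical.choose (exists_int_coeff p h k)

theorem aZ_spec (h : Lat p) (k : ℕ) :
    qCoeff ⇑(h : CuspForm (Gamma0 p) 2) k = (aZ p h k : ℂ) :=
  Classical.choose_spec (exists_int_coeff p h k)

theorem aZ_eq_of {h : Lat p} {k : ℕ} {m : ℤ}
    (hm : qCoeff ⇑(h : CuspForm (Gamma0 p) 2) k = (m : ℂ)) : aZ p h k = m := by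
  have := aZ_spec p h k
  rw [hm] at this
  exact_mod_cast this.symm

/-- The `k`-th coefficient as a `ℤ`-linear functional on the lattice. -/
def coeffZ (k : ℕ) : Lat p →ₗ[ℤ] ℤ :=
  AddMonoidHom.toIntLinearMap
    { toFun := fun h => aZ p h k
      map_zero' := by
        apply aZ_eq_of
        rw [Submodule.coe_zero, qCoeff_zero_form]
        simp
      map_add' := fun h₁ h₂ => by
        apply aZ_eq_of
        rw [Submodule.coe_add, qCoeff_add, aZ_spec, aZ_spec]
        push_cast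
        rfl }

theorem coeffZ_spec (k : ℕ) (h : Lat p) :
    qCoeff ⇑(h : CuspForm (Gamma0 p) 2) k = (coeffZ p k h : ℂ) :=
  aZ_spec p h k

theorem coeffZ_eq_of {h : Lat p} {k : ℕ} {m : ℤ}
    (hm : qCoeff ⇑(h : CuspForm (Gamma0 p) 2) k = (m : ℂ)) : coeffZ p k h = m :=
  aZ_eq_of p hm

theorem coeffZ_zero_idx (h : Lat p) : coeffZ p 0 h = 0 := by
  apply coeffZ_eq_of
  rw [qCoeff_zero_idx]
  simp

theorem eq_zero_of_coeffZ (h : Lat p) (h0 : ∀ k, 0 < k → coeffZ p k h = 0) : h = 0 := by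
  apply Subtype.ext
  rw [Submodule.coe_zero]
  apply eq_zero_of_qCoeff
  intro n
  rw [coeffZ_spec]
  rcases Nat.eq_zero_or_pos n with rfl | hn
  · rw [coeffZ_zero_idx]; simp
  · rw [h0 n hn]; simp

/-- The lattice is saturated. -/
theorem exists_smul_eq (M : ℤ) (hM : M ≠ 0) (h : Lat p)
    (hdiv : ∀ k, 0 < k → M ∣ coeffZ p k h) : ∃ h' : Lat p, M • h' = h := by
  have hmem : ((M : ℂ)⁻¹ • (h : CuspForm (Gamma0 p) 2)) ∈ intLattice p 2 := by
    rw [mem_intLattice_iff]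
    intro n
    rw [qCoeff_smul, coeffZ_spec]
    rcases Nat.eq_zero_or_pos n with rfl | hn
    · exact ⟨0, by rw [coeffZ_zero_idx]; simp⟩
    · obtain ⟨c, hc⟩ := hdiv n hn
      refine ⟨c, ?_⟩
      rw [hc]
      push_cast
      field_simp
  refine ⟨⟨_, hmem⟩, Subtype.ext ?_⟩
  rw [Submodule.coe_smul]
  show M • ((M : ℂ)⁻¹ • (h : CuspForm (Gamma0 p) 2)) = _
  rw [← Int.cast_smul_eq_zsmul ℂ M, smul_smul, mul_inv_cancel₀ (by exact_mod_cast hM), one_smul]

/-! ### the Hecke action on the lattice -/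

theorem mul_apply' (s t : TL p) (h : Lat p) :
    ((s * t : TL p) : Module.End ℤ (Lat p)) h =
      (s : Module.End ℤ (Lat p)) ((t : Module.End ℤ (Lat p)) h) := rfl

theorem one_apply' (h : Lat p) : ((1 : TL p) : Module.End ℤ (Lat p)) h = h := rfl

theorem add_apply' (s t : TL p) (h : Lat p) :
    ((s + t : TL p) : Module.End ℤ (Lat p)) h =
      (s : Module.End ℤ (Lat p)) h + (t : Module.End ℤ (Lat p)) h := rfl

theorem psi_C_apply (a : ℤ) (h : Lat p) :
    ((psi p (MvPolynomial.C a) : TL p) : Module.End ℤ (Lat p)) h = a • h := by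
  have h1 : psi p (MvPolynomial.C a) = algebraMap ℤ (TL p) a := by
    have : (MvPolynomial.C a : HeckeAlg) = algebraMap ℤ HeckeAlg a := rfl
    rw [this]
    exact ((psi p).toIntAlgHom).commutes a
  rw [h1, Subalgebra.coe_algebraMap]
  rw [Module.algebraMap_end_apply]

theorem psi_gen_coe_of_not_dvd (ℓ : Nat.Primes) (hℓ : ¬ (ℓ : ℕ) ∣ p) (h : Lat p) :
    ((((psi p (heckeGen ℓ) : TL p) : Module.End ℤ (Lat p)) h : Lat p) :
        CuspForm (Gamma0 p) 2) = heckeTLin 2 ℓ.2 hℓ (h : CuspForm (Gamma0 p) 2) := by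
  show (((latticeRestrictHom p ∅ (heckeEvalForms p 2 (heckeGen ℓ)) : TL p) :
    Module.End ℤ (Lat p)) h : CuspForm (Gamma0 p) 2) = _
  rw [heckeEvalForms_heckeGen_of_not_dvd hℓ]
  rfl

theorem psi_gen_coe_of_dvd (ℓ : Nat.Primes) (hℓ : (ℓ : ℕ) ∣ p) (h : Lat p) :
    ((((psi p (heckeGen ℓ) : TL p) : Module.End ℤ (Lat p)) h : Lat p) :
        CuspForm (Gamma0 p) 2) = heckeULin 2 hℓ (h : CuspForm (Gamma0 p) 2) := by
  show (((latticeRestrictHom p ∅ (heckeEvalForms p 2 (heckeGen ℓ)) : TL p) :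
    Module.End ℤ (Lat p)) h : CuspForm (Gamma0 p) 2) = _
  rw [heckeEvalForms_heckeGen_of_dvd hℓ]
  rfl

/-- The coefficient formula for the generators, in unified form. -/
theorem coeffZ_gen (ℓ : Nat.Primes) (k : ℕ) (h : Lat p) :
    coeffZ p k (((psi p (heckeGen ℓ) : TL p) : Module.End ℤ (Lat p)) h) =
      coeffZ p (k * ℓ) h + if (ℓ : ℕ) ∣ k then wt p ℓ * coeffZ p (k / ℓ) h else 0 := by
  apply coeffZ_eq_of
  by_cases hℓ : (ℓ : ℕ) ∣ p
  · rw [psi_gen_coe_of_dvd p ℓ hℓ, qCoeff_heckeULin ℓ.2 hℓ, coeffZ_spec]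
    simp [wt, hℓ]
  · rw [psi_gen_coe_of_not_dvd p ℓ hℓ, qCoeff_heckeTLin ℓ.2 hℓ, coeffZ_spec, coeffZ_spec]
    simp only [wt, if_neg hℓ]
    split_ifs <;> push_cast <;> ring

/-! ### surjectivity of `psi` -/

theorem heckeEvalForms_surjective : Function.Surjective (heckeEvalForms p 2) := by
  rintro ⟨x, hx⟩
  suffices hs : ∃ P : HeckeAlg, ((heckeEvalForms p 2 P : heckeAlgebra p 2 ∅) :
      Module.End ℂ (CuspForm (Gamma0 p) 2)) = x by
    obtain ⟨P, hP⟩ := hs
    exact ⟨P, Subtype.ext hP⟩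
  induction hx using Algebra.adjoin_induction with
  | mem x hx =>
    rcases hx with ⟨ℓ, hℓ, hℓN, -, rfl⟩ | ⟨q, hqN, hq, -, rfl⟩
    · refine ⟨heckeGen ⟨ℓ, hℓ⟩, ?_⟩
      rw [heckeEvalForms_heckeGen_of_not_dvd (ℓ := ⟨ℓ, hℓ⟩) hℓN]
      rfl
    · refine ⟨heckeGen ⟨q, hq⟩, ?_⟩
      rw [heckeEvalForms_heckeGen_of_dvd (q := ⟨q, hq⟩) hqN]
      rfl
  | algebraMap r =>
    refine ⟨MvPolynomial.C r, ?_⟩
    rw [heckeEvalForms_C]
    rfl
  | add x y hx hy ihx ihy =>
    obtain ⟨P, hP⟩ := ihx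
    obtain ⟨Q, hQ⟩ := ihy
    exact ⟨P + Q, by rw [map_add, Subalgebra.coe_add, hP, hQ]⟩
  | mul x y hx hy ihx ihy =>
    obtain ⟨P, hP⟩ := ihx
    obtain ⟨Q, hQ⟩ := ihy
    exact ⟨P * Q, by rw [map_mul, Subalgebra.coe_mul, hP, hQ]⟩

theorem psi_surjective : Function.Surjective (psi p) :=
  (latticeRestrictHom_surjective p ∅).comp (heckeEvalForms_surjective p)

/-! ### the coefficient recursion -/

/-- A sequence satisfying the Eisenstein recursion at level `p` (as `σ'` does). -/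
structure IsEisSeq (s : ℕ → ℤ) : Prop where
  one : s 1 = 1
  step : ∀ (ℓ : Nat.Primes) (k : ℕ), 0 < k →
    s (k * ℓ) + (if (ℓ : ℕ) ∣ k then wt p ℓ * s (k / ℓ) else 0) = eisensteinSystem p ℓ * s k

variable {p}

/-- Main recursion: if `t ↦ a₁(t h)` is congruent mod `d` to a function `c` which is
"Eisenstein mod `d`", then `a_k(t h) ≡ s(k) c(t)` for all `k ≥ 1`. -/
theorem rec_main {s : ℕ → ℤ} (hs : IsEisSeq p s) (d : ℤ) (h : Lat p) (c : TL p → ℤ)
    (h1 : ∀ t : TL p, d ∣ coeffZ p 1 ((t : Module.End ℤ (Lat p)) h) - c t)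
    (h2 : ∀ (ℓ : Nat.Primes) (t : TL p),
      d ∣ c (psi p (heckeGen ℓ) * t) - eisensteinSystem p ℓ * c t) :
    ∀ k, 0 < k → ∀ t : TL p,
      d ∣ coeffZ p k ((t : Module.End ℤ (Lat p)) h) - s k * c t := by
  intro k
  induction k using Nat.strong_induction_on with
  | _ k ih =>
    intro hk t
    rcases Nat.lt_or_ge 1 k with hk1 | hk1
    · obtain ⟨ℓ, hℓ, hℓk⟩ := Nat.exists_prime_and_dvd (by omega : k ≠ 1)
      obtain ⟨k', rfl⟩ := hℓk
      have hk' : 0 < k' := Nat.pos_of_ne_zero (by rintro rfl; simp at hk)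
      have hlt : k' < ℓ * k' := by nlinarith [hℓ.two_le]
      have hform := coeffZ_gen p ⟨ℓ, hℓ⟩ k' ((t : Module.End ℤ (Lat p)) h)
      rw [← mul_apply'] at hform
      have hstep := hs.step ⟨ℓ, hℓ⟩ k' hk'
      have ih1 := ih k' hlt hk' (psi p (heckeGen ⟨ℓ, hℓ⟩) * t)
      have h2' := h2 ⟨ℓ, hℓ⟩ t
      simp only [] at hform hstep
      rw [mul_comm ℓ k']
      by_cases hd : ℓ ∣ k'
      · have hq : 0 < k' / ℓ := Nat.div_pos (Nat.le_of_dvd hk' hd) hℓ.pos
        have hq' : k' / ℓ < ℓ * k' := lt_of_le_of_lt (Nat.div_le_self _ _) hlt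
        have ih2 := ih (k' / ℓ) hq' hq t
        rw [if_pos hd] at hform hstep
        have key : coeffZ p (k' * ℓ) ((t : Module.End ℤ (Lat p)) h) - s (k' * ℓ) * c t =
            (coeffZ p k' (((psi p (heckeGen ⟨ℓ, hℓ⟩) * t : TL p) : Module.End ℤ (Lat p)) h)
              - s k' * c (psi p (heckeGen ⟨ℓ, hℓ⟩) * t))
            + s k' * (c (psi p (heckeGen ⟨ℓ, hℓ⟩) * t) - eisensteinSystem p ⟨ℓ, hℓ⟩ * c t)
            - wt p ℓ * (coeffZ p (k' / ℓ) ((t : Module.End ℤ (Lat p)) h) - s (k' / ℓ) * c t) := by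
          linear_combination (-1 : ℤ) * hform - c t * hstep
        rw [key]
        exact dvd_sub (dvd_add ih1 (Dvd.dvd.mul_left h2' _)) (Dvd.dvd.mul_left ih2 _)
      · rw [if_neg hd, add_zero] at hform hstep
        have key : coeffZ p (k' * ℓ) ((t : Module.End ℤ (Lat p)) h) - s (k' * ℓ) * c t =
            (coeffZ p k' (((psi p (heckeGen ⟨ℓ, hℓ⟩) * t : TL p) : Module.End ℤ (Lat p)) h)
              - s k' * c (psi p (heckeGen ⟨ℓ, hℓ⟩) * t))
            + s k' * (c (psi p (heckeGen ⟨ℓ, hℓ⟩) * t) - eisensteinSystem p ⟨ℓ, hℓ⟩ * c t) := by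
          linear_combination (-1 : ℤ) * hform - c t * hstep
        rw [key]
        exact dvd_add ih1 (Dvd.dvd.mul_left h2' _)
    · have hk2 : k = 1 := by omega
      subst hk2
      rw [hs.one, one_mul]
      exact h1 t

/-- Special case `c = 0`. -/
theorem rec_zero (d : ℤ) (h : Lat p)
    (h1 : ∀ t : TL p, d ∣ coeffZ p 1 ((t : Module.End ℤ (Lat p)) h)) :
    ∀ k, 0 < k → ∀ t : TL p, d ∣ coeffZ p k ((t : Module.End ℤ (Lat p)) h) := by
  classical
  -- run the recursion with the coefficient formula only (no Eisenstein sequence needed)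
  intro k
  induction k using Nat.strong_induction_on with
  | _ k ih =>
    intro hk t
    rcases Nat.lt_or_ge 1 k with hk1 | hk1
    · obtain ⟨ℓ, hℓ, hℓk⟩ := Nat.exists_prime_and_dvd (by omega : k ≠ 1)
      obtain ⟨k', rfl⟩ := hℓk
      have hk' : 0 < k' := Nat.pos_of_ne_zero (by rintro rfl; simp at hk)
      have hlt : k' < ℓ * k' := by nlinarith [hℓ.two_le]
      have hform := coeffZ_gen p ⟨ℓ, hℓ⟩ k' ((t : Module.End ℤ (Lat p)) h)
      rw [← mul_apply'] at hform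
      have ih1 := ih k' hlt hk' (psi p (heckeGen ⟨ℓ, hℓ⟩) * t)
      simp only [] at hform
      rw [mul_comm ℓ k']
      by_cases hd : ℓ ∣ k'
      · have hq : 0 < k' / ℓ := Nat.div_pos (Nat.le_of_dvd hk' hd) hℓ.pos
        have hq' : k' / ℓ < ℓ * k' := lt_of_le_of_lt (Nat.div_le_self _ _) hlt
        have ih2 := ih (k' / ℓ) hq' hq t
        rw [if_pos hd] at hform
        have key : coeffZ p (k' * ℓ) ((t : Module.End ℤ (Lat p)) h) =
            coeffZ p k' (((psi p (heckeGen ⟨ℓ, hℓ⟩) * t : TL p) : Module.End ℤ (Lat p)) h)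
            - wt p ℓ * coeffZ p (k' / ℓ) ((t : Module.End ℤ (Lat p)) h) := by
          linear_combination (-1 : ℤ) * hform
        rw [key]
        exact dvd_sub ih1 (Dvd.dvd.mul_left ih2 _)
      · rw [if_neg hd, add_zero] at hform
        rw [← hform]
        exact ih1
    · have hk2 : k = 1 := by omega
      subst hk2
      exact h1 t

/-- One step of the Eisenstein propagation. -/
theorem eis_step {s : ℕ → ℤ} (hs : IsEisSeq p s) (d : ℤ) (h : Lat p) (c : ℤ)
    (hE : ∀ k, 0 < k → d ∣ coeffZ p k h - c * s k) (ℓ : Nat.Primes) :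
    ∀ k, 0 < k → d ∣ coeffZ p k (((psi p (heckeGen ℓ) : TL p) : Module.End ℤ (Lat p)) h)
      - (eisensteinSystem p ℓ * c) * s k := by
  intro k hk
  have hform := coeffZ_gen p ℓ k h
  have hstep := hs.step ℓ k hk
  have hkl : 0 < k * (ℓ : ℕ) := Nat.mul_pos hk ℓ.2.pos
  have e1 := hE (k * ℓ) hkl
  by_cases hd : (ℓ : ℕ) ∣ k
  · have hq : 0 < k / (ℓ : ℕ) := Nat.div_pos (Nat.le_of_dvd hk hd) ℓ.2.pos
    have e2 := hE (k / ℓ) hq
    rw [if_pos hd] at hform hstep
    have key : coeffZ p k (((psi p (heckeGen ℓ) : TL p) : Module.End ℤ (Lat p)) h)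
        - (eisensteinSystem p ℓ * c) * s k =
        (coeffZ p (k * ℓ) h - c * s (k * ℓ)) + wt p ℓ * (coeffZ p (k / ℓ) h - c * s (k / ℓ)) := by
      linear_combination hform + c * hstep
    rw [key]
    exact dvd_add e1 (Dvd.dvd.mul_left e2 _)
  · rw [if_neg hd, add_zero] at hform hstep
    have key : coeffZ p k (((psi p (heckeGen ℓ) : TL p) : Module.End ℤ (Lat p)) h)
        - (eisensteinSystem p ℓ * c) * s k = coeffZ p (k * ℓ) h - c * s (k * ℓ) := by
      linear_combination hform + c * hstep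
    rw [key]
    exact e1

/-- Eisenstein propagation along all of `ℤ[X_ℓ]`. -/
theorem eis_poly {s : ℕ → ℤ} (hs : IsEisSeq p s) (d : ℤ) (P : HeckeAlg) :
    ∀ (h : Lat p) (c : ℤ), (∀ k, 0 < k → d ∣ coeffZ p k h - c * s k) →
      ∀ k, 0 < k → d ∣ coeffZ p k (((psi p P : TL p) : Module.End ℤ (Lat p)) h)
        - (eps p P * c) * s k := by
  induction P using MvPolynomial.induction_on with
  | C a =>
    intro h c hE k hk
    rw [psi_C_apply, map_smul, eps, MvPolynomial.aeval_C]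
    obtain ⟨e, he⟩ := hE k hk
    refine ⟨a * e, ?_⟩
    simp only [smul_eq_mul, algebraMap_int_eq]
    linear_combination a * he
  | add P Q ihP ihQ =>
    intro h c hE k hk
    obtain ⟨e1, he1⟩ := ihP h c hE k hk
    obtain ⟨e2, he2⟩ := ihQ h c hE k hk
    refine ⟨e1 + e2, ?_⟩
    rw [map_add, add_apply', map_add, map_add]
    linear_combination he1 + he2
  | mul_X P ℓ ihP =>
    intro h c hE k hk
    have h3 := ihP _ _ (eis_step hs d h c hE ℓ) k hk
    rw [map_mul, mul_apply', map_mul]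
    have h4 : eps p (MvPolynomial.X ℓ) = eisensteinSystem p ℓ := MvPolynomial.aeval_X _ ℓ
    rw [h4]
    have h5 : (MvPolynomial.X ℓ : HeckeAlg) = heckeGen ℓ := rfl
    rw [h5]
    have h6 : eps p P * (eisensteinSystem p ℓ * c) = eps p P * eisensteinSystem p ℓ * c := by ring
    rw [← h6]
    exact h3

variable (p)

/-! ### the perfect pairing -/

/-- The pairing `T_L → Hom(L, ℤ)`, `t ↦ (h ↦ a₁(t h))`. -/
def pairT : TL p →ₗ[ℤ] Lat p →ₗ[ℤ] ℤ :=
  (LinearMap.llcomp ℤ (Lat p) (Lat p) ℤ (coeffZ p 1)) ∘ₗ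
    (heckeLatticeAlgebra p ∅).val.toLinearMap

theorem pairT_apply (t : TL p) (h : Lat p) :
    pairT p t h = coeffZ p 1 ((t : Module.End ℤ (Lat p)) h) := rfl

/-- The pairing `L → Hom(T_L, ℤ)`. -/
def pairL : Lat p →ₗ[ℤ] TL p →ₗ[ℤ] ℤ := (pairT p).flip

theorem pairL_apply (h : Lat p) (t : TL p) :
    pairL p h t = coeffZ p 1 ((t : Module.End ℤ (Lat p)) h) := rfl

theorem pairL_injective : Function.Injective (pairL p) := by
  rw [injective_iff_map_eq_zero]
  intro h hh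
  apply eq_zero_of_coeffZ
  intro k hk
  have h1 := rec_zero 0 h (fun t => by
    rw [zero_dvd_iff, ← pairL_apply, hh]; rfl) k hk 1
  rw [zero_dvd_iff, one_apply'] at h1
  exact h1

theorem pairT_injective : Function.Injective (pairT p) := by
  rw [injective_iff_map_eq_zero]
  intro t ht
  apply Subtype.ext
  apply LinearMap.ext
  intro h
  show (t : Module.End ℤ (Lat p)) h = 0
  apply eq_zero_of_coeffZ
  intro k hk
  have h1 := rec_zero 0 ((t : Module.End ℤ (Lat p)) h) (fun s => by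
    rw [zero_dvd_iff, ← mul_apply', mul_comm, mul_apply', ← pairT_apply, ht]; rfl) k hk 1
  rw [zero_dvd_iff, one_apply'] at h1
  exact h1

theorem finrank_eq : Module.finrank ℤ (Lat p) = Module.finrank ℤ (TL p) := by
  have := intLattice.moduleFinite p
  have := intLattice.moduleFree p
  have h1 : Module.finrank ℤ (Lat p) ≤ Module.finrank ℤ (TL p →ₗ[ℤ] ℤ) :=
    LinearMap.finrank_le_finrank_of_injective (pairL_injective p)
  have h2 : Module.finrank ℤ (TL p) ≤ Module.finrank ℤ (Lat p →ₗ[ℤ] ℤ) :=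
    LinearMap.finrank_le_finrank_of_injective (pairT_injective p)
  rw [Module.finrank_linearMap_self] at h1 h2
  omega

/-- The pairing is perfect: every functional on `T_L` is `t ↦ a₁(t h)`. -/
theorem pairL_surjective : Function.Surjective (pairL p) := by
  have := intLattice.moduleFinite p
  have := intLattice.moduleFree p
  intro φ
  have hfr : Module.finrank ℤ (LinearMap.range (pairL p)) =
      Module.finrank ℤ (TL p →ₗ[ℤ] ℤ) := by
    rw [LinearMap.finrank_range_of_inj (pairL_injective p), Module.finrank_linearMap_self,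
      finrank_eq]
  have hq : Module.finrank ℤ ((TL p →ₗ[ℤ] ℤ) ⧸ LinearMap.range (pairL p)) = 0 := by
    have := Submodule.finrank_quotient_add_finrank (LinearMap.range (pairL p))
    omega
  have htors : Module.IsTorsion ℤ ((TL p →ₗ[ℤ] ℤ) ⧸ LinearMap.range (pairL p)) :=
    Module.finrank_eq_zero_iff_isTorsion.mp hq
  obtain ⟨a, ha⟩ := @htors (Submodule.Quotient.mk φ)
  have hM : (a : ℤ) ≠ 0 := nonZeroDivisors.coe_ne_zero a
  have hmem : (a : ℤ) • φ ∈ LinearMap.range (pairL p) := by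
    rw [← Submodule.Quotient.mk_eq_zero, Submodule.Quotient.mk_smul]
    exact ha
  obtain ⟨h, hh⟩ := hmem
  have hdiv : ∀ k, 0 < k → (a : ℤ) ∣ coeffZ p k h := by
    intro k hk
    have h1 := rec_zero (a : ℤ) h (fun t => by
      rw [← pairL_apply, hh]
      exact ⟨φ t, rfl⟩) k hk 1
    rwa [one_apply'] at h1
  obtain ⟨h', rfl⟩ := exists_smul_eq p (a : ℤ) hM h hdiv
  refine ⟨h', ?_⟩
  apply LinearMap.ext
  intro t
  have h2 := LinearMap.congr_fun hh t
  rw [map_smul] at h2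
  simp only [LinearMap.smul_apply, smul_eq_mul] at h2
  exact mul_left_cancel₀ hM h2

/-! ### the quotient `T_L ⧸ J` -/

theorem intCast_apply' (a : ℤ) (h : Lat p) :
    (((a : ℤ) : TL p) : Module.End ℤ (Lat p)) h = a • h := by
  have h1 : ((a : ℤ) : TL p) = algebraMap ℤ (TL p) a := rfl
  rw [h1, Subalgebra.coe_algebraMap, Module.algebraMap_end_apply]

theorem psi_C (a : ℤ) : psi p (MvPolynomial.C a) = ((a : ℤ) : TL p) := by
  have : (MvPolynomial.C a : HeckeAlg) = ((a : ℤ) : HeckeAlg) := by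
    simp
  rw [this, map_intCast]

theorem card_facts : ∃ m : ℕ,
    Nat.card (TL p ⧸ Ideal.map (psi p) (eisensteinIdeal p)) = m ∧
    ((m : ℤ) : TL p) ∈ Ideal.map (psi p) (eisensteinIdeal p) ∧
    ∃ χ : TL p →+* ZMod m, ∀ P : HeckeAlg, χ (psi p P) = ((eps p P : ℤ) : ZMod m) := by
  set J := Ideal.map (psi p) (eisensteinIdeal p) with hJ
  have hπ : ∀ P : HeckeAlg,
      Ideal.Quotient.mk J (psi p P) = ((eps p P : ℤ) : TL p ⧸ J) := by
    intro P
    have h1 : P - MvPolynomial.C (eps p P) ∈ eisensteinIdeal p := by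
      rw [eisensteinIdeal, mem_eigenIdeal_iff, map_sub, MvPolynomial.aeval_C]
      simp
    have h2 : psi p (P - MvPolynomial.C (eps p P)) ∈ J := Ideal.mem_map_of_mem _ h1
    rw [map_sub] at h2
    rw [(Ideal.Quotient.eq (I := J)).mpr h2, psi_C, map_intCast]
  have hsurj : Function.Surjective (Int.castRingHom (TL p ⧸ J)) := by
    intro x
    obtain ⟨t, rfl⟩ := Ideal.Quotient.mk_surjective x
    obtain ⟨P, rfl⟩ := psi_surjective p t
    exact ⟨eps p P, (hπ P).symm⟩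
  obtain ⟨g, hg⟩ : ∃ g : ℤ, RingHom.ker (Int.castRingHom (TL p ⧸ J)) = Ideal.span {g} :=
    ⟨_, (Ideal.span_singleton_generator _).symm⟩
  let e : TL p ⧸ J ≃+* ZMod g.natAbs :=
    (RingHom.quotientKerEquivOfSurjective hsurj).symm.trans
      ((Ideal.quotEquivOfEq hg).trans (Int.quotientSpanEquivZMod g))
  refine ⟨g.natAbs, ?_, ?_, e.toRingHom.comp (Ideal.Quotient.mk J), ?_⟩
  · rw [Nat.card_congr e.toEquiv, Nat.card_zmod]
  · rw [← Ideal.Quotient.eq_zero_iff_mem, map_intCast]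
    have h3 : ((g.natAbs : ℕ) : ℤ) ∈ RingHom.ker (Int.castRingHom (TL p ⧸ J)) := by
      rw [hg, Ideal.mem_span_singleton]
      exact Int.dvd_natAbs.mpr dvd_rfl
    exact h3
  · intro P
    show e (Ideal.Quotient.mk J (psi p P)) = _
    rw [hπ, map_intCast]

theorem exists_lift (m : ℕ) (χ : TL p →+* ZMod m) :
    ∃ f : TL p →ₗ[ℤ] ℤ, ∀ t, ((f t : ℤ) : ZMod m) = χ t := by
  obtain ⟨f, hf⟩ := Module.projective_lifting_property
    (Int.castAddHom (ZMod m)).toIntLinearMap χ.toAddMonoidHom.toIntLinearMap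
    (ZMod.intCast_surjective)
  exact ⟨f, fun t => LinearMap.congr_fun hf t⟩

/-- **Block R, abstract form.** For any sequence `s` satisfying the Eisenstein recursion
(e.g. `s = σ'`): (H1) and (H2) imply the frozen conclusion of S16. -/
theorem card_eq_of_seq {s : ℕ → ℤ} (hs : IsEisSeq p s)
    (H1 : ∃ h0 : Lat p, ∀ k, 0 < k → (eisensteinNumerator p : ℤ) ∣ coeffZ p k h0 - s k)
    (H2 : ∀ d : ℕ, (∃ h : Lat p, ∀ k, 0 < k → (d : ℤ) ∣ coeffZ p k h - s k) →
      d ∣ eisensteinNumerator p) :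
    Nat.card (↥(heckeLatticeAlgebra p ∅) ⧸
        Ideal.map ((latticeRestrictHom p ∅).toRingHom.comp (heckeEvalForms p 2))
          (eisensteinIdeal p)) =
      eisensteinNumerator p := by
  obtain ⟨m, hm, hmJ, χ, hχ⟩ := card_facts p
  rw [hm]
  apply Nat.dvd_antisymm
  · -- `m ∣ n`, from (H2)
    apply H2
    obtain ⟨f, hf⟩ := exists_lift p m χ
    obtain ⟨h, hh⟩ := pairL_surjective p f
    refine ⟨h, fun k hk => ?_⟩
    have hrec := rec_main hs (m : ℤ) h (fun t => f t) (fun t => by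
        rw [← pairL_apply, hh, sub_self]
        exact dvd_zero _) (fun ℓ t => by
        rw [← ZMod.intCast_eq_intCast_iff_dvd_sub]
        push_cast
        rw [hf, hf, map_mul, hχ]
        have : eps p (heckeGen ℓ) = eisensteinSystem p ℓ := MvPolynomial.aeval_X _ ℓ
        rw [this]) k hk 1
    rw [one_apply'] at hrec
    have h1 : (m : ℤ) ∣ f 1 - 1 := by
      rw [← ZMod.intCast_eq_intCast_iff_dvd_sub]
      push_cast
      rw [hf, map_one]
    have key : coeffZ p k h - s k = (coeffZ p k h - s k * f 1) + s k * (f 1 - 1) := by ring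
    rw [key]
    exact dvd_add hrec (Dvd.dvd.mul_left h1 _)
  · -- `n ∣ m`, from (H1)
    obtain ⟨h0, hh0⟩ := H1
    obtain ⟨P, hP, hPm⟩ := (Ideal.mem_map_iff_of_surjective (psi p) (psi_surjective p)).mp hmJ
    have h1 := eis_poly hs (eisensteinNumerator p : ℤ) P h0 1
      (fun k hk => by simpa using hh0 k hk) 1 one_pos
    have h2 : eps p P = 0 := (mem_eigenIdeal_iff _ _).mp hP
    rw [hPm, intCast_apply', map_smul, h2, hs.one] at h1
    simp only [smul_eq_mul, zero_mul, sub_zero] at h1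
    have h3 := hh0 1 one_pos
    rw [hs.one] at h3
    have h4 : (eisensteinNumerator p : ℤ) ∣ (m : ℤ) := by
      have key : (m : ℤ) = (m : ℤ) * coeffZ p 1 h0 - (m : ℤ) * (coeffZ p 1 h0 - 1) := by ring
      rw [key]
      exact dvd_sub h1 (Dvd.dvd.mul_left h3 _)
    exact_mod_cast h4

/-! ### the concrete Eisenstein sequence `σ'` -/

/-- `σ'(k)`: the sum of the divisors of `k` which are prime to `p`. -/
def sp (k : ℕ) : ℤ := ∑ d ∈ k.divisors.filter (fun d => ¬ p ∣ d), (d : ℤ)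

theorem sp_one : sp p 1 = 1 := by
  have hp : ¬ p ∣ 1 := (Fact.out : p.Prime).one_lt.ne' ∘ Nat.dvd_one.mp
  simp [sp, Finset.filter_singleton, hp]

theorem sp_mul_self (k : ℕ) : sp p (k * p) = sp p k := by
  have hp : p.Prime := Fact.out
  rcases Nat.eq_zero_or_pos k with rfl | hk
  · simp
  unfold sp
  congr 1
  ext d
  simp only [Finset.mem_filter, Nat.mem_divisors]
  constructor
  · rintro ⟨⟨h1, -⟩, h2⟩
    refine ⟨⟨?_, hk.ne'⟩, h2⟩
    exact (Nat.Coprime.symm ((Nat.Prime.coprime_iff_not_dvd hp).mpr h2)).dvd_of_dvd_mul_right h1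
  · rintro ⟨⟨h1, -⟩, h2⟩
    exact ⟨⟨Dvd.dvd.mul_right h1 p, Nat.mul_ne_zero hk.ne' hp.ne_zero⟩, h2⟩

theorem sp_mul_prime (ℓ : ℕ) (hℓ : ℓ.Prime) (hℓp : ¬ ℓ ∣ p) (k : ℕ) (hk : 0 < k) :
    sp p (k * ℓ) + (if ℓ ∣ k then (ℓ : ℤ) * sp p (k / ℓ) else 0) = (1 + (ℓ : ℤ)) * sp p k := by
  classical
  have hp : p.Prime := Fact.out
  have hpl : ¬ p ∣ ℓ := fun h => hℓp (((Nat.prime_dvd_prime_iff_eq hp hℓ).mp h) ▸ dvd_rfl)
  set A := k.divisors.filter (fun d => ¬ p ∣ d) with hA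
  set B := A.image (fun d => d * ℓ) with hB
  have hinj : Function.Injective (fun d : ℕ => d * ℓ) := fun a b hab =>
    Nat.eq_of_mul_eq_mul_right hℓ.pos hab
  have hU : (k * ℓ).divisors.filter (fun d => ¬ p ∣ d) = A ∪ B := by
    ext d
    simp only [hA, hB, Finset.mem_filter, Nat.mem_divisors, Finset.mem_union, Finset.mem_image]
    constructor
    · rintro ⟨⟨h1, -⟩, h2⟩
      by_cases hd : ℓ ∣ d
      · obtain ⟨d', rfl⟩ := hd
        right
        refine ⟨d', ⟨⟨?_, hk.ne'⟩, fun h => h2 (Dvd.dvd.mul_left h _)⟩, mul_comm _ _⟩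
        rw [mul_comm ℓ d'] at h1
        exact Nat.dvd_of_mul_dvd_mul_right hℓ.pos h1
      · left
        refine ⟨⟨?_, hk.ne'⟩, h2⟩
        exact (Nat.Coprime.symm ((Nat.Prime.coprime_iff_not_dvd hℓ).mpr hd)).dvd_of_dvd_mul_right h1
    · rintro (⟨⟨h1, -⟩, h2⟩ | ⟨d', ⟨⟨h1, -⟩, h2⟩, rfl⟩)
      · exact ⟨⟨Dvd.dvd.mul_right h1 ℓ, Nat.mul_ne_zero hk.ne' hℓ.ne_zero⟩, h2⟩
      · refine ⟨⟨Nat.mul_dvd_mul_right h1 ℓ, Nat.mul_ne_zero hk.ne' hℓ.ne_zero⟩, ?_⟩
        intro h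
        rcases (Nat.Prime.dvd_mul hp).mp h with h | h
        · exact h2 h
        · exact hpl h
  have hI : ∑ d ∈ A ∩ B, (d : ℤ) = if ℓ ∣ k then (ℓ : ℤ) * sp p (k / ℓ) else 0 := by
    split_ifs with hd
    · have hAB : A ∩ B = ((k / ℓ).divisors.filter (fun d => ¬ p ∣ d)).image (fun d => d * ℓ) := by
        ext d
        simp only [hA, hB, Finset.mem_filter, Nat.mem_divisors, Finset.mem_inter,
          Finset.mem_image]
        constructor
        · rintro ⟨⟨⟨h1, -⟩, h2⟩, d', ⟨⟨h3, -⟩, h4⟩, rfl⟩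
          refine ⟨d', ⟨⟨Nat.dvd_div_of_mul_dvd (by rwa [mul_comm] at h1), ?_⟩, h4⟩, rfl⟩
          exact (Nat.div_pos (Nat.le_of_dvd hk hd) hℓ.pos).ne'
        · rintro ⟨d', ⟨⟨h1, -⟩, h2⟩, rfl⟩
          have h5 : d' * ℓ ∣ k := by
            rw [mul_comm]
            exact Nat.mul_dvd_of_dvd_div hd h1
          have h6 : d' ∣ k := dvd_trans (dvd_mul_right d' ℓ) h5
          have h7 : ¬ p ∣ d' * ℓ := by
            intro h
            rcases (Nat.Prime.dvd_mul hp).mp h with h | h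
            · exact h2 h
            · exact hpl h
          exact ⟨⟨⟨h5, hk.ne'⟩, h7⟩, d', ⟨⟨h6, hk.ne'⟩, h2⟩, rfl⟩
      rw [hAB, Finset.sum_image (fun a _ b _ hab => hinj hab), sp, Finset.mul_sum]
      refine Finset.sum_congr rfl fun d _ => ?_
      push_cast
      ring
    · have hAB : A ∩ B = ∅ := by
        ext d
        simp only [hA, hB, Finset.mem_filter, Nat.mem_divisors, Finset.mem_inter,
          Finset.mem_image, Finset.notMem_empty, iff_false]
        rintro ⟨⟨⟨h1, -⟩, h2⟩, d', -, rfl⟩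
        exact hd (dvd_trans (dvd_mul_left ℓ d') h1)
      rw [hAB, Finset.sum_empty]
  have hB' : ∑ d ∈ B, (d : ℤ) = (ℓ : ℤ) * sp p k := by
    rw [hB, Finset.sum_image (fun a _ b _ hab => hinj hab), sp, Finset.mul_sum]
    refine Finset.sum_congr rfl fun d _ => ?_
    push_cast
    ring
  have hsum := Finset.sum_union_inter (s₁ := A) (s₂ := B) (f := fun d : ℕ => (d : ℤ))
  rw [← hI]
  show ∑ d ∈ (k * ℓ).divisors.filter (fun d => ¬ p ∣ d), (d : ℤ) + _ = _
  rw [hU, hsum, hB']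
  show sp p k + _ = _
  ring

theorem isEisSeq_sp : IsEisSeq p (sp p) where
  one := sp_one p
  step := by
    intro ℓ k hk
    by_cases hℓ : (ℓ : ℕ) ∣ p
    · have hp : p.Prime := Fact.out
      have hℓp : (ℓ : ℕ) = p := (Nat.prime_dvd_prime_iff_eq ℓ.2 hp).mp hℓ
      rw [eisensteinSystem_of_dvd hℓ, one_mul]
      simp only [wt, if_pos hℓ, zero_mul, ite_self, add_zero]
      rw [hℓp]
      exact sp_mul_self p k
    · rw [eisensteinSystem_of_not_dvd hℓ]
      simp only [wt, if_neg hℓ]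
      exact sp_mul_prime p ℓ ℓ.2 hℓ k hk

/-- **Block R (R1 + R2 + R3).** The frozen conclusion of S16 follows from
(H1) a cusp form with integral coefficients `≡ σ'` modulo `n = eisensteinNumerator p`, and
(H2) every modulus `d` for which such a form exists divides `n`. -/
theorem card_eq_of
    (H1 : ∃ (h0 : CuspForm (Gamma0 p) 2) (a : ℕ → ℤ),
      (∀ k, qCoeff ⇑h0 k = (a k : ℂ)) ∧
      ∀ k, 0 < k → (eisensteinNumerator p : ℤ) ∣ a k - sp p k)
    (H2 : ∀ d : ℕ, (∃ (h : CuspForm (Gamma0 p) 2) (a : ℕ → ℤ),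
      (∀ k, qCoeff ⇑h k = (a k : ℂ)) ∧ ∀ k, 0 < k → (d : ℤ) ∣ a k - sp p k) →
        d ∣ eisensteinNumerator p) :
    Nat.card (↥(heckeLatticeAlgebra p ∅) ⧸
        Ideal.map ((latticeRestrictHom p ∅).toRingHom.comp (heckeEvalForms p 2))
          (eisensteinIdeal p)) =
      eisensteinNumerator p := by
  apply card_eq_of_seq p (isEisSeq_sp p)
  · obtain ⟨h0, a, ha, hdiv⟩ := H1
    have hmem : h0 ∈ intLattice p 2 := (mem_intLattice_iff h0).mpr fun n => ⟨a n, ha n⟩
    refine ⟨⟨h0, hmem⟩, fun k hk => ?_⟩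
    rw [coeffZ_eq_of p (h := ⟨h0, hmem⟩) (ha k)]
    exact hdiv k hk
  · intro d ⟨h, hh⟩
    apply H2
    exact ⟨(h : CuspForm (Gamma0 p) 2), fun k => coeffZ p k h, fun k => coeffZ_spec p k h, hh⟩

end

end Fermat.Agent.S16.H79
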