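import Fermat.Agent.S16.Stmts_helper6
import Fermat.Agent.S16.Reduction_helper79

/-!
# S16, node `StmtR` (helper79): bridge from `H79.card_eq_of` to the Prop of `Stmts_helper6`
-/

set_option autoImplicit false

namespace Fermat.Agent.S16.H79

open CuspForm CongruenceSubgroup ModularFormClass ModularCurve
open Fermat.Agent.S49.H78

theorem sp_eq_sigmaP (p : ℕ) [Fact p.Prime] (k : ℕ) :
    sp p k = (Fermat.Agent.S16.sigmaP p k : ℤ) := by
  unfold sp Fermat.Agent.S16.sigmaP
  push_cast
  rfl

/-- Node (R): the algebraic reduction, literally the Prop `StmtR` of `Stmts_helper6`. -/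
theorem stmtR : Fermat.Agent.S16.StmtR := by
  intro hH1 hH2 p _
  have hp : p.Prime := Fact.out
  apply card_eq_of p
  · obtain ⟨h, hh⟩ := hH1 p hp
    choose! m hm using hh
    refine ⟨h, fun k => if k = 0 then 0 else
      (Fermat.Agent.S16.sigmaP p k : ℤ) + (eisensteinNumerator p : ℤ) * m k, ?_, ?_⟩
    · intro k
      rcases Nat.eq_zero_or_pos k with rfl | hk
      · rw [qCoeff_zero_idx]
        simp
      · beta_reduce
        rw [if_neg hk.ne', hm k hk]
        push_cast
        rfl
    · intro k hk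
      beta_reduce
      rw [if_neg hk.ne', sp_eq_sigmaP]
      exact ⟨m k, by ring⟩
  · intro d ⟨h, a, ha, hdiv⟩
    apply hH2 p hp d
    refine ⟨h, fun n hn => ?_⟩
    obtain ⟨c, hc⟩ := hdiv n hn
    refine ⟨c, ?_⟩
    rw [ha n]
    have h1 : a n = (Fermat.Agent.S16.sigmaP p n : ℤ) + (d : ℤ) * c := by
      rw [← sp_eq_sigmaP]
      linear_combination hc
    rw [h1]
    push_cast
    rfl

end Fermat.Agent.S16.H79
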