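import Mathlib
import Fermat.Agent.S16.Asm_helper6
import Fermat.Agent.S16.Bridge37_helper6
import Fermat.Agent.S16.Eis_helper26
import Fermat.Agent.S16.Glue_helper53
import Fermat.Agent.S16.StmtR_helper79
import Fermat.Agent.S16.CasesC_helper48
import Fermat.Agent.S16.CasesStmt_helper7

/-!
# S16: assembly of `Goal` from the nodes that are still open
-/

set_option autoImplicit false

namespace Fermat.Agent.S16

/-- (B) from the formal data and the symmetric-function nodes. -/
theorem stmtB_of (hSym4 : StmtSym4) (hSym6 : StmtSym6) (hBD : StmtBData) : StmtB :=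
  b_of (c1G_of hBD H48.stmtC1) (c2G_of hBD H48.stmtC2) (H07.stmtC3 hSym4 hSym6 stmtSturm)
    (c4G_of hBD H48.stmtC4) (c5aG_of hBD H48.stmtC5a) (H07.stmtC5b hSym6 stmtSturm)
    (c6G_of hBD H48.stmtC6) (c7G_of hBD H48.stmtC7) (H07.stmtC8 hSym4 hSym6 stmtRho stmtE4E6)

/-- The frozen goal from the nodes that are still open. -/
theorem goal_of_open (hTheta : StmtTheta) (hCusp : StmtCusp) (hSym4 : StmtSym4)
    (hSym6 : StmtSym6) (hBD : StmtBData) : Goal :=
  goal_of H26.stmtE hTheta (stmtB_of hSym4 hSym6 hBD) hCusp H53.stmtG1 H53.stmtG2 H79.stmtR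

end Fermat.Agent.S16
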