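import Mathlib
import Fermat.Agent.S16.Top_helper6
import Fermat.Agent.S16.Theta_helper34
import Fermat.Agent.S16.CuspStmt_helper33
import Fermat.Agent.S16.Eq_helper37
import Fermat.Agent.S16.BData_helper48

/-!
# S16: the frozen goal from the two symmetric-function nodes
-/

set_option autoImplicit false

namespace Fermat.Agent.S16

/-- The frozen goal from `StmtSym4`, `StmtSym6` (all other nodes are proved). -/
theorem goal_of_sym (hSym4 : StmtSym4) (hSym6 : StmtSym6) : Goal :=
  goal_of_open H34.stmtTheta H33.stmtCusp hSym4 hSym6 (H48.stmtBData H37.stmtEq)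

end Fermat.Agent.S16
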