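import Mathlib
import Fermat.Agent.S16.Stmts_helper6
import Fermat.Agent.S20.LevelOne_helper66

/-!
# S16, node `StmtEq` (helper44): the trace identities Eq2, Eq2', Eq3, Eq3'

`stmtEq : StmtFricke → StmtSym4 → StmtSym6 → StmtE4E6 → StmtEq`.

For a weight-2 form `G` of level `Γ₀(p)` with `q`-expansion `g`, `u = U_p g`:
* `U_p u = g` (from `StmtFricke`);
* the first power sums of the conjugates are `V_p (g² + p⁻¹ U_p(u²))` resp.
  `V_p (g³ - p⁻² U_p(u³))` (orthogonality of the `p`-th roots of unity), and they are the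
  `V_p` of the `q`-expansion of a level-one form of weight 4 resp. 6 (`StmtSym4`, `StmtSym6`
  with `m = 1`), hence a multiple of `E₄` resp. `E₆` (`M₄ = ℂ E₄`, `M₆ = ℂ E₆`);
* the primed identities are the same statements for the Fricke partner `H` (`qExp H = u`).
-/

set_option autoImplicit false

namespace Fermat.Agent.S16.H44

open UpperHalfPlane ModularForm CongruenceSubgroup ModularFormClass
open scoped MatrixGroups ModularForm Manifold

/-! ## Formal `U_p`, `V_p` -/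

theorem coeff_Up {R : Type*} [Semiring R] (p n : ℕ) (f : PowerSeries R) :
    PowerSeries.coeff n (Up p f) = PowerSeries.coeff (n * p) f := by
  simp [Up]

theorem coeff_Vp {R : Type*} [Semiring R] (p n : ℕ) (f : PowerSeries R) :
    PowerSeries.coeff n (Vp p f) = if p ∣ n then PowerSeries.coeff (n / p) f else 0 := by
  simp [Vp]

theorem Vp_eq_expand {R : Type*} [CommRing R] (p : ℕ) (hp : p ≠ 0) (f : PowerSeries R) :
    Vp p f = PowerSeries.expand p hp f := by
  ext n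
  rw [PowerSeries.coeff_expand, coeff_Vp]

theorem Vp_injective {R : Type*} [Semiring R] (p : ℕ) (hp : p ≠ 0) :
    Function.Injective (Vp (R := R) p) := by
  intro f g h
  ext n
  have h1 := congrArg (PowerSeries.coeff (p * n)) h
  rw [coeff_Vp, coeff_Vp, if_pos (dvd_mul_right p n), if_pos (dvd_mul_right p n),
    Nat.mul_div_cancel_left n (Nat.pos_of_ne_zero hp)] at h1
  exact h1

theorem Vp_add {R : Type*} [CommRing R] (p : ℕ) (f g : PowerSeries R) :
    Vp p (f + g) = Vp p f + Vp p g := by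
  ext n
  simp only [coeff_Vp, map_add]
  split_ifs <;> simp

theorem Vp_smul {R : Type*} [CommRing R] (p : ℕ) (a : R) (f : PowerSeries R) :
    Vp p (a • f) = a • Vp p f := by
  ext n
  simp only [coeff_Vp, PowerSeries.coeff_smul]
  split_ifs <;> simp

theorem Vp_pow {R : Type*} [CommRing R] (p : ℕ) (hp : p ≠ 0) (f : PowerSeries R) (k : ℕ) :
    Vp p (f ^ k) = Vp p f ^ k := by
  rw [Vp_eq_expand p hp, Vp_eq_expand p hp, map_pow]

theorem Up_add {R : Type*} [Semiring R] (p : ℕ) (f g : PowerSeries R) :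
    Up p (f + g) = Up p f + Up p g := by
  ext n
  simp [coeff_Up]

theorem Up_smul {R : Type*} [CommRing R] (p : ℕ) (a : R) (f : PowerSeries R) :
    Up p (a • f) = a • Up p f := by
  ext n
  simp [coeff_Up]

/-! ## Roots of unity -/

theorem zetaP_pow_sum (p : ℕ) (hp : p.Prime) (n : ℕ) :
    ∑ j : Fin p, (zetaP p ^ (j : ℕ)) ^ n = if p ∣ n then (p : ℂ) else 0 := by
  have hp0 : p ≠ 0 := hp.ne_zero
  have hprim : IsPrimitiveRoot (zetaP p) p := Complex.isPrimitiveRoot_exp p hp0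
  have h1 : ∑ j : Fin p, (zetaP p ^ (j : ℕ)) ^ n = ∑ j ∈ Finset.range p, (zetaP p ^ n) ^ j := by
    rw [Finset.sum_range]
    refine Finset.sum_congr rfl fun j _ => ?_
    rw [← pow_mul, ← pow_mul, mul_comm]
  rw [h1]
  split_ifs with h
  · obtain ⟨m, rfl⟩ := h
    rw [pow_mul, hprim.pow_eq_one]
    simp
  · have hne : zetaP p ^ n ≠ 1 := by
      intro h1
      exact h ((hprim.pow_eq_one_iff_dvd n).mp h1)
    rw [geom_sum_eq hne, ← pow_mul, mul_comm, pow_mul, hprim.pow_eq_one]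
    simp

theorem sum_rescale_zetaP (p : ℕ) (hp : p.Prime) (f : PowerSeries ℂ) :
    ∑ j : Fin p, PowerSeries.rescale (zetaP p ^ (j : ℕ)) f = (p : ℂ) • Vp p (Up p f) := by
  ext n
  rw [map_sum]
  simp only [PowerSeries.coeff_rescale, PowerSeries.coeff_smul, coeff_Vp, coeff_Up]
  rw [← Finset.sum_mul, zetaP_pow_sum p hp n]
  split_ifs with h
  · rw [Nat.div_mul_cancel h]
    simp
  · simp

/-! ## Power sums of the conjugate series -/

theorem sum_conjSeries_sq (p : ℕ) (hp : p.Prime) (g : PowerSeries ℂ) :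
    ∑ i : Option (Fin p), conjSeries p g i ^ 2 =
      Vp p (g ^ 2 + (1 / (p : ℂ)) • Up p (Up p g ^ 2)) := by
  have hp0 : (p : ℂ) ≠ 0 := Nat.cast_ne_zero.mpr hp.ne_zero
  rw [Fintype.sum_option]
  simp only [conjSeries, smul_pow, ← map_pow]
  rw [← Finset.smul_sum, sum_rescale_zetaP p hp, smul_smul, Vp_add, Vp_smul, Vp_pow p hp.ne_zero]
  congr 2
  field_simp

theorem sum_conjSeries_cube (p : ℕ) (hp : p.Prime) (g : PowerSeries ℂ) :
    ∑ i : Option (Fin p), conjSeries p g i ^ 3 =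
      Vp p (g ^ 3 + (-(1 / (p : ℂ) ^ 2)) • Up p (Up p g ^ 3)) := by
  have hp0 : (p : ℂ) ≠ 0 := Nat.cast_ne_zero.mpr hp.ne_zero
  rw [Fintype.sum_option]
  simp only [conjSeries, smul_pow, ← map_pow]
  rw [← Finset.smul_sum, sum_rescale_zetaP p hp, smul_smul, Vp_add, Vp_smul, Vp_pow p hp.ne_zero]
  congr 2
  field_simp

theorem sum_powersetCard_one {ι M : Type*} [Fintype ι] [DecidableEq ι] [CommSemiring M]
    (f : ι → M) :
    ∑ S ∈ (Finset.univ : Finset ι).powersetCard 1, ∏ i ∈ S, f i = ∑ i, f i := by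
  rw [Finset.powersetCard_one, Finset.sum_map]
  simp

/-! ## Level one, weights 4 and 6 -/

theorem levelOne_wt4 (hE : StmtE4E6) (k : ℤ) (hk : k = 4) (F : ModularForm 𝒮ℒ k) :
    ∃ c : ℂ, qExpansion 1 F = c • E4q ℂ := by
  subst hk
  have hfin : Module.finrank ℂ (ModularForm 𝒮ℒ 4) = 1 := by
    rw [Fermat.Agent.S20.H66.levelOne_finrank]
    norm_num
  have hE4 : (E₄ : ModularForm 𝒮ℒ 4) ≠ 0 := by
    intro h0
    have h1 : qExpansion 1 E₄ = 0 := by
      rw [h0]
      exact qExpansion_zero 1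
    have h2 := congrArg (PowerSeries.coeff 0) (hE.1.symm.trans h1)
    simp [E4q] at h2
  obtain ⟨c, hc⟩ := (finrank_eq_one_iff_of_nonzero' E₄ hE4).mp hfin F
  refine ⟨c, ?_⟩
  rw [← hc, ← hE.1]
  exact ModularForm.qExpansion_smul one_pos one_mem_strictPeriods_SL c E₄

theorem levelOne_wt6 (hE : StmtE4E6) (k : ℤ) (hk : k = 6) (F : ModularForm 𝒮ℒ k) :
    ∃ c : ℂ, qExpansion 1 F = c • E6q ℂ := by
  subst hk
  have hfin : Module.finrank ℂ (ModularForm 𝒮ℒ 6) = 1 := by
    rw [Fermat.Agent.S20.H66.levelOne_finrank]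
    norm_num
  have hE6 : (E₆ : ModularForm 𝒮ℒ 6) ≠ 0 := by
    intro h0
    have h1 : qExpansion 1 E₆ = 0 := by
      rw [h0]
      exact qExpansion_zero 1
    have h2 := congrArg (PowerSeries.coeff 0) (hE.2.symm.trans h1)
    simp [E6q] at h2
  obtain ⟨c, hc⟩ := (finrank_eq_one_iff_of_nonzero' E₆ hE6).mp hfin F
  refine ⟨c, ?_⟩
  rw [← hc, ← hE.2]
  exact ModularForm.qExpansion_smul one_pos one_mem_strictPeriods_SL c E₆

/-! ## The trace identities -/

theorem coeff_zero_Up {R : Type*} [Semiring R] (p : ℕ) (f : PowerSeries R) :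
    PowerSeries.coeff 0 (Up p f) = PowerSeries.coeff 0 f := by
  rw [coeff_Up, zero_mul]

theorem constantCoeff_Up {R : Type*} [Semiring R] (p : ℕ) (f : PowerSeries R) :
    PowerSeries.constantCoeff (Up p f) = PowerSeries.constantCoeff f := by
  have h := coeff_zero_Up p f
  rwa [PowerSeries.coeff_zero_eq_constantCoeff] at h

theorem eq2_core (h4 : StmtSym4) (hE : StmtE4E6) (p : ℕ) (hp : p.Prime)
    (G : ModularForm (Gamma0 p) 2) :
    (p : ℂ) • qExpansion 1 G ^ 2 + Up p (Up p (qExpansion 1 G) ^ 2) =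
      (((p : ℂ) + 1) * PowerSeries.coeff 0 (qExpansion 1 G) ^ 2) • E4q ℂ := by
  have hp0 : (p : ℂ) ≠ 0 := Nat.cast_ne_zero.mpr hp.ne_zero
  obtain ⟨F, -, hF⟩ := h4 p hp G 1 0 1
  rw [sum_powersetCard_one] at hF
  simp only [one_smul, zero_smul, add_zero] at hF
  rw [sum_conjSeries_sq p hp] at hF
  have hF' := Vp_injective p hp.ne_zero hF
  obtain ⟨c, hc⟩ := levelOne_wt4 hE _ (by norm_num) F
  rw [hF'] at hc
  have h0 := congrArg (PowerSeries.coeff 0) hc
  simp only [map_add, PowerSeries.coeff_smul, coeff_zero_Up, PowerSeries.coeff_zero_eq_constantCoeff,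
    map_pow, smul_eq_mul, constantCoeff_Up] at h0
  have hE0 : PowerSeries.constantCoeff (E4q ℂ) = 1 := by
    rw [← PowerSeries.coeff_zero_eq_constantCoeff]
    simp [E4q]
  rw [hE0, mul_one] at h0
  have hc' : (p : ℂ) • (qExpansion 1 G ^ 2 + (1 / (p : ℂ)) • Up p (Up p (qExpansion 1 G) ^ 2)) =
      (p : ℂ) • (c • E4q ℂ) := by rw [hc]
  rw [smul_add, smul_smul, smul_smul, mul_one_div_cancel hp0, one_smul] at hc'
  rw [hc', ← h0, PowerSeries.coeff_zero_eq_constantCoeff]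
  congr 1
  field_simp

theorem eq3_core (h6 : StmtSym6) (hE : StmtE4E6) (p : ℕ) (hp : p.Prime)
    (G : ModularForm (Gamma0 p) 2) :
    (p : ℂ) ^ 2 • qExpansion 1 G ^ 3 - Up p (Up p (qExpansion 1 G) ^ 3) =
      (((p : ℂ) ^ 2 - 1) * PowerSeries.coeff 0 (qExpansion 1 G) ^ 3) • E6q ℂ := by
  have hp0 : (p : ℂ) ≠ 0 := Nat.cast_ne_zero.mpr hp.ne_zero
  obtain ⟨F, -, hF⟩ := h6 p hp G 1 0 0 1
  rw [sum_powersetCard_one] at hF
  simp only [one_smul, zero_smul, add_zero] at hF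
  rw [sum_conjSeries_cube p hp] at hF
  have hF' := Vp_injective p hp.ne_zero hF
  obtain ⟨c, hc⟩ := levelOne_wt6 hE _ (by norm_num) F
  rw [hF'] at hc
  have h0 := congrArg (PowerSeries.coeff 0) hc
  simp only [map_add, PowerSeries.coeff_smul, coeff_zero_Up, PowerSeries.coeff_zero_eq_constantCoeff,
    map_pow, smul_eq_mul, constantCoeff_Up] at h0
  have hE0 : PowerSeries.constantCoeff (E6q ℂ) = 1 := by
    rw [← PowerSeries.coeff_zero_eq_constantCoeff]
    simp [E6q]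
  rw [hE0, mul_one] at h0
  have hc' : (p : ℂ) ^ 2 • (qExpansion 1 G ^ 3 +
      (-(1 / (p : ℂ) ^ 2)) • Up p (Up p (qExpansion 1 G) ^ 3)) = (p : ℂ) ^ 2 • (c • E6q ℂ) := by
    rw [hc]
  have hpp : (p : ℂ) ^ 2 * -(1 / (p : ℂ) ^ 2) = -1 := by field_simp
  rw [smul_add, smul_smul, smul_smul, hpp, neg_one_smul, ← sub_eq_add_neg] at hc'
  rw [hc', ← h0, PowerSeries.coeff_zero_eq_constantCoeff]
  congr 1
  field_simp
  ring

/-- **Node `StmtEq`**: the trace identities Eq2, Eq2', Eq3, Eq3'. -/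
theorem stmtEq (hF : StmtFricke) (h4 : StmtSym4) (h6 : StmtSym6) (hE : StmtE4E6) : StmtEq := by
  intro p hp G
  obtain ⟨H, hH1, hH2, -⟩ := hF p hp G
  have e2 := eq2_core h4 hE p hp G
  have e2' := eq2_core h4 hE p hp H
  have e3 := eq3_core h6 hE p hp G
  have e3' := eq3_core h6 hE p hp H
  rw [hH2, hH1, coeff_zero_Up] at e2' e3'
  rw [hH1] at hH2
  exact ⟨hH2, e2, e2', e3, e3'⟩

end Fermat.Agent.S16.H44
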