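import Mathlib
import Fermat.Agent.S16.Stmts_helper6
import Fermat.Agent.S16.Eq_helper44

/-!
# S16, node `StmtBData` (helper44): extraction of the formal data of (B)

`stmtBData : StmtEq → StmtBData`.

Given `G` with `BHyp p ℓ e G` (`a₀ = 1`, `aₙ ∈ ℓ^e ℤ_(ℓ)` for `n ≥ 1`), put
`A = ∑_{n ≥ 1} (aₙ / ℓ^e) Xⁿ ∈ ℚ⟦X⟧` and `B = U_p A`.  Then `qExp G` is the image of
`1 + ℓ^e A` in `ℂ⟦X⟧`, `U_p (qExp G)` the image of `1 + ℓ^e B`, and the identities of `StmtEq`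
descend along the injection `ℚ⟦X⟧ → ℂ⟦X⟧`.
-/

set_option autoImplicit false

namespace Fermat.Agent.S16.H44

open UpperHalfPlane ModularForm CongruenceSubgroup ModularFormClass
open scoped MatrixGroups ModularForm Manifold

/-- The coefficient embedding `ℚ⟦X⟧ → ℂ⟦X⟧`. -/
noncomputable def iotaQC : PowerSeries ℚ →+* PowerSeries ℂ := PowerSeries.map (algebraMap ℚ ℂ)

theorem coeff_iotaQC (n : ℕ) (f : PowerSeries ℚ) :
    PowerSeries.coeff n (iotaQC f) = ((PowerSeries.coeff n f : ℚ) : ℂ) := by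
  simp [iotaQC]

theorem iotaQC_injective : Function.Injective iotaQC :=
  PowerSeries.map_injective _ (algebraMap ℚ ℂ).injective

theorem iotaQC_Up (p : ℕ) (f : PowerSeries ℚ) : iotaQC (Up p f) = Up p (iotaQC f) := by
  ext n
  simp [coeff_iotaQC, coeff_Up]

theorem iotaQC_smul (a : ℚ) (f : PowerSeries ℚ) : iotaQC (a • f) = (a : ℂ) • iotaQC f := by
  ext n
  simp [coeff_iotaQC]

theorem iotaQC_E4q : iotaQC (E4q ℚ) = E4q ℂ := by
  ext n
  simp only [coeff_iotaQC, E4q, PowerSeries.coeff_mk]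
  split_ifs <;> simp

theorem iotaQC_E6q : iotaQC (E6q ℚ) = E6q ℂ := by
  ext n
  simp only [coeff_iotaQC, E6q, PowerSeries.coeff_mk]
  split_ifs <;> simp

theorem Up_one_add_smul (p : ℕ) (hp : p ≠ 0) (a : ℚ) (A : PowerSeries ℚ) :
    Up p (1 + a • A) = 1 + a • Up p A := by
  ext n
  simp only [coeff_Up, map_add, PowerSeries.coeff_one, PowerSeries.coeff_smul]
  congr 1
  simp [hp]

/-- Existence of `ℓ`-integral rational coefficients. -/
theorem exists_rat_coeff (p ℓ e : ℕ) (hℓ : ℓ.Prime) (G : ModularForm (Gamma0 p) 2)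
    (hG : BHyp p ℓ e G) (n : ℕ) :
    ∃ a : ℚ, ¬ ℓ ∣ a.den ∧ (n = 0 → a = 0) ∧
      (1 ≤ n → qCoeff ⇑G n = (ℓ : ℂ) ^ e * (a : ℂ)) := by
  rcases Nat.eq_zero_or_pos n with rfl | hn
  · refine ⟨0, ?_, fun _ => rfl, fun h => absurd h (by norm_num)⟩
    simpa using hℓ.one_lt.ne'
  · obtain ⟨m, s, hs, hms⟩ := hG.2 n hn
    have hs0 : s ≠ 0 := by
      rintro rfl
      exact hs (dvd_zero ℓ)
    have hsC : (s : ℂ) ≠ 0 := Nat.cast_ne_zero.mpr hs0
    refine ⟨(m : ℚ) / (s : ℚ), ?_, fun h => absurd h hn.ne', fun _ => ?_⟩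
    · intro hdvd
      apply hs
      have h1 : (((m : ℚ) / (s : ℚ)).den : ℤ) ∣ (s : ℤ) := by
        have := Rat.den_dvd m (s : ℤ)
        rwa [Rat.divInt_eq_div] at this
      have h2 : (ℓ : ℤ) ∣ (s : ℤ) := dvd_trans (Int.natCast_dvd_natCast.mpr hdvd) h1
      exact Int.natCast_dvd_natCast.mp h2
    · push_cast
      field_simp
      rw [← hms]
      ring

/-- **Node `StmtBData`**: extraction of the formal data. -/
theorem stmtBData (hEq : StmtEq) : StmtBData := by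
  intro p ℓ e hp hℓ he G hG
  have hp0 : p ≠ 0 := hp.ne_zero
  have hℓQ : ((ℓ : ℚ) ^ e) ≠ 0 := pow_ne_zero _ (Nat.cast_ne_zero.mpr hℓ.ne_zero)
  choose a ha1 ha2 ha3 using exists_rat_coeff p ℓ e hℓ G hG
  obtain ⟨hUU, e2, e2', e3, e3'⟩ := hEq p hp G
  -- the rational q-expansion
  have hg : qExpansion 1 ⇑G = iotaQC (1 + (ℓ : ℚ) ^ e • PowerSeries.mk a) := by
    ext n
    rw [coeff_iotaQC]
    rcases Nat.eq_zero_or_pos n with rfl | hn
    · have h0 : qCoeff ⇑G 0 = 1 := hG.1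
      rw [qCoeff] at h0
      rw [h0]
      simp [ha2 0 rfl]
    · have h1 := ha3 n hn
      rw [qCoeff] at h1
      rw [h1]
      simp [PowerSeries.coeff_one, hn.ne']
  have ha0 : PowerSeries.coeff 0 (qExpansion 1 ⇑G) = 1 := hG.1
  rw [ha0] at e2 e2' e3 e3'
  rw [hg, ← iotaQC_Up, Up_one_add_smul p hp0] at hUU e2 e2' e3 e3'
  have hc1 : ((p : ℚ) : ℂ) = (p : ℂ) := by push_cast; rfl
  have hc2 : (((p : ℚ) + 1 : ℚ) : ℂ) = ((p : ℂ) + 1) * 1 ^ 2 := by push_cast; ring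
  have hc3 : (((p : ℚ) ^ 2 : ℚ) : ℂ) = (p : ℂ) ^ 2 := by push_cast; rfl
  have hc4 : (((p : ℚ) ^ 2 - 1 : ℚ) : ℂ) = ((p : ℂ) ^ 2 - 1) * 1 ^ 3 := by push_cast; ring
  have hAB : PowerSeries.mk a = Up p (Up p (PowerSeries.mk a)) := by
    rw [← iotaQC_Up, Up_one_add_smul p hp0] at hUU
    have h1 := iotaQC_injective hUU
    have h2 : (ℓ : ℚ) ^ e • Up p (Up p (PowerSeries.mk a)) = (ℓ : ℚ) ^ e • PowerSeries.mk a :=
      add_left_cancel h1
    ext n
    have h3 := congrArg (PowerSeries.coeff n) h2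
    simp only [PowerSeries.coeff_smul, smul_eq_mul] at h3
    exact (mul_left_cancel₀ hℓQ h3).symm
  refine ⟨PowerSeries.mk a, Up p (PowerSeries.mk a), ⟨?_, ?_, ?_, ?_, rfl, hAB, ?_, ?_, ?_, ?_⟩,
    ?_, ?_⟩
  · simp [ha2 0 rfl]
  · rw [coeff_zero_Up]
    simp [ha2 0 rfl]
  · intro n
    simpa using ha1 n
  · intro n
    rw [coeff_Up]
    simpa using ha1 (n * p)
  · apply iotaQC_injective
    rw [map_add, iotaQC_smul, iotaQC_smul, iotaQC_Up, map_pow, map_pow, iotaQC_E4q, hc1, hc2]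
    exact e2
  · apply iotaQC_injective
    rw [map_add, iotaQC_smul, iotaQC_smul, iotaQC_Up, map_pow, map_pow, iotaQC_E4q, hc1, hc2]
    exact e2'
  · apply iotaQC_injective
    rw [map_sub, iotaQC_smul, iotaQC_smul, iotaQC_Up, map_pow, map_pow, iotaQC_E6q, hc3, hc4]
    exact e3
  · apply iotaQC_injective
    rw [map_sub, iotaQC_smul, iotaQC_smul, iotaQC_Up, map_pow, map_pow, iotaQC_E6q, hc3, hc4]
    exact e3'
  · intro n
    rw [qCoeff, hg, coeff_iotaQC]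
  · intro n
    have h := congrArg (PowerSeries.coeff n) (Up_one_add_smul p hp0 ((ℓ : ℚ) ^ e) (PowerSeries.mk a))
    rw [coeff_Up] at h
    rw [qCoeff, hg, coeff_iotaQC, h]

end Fermat.Agent.S16.H44
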