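import Mathlib
import Fermat.Agent.S16.Stmts_helper6

/-!
# S16, cases (C1) `ℓ = p` and (C2) `ℓ ≥ 5`, `ℓ ≠ p`, `ℓ ∤ p + 1` of the constant-term bound (B)

Pure arithmetic of the coefficients of `q^1` and `q^p` in the identities Eq2, Eq2', Eq3 of
`BData`.  The ring `ℤ_(ℓ)` is realised as the subring `Zl ℓ` of `ℚ`.
-/

set_option autoImplicit false

namespace Fermat.Agent.S16.H76

open PowerSeries

/-! ### Abstract coefficient arithmetic in an `ℓ`-adically faithful domain -/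

section Abstract

variable {R : Type*} [CommRing R] {l p e : ℕ}

theorem natCast_ne_zero_of_faithful
    (hR : ∀ (N : ℕ) (m : ℤ), (l : R) ^ N ∣ (m : R) → (l : ℤ) ^ N ∣ m) (hl : l.Prime) :
    (l : R) ≠ 0 := by
  intro h0
  have h1 : (l : R) ^ 2 ∣ ((l : ℤ) : R) := by
    rw [Int.cast_natCast, h0]
    exact ⟨0, by ring⟩
  have h2 := hR 2 l h1
  have h3 : (l : ℤ) ^ 2 ∣ (l : ℤ) ^ 1 := by simpa using h2
  have h4 : l ^ 2 ∣ l ^ 1 := by exact_mod_cast h3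
  have := (Nat.pow_dvd_pow_iff_le_right hl.one_lt).mp h4
  omega

/-- Coefficient `q^1` of `Eq2`: `l ^ min (e + f) (2 e) ∣ 240 (p + 1)` when `l ^ f ∣ 2 (p + 1)`. -/
theorem dvd_of_coeff_one
    (hR : ∀ (N : ℕ) (m : ℤ), (l : R) ^ N ∣ (m : R) → (l : ℤ) ^ N ∣ m)
    (a c : ℕ → R)
    (hA : ∀ k, ((2 * (p + 1) * l ^ e : ℕ) : R) * a k + ((l ^ e : ℕ) : R) ^ 2 * c k
      = ((240 * (p + 1) * ArithmeticFunction.sigma 3 k : ℕ) : R))
    (f : ℕ) (hf : l ^ f ∣ 2 * (p + 1)) :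
    l ^ (min (e + f) (2 * e)) ∣ 240 * (p + 1) := by
  obtain ⟨w, hw⟩ := hf
  have h1 := hA 1
  have hσ : ArithmeticFunction.sigma 3 1 = 1 := by simp
  rw [hσ, mul_one] at h1
  have h2 : (l : R) ^ (min (e + f) (2 * e)) ∣ (((240 * (p + 1) : ℕ) : ℤ) : R) := by
    rw [Int.cast_natCast, ← h1]
    apply dvd_add
    · apply Dvd.dvd.mul_right
      have : ((2 * (p + 1) * l ^ e : ℕ) : R) = (l : R) ^ (e + f) * (w : R) := by
        rw [hw]
        push_cast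
        ring
      rw [this]
      exact Dvd.dvd.mul_right (pow_dvd_pow _ (min_le_left _ _)) _
    · apply Dvd.dvd.mul_right
      have : ((l ^ e : ℕ) : R) ^ 2 = (l : R) ^ (2 * e) := by
        push_cast
        ring
      rw [this]
      exact pow_dvd_pow _ (min_le_right _ _)
  have h3 := hR _ _ h2
  exact_mod_cast h3

/-- Comparison of the coefficient `q^p` of the `A`-equation with the coefficient `q^1` of the
`B`-equation (`b_1 = a_p`). -/
theorem dvd_of_coeff_prime [IsDomain R]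
    (hR : ∀ (N : ℕ) (m : ℤ), (l : R) ^ N ∣ (m : R) → (l : ℤ) ^ N ∣ m) (hl : l.Prime)
    (hp : p.Prime) (a b c c' : ℕ → R)
    (hA : ∀ k, ((2 * (p + 1) * l ^ e : ℕ) : R) * a k + ((l ^ e : ℕ) : R) ^ 2 * c k
      = ((240 * (p + 1) * ArithmeticFunction.sigma 3 k : ℕ) : R))
    (hB : ∀ k, ((2 * (p + 1) * l ^ e : ℕ) : R) * b k + ((l ^ e : ℕ) : R) ^ 2 * c' k
      = ((240 * (p + 1) * ArithmeticFunction.sigma 3 k : ℕ) : R))
    (hab : b 1 = a p)
    (t n₁ n₃ : ℕ) (ht : t ≤ 2 * e) (h1 : 2 * (p + 1) * l ^ e = l ^ t * n₁)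
    (h3 : 240 * (p + 1) = l ^ t * n₃)
    (hc : t < 2 * e ∨ ((l : R) ∣ c p ∧ (l : R) ∣ c' 1)) :
    l ∣ n₃ * p ^ 3 := by
  have hL : (l : R) ≠ 0 := natCast_ne_zero_of_faithful hR hl
  have hLt : (l : R) ^ t ≠ 0 := pow_ne_zero _ hL
  obtain ⟨s, hs⟩ : ∃ s, 2 * e = t + s := ⟨2 * e - t, by omega⟩
  have hσ1 : ArithmeticFunction.sigma 3 1 = 1 := by simp
  have hσp : ArithmeticFunction.sigma 3 p = 1 + p ^ 3 := by
    rw [ArithmeticFunction.sigma_apply, hp.divisors, Finset.sum_pair hp.one_lt.ne]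
    simp
  have hl2 : ((l ^ e : ℕ) : R) ^ 2 = (l : R) ^ t * (l : R) ^ s := by
    push_cast
    rw [← pow_mul, ← pow_add, mul_comm e 2, hs]
  have eA : (n₁ : R) * a p + (l : R) ^ s * c p = (n₃ : R) * ((1 + p ^ 3 : ℕ) : R) := by
    have h := hA p
    rw [h1, hl2, hσp, mul_assoc, h3] at h
    apply mul_left_cancel₀ hLt
    push_cast at h ⊢
    linear_combination h
  have eB : (n₁ : R) * b 1 + (l : R) ^ s * c' 1 = (n₃ : R) := by
    have h := hB 1
    rw [h1, hl2, hσ1, mul_one, h3] at h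
    apply mul_left_cancel₀ hLt
    push_cast at h ⊢
    linear_combination h
  have hdiff : (l : R) ^ s * (c p - c' 1) = (((n₃ * p ^ 3 : ℕ) : ℤ) : R) := by
    rw [hab] at eB
    push_cast at eA ⊢
    linear_combination eA - eB
  have hdvd : (l : R) ^ 1 ∣ (((n₃ * p ^ 3 : ℕ) : ℤ) : R) := by
    rw [← hdiff, pow_one]
    rcases hc with hc | ⟨hc1, hc2⟩
    · have hs1 : 1 ≤ s := by omega
      exact Dvd.dvd.mul_right (dvd_pow_self _ (by omega)) _
    · exact Dvd.dvd.mul_left (dvd_sub hc1 hc2) _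
  have h5 := hR 1 _ hdvd
  rw [pow_one] at h5
  exact_mod_cast h5

end Abstract

/-! ### The ring `ℤ_(ℓ)` inside `ℚ` -/

section ZlSec

/-- `ℤ_(ℓ)`: the rationals whose denominator is prime to `ℓ`. -/
def Zl (l : ℕ) (hl : l.Prime) : Subring ℚ where
  carrier := {x | ¬ l ∣ x.den}
  mul_mem' := by
    intro a b ha hb h
    rcases (hl.dvd_mul).mp (h.trans (Rat.mul_den_dvd a b)) with h2 | h2
    · exact ha h2
    · exact hb h2
  one_mem' := by
    show ¬ l ∣ (1 : ℚ).den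
    rw [Rat.den_one, Nat.dvd_one]
    exact hl.ne_one
  add_mem' := by
    intro a b ha hb h
    rcases (hl.dvd_mul).mp (h.trans (Rat.add_den_dvd a b)) with h2 | h2
    · exact ha h2
    · exact hb h2
  zero_mem' := by
    show ¬ l ∣ (0 : ℚ).den
    rw [Rat.den_zero, Nat.dvd_one]
    exact hl.ne_one
  neg_mem' := by
    intro a ha
    show ¬ l ∣ (-a).den
    rw [Rat.neg_den]
    exact ha

theorem mem_Zl (l : ℕ) (hl : l.Prime) (x : ℚ) : x ∈ Zl l hl ↔ ¬ l ∣ x.den := Iff.rfl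

/-- `ℤ_(ℓ)` is `ℓ`-adically faithful. -/
theorem Zl_faithful (l : ℕ) (hl : l.Prime) (N : ℕ) (m : ℤ)
    (h : ((l : ℕ) : Zl l hl) ^ N ∣ ((m : ℤ) : Zl l hl)) : (l : ℤ) ^ N ∣ m := by
  obtain ⟨⟨x, hx⟩, h1⟩ := h
  have h2 : (m : ℚ) = (l : ℚ) ^ N * x := by
    have := congrArg (Subring.subtype _) h1
    simpa using this
  have h3 : (m : ℚ) * x.den = (l : ℚ) ^ N * x.num := by
    rw [h2, mul_assoc, Rat.mul_den_eq_num]
  have h4 : m * (x.den : ℤ) = (l : ℤ) ^ N * x.num := by exact_mod_cast h3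
  have hcop : IsCoprime ((l : ℤ) ^ N) (x.den : ℤ) := by
    apply IsCoprime.pow_left
    rw [Int.isCoprime_iff_gcd_eq_one, Int.gcd_natCast_natCast]
    exact (Nat.Prime.coprime_iff_not_dvd hl).mpr hx
  exact hcop.dvd_of_dvd_mul_right ⟨x.num, h4⟩

/-- A power series over `ℚ` with `ℓ`-integral coefficients. -/
def IsInt (l : ℕ) (hl : l.Prime) (f : PowerSeries ℚ) : Prop := ∀ n, coeff n f ∈ Zl l hl

theorem IsInt.mul {l : ℕ} {hl : l.Prime} {f g : PowerSeries ℚ} (hf : IsInt l hl f)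
    (hg : IsInt l hl g) : IsInt l hl (f * g) := by
  intro n
  rw [PowerSeries.coeff_mul]
  exact Subring.sum_mem _ fun x _ => Subring.mul_mem _ (hf _) (hg _)

theorem IsInt.sq {l : ℕ} {hl : l.Prime} {f : PowerSeries ℚ} (hf : IsInt l hl f) :
    IsInt l hl (f ^ 2) := by
  rw [pow_two]
  exact hf.mul hf

theorem IsInt.cube {l : ℕ} {hl : l.Prime} {f : PowerSeries ℚ} (hf : IsInt l hl f) :
    IsInt l hl (f ^ 3) := by
  rw [pow_succ]
  exact hf.sq.mul hf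

end ZlSec

/-! ### Coefficient identities over `ℚ` -/

theorem coeff_Up (p n : ℕ) (f : PowerSeries ℚ) : coeff n (Up p f) = coeff (n * p) f := by
  simp [Up]

theorem sq_expand (c : ℚ) (F : PowerSeries ℚ) :
    (1 + c • F) ^ 2 = 1 + (2 * c) • F + c ^ 2 • F ^ 2 := by
  simp only [PowerSeries.smul_eq_C_mul, map_mul, map_pow, map_ofNat]
  ring

theorem cube_expand (c : ℚ) (F : PowerSeries ℚ) :
    (1 + c • F) ^ 3 = 1 + c • ((3 : ℚ) • F + (3 * c) • F ^ 2 + c ^ 2 • F ^ 3) := by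
  simp only [PowerSeries.smul_eq_C_mul, map_mul, map_pow, map_ofNat]
  ring

/-- `Eq2`, coefficientwise. -/
theorem eq2_coeff (l p e : ℕ) (hp : p ≠ 0) (A B : PowerSeries ℚ) (hAB : A = Up p B)
    (eq2 : (p : ℚ) • (1 + (l : ℚ) ^ e • A) ^ 2 + Up p ((1 + (l : ℚ) ^ e • B) ^ 2) =
      ((p : ℚ) + 1) • E4q ℚ) (k : ℕ) :
    (2 * ((p : ℚ) + 1) * (l : ℚ) ^ e) * coeff k A
        + ((l : ℚ) ^ e) ^ 2 * ((p : ℚ) * coeff k (A ^ 2) + coeff (k * p) (B ^ 2))
      = 240 * ((p : ℚ) + 1) * (ArithmeticFunction.sigma 3 k : ℚ) := by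
  have h := congrArg (coeff k) eq2
  have hb : coeff (k * p) B = coeff k A := by rw [hAB, coeff_Up]
  rw [sq_expand, sq_expand] at h
  simp only [map_add, coeff_smul, coeff_Up, smul_eq_mul, hb, E4q, coeff_mk, coeff_one] at h
  rcases Nat.eq_zero_or_pos k with hk | hk
  · subst hk
    simp only [zero_mul, if_true] at h
    simp only [ArithmeticFunction.map_zero, Nat.cast_zero, mul_zero, zero_mul]
    linear_combination h
  · have hk0 : k ≠ 0 := by omega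
    have hkp : k * p ≠ 0 := Nat.mul_ne_zero hk0 hp
    simp only [hk0, hkp, if_false] at h
    linear_combination h

/-- Coefficient `q^1` of `Eq3`. -/
theorem eq3_coeff_one (l p e : ℕ) (hp : p ≠ 0) (A B : PowerSeries ℚ)
    (eq3 : (p : ℚ) ^ 2 • (1 + (l : ℚ) ^ e • A) ^ 3 - Up p ((1 + (l : ℚ) ^ e • B) ^ 3) =
      ((p : ℚ) ^ 2 - 1) • E6q ℚ) :
    (l : ℚ) ^ e * ((p : ℚ) ^ 2 * (3 * coeff 1 A + 3 * (l : ℚ) ^ e * coeff 1 (A ^ 2)
        + ((l : ℚ) ^ e) ^ 2 * coeff 1 (A ^ 3))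
      - (3 * coeff p B + 3 * (l : ℚ) ^ e * coeff p (B ^ 2)
        + ((l : ℚ) ^ e) ^ 2 * coeff p (B ^ 3)))
      = -(504 * ((p : ℚ) ^ 2 - 1)) := by
  have h := congrArg (coeff 1) eq3
  rw [cube_expand, cube_expand] at h
  simp only [map_add, map_sub, coeff_smul, coeff_Up, smul_eq_mul, E6q, coeff_mk, coeff_one,
    one_mul] at h
  have h1 : (1 : ℕ) ≠ 0 := one_ne_zero
  simp only [h1, hp, if_false] at h
  have hσ : ArithmeticFunction.sigma 5 1 = 1 := by simp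
  rw [hσ] at h
  push_cast at h
  linear_combination h

/-! ### The bridge from `BData` and the two cases -/

theorem prime_dvd_240 {l : ℕ} (hl : l.Prime) (h : l ∣ 240) : l = 2 ∨ l = 3 ∨ l = 5 := by
  have h240 : (240 : ℕ) = 2 ^ 4 * 3 * 5 := by norm_num
  rw [h240] at h
  rcases (Nat.Prime.dvd_mul hl).mp h with h | h
  · rcases (Nat.Prime.dvd_mul hl).mp h with h | h
    · left
      exact (Nat.prime_dvd_prime_iff_eq hl Nat.prime_two).mp (hl.dvd_of_dvd_pow h)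
    · right; left
      exact (Nat.prime_dvd_prime_iff_eq hl Nat.prime_three).mp h
  · right; right
    exact (Nat.prime_dvd_prime_iff_eq hl Nat.prime_five).mp h

section Bridge

variable {p l e : ℕ} {A B : PowerSeries ℚ}

/-- The coefficient form of `Eq2` inside `ℤ_(ℓ)`. -/
theorem exists_seq_of_eq2 (hl : l.Prime) (hp : p ≠ 0) (A B : PowerSeries ℚ)
    (hA : IsInt l hl A) (hB : IsInt l hl B) (hAB : A = Up p B)
    (eq2 : (p : ℚ) • (1 + (l : ℚ) ^ e • A) ^ 2 + Up p ((1 + (l : ℚ) ^ e • B) ^ 2) =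
      ((p : ℚ) + 1) • E4q ℚ) :
    ∃ a c : ℕ → Zl l hl, (∀ k, ((a k : Zl l hl) : ℚ) = coeff k A) ∧
      (∀ k, ((c k : Zl l hl) : ℚ) = (p : ℚ) * coeff k (A ^ 2) + coeff (k * p) (B ^ 2)) ∧
      ∀ k, ((2 * (p + 1) * l ^ e : ℕ) : Zl l hl) * a k + ((l ^ e : ℕ) : Zl l hl) ^ 2 * c k
        = ((240 * (p + 1) * ArithmeticFunction.sigma 3 k : ℕ) : Zl l hl) := by
  refine ⟨fun k => ⟨coeff k A, hA k⟩,
    fun k => ⟨(p : ℚ) * coeff k (A ^ 2) + coeff (k * p) (B ^ 2), ?_⟩, fun k => rfl,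
    fun k => rfl, ?_⟩
  · exact Subring.add_mem _ (Subring.mul_mem _ (natCast_mem _ p) (hA.sq k)) (hB.sq _)
  · intro k
    apply Subtype.ext
    have := eq2_coeff l p e hp A B hAB eq2 k
    simp only [Subring.coe_mul, Subring.coe_add, Subring.coe_pow, Subring.coe_natCast]
    push_cast
    linear_combination this

/-- Coefficient `q^1` of `Eq2`. -/
theorem bdata_dvd_one (hl : l.Prime) (hp : p.Prime) (hD : BData p l e A B) (f : ℕ)
    (hf : l ^ f ∣ 2 * (p + 1)) : l ^ (min (e + f) (2 * e)) ∣ 240 * (p + 1) := by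
  obtain ⟨a, c, -, -, h⟩ :=
    exists_seq_of_eq2 hl hp.ne_zero A B (fun n => hD.intA n) (fun n => hD.intB n) hD.hAB hD.eq2
  exact dvd_of_coeff_one (Zl_faithful l hl) a c h f hf

/-- Coefficient `q^p` of `Eq2` against coefficient `q^1` of `Eq2'`. -/
theorem bdata_dvd_prime (hl : l.Prime) (hp : p.Prime) (hD : BData p l e A B) (t n₁ n₃ : ℕ)
    (ht : t < 2 * e) (h1 : 2 * (p + 1) * l ^ e = l ^ t * n₁) (h3 : 240 * (p + 1) = l ^ t * n₃) :
    l ∣ n₃ * p ^ 3 := by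
  obtain ⟨a, c, ha, -, hA⟩ :=
    exists_seq_of_eq2 hl hp.ne_zero A B (fun n => hD.intA n) (fun n => hD.intB n) hD.hAB hD.eq2
  obtain ⟨b, c', hb, -, hB⟩ :=
    exists_seq_of_eq2 hl hp.ne_zero B A (fun n => hD.intB n) (fun n => hD.intA n) hD.hBA hD.eq2'
  have hab : b 1 = a p := by
    apply Subtype.ext
    have h := congrArg (coeff 1) hD.hBA
    rw [coeff_Up, one_mul] at h
    rw [hb, ha, h]
  exact dvd_of_coeff_prime (Zl_faithful l hl) hl hp a b c c' hA hB hab t n₁ n₃ ht.le h1 h3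
    (Or.inl ht)

/-- Coefficient `q^1` of `Eq3`. -/
theorem bdata_dvd_eq3 (hl : l.Prime) (hp : p.Prime) (hD : BData p l e A B) :
    (l : ℤ) ^ e ∣ 504 * ((p : ℤ) ^ 2 - 1) := by
  have hA : IsInt l hl A := fun n => hD.intA n
  have hB : IsInt l hl B := fun n => hD.intB n
  set x : Zl l hl := (p : Zl l hl) ^ 2 * (((3 : ℕ) : Zl l hl) * ⟨coeff 1 A, hA 1⟩
      + ((3 : ℕ) : Zl l hl) * (l : Zl l hl) ^ e * ⟨coeff 1 (A ^ 2), hA.sq 1⟩
      + ((l : Zl l hl) ^ e) ^ 2 * ⟨coeff 1 (A ^ 3), hA.cube 1⟩)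
    - (((3 : ℕ) : Zl l hl) * ⟨coeff p B, hB p⟩
      + ((3 : ℕ) : Zl l hl) * (l : Zl l hl) ^ e * ⟨coeff p (B ^ 2), hB.sq p⟩
      + ((l : Zl l hl) ^ e) ^ 2 * ⟨coeff p (B ^ 3), hB.cube p⟩) with hx
  have h1 : ((l : ℕ) : Zl l hl) ^ e * x = ((-(504 * ((p : ℤ) ^ 2 - 1)) : ℤ) : Zl l hl) := by
    apply Subtype.ext
    have := eq3_coeff_one l p e hp.ne_zero A B hD.eq3
    rw [hx]
    simp only [Subring.coe_mul, Subring.coe_add, AddSubgroupClass.coe_sub, Subring.coe_pow,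
      Subring.coe_natCast, Subring.coe_intCast]
    push_cast
    linear_combination this
  have h2 := Zl_faithful l hl e _ ⟨x, h1.symm⟩
  exact (Int.dvd_neg).mp h2

end Bridge

/-- (C1) `ℓ = p`. -/
theorem stmtC1 : StmtC1 := by
  intro p e A B hp he hD
  refine ⟨?_, ?_, ?_⟩
  · intro h5
    have h1 : p ^ (min (e + 0) (2 * e)) ∣ 240 * (p + 1) :=
      bdata_dvd_one hp hp hD 0 (by simp)
    have h2 : p ∣ 240 * (p + 1) := (dvd_pow_self p (by omega)).trans h1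
    have h3 : p ∣ 240 := by
      rcases (hp.dvd_mul).mp h2 with h | h
      · exact h
      · exfalso
        have : p ∣ 1 := (Nat.dvd_add_right (dvd_refl p)).mp h
        exact hp.one_lt.ne' (Nat.dvd_one.mp this)
    have h4 : p = 5 := by
      rcases prime_dvd_240 hp h3 with h | h | h <;> omega
    subst h4
    have h6 := bdata_dvd_eq3 hp hp hD
    have h7 : ((5 : ℕ) : ℤ) ∣ 504 * (((5 : ℕ) : ℤ) ^ 2 - 1) :=
      (dvd_pow_self _ (by omega)).trans h6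
    norm_num at h7
  · intro h3 h2e
    subst h3
    have h1 : 3 ^ (min (e + 0) (2 * e)) ∣ 240 * (3 + 1) :=
      bdata_dvd_one hp hp hD 0 (by simp)
    have h2 : 3 ^ 2 ∣ 240 * (3 + 1) := (pow_dvd_pow 3 (by omega)).trans h1
    norm_num at h2
  · intro h2 h4e
    subst h2
    have h1 : 2 ^ (min (e + 1) (2 * e)) ∣ 240 * (2 + 1) :=
      bdata_dvd_one hp hp hD 1 (by norm_num)
    have h2 : 2 ^ 5 ∣ 240 * (2 + 1) := (pow_dvd_pow 2 (by omega)).trans h1
    norm_num at h2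

/-- (C2) `ℓ ≥ 5`, `ℓ ≠ p`, `ℓ ∤ p + 1`. -/
theorem stmtC2 : StmtC2 := by
  intro p l e A B hp hl he hD h5 hlp hndvd
  have h1 : l ^ (min (e + 0) (2 * e)) ∣ 240 * (p + 1) :=
    bdata_dvd_one hl hp hD 0 (by simp)
  have hmin : min (e + 0) (2 * e) = e := by omega
  rw [hmin] at h1
  have hcop : Nat.Coprime (l ^ e) (p + 1) :=
    Nat.Coprime.pow_left _ ((Nat.Prime.coprime_iff_not_dvd hl).mpr hndvd)
  have h2 : l ^ e ∣ 240 := hcop.dvd_of_dvd_mul_right h1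
  have h3 : l ∣ 240 := (dvd_pow_self l (by omega)).trans h2
  have h4 : l = 5 := by
    rcases prime_dvd_240 hl h3 with h | h | h <;> omega
  subst h4
  have he1 : e = 1 := by
    by_contra hne
    have h6 : 5 ^ 2 ∣ 240 := (pow_dvd_pow 5 (by omega)).trans h2
    norm_num at h6
  subst he1
  have h7 : 5 ∣ 48 * (p + 1) * p ^ 3 :=
    bdata_dvd_prime hl hp hD 1 (2 * (p + 1)) (48 * (p + 1)) (by norm_num) (by ring) (by ring)
  rcases (Nat.Prime.dvd_mul hl).mp h7 with h | h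
  · rcases (Nat.Prime.dvd_mul hl).mp h with h | h
    · norm_num at h
    · exact hndvd h
  · exact hlp ((Nat.prime_dvd_prime_iff_eq hl hp).mp (hl.dvd_of_dvd_pow h))

end Fermat.Agent.S16.H76
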