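import Mathlib

/-!
# S16, upper bound (B): the elementary cases  (helper18)

Pure power-series arithmetic.  `g = 1 + l^e A` is the `q`-expansion of a weight two form on
`Γ₀(p)` with constant term one whose higher coefficients are divisible by `l^e`, `u = U_p g`.
From the two trace identities

* Eq2 : `p g² + U_p(u²) = (p+1) E₄` (and the same with `g`, `u` exchanged),
* Eq3 : `p² g³ - U_p(u³) = (p²-1) E₆` (only its `q¹` coefficient, only for `l = p = 5`),

and `U_p u = g` we derive `l^e ∣ 24 / gcd (p-1, 12)` except in the three cases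
`5 ≤ l ∣ p+1`, `l = 3, 9 ∣ p+1`, `l = 2, p ≡ 7 mod 8`.
-/

namespace Fermat.Agent.S16.H18

open PowerSeries

section Basic

variable {O : Type*} [CommRing O]

/-- Cross terms of a square cancel modulo two. -/
theorem coeff_sq_two (A : PowerSeries O) (k : ℕ) :
    ∃ c : O, coeff k (A ^ 2) = 2 * c + (if 2 ∣ k then (coeff (k / 2) A) ^ 2 else 0) := by
  classical
  set F : ℕ × ℕ → O := fun x => coeff x.1 A * coeff x.2 A with hF
  have hsplit : ∑ x ∈ Finset.HasAntidiagonal.antidiagonal k, F x
      = ∑ x ∈ (Finset.HasAntidiagonal.antidiagonal k).filter (fun x => x.1 < x.2), F x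
        + ∑ x ∈ (Finset.HasAntidiagonal.antidiagonal k).filter (fun x => x.2 < x.1), F x
        + ∑ x ∈ (Finset.HasAntidiagonal.antidiagonal k).filter (fun x => x.1 = x.2), F x := by
    rw [Finset.sum_filter, Finset.sum_filter, Finset.sum_filter, ← Finset.sum_add_distrib,
      ← Finset.sum_add_distrib]
    refine Finset.sum_congr rfl fun x _ => ?_
    rcases lt_trichotomy x.1 x.2 with h | h | h
    · simp [h, h.ne, h.not_gt]
    · simp [h]
    · simp [h, h.ne', h.not_gt]
  have hswap : ∑ x ∈ (Finset.HasAntidiagonal.antidiagonal k).filter (fun x => x.2 < x.1), F x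
      = ∑ x ∈ (Finset.HasAntidiagonal.antidiagonal k).filter (fun x => x.1 < x.2), F x := by
    refine Finset.sum_nbij' Prod.swap Prod.swap ?_ ?_ ?_ ?_ ?_
    · intro x hx
      simp only [Finset.mem_filter, Finset.HasAntidiagonal.mem_antidiagonal] at hx
      simp only [Finset.mem_filter, Finset.HasAntidiagonal.mem_antidiagonal, Prod.fst_swap, Prod.snd_swap]
      exact ⟨by omega, hx.2⟩
    · intro x hx
      simp only [Finset.mem_filter, Finset.HasAntidiagonal.mem_antidiagonal] at hx
      simp only [Finset.mem_filter, Finset.HasAntidiagonal.mem_antidiagonal, Prod.fst_swap, Prod.snd_swap]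
      exact ⟨by omega, hx.2⟩
    · intro x _; rfl
    · intro x _; rfl
    · intro x _; simp only [hF, Prod.fst_swap, Prod.snd_swap]; ring
  have hdiag : ∑ x ∈ (Finset.HasAntidiagonal.antidiagonal k).filter (fun x => x.1 = x.2), F x
      = if 2 ∣ k then (coeff (k / 2) A) ^ 2 else 0 := by
    split_ifs with h
    · obtain ⟨m, rfl⟩ := h
      rw [Finset.sum_eq_single (m, m)]
      · simp only [hF]
        rw [Nat.mul_div_cancel_left m (by norm_num : 0 < 2)]; ring
      · intro x hx hne
        simp only [Finset.mem_filter, Finset.HasAntidiagonal.mem_antidiagonal] at hx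
        exfalso; apply hne
        ext <;> simp <;> omega
      · intro hx
        exfalso; apply hx
        simp only [Finset.mem_filter, Finset.HasAntidiagonal.mem_antidiagonal]
        exact ⟨by ring, trivial⟩
    · refine Finset.sum_eq_zero fun x hx => ?_
      simp only [Finset.mem_filter, Finset.HasAntidiagonal.mem_antidiagonal] at hx
      exfalso; apply h
      exact ⟨x.1, by omega⟩
  refine ⟨∑ x ∈ (Finset.HasAntidiagonal.antidiagonal k).filter (fun x => x.1 < x.2), F x, ?_⟩
  rw [sq, PowerSeries.coeff_mul, hsplit, hswap, hdiag]; ring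

/-- For odd `p` and `U_p B = A` the series `p A² + U_p (B²)` vanishes modulo two. -/
theorem two_dvd_quad (p : ℕ) (hp : Odd p) (A B : PowerSeries O)
    (hAB : ∀ k, coeff (p * k) B = coeff k A) (k : ℕ) :
    (2 : O) ∣ (p : O) * coeff k (A ^ 2) + coeff (p * k) (B ^ 2) := by
  obtain ⟨c, hc⟩ := coeff_sq_two A k
  obtain ⟨c', hc'⟩ := coeff_sq_two B (p * k)
  obtain ⟨n, rfl⟩ := hp
  by_cases h2 : 2 ∣ k
  · obtain ⟨j, rfl⟩ := h2
    have h2' : 2 ∣ (2 * n + 1) * (2 * j) := ⟨(2 * n + 1) * j, by ring⟩
    have hdiv : (2 * n + 1) * (2 * j) / 2 = (2 * n + 1) * j := by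
      rw [show (2 * n + 1) * (2 * j) = 2 * ((2 * n + 1) * j) by ring,
        Nat.mul_div_cancel_left _ (by norm_num : 0 < 2)]
    rw [hc, hc', if_pos ⟨j, rfl⟩, if_pos h2', hdiv, hAB,
      Nat.mul_div_cancel_left j (by norm_num : 0 < 2)]
    refine ⟨(2 * (n : O) + 1) * c + (n : O) * coeff j A ^ 2 + c' + coeff j A ^ 2, ?_⟩
    push_cast; ring
  · have h2' : ¬ 2 ∣ (2 * n + 1) * k := by
      intro h
      rcases (Nat.Prime.dvd_mul Nat.prime_two).mp h with h | h
      · omega
      · exact h2 h
    rw [hc, hc', if_neg h2, if_neg h2']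
    refine ⟨(2 * (n : O) + 1) * c + c', ?_⟩
    push_cast; ring

/-- The expansion of the degree two trace identity. -/
theorem expand2 (p : ℕ) (hp : 0 < p) (L : O) (A B : PowerSeries O)
    (hAB : ∀ k, coeff (p * k) B = coeff k A) (k : ℕ) (hk : 0 < k) :
    (p : O) * coeff k ((1 + C L * A) ^ 2) + coeff (p * k) ((1 + C L * B) ^ 2)
      = 2 * ((p : O) + 1) * L * coeff k A
        + L ^ 2 * ((p : O) * coeff k (A ^ 2) + coeff (p * k) (B ^ 2)) := by
  have h1 : ∀ X : PowerSeries O, (1 + C L * X) ^ 2 = 1 + C L * (X + X + C L * X ^ 2) := by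
    intro X; ring
  have hk0 : k ≠ 0 := hk.ne'
  have hpk0 : p * k ≠ 0 := Nat.mul_ne_zero hp.ne' hk0
  rw [h1 A, h1 B]
  simp only [map_add, PowerSeries.coeff_C_mul, PowerSeries.coeff_one, if_neg hk0, if_neg hpk0,
    hAB]
  ring

/-- All higher coefficients of `(1 + L B)³` are divisible by `L`. -/
theorem dvd_coeff_cube (L : O) (B : PowerSeries O) (n : ℕ) (hn : 0 < n) :
    L ∣ coeff n ((1 + C L * B) ^ 3) := by
  have h1 : (1 + C L * B) ^ 3 = 1 + C L * (B * (3 + 3 * (C L * B) + (C L * B) ^ 2)) := by ring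
  rw [h1]
  simp only [map_add, PowerSeries.coeff_C_mul, PowerSeries.coeff_one, if_neg hn.ne', zero_add]
  exact Dvd.intro _ rfl

/-- Cancelling an integer prime to `l`. -/
theorem dvd_of_not_dvd_mul (l : ℕ) (hl : l.Prime) (c : ℕ) (hc : ¬ l ∣ c) (r : O)
    (h : (l : O) ∣ (c : O) * r) : (l : O) ∣ r := by
  have hcop : IsCoprime (c : ℤ) (l : ℤ) :=
    Nat.isCoprime_iff_coprime.mpr ((Nat.Prime.coprime_iff_not_dvd hl).mpr hc).symm
  obtain ⟨x, y, hxy⟩ := hcop
  have hxy' : (x : O) * (c : O) + (y : O) * (l : O) = 1 := by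
    have := congrArg (Int.cast : ℤ → O) hxy
    push_cast at this
    exact this
  have hr : r = (x : O) * ((c : O) * r) + (l : O) * ((y : O) * r) := by
    linear_combination (-r) * hxy'
  rw [hr]
  exact (Dvd.dvd.mul_left h _).add (Dvd.intro _ rfl)

end Basic

section Domain

variable {O : Type*} [CommRing O] [IsDomain O] [CharZero O]

/-- `O ∩ ℚ = ℤ_(l)`, for powers of `l`. -/
theorem pow_dvd_int_of (l : ℕ) (hl : l.Prime)
    (hO : ∀ m : ℤ, (l : O) ∣ (m : O) → (l : ℤ) ∣ m) (n : ℕ) :
    ∀ m : ℤ, (l : O) ^ n ∣ (m : O) → (l : ℤ) ^ n ∣ m := by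
  have hl0 : (l : O) ≠ 0 := Nat.cast_ne_zero.mpr hl.ne_zero
  induction n with
  | zero => intro m _; simp
  | succ n ih =>
    intro m hm
    have h1 : (l : O) ∣ (m : O) := dvd_trans (dvd_pow_self _ (Nat.succ_ne_zero n)) hm
    obtain ⟨m', rfl⟩ := hO m h1
    obtain ⟨r, hr⟩ := hm
    have h2 : ((m' : ℤ) : O) = (l : O) ^ n * r := by
      apply mul_left_cancel₀ hl0
      rw [← mul_assoc, ← pow_succ']
      rw [← hr]; push_cast; ring
    have h3 := ih m' ⟨r, h2⟩
    rw [pow_succ']
    exact mul_dvd_mul_left _ h3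

omit [IsDomain O] [CharZero O] in
/-- The final contradiction in the `mod l` cases: `A ≡ d S₃ ≡ B` but `b₁ = a_p`. -/
theorem modl_contra (p l : ℕ) (hp : p.Prime) (hl : l.Prime) (hlp : l ≠ p)
    (hO : ∀ m : ℤ, (l : O) ∣ (m : O) → (l : ℤ) ∣ m) (c d : ℕ) (hc : ¬ l ∣ c) (hd : ¬ l ∣ d)
    (x y : O) (hxy : y = x)
    (hx : (l : O) ∣ (c : O) * (x - (d : O) * (((1 + (p : ℤ) ^ 3 : ℤ)) : O)))
    (hy : (l : O) ∣ (c : O) * (y - (d : O) * (((1 : ℤ)) : O))) : False := by
  have hx' := dvd_of_not_dvd_mul l hl c hc _ hx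
  have hy' := dvd_of_not_dvd_mul l hl c hc _ hy
  have h := dvd_sub hy' hx'
  have h1 : (y - (d : O) * (((1 : ℤ)) : O)) - (x - (d : O) * (((1 + (p : ℤ) ^ 3 : ℤ)) : O))
      = (((d : ℤ) * (p : ℤ) ^ 3 : ℤ) : O) := by
    rw [hxy]; push_cast; ring
  rw [h1] at h
  have h2 := hO _ h
  have h3 : l ∣ d * p ^ 3 := by exact_mod_cast h2
  rcases (Nat.Prime.dvd_mul hl).mp h3 with h4 | h4
  · exact hd h4
  · exact hlp ((Nat.prime_dvd_prime_iff_eq hl hp).mp (hl.dvd_of_dvd_pow h4))

theorem gcd_twelve (p : ℕ) : Nat.gcd (p - 1) 12 = Nat.gcd ((p - 1) % 12) 12 := by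
  rw [Nat.gcd_comm, Nat.gcd_rec]

theorem prime_dvd_240 (l : ℕ) (hl : l.Prime) (h : l ∣ 240) : l = 2 ∨ l = 3 ∨ l = 5 := by
  have h240' : l ∣ 2 ^ 4 * 3 * 5 := by norm_num; exact h
  rcases (Nat.Prime.dvd_mul hl).mp h240' with h | h
  · rcases (Nat.Prime.dvd_mul hl).mp h with h | h
    · left; exact (Nat.prime_dvd_prime_iff_eq hl Nat.prime_two).mp (hl.dvd_of_dvd_pow h)
    · right; left; exact (Nat.prime_dvd_prime_iff_eq hl Nat.prime_three).mp h
  · right; right; exact (Nat.prime_dvd_prime_iff_eq hl Nat.prime_five).mp h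

/-- The case analysis on the expanded system. -/
theorem core_cases (p l e : ℕ) (hp : p.Prime) (hl : l.Prime) (he : 0 < e)
    (hO : ∀ m : ℤ, (l : O) ∣ (m : O) → (l : ℤ) ∣ m)
    (s3 : ℕ → ℤ) (h31 : s3 1 = 1) (h3p : s3 p = 1 + (p : ℤ) ^ 3)
    (a b qa qb : ℕ → O)
    (EA : ∀ k, 0 < k → 2 * ((p : O) + 1) * (l : O) ^ e * a k + ((l : O) ^ e) ^ 2 * qa k
        = ((p : O) + 1) * (240 * (s3 k : O)))
    (EB : ∀ k, 0 < k → 2 * ((p : O) + 1) * (l : O) ^ e * b k + ((l : O) ^ e) ^ 2 * qb k
        = ((p : O) + 1) * (240 * (s3 k : O)))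
    (hb1 : b 1 = a p)
    (hq : Odd p → ∀ k, 0 < k → (2 : O) ∣ qa k ∧ (2 : O) ∣ qb k)
    (h5 : l = p → (l : O) ∣ ((((p : ℤ) ^ 2 - 1) * 504 : ℤ) : O)) :
    (5 ≤ l ∧ l ∣ p + 1) ∨ (l = 3 ∧ 9 ∣ p + 1) ∨ (l = 2 ∧ p % 8 = 7) ∨
      l ^ e ∣ 24 / Nat.gcd (p - 1) 12 ∨
      (l = 2 ∧ e = 2 ∧ p % 4 = 1 ∧ ∀ k, 0 < k → (2 : O) ∣ a k) := by
  have hl0 : (l : O) ≠ 0 := Nat.cast_ne_zero.mpr hl.ne_zero
  have hOpow := pow_dvd_int_of (O := O) l hl hO
  have hp0 : 0 < p := hp.pos
  have hD1 : (l : ℤ) ^ e ∣ 240 * ((p : ℤ) + 1) := by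
    apply hOpow e
    refine ⟨2 * ((p : O) + 1) * a 1 + (l : O) ^ e * qa 1, ?_⟩
    have := EA 1 one_pos
    rw [h31] at this
    push_cast at this ⊢
    linear_combination (-1 : O) * this
  have hD1' : l ^ e ∣ 240 * (p + 1) := by exact_mod_cast hD1
  have hD1l : l ∣ 240 * (p + 1) := dvd_trans (dvd_pow_self l he.ne') hD1'
  by_cases hlp : l = p
  · subst hlp
    have h240 : l ∣ 240 := by
      rcases (Nat.Prime.dvd_mul hl).mp hD1l with h | h
      · exact h
      · exfalso
        have : l ∣ 1 := (Nat.dvd_add_right (dvd_refl l)).mp h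
        exact hl.one_lt.ne' (Nat.dvd_one.mp this)
    rcases prime_dvd_240 l hl h240 with rfl | rfl | rfl
    · -- p = l = 2
      right; right; right
      by_cases he4 : e ≤ 3
      · left
        have : Nat.gcd (2 - 1) 12 = 1 := by norm_num
        rw [this]
        interval_cases e <;> norm_num
      · exfalso
        obtain ⟨f, rfl⟩ : ∃ f, e = f + 4 := ⟨e - 4, by omega⟩
        have h720 : ((2 : ℕ) : ℤ) ^ (f + 5) ∣ 720 := by
          apply hOpow (f + 5)
          refine ⟨3 * a 1 + (2 : O) ^ (f + 3) * qa 1, ?_⟩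
          have := EA 1 one_pos
          rw [h31] at this
          push_cast at this ⊢
          linear_combination (-1 : O) * this
        have h32 : (2 : ℤ) ^ 5 ∣ 720 :=
          dvd_trans (pow_dvd_pow 2 (show 5 ≤ f + 5 by omega)) (by exact_mod_cast h720)
        norm_num at h32
    · -- p = l = 3
      right; right; right
      by_cases he1 : e ≤ 1
      · left
        have he1' : e = 1 := by omega
        subst he1'
        have : Nat.gcd (3 - 1) 12 = 2 := by norm_num
        rw [this]; norm_num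
      · exfalso
        have h9 : (3 : ℤ) ^ 2 ∣ 240 * ((3 : ℤ) + 1) :=
          dvd_trans (pow_dvd_pow 3 (show 2 ≤ e by omega)) (by exact_mod_cast hD1)
        norm_num at h9
    · -- p = l = 5
      exfalso
      have := hO _ (h5 rfl)
      norm_num at this
  · by_cases hl5 : 5 ≤ l
    · by_cases hdiv : l ∣ p + 1
      · left; exact ⟨hl5, hdiv⟩
      · exfalso
        have h240 : l ∣ 240 := ((Nat.Prime.dvd_mul hl).mp hD1l).resolve_right hdiv
        have hl5' : l = 5 := by
          rcases prime_dvd_240 l hl h240 with h | h | h <;> omega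
        subst hl5'
        have he1 : e = 1 := by
          by_contra hne
          have h25 : 5 ^ 2 ∣ 240 * (p + 1) := dvd_trans (pow_dvd_pow 5 (by omega)) hD1'
          apply hdiv
          omega
        subst he1
        have key : ∀ (x q : O) (s : ℤ),
            2 * ((p : O) + 1) * ((5 : ℕ) : O) ^ 1 * x + (((5 : ℕ) : O) ^ 1) ^ 2 * q
              = ((p : O) + 1) * (240 * (s : O)) →
            ((5 : ℕ) : O) ∣ ((2 * (p + 1) : ℕ) : O) * (x - ((24 : ℕ) : O) * (s : O)) := by
          intro x q s h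
          refine ⟨-q, ?_⟩
          apply mul_left_cancel₀ hl0
          push_cast at h ⊢
          linear_combination h
        exact modl_contra p 5 hp hl hlp hO (2 * (p + 1)) 24 (by omega) (by norm_num) (a p) (b 1)
          hb1 (by have := key _ _ _ (EA p hp0); rw [h3p] at this; exact this)
          (by have := key _ _ _ (EB 1 one_pos); rw [h31] at this; exact this)
    · have hl23 : l = 2 ∨ l = 3 := by
        have h5 : l < 5 := by omega
        have h2 := hl.two_le
        interval_cases l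
        · left; rfl
        · right; rfl
        · exact absurd hl (by norm_num)
      rcases hl23 with rfl | rfl
      · -- l = 2
        have hpodd : Odd p := hp.odd_of_ne_two (fun h => hlp h.symm)
        have hq' := hq hpodd
        have hp8 : p % 4 = 1 ∨ p % 8 = 3 ∨ p % 8 = 7 := by
          have := Nat.odd_iff.mp hpodd; omega
        rcases hp8 with hp4 | hp8 | hp8
        · -- p ≡ 1 mod 4
          obtain ⟨m, hm⟩ : ∃ m, p + 1 = 2 * m := ⟨(p + 1) / 2, by omega⟩
          have hmodd : ¬ 2 ∣ m := by omega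
          have hm' : (p : O) + 1 = 2 * (m : O) := by
            exact_mod_cast congrArg (Nat.cast : ℕ → O) hm
          rcases (by omega : e = 1 ∨ e = 2 ∨ e = 3 ∨ 4 ≤ e) with rfl | rfl | rfl | he4
          · right; right; right; left
            rw [gcd_twelve]
            have hlt : (p - 1) % 12 < 12 := Nat.mod_lt _ (by norm_num)
            have hmod : (p - 1) % 12 % 4 = 0 := by omega
            interval_cases h : (p - 1) % 12 <;> first | omega | norm_num
          · right; right; right; right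
            refine ⟨rfl, rfl, hp4, fun k hk => ?_⟩
            have h1 := EA k hk
            rw [hm'] at h1
            have h2 : (m : O) * a k + qa k = 30 * (m : O) * (s3 k : O) := by
              apply mul_left_cancel₀ (show (16 : O) ≠ 0 by norm_num)
              push_cast at h1
              linear_combination h1
            obtain ⟨c, hc⟩ := (hq' k hk).1
            have h3 : ((2 : ℕ) : O) ∣ a k := by
              apply dvd_of_not_dvd_mul 2 Nat.prime_two m hmodd
              refine ⟨15 * (m : O) * (s3 k : O) - c, ?_⟩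
              push_cast
              linear_combination h2 - hc
            exact_mod_cast h3
          · exfalso
            have key : ∀ (x q : O) (s : ℤ),
                2 * ((p : O) + 1) * ((2 : ℕ) : O) ^ 3 * x + (((2 : ℕ) : O) ^ 3) ^ 2 * q
                  = ((p : O) + 1) * (240 * (s : O)) →
                ((2 : ℕ) : O) ∣ ((m : ℕ) : O) * (x - ((15 : ℕ) : O) * (s : O)) := by
              intro x q s h
              rw [hm'] at h
              refine ⟨-q, ?_⟩
              apply mul_left_cancel₀ (show (32 : O) ≠ 0 by norm_num)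
              push_cast at h ⊢
              linear_combination h
            exact modl_contra p 2 hp hl hlp hO m 15 hmodd (by norm_num) (a p) (b 1)
              hb1 (by have := key _ _ _ (EA p hp0); rw [h3p] at this; exact this)
              (by have := key _ _ _ (EB 1 one_pos); rw [h31] at this; exact this)
          · exfalso
            obtain ⟨f, rfl⟩ : ∃ f, e = f + 4 := ⟨e - 4, by omega⟩
            have h64 : ((2 : ℕ) : ℤ) ^ 6 ∣ 480 * (m : ℤ) := by
              apply hOpow 6
              refine ⟨(m : O) * (2 : O) ^ f * a 1 + (2 : O) ^ (2 * f + 2) * qa 1, ?_⟩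
              have := EA 1 one_pos
              rw [h31, hm'] at this
              push_cast at this ⊢
              linear_combination (-1 : O) * this
            norm_num at h64
            omega
        · -- p ≡ 3 mod 8
          obtain ⟨m, hm⟩ : ∃ m, p + 1 = 4 * m := ⟨(p + 1) / 4, by omega⟩
          have hmodd : ¬ 2 ∣ m := by omega
          have hm' : (p : O) + 1 = 4 * (m : O) := by
            exact_mod_cast congrArg (Nat.cast : ℕ → O) hm
          rcases (by omega : e ≤ 2 ∨ e = 3 ∨ 4 ≤ e) with he2 | rfl | he4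
          · right; right; right; left
            rw [gcd_twelve]
            have hlt : (p - 1) % 12 < 12 := Nat.mod_lt _ (by norm_num)
            have hmod : (p - 1) % 12 % 4 = 2 := by omega
            interval_cases e <;> interval_cases h : (p - 1) % 12 <;> first | omega | norm_num
          · exfalso
            have key : ∀ (x q : O) (s : ℤ), (2 : O) ∣ q →
                2 * ((p : O) + 1) * ((2 : ℕ) : O) ^ 3 * x + (((2 : ℕ) : O) ^ 3) ^ 2 * q
                  = ((p : O) + 1) * (240 * (s : O)) →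
                ((2 : ℕ) : O) ∣ ((m : ℕ) : O) * (x - ((15 : ℕ) : O) * (s : O)) := by
              intro x q s hq2 h
              obtain ⟨c, rfl⟩ := hq2
              rw [hm'] at h
              refine ⟨-c, ?_⟩
              apply mul_left_cancel₀ (show (64 : O) ≠ 0 by norm_num)
              push_cast at h ⊢
              linear_combination h
            exact modl_contra p 2 hp hl hlp hO m 15 hmodd (by norm_num) (a p) (b 1)
              hb1 (by have := key _ _ _ (hq' p hp0).1 (EA p hp0); rw [h3p] at this; exact this)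
              (by have := key _ _ _ (hq' 1 one_pos).2 (EB 1 one_pos); rw [h31] at this; exact this)
          · exfalso
            obtain ⟨f, rfl⟩ : ∃ f, e = f + 4 := ⟨e - 4, by omega⟩
            have h128 : ((2 : ℕ) : ℤ) ^ 7 ∣ 960 * (m : ℤ) := by
              apply hOpow 7
              refine ⟨(m : O) * (2 : O) ^ f * a 1 + (2 : O) ^ (2 * f + 1) * qa 1, ?_⟩
              have := EA 1 one_pos
              rw [h31, hm'] at this
              push_cast at this ⊢
              linear_combination (-1 : O) * this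
            norm_num at h128
            omega
        · right; right; left; exact ⟨rfl, hp8⟩
      · -- l = 3
        have hp3 : p % 3 = 1 ∨ p % 3 = 2 := by
          have : p % 3 ≠ 0 := by
            intro h
            have h3 : 3 ∣ p := Nat.dvd_of_mod_eq_zero h
            exact hlp ((Nat.prime_dvd_prime_iff_eq Nat.prime_three hp).mp h3)
          omega
        rcases hp3 with hp3 | hp3
        · exfalso
          by_cases he1 : e = 1
          · subst he1
            have key : ∀ (x q : O) (s : ℤ),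
                2 * ((p : O) + 1) * ((3 : ℕ) : O) ^ 1 * x + (((3 : ℕ) : O) ^ 1) ^ 2 * q
                  = ((p : O) + 1) * (240 * (s : O)) →
                ((3 : ℕ) : O) ∣ ((2 * (p + 1) : ℕ) : O) * (x - ((40 : ℕ) : O) * (s : O)) := by
              intro x q s h
              refine ⟨-q, ?_⟩
              apply mul_left_cancel₀ hl0
              push_cast at h ⊢
              linear_combination h
            exact modl_contra p 3 hp hl hlp hO (2 * (p + 1)) 40 (by omega) (by norm_num)
              (a p) (b 1) hb1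
              (by have := key _ _ _ (EA p hp0); rw [h3p] at this; exact this)
              (by have := key _ _ _ (EB 1 one_pos); rw [h31] at this; exact this)
          · have h9 : ((3 : ℕ) : ℤ) ^ 2 ∣ 240 * ((p : ℤ) + 1) :=
              dvd_trans (pow_dvd_pow _ (by omega)) hD1
            norm_num at h9
            omega
        · by_cases h9 : 9 ∣ p + 1
          · right; left; exact ⟨rfl, h9⟩
          · right; right; right; left
            by_cases he1 : e = 1
            · subst he1
              rw [gcd_twelve]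
              have hlt : (p - 1) % 12 < 12 := Nat.mod_lt _ (by norm_num)
              have hmod : (p - 1) % 12 % 3 = 1 := by omega
              interval_cases h : (p - 1) % 12 <;> first | omega | norm_num
            · exfalso
              obtain ⟨f, rfl⟩ : ∃ f, e = f + 2 := ⟨e - 2, by omega⟩
              obtain ⟨m, hm⟩ : ∃ m, p + 1 = 3 * m := ⟨(p + 1) / 3, by omega⟩
              have hm' : (p : O) + 1 = 3 * (m : O) := by
                exact_mod_cast congrArg (Nat.cast : ℕ → O) hm
              have h27 : ((3 : ℕ) : ℤ) ^ 3 ∣ 720 * (m : ℤ) := by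
                apply hOpow 3
                refine ⟨2 * (m : O) * (3 : O) ^ f * a 1 + (3 : O) ^ (2 * f + 1) * qa 1, ?_⟩
                have := EA 1 one_pos
                rw [h31, hm'] at this
                push_cast at this ⊢
                linear_combination (-1 : O) * this
              norm_num at h27
              omega

/-- From the series to the expanded system. -/
theorem sys_of_series (p l e : ℕ) (hp : p.Prime) (hl : l.Prime) (he : 0 < e)
    (s3 : ℕ → ℤ)
    (g u : PowerSeries O) (hg0 : constantCoeff g = 1)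
    (hg : ∀ k, 0 < k → (l : O) ^ e ∣ coeff k g)
    (hu : ∀ k, coeff k u = coeff (p * k) g) (hU : ∀ k, coeff k g = coeff (p * k) u)
    (Eq2 : ∀ k, 0 < k → (p : O) * coeff k (g ^ 2) + coeff (p * k) (u ^ 2)
        = ((p : O) + 1) * (240 * (s3 k : O)))
    (Eq2' : ∀ k, 0 < k → (p : O) * coeff k (u ^ 2) + coeff (p * k) (g ^ 2)
        = ((p : O) + 1) * (240 * (s3 k : O)))
    (Eq3 : (p : O) ^ 2 * coeff 1 (g ^ 3) - coeff p (u ^ 3) = ((p : O) ^ 2 - 1) * (-504)) :
    ∃ a b qa qb : ℕ → O,
      (∀ k, 0 < k → coeff k g = (l : O) ^ e * a k) ∧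
      (∀ k, 0 < k → 2 * ((p : O) + 1) * (l : O) ^ e * a k + ((l : O) ^ e) ^ 2 * qa k
        = ((p : O) + 1) * (240 * (s3 k : O))) ∧
      (∀ k, 0 < k → 2 * ((p : O) + 1) * (l : O) ^ e * b k + ((l : O) ^ e) ^ 2 * qb k
        = ((p : O) + 1) * (240 * (s3 k : O))) ∧
      b 1 = a p ∧
      (Odd p → ∀ k, 0 < k → (2 : O) ∣ qa k ∧ (2 : O) ∣ qb k) ∧
      (l = p → (l : O) ∣ ((((p : ℤ) ^ 2 - 1) * 504 : ℤ) : O)) := by
  have hl0 : (l : O) ≠ 0 := Nat.cast_ne_zero.mpr hl.ne_zero
  have hL0 : (l : O) ^ e ≠ 0 := pow_ne_zero _ hl0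
  have hp0 : 0 < p := hp.pos
  have hex : ∀ k, ∃ x : O, coeff k g = (if k = 0 then 1 else 0) + (l : O) ^ e * x := by
    intro k
    rcases Nat.eq_zero_or_pos k with rfl | hk
    · exact ⟨0, by simpa using hg0⟩
    · obtain ⟨x, hx⟩ := hg k hk
      exact ⟨x, by rw [if_neg hk.ne', zero_add, hx]⟩
  choose a ha using hex
  set A : PowerSeries O := PowerSeries.mk a with hA
  set B : PowerSeries O := PowerSeries.mk (fun k => a (p * k)) with hB
  have hgA : g = 1 + C ((l : O) ^ e) * A := by
    ext k
    rw [ha k, map_add, PowerSeries.coeff_C_mul, PowerSeries.coeff_one, hA, PowerSeries.coeff_mk]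
  have huB : u = 1 + C ((l : O) ^ e) * B := by
    ext k
    rw [hu k, ha (p * k), map_add, PowerSeries.coeff_C_mul, PowerSeries.coeff_one, hB,
      PowerSeries.coeff_mk]
    by_cases hk : k = 0
    · simp [hk]
    · simp [hk, hp0.ne']
  have hAB : ∀ k, coeff (p * k) B = coeff k A := by
    intro k
    have h1 := hU k
    rw [hu (p * k), ha k, ha (p * (p * k))] at h1
    have h2 : (if k = 0 then (1 : O) else 0) = (if p * (p * k) = 0 then (1 : O) else 0) := by
      by_cases hk : k = 0
      · simp [hk]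
      · simp [hk, hp0.ne']
    rw [h2] at h1
    have h3 := mul_left_cancel₀ hL0 (add_left_cancel h1)
    simp [hA, hB, h3]
  have hBA : ∀ k, coeff (p * k) A = coeff k B := by
    intro k; simp [hA, hB]
  refine ⟨fun k => coeff k A, fun k => coeff k B,
    fun k => (p : O) * coeff k (A ^ 2) + coeff (p * k) (B ^ 2),
    fun k => (p : O) * coeff k (B ^ 2) + coeff (p * k) (A ^ 2), ?_, ?_, ?_, ?_, ?_, ?_⟩
  · intro k hk
    rw [ha k, if_neg hk.ne', zero_add]; simp [hA]
  · intro k hk
    have h1 := Eq2 k hk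
    rw [hgA, huB, expand2 p hp0 _ A B hAB k hk] at h1
    exact h1
  · intro k hk
    have h1 := Eq2' k hk
    rw [hgA, huB, expand2 p hp0 _ B A hBA k hk] at h1
    exact h1
  · simp [hA, hB]
  · intro hodd k hk
    exact ⟨two_dvd_quad p hodd A B hAB k, two_dvd_quad p hodd B A hBA k⟩
  · intro hlp
    have h1 : (l : O) ∣ coeff p (u ^ 3) := by
      rw [huB]
      exact dvd_trans (dvd_pow_self _ he.ne') (dvd_coeff_cube _ B p hp0)
    have h2 : (l : O) ∣ (p : O) ^ 2 * coeff 1 (g ^ 3) := by
      rw [hlp]; exact Dvd.intro ((p : O) * coeff 1 (g ^ 3)) (by ring)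
    have h3 := dvd_sub h2 h1
    rw [Eq3] at h3
    have h4 : ((((p : ℤ) ^ 2 - 1) * 504 : ℤ) : O) = -(((p : O) ^ 2 - 1) * (-504)) := by
      push_cast; ring
    rw [h4]; exact (dvd_neg).mpr h3

/-- **Elementary cases of (B).**  `O` is any domain of characteristic zero with
`O ∩ ℚ ⊆ ℤ_(l)` (hypothesis `hO`); `g` has constant term one and all higher coefficients
divisible by `l^e`; `u = U_p g`, `U_p u = g`; `s3` stands for `σ₃` (only `s3 1 = 1` and
`s3 p = 1 + p³` are used).  Then `l^e ∣ 24 / gcd (p-1, 12)` except in the three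
"Sturm" cases. -/
theorem elem_cases (p l e : ℕ) (hp : p.Prime) (hl : l.Prime) (he : 0 < e)
    (hO : ∀ m : ℤ, (l : O) ∣ (m : O) → (l : ℤ) ∣ m)
    (s3 : ℕ → ℤ) (h31 : s3 1 = 1) (h3p : s3 p = 1 + (p : ℤ) ^ 3)
    (g u : PowerSeries O) (hg0 : constantCoeff g = 1)
    (hg : ∀ k, 0 < k → (l : O) ^ e ∣ coeff k g)
    (hu : ∀ k, coeff k u = coeff (p * k) g) (hU : ∀ k, coeff k g = coeff (p * k) u)
    (Eq2 : ∀ k, 0 < k → (p : O) * coeff k (g ^ 2) + coeff (p * k) (u ^ 2)
        = ((p : O) + 1) * (240 * (s3 k : O)))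
    (Eq2' : ∀ k, 0 < k → (p : O) * coeff k (u ^ 2) + coeff (p * k) (g ^ 2)
        = ((p : O) + 1) * (240 * (s3 k : O)))
    (Eq3 : (p : O) ^ 2 * coeff 1 (g ^ 3) - coeff p (u ^ 3) = ((p : O) ^ 2 - 1) * (-504))
    (hne : ¬ l ^ e ∣ 24 / Nat.gcd (p - 1) 12) :
    (5 ≤ l ∧ l ∣ p + 1) ∨ (l = 3 ∧ 9 ∣ p + 1) ∨ (l = 2 ∧ p % 8 = 7) := by
  obtain ⟨a, b, qa, qb, hga, EA, EB, hb1, hq, h5⟩ :=
    sys_of_series p l e hp hl he s3 g u hg0 hg hu hU Eq2 Eq2' Eq3
  rcases core_cases p l e hp hl he hO s3 h31 h3p a b qa qb EA EB hb1 hq h5 with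
    h | h | h | h | ⟨rfl, rfl, hp4, h2⟩
  · exact Or.inl h
  · exact Or.inr (Or.inl h)
  · exact Or.inr (Or.inr h)
  · exact absurd h hne
  · -- `l = 2`, `e = 2`, `p ≡ 1 mod 4`: in fact `g ≡ 1 mod 8`
    have hg3 : ∀ k, 0 < k → ((2 : ℕ) : O) ^ 3 ∣ coeff k g := by
      intro k hk
      obtain ⟨c, hc⟩ := h2 k hk
      rw [hga k hk, hc]
      exact ⟨c, by push_cast; ring⟩
    obtain ⟨a', b', qa', qb', -, EA', EB', hb1', hq', h5'⟩ :=
      sys_of_series p 2 3 hp hl (by norm_num) s3 g u hg0 hg3 hu hU Eq2 Eq2' Eq3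
    rcases core_cases p 2 3 hp hl (by norm_num) hO s3 h31 h3p a' b' qa' qb' EA' EB' hb1' hq' h5'
      with h | h | h | h | ⟨-, h3, -⟩
    · exact Or.inl h
    · exact Or.inr (Or.inl h)
    · exact Or.inr (Or.inr h)
    · exfalso
      rw [gcd_twelve] at h
      have hlt : (p - 1) % 12 < 12 := Nat.mod_lt _ (by norm_num)
      have hmod : (p - 1) % 12 % 4 = 0 := by omega
      interval_cases h' : (p - 1) % 12 <;> first | omega | norm_num at h
    · omega

end Domain

end Fermat.Agent.S16.H18
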