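import Mathlib
import Fermat.Agent.S16.Stmts_helper6
import Fermat.Agent.S16.ElemCases_helper18

/-!
# S16: the elementary cases of (B) in the `BData` form of `Stmts_helper6`  (helper18)

`stmtC6`, `stmtC7` (assigned), and as spares from the same bridge `stmtC1`, `stmtC2`,
`stmtC4`, `stmtC5a`.
-/

set_option autoImplicit false

namespace Fermat.Agent.S16.H18

open PowerSeries

/-- `ℤ_(ℓ)` inside `ℚ`. -/
def zl (ℓ : ℕ) : Subring ℚ where
  carrier := {x | Nat.Coprime x.den ℓ}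
  mul_mem' := fun {x y} hx hy =>
    Nat.Coprime.coprime_dvd_left (Rat.mul_den_dvd x y) (Nat.Coprime.mul_left hx hy)
  one_mem' := by simp
  add_mem' := fun {x y} hx hy =>
    Nat.Coprime.coprime_dvd_left (Rat.add_den_dvd x y) (Nat.Coprime.mul_left hx hy)
  zero_mem' := by simp
  neg_mem' := fun {x} hx => by simpa using hx

theorem mem_zl (ℓ : ℕ) (x : ℚ) : x ∈ zl ℓ ↔ Nat.Coprime x.den ℓ := Iff.rfl

theorem zl_dvd_int (ℓ : ℕ) (hℓ : ℓ.Prime) (m : ℤ) (h : ((ℓ : ℕ) : zl ℓ) ∣ ((m : ℤ) : zl ℓ)) :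
    (ℓ : ℤ) ∣ m := by
  obtain ⟨r, hr⟩ := h
  have hr' : (m : ℚ) = (ℓ : ℚ) * (r : ℚ) := by
    have := congrArg (Subtype.val) hr
    simpa using this
  have hmem : Nat.Coprime (r : ℚ).den ℓ := r.2
  have h1 : (m : ℚ) * ((r : ℚ).den : ℚ) = (ℓ : ℚ) * ((r : ℚ).num : ℚ) := by
    rw [hr', mul_assoc, Rat.mul_den_eq_num]
  have h2 : m * ((r : ℚ).den : ℤ) = (ℓ : ℤ) * (r : ℚ).num := by exact_mod_cast h1
  have h3 : (ℓ : ℤ) ∣ m * ((r : ℚ).den : ℤ) := ⟨_, h2⟩
  rcases (Nat.prime_iff_prime_int.mp hℓ).dvd_or_dvd h3 with h4 | h4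
  · exact h4
  · exfalso
    have h5 : ℓ ∣ (r : ℚ).den := Int.natCast_dvd_natCast.mp h4
    have h6 : ℓ ∣ 1 := by
      have := Nat.dvd_gcd h5 (dvd_refl ℓ)
      rwa [hmem] at this
    exact hℓ.one_lt.ne' (Nat.dvd_one.mp h6)

theorem sigma_three_prime (p : ℕ) (hp : p.Prime) :
    ((ArithmeticFunction.sigma 3 p : ℕ) : ℤ) = 1 + (p : ℤ) ^ 3 := by
  rw [ArithmeticFunction.sigma_apply, hp.divisors, Finset.sum_pair hp.one_lt.ne]
  push_cast; ring

/-- The six elementary cases at once, from the formal data over `ℚ`. -/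
theorem elem_of_BData (p ℓ e : ℕ) (hp : p.Prime) (hℓ : ℓ.Prime) (he : 1 ≤ e)
    (A B : PowerSeries ℚ) (h : BData p ℓ e A B)
    (hne : ¬ ℓ ^ e ∣ 24 / Nat.gcd (p - 1) 12) :
    (5 ≤ ℓ ∧ ℓ ∣ p + 1) ∨ (ℓ = 3 ∧ 9 ∣ p + 1) ∨ (ℓ = 2 ∧ p % 8 = 7) := by
  classical
  have hp0 : 0 < p := hp.pos
  let ι : zl ℓ →+* ℚ := (zl ℓ).subtype
  have hι : Function.Injective ι := Subtype.val_injective
  have hmemA : ∀ n, coeff n A ∈ zl ℓ := fun n =>
    ((Nat.Prime.coprime_iff_not_dvd hℓ).mpr (h.intA n)).symm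
  have hmemB : ∀ n, coeff n B ∈ zl ℓ := fun n =>
    ((Nat.Prime.coprime_iff_not_dvd hℓ).mpr (h.intB n)).symm
  set A' : PowerSeries (zl ℓ) := PowerSeries.mk fun n => ⟨coeff n A, hmemA n⟩ with hA'
  set B' : PowerSeries (zl ℓ) := PowerSeries.mk fun n => ⟨coeff n B, hmemB n⟩ with hB'
  have hmapA : PowerSeries.map ι A' = A := by
    ext n; simp [hA', ι]
  have hmapB : PowerSeries.map ι B' = B := by
    ext n; simp [hB', ι]
  set L : zl ℓ := ((ℓ : ℕ) : zl ℓ) ^ e with hL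
  set g' : PowerSeries (zl ℓ) := 1 + C L * A' with hg'
  set u' : PowerSeries (zl ℓ) := 1 + C L * B' with hu'
  have hιL : ι L = (ℓ : ℚ) ^ e := by simp [hL, ι]
  have hmapg : PowerSeries.map ι g' = 1 + (ℓ : ℚ) ^ e • A := by
    rw [hg', map_add, map_one, map_mul, PowerSeries.map_C, hmapA, hιL,
      PowerSeries.smul_eq_C_mul]
  have hmapu : PowerSeries.map ι u' = 1 + (ℓ : ℚ) ^ e • B := by
    rw [hu', map_add, map_one, map_mul, PowerSeries.map_C, hmapB, hιL,
      PowerSeries.smul_eq_C_mul]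
  have key : ∀ (X : PowerSeries (zl ℓ)) (n k : ℕ),
      ι (coeff k (X ^ n)) = coeff k ((PowerSeries.map ι X) ^ n) := by
    intro X n k; rw [← map_pow, PowerSeries.coeff_map]
  have hcA : ∀ n, coeff n A' = ⟨coeff n A, hmemA n⟩ := fun n => by simp [hA']
  have hcB : ∀ n, coeff n B' = ⟨coeff n B, hmemB n⟩ := fun n => by simp [hB']
  have hBA : ∀ k, coeff k B = coeff (p * k) A := by
    intro k
    have := congrArg (coeff k) h.hBA
    rw [this]; simp [Up, mul_comm]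
  have hAB : ∀ k, coeff k A = coeff (p * k) B := by
    intro k
    have := congrArg (coeff k) h.hAB
    rw [this]; simp [Up, mul_comm]
  refine elem_cases (O := zl ℓ) p ℓ e hp hℓ he (zl_dvd_int ℓ hℓ)
    (fun k => ((ArithmeticFunction.sigma 3 k : ℕ) : ℤ)) ?_ (sigma_three_prime p hp) g' u'
    ?_ ?_ ?_ ?_ ?_ ?_ ?_ hne
  · simp
  · -- constant coefficient
    have hA0' : constantCoeff A' = 0 := by
      rw [← PowerSeries.coeff_zero_eq_constantCoeff_apply, hcA]
      exact Subtype.ext h.hA0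
    rw [hg']
    simp [hA0']
  · intro k hk
    rw [hg', map_add, PowerSeries.coeff_C_mul, PowerSeries.coeff_one, if_neg hk.ne', zero_add]
    exact Dvd.intro _ rfl
  · intro k
    rw [hg', hu']
    simp only [map_add, PowerSeries.coeff_C_mul, PowerSeries.coeff_one, hcA, hcB]
    have h0 : (p * k = 0) ↔ (k = 0) := by
      constructor
      · intro h0; rcases Nat.mul_eq_zero.mp h0 with h1 | h1
        · omega
        · exact h1
      · intro h0; simp [h0]
    simp only [h0]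
    congr 2
    exact Subtype.ext (hBA k)
  · intro k
    rw [hg', hu']
    simp only [map_add, PowerSeries.coeff_C_mul, PowerSeries.coeff_one, hcA, hcB]
    have h0 : (p * k = 0) ↔ (k = 0) := by
      constructor
      · intro h0; rcases Nat.mul_eq_zero.mp h0 with h1 | h1
        · omega
        · exact h1
      · intro h0; simp [h0]
    simp only [h0]
    congr 2
    exact Subtype.ext (hAB k)
  · intro k hk
    apply hι
    have h2 := congrArg (coeff k) h.eq2
    simp only [map_add, map_mul, map_natCast, map_one, map_ofNat, map_intCast, key, hmapg, hmapu]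
    simp only [Up, E4q, map_add, PowerSeries.coeff_smul, PowerSeries.coeff_mk, if_neg hk.ne',
      smul_eq_mul] at h2
    rw [mul_comm p k, h2]
    push_cast; ring
  · intro k hk
    apply hι
    have h2 := congrArg (coeff k) h.eq2'
    simp only [map_add, map_mul, map_natCast, map_one, map_ofNat, map_intCast, key, hmapg, hmapu]
    simp only [Up, E4q, map_add, PowerSeries.coeff_smul, PowerSeries.coeff_mk, if_neg hk.ne',
      smul_eq_mul] at h2
    rw [mul_comm p k, h2]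
    push_cast; ring
  · apply hι
    have h3 := congrArg (coeff 1) h.eq3
    simp only [map_sub, map_mul, map_pow, map_natCast, map_one, map_neg, map_ofNat, key,
      hmapg, hmapu]
    simp only [Up, E6q, map_sub, PowerSeries.coeff_smul, PowerSeries.coeff_mk, one_mul,
      smul_eq_mul, one_ne_zero, if_false] at h3
    rw [h3]
    simp

theorem div_dvd_24 (p : ℕ) : 24 / Nat.gcd (p - 1) 12 ∣ 24 :=
  Nat.div_dvd_of_dvd (dvd_trans (Nat.gcd_dvd_right _ _) (by norm_num : 12 ∣ 24))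

theorem prime_dvd_24 (l : ℕ) (hl : l.Prime) (h : l ∣ 24) : l = 2 ∨ l = 3 := by
  have h24 : l ∣ 2 ^ 3 * 3 := by norm_num; exact h
  rcases (Nat.Prime.dvd_mul hl).mp h24 with h | h
  · left; exact (Nat.prime_dvd_prime_iff_eq hl Nat.prime_two).mp (hl.dvd_of_dvd_pow h)
  · right; exact (Nat.prime_dvd_prime_iff_eq hl Nat.prime_three).mp h

/-- (C6) `ℓ = 2`, `p ≡ 1 mod 4`, `e ≥ 2`. -/
theorem stmtC6 : StmtC6 := by
  intro p e A B hp he h hp4
  have hne : ¬ 2 ^ e ∣ 24 / Nat.gcd (p - 1) 12 := by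
    intro hdiv
    have h4 : 2 ^ 2 ∣ 24 / Nat.gcd (p - 1) 12 := dvd_trans (pow_dvd_pow 2 he) hdiv
    rw [gcd_twelve] at h4
    have hlt : (p - 1) % 12 < 12 := Nat.mod_lt _ (by norm_num)
    have hmod : (p - 1) % 12 % 4 = 0 := by omega
    interval_cases h' : (p - 1) % 12 <;> first | omega | norm_num at h4
  rcases elem_of_BData p 2 e hp Nat.prime_two (by omega) A B h hne with h1 | h1 | h1 <;> omega

/-- (C7) `ℓ = 2`, `p ≡ 3 mod 8`, `e ≥ 3`. -/
theorem stmtC7 : StmtC7 := by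
  intro p e A B hp he h hp8
  have hne : ¬ 2 ^ e ∣ 24 / Nat.gcd (p - 1) 12 := by
    intro hdiv
    have h8 : 2 ^ 3 ∣ 24 / Nat.gcd (p - 1) 12 := dvd_trans (pow_dvd_pow 2 he) hdiv
    rw [gcd_twelve] at h8
    have hlt : (p - 1) % 12 < 12 := Nat.mod_lt _ (by norm_num)
    have hmod : (p - 1) % 12 % 4 = 2 := by omega
    interval_cases h' : (p - 1) % 12 <;> first | omega | norm_num at h8
  rcases elem_of_BData p 2 e hp Nat.prime_two (by omega) A B h hne with h1 | h1 | h1 <;> omega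

/-! ### Spares (same bridge): the other four elementary cases -/

/-- (C1) `ℓ = p`. -/
theorem stmtC1 : StmtC1 := by
  intro p e A B hp he h
  have hdvd := div_dvd_24 p
  refine ⟨fun h5 => ?_, fun h3 he2 => ?_, fun h2 he4 => ?_⟩
  · have hne : ¬ p ^ e ∣ 24 / Nat.gcd (p - 1) 12 := by
      intro hdiv
      have h24 : p ∣ 24 := dvd_trans (dvd_trans (dvd_pow_self p (by omega)) hdiv) hdvd
      rcases prime_dvd_24 p hp h24 with h' | h' <;> omega
    rcases elem_of_BData p p e hp hp he A B h hne with h1 | h1 | h1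
    · have h1' : p ∣ 1 := (Nat.dvd_add_right (dvd_refl p)).mp h1.2
      exact hp.one_lt.ne' (Nat.dvd_one.mp h1')
    · omega
    · omega
  · subst h3
    have hne : ¬ 3 ^ e ∣ 24 / Nat.gcd (3 - 1) 12 := by
      intro hdiv
      have h9 : 3 ^ 2 ∣ 24 / Nat.gcd (3 - 1) 12 := dvd_trans (pow_dvd_pow 3 he2) hdiv
      norm_num at h9
    rcases elem_of_BData 3 3 e hp hp he A B h hne with h1 | h1 | h1 <;> omega
  · subst h2
    have hne : ¬ 2 ^ e ∣ 24 / Nat.gcd (2 - 1) 12 := by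
      intro hdiv
      have h16 : 2 ^ 4 ∣ 24 / Nat.gcd (2 - 1) 12 := dvd_trans (pow_dvd_pow 2 he4) hdiv
      norm_num at h16
    rcases elem_of_BData 2 2 e hp hp he A B h hne with h1 | h1 | h1 <;> omega

/-- (C2) `ℓ ≥ 5`, `ℓ ≠ p`, `ℓ ∤ p + 1`. -/
theorem stmtC2 : StmtC2 := by
  intro p ℓ e A B hp hℓ he h h5 _ hnd
  have hne : ¬ ℓ ^ e ∣ 24 / Nat.gcd (p - 1) 12 := by
    intro hdiv
    have h24 : ℓ ∣ 24 :=
      dvd_trans (dvd_trans (dvd_pow_self ℓ (by omega)) hdiv) (div_dvd_24 p)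
    rcases prime_dvd_24 ℓ hℓ h24 with h' | h' <;> omega
  rcases elem_of_BData p ℓ e hp hℓ he A B h hne with h1 | h1 | h1
  · exact hnd h1.2
  · omega
  · omega

/-- (C4) `ℓ = 3`, `p ≡ 1 mod 3`. -/
theorem stmtC4 : StmtC4 := by
  intro p e A B hp he h hp3
  have hne : ¬ 3 ^ e ∣ 24 / Nat.gcd (p - 1) 12 := by
    intro hdiv
    have h3 : 3 ^ 1 ∣ 24 / Nat.gcd (p - 1) 12 := dvd_trans (pow_dvd_pow 3 he) hdiv
    rw [gcd_twelve] at h3
    have hlt : (p - 1) % 12 < 12 := Nat.mod_lt _ (by norm_num)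
    have hp1 := hp.one_lt
    have hmod : (p - 1) % 12 % 3 = 0 := by omega
    interval_cases h' : (p - 1) % 12 <;> first | omega | norm_num at h3
  rcases elem_of_BData p 3 e hp Nat.prime_three he A B h hne with h1 | h1 | h1 <;> omega

/-- (C5a) `ℓ = 3`, `p ≡ 2 mod 3`, `9 ∤ p + 1`, `e ≥ 2`. -/
theorem stmtC5a : StmtC5a := by
  intro p e A B hp he h _ h9
  have hne : ¬ 3 ^ e ∣ 24 / Nat.gcd (p - 1) 12 := by
    intro hdiv
    have h9' : 3 ^ 2 ∣ 24 := dvd_trans (dvd_trans (pow_dvd_pow 3 he) hdiv) (div_dvd_24 p)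
    norm_num at h9'
  rcases elem_of_BData p 3 e hp Nat.prime_three (by omega) A B h hne with h1 | h1 | h1
  · omega
  · exact h9 h1.2
  · omega

end Fermat.Agent.S16.H18
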