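import Fermat.Agent.S16.GaussQ_helper75
import Fermat.Agent.S16.ThetaCD_helper92

/-!
# S16: bridge from TH4 (`GaussQ_helper75`) to the hypothesis `GaussHyp` of TH6
(`ThetaCD_helper92`) (helper75)
-/

set_option autoImplicit false

namespace Fermat.Agent.S16.H75

/-- TH4 in the shape consumed by `H92.theta_jS`. -/
theorem gaussHyp (p : ℕ) [Fact p.Prime] (hp2 : p ≠ 2) (k t c : ℤ)
    (hP : (p : ℤ) = (4 * k - 1) * c - t ^ 2)
    (haniso : ∀ a b : ZMod p, a ^ 2 + ((4 * k - 1 : ℤ) : ZMod p) * b ^ 2 = 0 → a = 0 ∧ b = 0) :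
    H92.GaussHyp k t c p :=
  fun j hj =>
    ⟨fun y hy => gaussSum_Q4_not_range p hp2 k t c hP haniso j hj y hy,
      fun x => gaussSum_Q4_range p hp2 k t c hP haniso j hj x⟩

end Fermat.Agent.S16.H75
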