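import Mathlib

/-!
# Gaussian theta inversion for triangular quadratic forms (S16 / TH3)

Mathlib only.  For a quadratic form in `n` variables written in triangular coordinates
`triQ n a c x = ∑ i, a i * (x i + ∑ j > i, c i j * x j) ^ 2` (`a i > 0`) and its dual form
`dualQ n a c` we prove the theta inversion formula with shift `w` and linear phase `β`,
by induction on `n`, peeling one variable at a time with the one dimensional Poisson
summation formula for Gaussians (`Complex.tsum_exp_neg_quadratic`).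
-/

namespace Fermat.Agent.S16.H05

open Complex Real

/-! ### Real Gaussian sums: summability, uniform in the shift -/

theorem summable_gauss_int {t : ℝ} (ht : 0 < t) :
    Summable (fun k : ℤ => rexp (-t * (k : ℝ) ^ 2)) := by
  have h1 : Summable (fun n : ℕ => rexp (-t * ((n : ℤ) : ℝ) ^ 2)) := by
    have h0 : Summable (fun n : ℕ => rexp ((n : ℝ) * (-t))) :=
      Real.summable_exp_nat_mul_iff.mpr (by linarith)
    refine h0.of_nonneg_of_le (fun _ => (Real.exp_pos _).le) (fun n => ?_)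
    apply Real.exp_le_exp.mpr
    have hn : (n : ℝ) ≤ (n : ℝ) ^ 2 := by
      rcases Nat.eq_zero_or_pos n with h | h
      · simp [h]
      · have : (1 : ℝ) ≤ n := by exact_mod_cast h
        nlinarith
    push_cast
    nlinarith
  refine Summable.of_nat_of_neg h1 ?_
  simpa using h1

theorem gauss_shift_bound {t : ℝ} (ht : 0 < t) :
    ∃ C : ℝ, ∀ s : ℝ, Summable (fun m : ℤ => rexp (-t * ((m : ℝ) + s) ^ 2)) ∧
      ∑' m : ℤ, rexp (-t * ((m : ℝ) + s) ^ 2) ≤ C := by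
  have hg : Summable (fun k : ℤ => rexp t * rexp (-(t / 2) * (k : ℝ) ^ 2)) :=
    (summable_gauss_int (by positivity : 0 < t / 2)).mul_left _
  refine ⟨∑' k : ℤ, rexp t * rexp (-(t / 2) * (k : ℝ) ^ 2), fun s => ?_⟩
  -- the bound for a shift in `[0, 1)`
  have key : ∀ θ : ℝ, 0 ≤ θ → θ < 1 → ∀ k : ℤ,
      rexp (-t * ((k : ℝ) + θ) ^ 2) ≤ rexp t * rexp (-(t / 2) * (k : ℝ) ^ 2) := by
    intro θ h0 h1 k
    rw [← Real.exp_add]
    apply Real.exp_le_exp.mpr
    have h2 : ((k : ℝ) + θ) ^ 2 ≥ (k : ℝ) ^ 2 / 2 - 1 := by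
      nlinarith [sq_nonneg ((k : ℝ) + 2 * θ)]
    nlinarith
  have hθ0 := Int.fract_nonneg s
  have hθ1 := Int.fract_lt_one s
  have hs : ∀ m : ℤ, (m : ℝ) + s = ((m + ⌊s⌋ : ℤ) : ℝ) + Int.fract s := by
    intro m
    have := Int.floor_add_fract s
    push_cast
    linarith
  have hsum0 : Summable (fun k : ℤ => rexp (-t * ((k : ℝ) + Int.fract s) ^ 2)) :=
    hg.of_nonneg_of_le (fun _ => (Real.exp_pos _).le) (key _ hθ0 hθ1)
  have hle0 : ∑' k : ℤ, rexp (-t * ((k : ℝ) + Int.fract s) ^ 2) ≤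
      ∑' k : ℤ, rexp t * rexp (-(t / 2) * (k : ℝ) ^ 2) :=
    hsum0.tsum_le_tsum (key _ hθ0 hθ1) hg
  have heq : (fun m : ℤ => rexp (-t * ((m : ℝ) + s) ^ 2)) =
      (fun k : ℤ => rexp (-t * ((k : ℝ) + Int.fract s) ^ 2)) ∘ (Equiv.addRight ⌊s⌋) := by
    funext m
    simp only [Function.comp_apply, Equiv.coe_addRight]
    rw [hs m]
  rw [heq]
  refine ⟨(Equiv.summable_iff _).mpr hsum0, ?_⟩
  exact ((Equiv.addRight ⌊s⌋).tsum_eq
    (fun k : ℤ => rexp (-t * ((k : ℝ) + Int.fract s) ^ 2))).trans_le hle0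

/-- Summability of a family on a product, one factor being summable and the other
uniformly bounded in `ℓ¹`. -/
theorem summable_prod_unif {ι κ : Type*} (f : ι → ℝ) (g : ι → κ → ℝ)
    (hf0 : ∀ i, 0 ≤ f i) (hg0 : ∀ i k, 0 ≤ g i k) (hf : Summable f) (C : ℝ)
    (hg : ∀ i, Summable (g i) ∧ ∑' k, g i k ≤ C) :
    Summable (fun p : ι × κ => f p.1 * g p.1 p.2) ∧
      ∑' p : ι × κ, f p.1 * g p.1 p.2 ≤ (∑' i, f i) * C := by
  have h1 : ∀ i, Summable (fun k => f i * g i k) := fun i => (hg i).1.mul_left _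
  have h2 : ∀ i, ∑' k, f i * g i k ≤ f i * C := by
    intro i
    rw [tsum_mul_left]
    exact mul_le_mul_of_nonneg_left (hg i).2 (hf0 i)
  have h3 : Summable (fun i => ∑' k, f i * g i k) :=
    (hf.mul_right C).of_nonneg_of_le (fun i => tsum_nonneg (fun k => mul_nonneg (hf0 i) (hg0 i k)))
      h2
  have h4 : Summable (fun p : ι × κ => f p.1 * g p.1 p.2) :=
    (summable_prod_of_nonneg (fun p => mul_nonneg (hf0 p.1) (hg0 p.1 p.2))).mpr ⟨h1, h3⟩
  refine ⟨h4, ?_⟩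
  rw [h4.tsum_prod, ← tsum_mul_right]
  exact h3.tsum_le_tsum h2 (hf.mul_right C)

/-! ### Norms of the exponentials -/

theorem norm_cexp_tri (τ : ℂ) (r ρ : ℝ) :
    ‖cexp (π * I * τ * (r : ℂ) + 2 * π * I * (ρ : ℂ))‖ = rexp (-(π * τ.im) * r) := by
  rw [Complex.norm_exp]
  congr 1
  simp

theorem norm_cexp_dual (τ : ℂ) (r ρ : ℝ) :
    ‖cexp (-(π * I * (r : ℂ) / τ) + 2 * π * I * (ρ : ℂ))‖ =
      rexp (-(π * (τ.im / Complex.normSq τ)) * r) := by
  rw [Complex.norm_exp]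
  congr 1
  simp [Complex.div_re]
  ring

/-! ### The one dimensional inversion formula -/

theorem one_dim {A : ℝ} (hA : 0 < A) {τ : ℂ} (hτ : 0 < τ.im) (s β : ℝ) :
    ∑' m : ℤ, cexp (π * I * τ * ((A * ((m : ℝ) + s) ^ 2 : ℝ) : ℂ)
        + 2 * π * I * ((β * ((m : ℝ) + s) : ℝ) : ℂ)) =
      1 / (-I * A * τ) ^ (1 / 2 : ℂ) *
        ∑' y : ℤ, cexp (-(π * I * ((((y : ℝ) - β) ^ 2 / A : ℝ) : ℂ) / τ)
          + 2 * π * I * (((y : ℝ) * s : ℝ) : ℂ)) := by
  have ha : 0 < (-I * A * τ).re := by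
    simp
    positivity
  have hτ0 : τ ≠ 0 := by
    intro h
    rw [h] at hτ
    simp at hτ
  have hA0 : (A : ℂ) ≠ 0 := by exact_mod_cast hA.ne'
  have key := Complex.tsum_exp_neg_quadratic ha (-(-I * A * τ) * s + I * β)
  have hL : ∀ m : ℤ, cexp (π * I * τ * ((A * ((m : ℝ) + s) ^ 2 : ℝ) : ℂ)
        + 2 * π * I * ((β * ((m : ℝ) + s) : ℝ) : ℂ)) =
      cexp (-π * (-I * A * τ) * s ^ 2 + 2 * π * I * β * s) *
        cexp (-π * (-I * A * τ) * m ^ 2 + 2 * π * (-(-I * A * τ) * s + I * β) * m) := by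
    intro m
    rw [← Complex.exp_add]
    congr 1
    push_cast
    ring
  have h1 : -(π : ℂ) / (-I * A * τ) = -(π * I) / (A * τ) := by
    rw [div_eq_div_iff (by simp [hA0, hτ0]) (by simp [hA0, hτ0])]
    ring_nf
    rw [I_sq]
    ring
  have h2 : ∀ y : ℤ, ((y : ℂ) + I * (-(-I * A * τ) * s + I * β)) = ((y : ℂ) - β) - A * τ * s := by
    intro y
    ring_nf
    rw [I_sq]
    ring
  have hR : ∀ y : ℤ, cexp (-π * (-I * A * τ) * s ^ 2 + 2 * π * I * β * s) *
        cexp (-π / (-I * A * τ) * (y + I * (-(-I * A * τ) * s + I * β)) ^ 2) =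
      cexp (-(π * I * ((((y : ℝ) - β) ^ 2 / A : ℝ) : ℂ) / τ)
          + 2 * π * I * (((y : ℝ) * s : ℝ) : ℂ)) := by
    intro y
    rw [← Complex.exp_add, h1, h2]
    congr 1
    push_cast
    field_simp
    ring
  simp_rw [hL]
  rw [tsum_mul_left, key, mul_left_comm, ← tsum_mul_left]
  simp_rw [hR]

theorem kappa_pos {τ : ℂ} (hτ : 0 < τ.im) : 0 < τ.im / Complex.normSq τ := by
  have hτ0 : τ ≠ 0 := by
    intro h
    rw [h] at hτ
    simp at hτ
  exact div_pos hτ (Complex.normSq_pos.mpr hτ0)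

/-! ### Peeling one variable -/

theorem peel {ι : Type*} {A : ℝ} (hA : 0 < A) {τ : ℂ} (hτ : 0 < τ.im) (β₀ : ℝ) (s : ι → ℝ)
    (B : ι → ℂ) (hB : Summable (fun i => ‖B i‖)) :
    Summable (fun p : ℤ × ι => ‖cexp (π * I * τ * ((A * ((p.1 : ℝ) + s p.2) ^ 2 : ℝ) : ℂ)
        + 2 * π * I * ((β₀ * ((p.1 : ℝ) + s p.2) : ℝ) : ℂ)) * B p.2‖) ∧
    ∑' p : ℤ × ι, cexp (π * I * τ * ((A * ((p.1 : ℝ) + s p.2) ^ 2 : ℝ) : ℂ)
        + 2 * π * I * ((β₀ * ((p.1 : ℝ) + s p.2) : ℝ) : ℂ)) * B p.2 =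
      1 / (-I * A * τ) ^ (1 / 2 : ℂ) *
        ∑' y₀ : ℤ, ∑' i, cexp (-(π * I * ((((y₀ : ℝ) - β₀) ^ 2 / A : ℝ) : ℂ) / τ)
          + 2 * π * I * (((y₀ : ℝ) * s i : ℝ) : ℂ)) * B i := by
  obtain ⟨C, hC⟩ := gauss_shift_bound (t := π * τ.im * A) (by positivity)
  have hκ := kappa_pos hτ
  obtain ⟨C', hC'⟩ := gauss_shift_bound (t := π * (τ.im / Complex.normSq τ) / A) (by positivity)
  have hsw : Summable (fun q : ι × ℤ =>
      ‖B q.1‖ * rexp (-(π * τ.im * A) * ((q.2 : ℝ) + s q.1) ^ 2)) :=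
    (summable_prod_unif (fun i => ‖B i‖)
      (fun i (m : ℤ) => rexp (-(π * τ.im * A) * ((m : ℝ) + s i) ^ 2))
      (fun i => norm_nonneg _) (fun i m => (Real.exp_pos _).le) hB C (fun i => hC (s i))).1
  set T : ℤ → ι → ℂ := fun m i => cexp (π * I * τ * ((A * ((m : ℝ) + s i) ^ 2 : ℝ) : ℂ)
        + 2 * π * I * ((β₀ * ((m : ℝ) + s i) : ℝ) : ℂ)) * B i with hT
  set D : ℤ → ι → ℂ := fun y i => cexp (-(π * I * ((((y : ℝ) - β₀) ^ 2 / A : ℝ) : ℂ) / τ)
          + 2 * π * I * (((y : ℝ) * s i : ℝ) : ℂ)) * B i with hD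
  have hnormT : ∀ p : ℤ × ι, ‖T p.1 p.2‖ =
      ‖B p.2‖ * rexp (-(π * τ.im * A) * ((p.1 : ℝ) + s p.2) ^ 2) := by
    intro p
    simp only [hT]
    rw [norm_mul, norm_cexp_tri, mul_comm]
    congr 2
    ring
  have hS : Summable (fun p : ℤ × ι => ‖T p.1 p.2‖) := by
    simp_rw [hnormT]
    exact hsw.prod_symm
  refine ⟨hS, ?_⟩
  have hTu : Summable (Function.uncurry T) := hS.of_norm
  have hnormD : ∀ p : ℤ × ι, ‖D p.1 p.2‖ =
      rexp (-(π * (τ.im / Complex.normSq τ) / A) * ((p.1 : ℝ) + (-β₀)) ^ 2) * ‖B p.2‖ := by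
    intro p
    simp only [hD]
    rw [norm_mul, norm_cexp_dual]
    congr 2
    field_simp
    ring
  have hDu : Summable (Function.uncurry D) := by
    have h1 : Summable (fun p : ℤ × ι => ‖D p.1 p.2‖) := by
      simp_rw [hnormD]
      exact Summable.mul_of_nonneg (hC' (-β₀)).1 hB (fun _ => (Real.exp_pos _).le)
        (fun _ => norm_nonneg _)
    exact h1.of_norm
  calc ∑' p : ℤ × ι, T p.1 p.2 = ∑' m, ∑' i, T m i := hTu.tsum_prod
    _ = ∑' i, ∑' m, T m i := (Summable.tsum_comm hTu).symm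
    _ = ∑' i, 1 / (-I * A * τ) ^ (1 / 2 : ℂ) * ∑' y, D y i := by
        refine tsum_congr (fun i => ?_)
        simp only [hT, hD]
        rw [tsum_mul_right, one_dim hA hτ (s i) β₀, mul_assoc, ← tsum_mul_right]
    _ = 1 / (-I * A * τ) ^ (1 / 2 : ℂ) * ∑' i, ∑' y, D y i := tsum_mul_left
    _ = 1 / (-I * A * τ) ^ (1 / 2 : ℂ) * ∑' y, ∑' i, D y i := by
        rw [Summable.tsum_comm hDu]

/-! ### Triangular forms and their duals -/

/-- `triQ n a c x = ∑ i, a i * (x i + ∑ j > i, c i j * x j) ^ 2`, by recursion on `n`. -/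
noncomputable def triQ : (n : ℕ) → (Fin n → ℝ) → (Fin n → Fin n → ℝ) → (Fin n → ℝ) → ℝ
  | 0, _, _, _ => 0
  | (n + 1), a, c, x => a 0 * (x 0 + ∑ j : Fin n, c 0 j.succ * x j.succ) ^ 2
      + triQ n (fun i => a i.succ) (fun i j => c i.succ j.succ) (fun j => x j.succ)

/-- The dual form of `triQ n a c` (the form of the inverse Gram matrix), by recursion. -/
noncomputable def dualQ : (n : ℕ) → (Fin n → ℝ) → (Fin n → Fin n → ℝ) → (Fin n → ℝ) → ℝ
  | 0, _, _, _ => 0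
  | (n + 1), a, c, y => (y 0) ^ 2 / a 0
      + dualQ n (fun i => a i.succ) (fun i j => c i.succ j.succ)
          (fun j => y j.succ - y 0 * c 0 j.succ)

/-- Splitting off the first coordinate of an integer vector. -/
def consE (n : ℕ) : ℤ × (Fin n → ℤ) ≃ (Fin (n + 1) → ℤ) := Fin.consEquiv (fun _ => ℤ)

theorem consE_apply (n : ℕ) (p : ℤ × (Fin n → ℤ)) : consE n p = Fin.cons p.1 p.2 := rfl

theorem dual_unif : ∀ (n : ℕ) (t : ℝ), 0 < t → ∀ (a : Fin n → ℝ), (∀ i, 0 < a i) →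
    ∀ (c : Fin n → Fin n → ℝ), ∃ C : ℝ, ∀ v : Fin n → ℝ,
      Summable (fun y : Fin n → ℤ => rexp (-t * dualQ n a c (fun i => (y i : ℝ) + v i))) ∧
      ∑' y : Fin n → ℤ, rexp (-t * dualQ n a c (fun i => (y i : ℝ) + v i)) ≤ C
  | 0, t, _, a, _, c => by
      refine ⟨1, fun v => ⟨Summable.of_finite, ?_⟩⟩
      simp [dualQ]
  | (n + 1), t, ht, a, ha, c => by
      obtain ⟨C₁, hC₁⟩ := gauss_shift_bound (t := t / a 0) (div_pos ht (ha 0))
      obtain ⟨C₂, hC₂⟩ := dual_unif n t ht (fun i => a i.succ) (fun i => ha i.succ)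
        (fun i j => c i.succ j.succ)
      refine ⟨C₁ * C₂, fun v => ?_⟩
      have hC₂0 : 0 ≤ C₂ :=
        le_trans (tsum_nonneg (fun _ => (Real.exp_pos _).le)) (hC₂ 0).2
      have h := summable_prod_unif (fun y₀ : ℤ => rexp (-(t / a 0) * ((y₀ : ℝ) + v 0) ^ 2))
        (fun (y₀ : ℤ) (y' : Fin n → ℤ) => rexp (-t * dualQ n (fun i => a i.succ)
          (fun i j => c i.succ j.succ)
          (fun j => (y' j : ℝ) + (v j.succ - ((y₀ : ℝ) + v 0) * c 0 j.succ))))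
        (fun _ => (Real.exp_pos _).le) (fun _ _ => (Real.exp_pos _).le) (hC₁ (v 0)).1 C₂
        (fun y₀ => hC₂ _)
      have heq : ∀ p : ℤ × (Fin n → ℤ),
          rexp (-t * dualQ (n + 1) a c (fun i => ((consE n p i : ℤ) : ℝ) + v i)) =
          rexp (-(t / a 0) * ((p.1 : ℝ) + v 0) ^ 2) * rexp (-t * dualQ n (fun i => a i.succ)
            (fun i j => c i.succ j.succ)
            (fun j => (p.2 j : ℝ) + (v j.succ - ((p.1 : ℝ) + v 0) * c 0 j.succ))) := by
        intro p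
        rw [← Real.exp_add]
        congr 1
        simp only [dualQ, consE_apply, Fin.cons_zero, Fin.cons_succ]
        have h3 : (fun j : Fin n => (p.2 j : ℝ) + v j.succ - ((p.1 : ℝ) + v 0) * c 0 j.succ) =
            (fun j => (p.2 j : ℝ) + (v j.succ - ((p.1 : ℝ) + v 0) * c 0 j.succ)) := by
          funext j
          ring
        rw [h3]
        ring
      have hsum : Summable ((fun y : Fin (n + 1) → ℤ =>
          rexp (-t * dualQ (n + 1) a c (fun i => (y i : ℝ) + v i))) ∘ (consE n)) := by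
        refine h.1.congr (fun p => ?_)
        simp only [Function.comp_apply]
        exact (heq p).symm
      refine ⟨(consE n).summable_iff.mp hsum, ?_⟩
      rw [← (consE n).tsum_eq]
      calc ∑' p : ℤ × (Fin n → ℤ),
            rexp (-t * dualQ (n + 1) a c (fun i => ((consE n p i : ℤ) : ℝ) + v i))
          = ∑' p : ℤ × (Fin n → ℤ), rexp (-(t / a 0) * ((p.1 : ℝ) + v 0) ^ 2) *
              rexp (-t * dualQ n (fun i => a i.succ) (fun i j => c i.succ j.succ)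
              (fun j => (p.2 j : ℝ) + (v j.succ - ((p.1 : ℝ) + v 0) * c 0 j.succ))) :=
            tsum_congr heq
        _ ≤ (∑' y₀ : ℤ, rexp (-(t / a 0) * ((y₀ : ℝ) + v 0) ^ 2)) * C₂ := h.2
        _ ≤ C₁ * C₂ := mul_le_mul_of_nonneg_right (hC₁ (v 0)).2 hC₂0

/-! ### The two families -/

/-- The summand on the side of the form. -/
noncomputable def triTerm (n : ℕ) (a : Fin n → ℝ) (c : Fin n → Fin n → ℝ) (τ : ℂ)
    (w β : Fin n → ℝ) (m : Fin n → ℤ) : ℂ :=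
  cexp (π * I * τ * ((triQ n a c (fun i => (m i : ℝ) + w i) : ℝ) : ℂ)
    + 2 * π * I * ((∑ i, β i * ((m i : ℝ) + w i) : ℝ) : ℂ))

/-- The summand on the side of the dual form. -/
noncomputable def dualTerm (n : ℕ) (a : Fin n → ℝ) (c : Fin n → Fin n → ℝ) (τ : ℂ)
    (w β : Fin n → ℝ) (y : Fin n → ℤ) : ℂ :=
  cexp (-(π * I * ((dualQ n a c (fun i => (y i : ℝ) - β i) : ℝ) : ℂ) / τ)
    + 2 * π * I * ((∑ i, (y i : ℝ) * w i : ℝ) : ℂ))

theorem summable_norm_dualTerm (n : ℕ) (a : Fin n → ℝ) (ha : ∀ i, 0 < a i)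
    (c : Fin n → Fin n → ℝ) {τ : ℂ} (hτ : 0 < τ.im) (w β : Fin n → ℝ) :
    Summable (fun y : Fin n → ℤ => ‖dualTerm n a c τ w β y‖) := by
  have hκ := kappa_pos hτ
  obtain ⟨C, hC⟩ := dual_unif n (π * (τ.im / Complex.normSq τ)) (by positivity) a ha c
  refine (hC (fun i => -β i)).1.congr (fun y => ?_)
  simp only [dualTerm]
  rw [norm_cexp_dual]
  simp only [sub_eq_add_neg]

theorem triTerm_cons (n : ℕ) (a : Fin (n + 1) → ℝ) (c : Fin (n + 1) → Fin (n + 1) → ℝ) (τ : ℂ)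
    (w β : Fin (n + 1) → ℝ) (p : ℤ × (Fin n → ℤ)) :
    triTerm (n + 1) a c τ w β (consE n p) =
      cexp (π * I * τ * ((a 0 * ((p.1 : ℝ) +
            (w 0 + ∑ j : Fin n, c 0 j.succ * ((p.2 j : ℝ) + w j.succ))) ^ 2 : ℝ) : ℂ)
          + 2 * π * I * ((β 0 * ((p.1 : ℝ) +
            (w 0 + ∑ j : Fin n, c 0 j.succ * ((p.2 j : ℝ) + w j.succ))) : ℝ) : ℂ)) *
        triTerm n (fun i => a i.succ) (fun i j => c i.succ j.succ) τ (fun j => w j.succ)
          (fun j => β j.succ - β 0 * c 0 j.succ) p.2 := by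
  have r1 : triQ (n + 1) a c (fun i => ((consE n p i : ℤ) : ℝ) + w i) =
      a 0 * ((p.1 : ℝ) + (w 0 + ∑ j : Fin n, c 0 j.succ * ((p.2 j : ℝ) + w j.succ))) ^ 2
        + triQ n (fun i => a i.succ) (fun i j => c i.succ j.succ)
            (fun j => (p.2 j : ℝ) + w j.succ) := by
    simp only [triQ, consE_apply, Fin.cons_zero, Fin.cons_succ]
    ring
  have r2 : ∑ i, β i * (((consE n p i : ℤ) : ℝ) + w i) =
      β 0 * ((p.1 : ℝ) + (w 0 + ∑ j : Fin n, c 0 j.succ * ((p.2 j : ℝ) + w j.succ)))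
        + ∑ j : Fin n, (β j.succ - β 0 * c 0 j.succ) * ((p.2 j : ℝ) + w j.succ) := by
    simp only [Fin.sum_univ_succ, consE_apply, Fin.cons_zero, Fin.cons_succ, sub_mul,
      Finset.sum_sub_distrib, mul_assoc, ← Finset.mul_sum]
    ring
  simp only [triTerm]
  rw [← Complex.exp_add, r1, r2]
  congr 1
  simp only [Complex.ofReal_add]
  ring

theorem dualTerm_cons (n : ℕ) (a : Fin (n + 1) → ℝ) (c : Fin (n + 1) → Fin (n + 1) → ℝ) (τ : ℂ)
    (w β : Fin (n + 1) → ℝ) (p : ℤ × (Fin n → ℤ)) :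
    dualTerm (n + 1) a c τ w β (consE n p) =
      cexp (-(π * I * ((((p.1 : ℝ) - β 0) ^ 2 / a 0 : ℝ) : ℂ) / τ)
          + 2 * π * I * (((p.1 : ℝ) * w 0 : ℝ) : ℂ)) *
        dualTerm n (fun i => a i.succ) (fun i j => c i.succ j.succ) τ (fun j => w j.succ)
          (fun j => β j.succ + ((p.1 : ℝ) - β 0) * c 0 j.succ) p.2 := by
  have r1 : dualQ (n + 1) a c (fun i => ((consE n p i : ℤ) : ℝ) - β i) =
      ((p.1 : ℝ) - β 0) ^ 2 / a 0 + dualQ n (fun i => a i.succ) (fun i j => c i.succ j.succ)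
        (fun j => (p.2 j : ℝ) - (β j.succ + ((p.1 : ℝ) - β 0) * c 0 j.succ)) := by
    simp only [dualQ, consE_apply, Fin.cons_zero, Fin.cons_succ]
    have h3 : (fun j : Fin n => (p.2 j : ℝ) - β j.succ - ((p.1 : ℝ) - β 0) * c 0 j.succ) =
        (fun j => (p.2 j : ℝ) - (β j.succ + ((p.1 : ℝ) - β 0) * c 0 j.succ)) := by
      funext j
      ring
    rw [h3]
  have r2 : ∑ i, ((consE n p i : ℤ) : ℝ) * w i =
      (p.1 : ℝ) * w 0 + ∑ j : Fin n, (p.2 j : ℝ) * w j.succ := by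
    simp only [Fin.sum_univ_succ, consE_apply, Fin.cons_zero, Fin.cons_succ]
  simp only [dualTerm]
  rw [← Complex.exp_add, r1, r2]
  congr 1
  simp only [Complex.ofReal_add]
  ring

theorem inner_term (n : ℕ) (a : Fin (n + 1) → ℝ) (c : Fin (n + 1) → Fin (n + 1) → ℝ) (τ : ℂ)
    (w β : Fin (n + 1) → ℝ) (y₀ : ℤ) (m' : Fin n → ℤ) :
    cexp (-(π * I * ((((y₀ : ℝ) - β 0) ^ 2 / a 0 : ℝ) : ℂ) / τ)
          + 2 * π * I * (((y₀ : ℝ) *
            (w 0 + ∑ j : Fin n, c 0 j.succ * ((m' j : ℝ) + w j.succ)) : ℝ) : ℂ)) *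
        triTerm n (fun i => a i.succ) (fun i j => c i.succ j.succ) τ (fun j => w j.succ)
          (fun j => β j.succ - β 0 * c 0 j.succ) m' =
      cexp (-(π * I * ((((y₀ : ℝ) - β 0) ^ 2 / a 0 : ℝ) : ℂ) / τ)
          + 2 * π * I * (((y₀ : ℝ) * w 0 : ℝ) : ℂ)) *
        triTerm n (fun i => a i.succ) (fun i j => c i.succ j.succ) τ (fun j => w j.succ)
          (fun j => β j.succ + ((y₀ : ℝ) - β 0) * c 0 j.succ) m' := by
  have hr : (y₀ : ℝ) * (w 0 + ∑ j : Fin n, c 0 j.succ * ((m' j : ℝ) + w j.succ))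
        + ∑ j : Fin n, (β j.succ - β 0 * c 0 j.succ) * ((m' j : ℝ) + w j.succ) =
      (y₀ : ℝ) * w 0
        + ∑ j : Fin n, (β j.succ + ((y₀ : ℝ) - β 0) * c 0 j.succ) * ((m' j : ℝ) + w j.succ) := by
    simp only [sub_mul, add_mul, Finset.sum_sub_distrib, Finset.sum_add_distrib, mul_assoc,
      ← Finset.mul_sum]
    ring
  have hc : (((y₀ : ℝ) * (w 0 + ∑ j : Fin n, c 0 j.succ * ((m' j : ℝ) + w j.succ)) : ℝ) : ℂ)
        + ((∑ j : Fin n, (β j.succ - β 0 * c 0 j.succ) * ((m' j : ℝ) + w j.succ) : ℝ) : ℂ) =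
      (((y₀ : ℝ) * w 0 : ℝ) : ℂ)
        + ((∑ j : Fin n, (β j.succ + ((y₀ : ℝ) - β 0) * c 0 j.succ) * ((m' j : ℝ) + w j.succ)
            : ℝ) : ℂ) := by
    rw [← Complex.ofReal_add, ← Complex.ofReal_add, hr]
  simp only [triTerm]
  rw [← Complex.exp_add, ← Complex.exp_add]
  congr 1
  linear_combination (2 * π * I) * hc

/-! ### The inversion formula -/

theorem gauss_inversion : ∀ (n : ℕ) (a : Fin n → ℝ), (∀ i, 0 < a i) →
    ∀ (c : Fin n → Fin n → ℝ) (τ : ℂ), 0 < τ.im → ∀ (w β : Fin n → ℝ),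
      Summable (fun m : Fin n → ℤ => ‖triTerm n a c τ w β m‖) ∧
      ∑' m : Fin n → ℤ, triTerm n a c τ w β m =
        (∏ i, 1 / (-I * (a i : ℂ) * τ) ^ (1 / 2 : ℂ)) * ∑' y : Fin n → ℤ, dualTerm n a c τ w β y
  | 0, a, _, c, τ, _, w, β => by
      refine ⟨Summable.of_finite, ?_⟩
      simp [triTerm, dualTerm, triQ, dualQ]
  | (n + 1), a, ha, c, τ, hτ, w, β => by
      have IH := gauss_inversion n (fun i => a i.succ) (fun i => ha i.succ)
        (fun i j => c i.succ j.succ) τ hτ (fun j => w j.succ)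
      obtain ⟨hP1, hP2⟩ := peel (ha 0) hτ (β 0)
        (fun m' : Fin n → ℤ => w 0 + ∑ j : Fin n, c 0 j.succ * ((m' j : ℝ) + w j.succ))
        (triTerm n (fun i => a i.succ) (fun i j => c i.succ j.succ) τ (fun j => w j.succ)
          (fun j => β j.succ - β 0 * c 0 j.succ))
        (IH (fun j => β j.succ - β 0 * c 0 j.succ)).1
      have hS1 : Summable (fun m : Fin (n + 1) → ℤ => ‖triTerm (n + 1) a c τ w β m‖) := by
        rw [← (consE n).summable_iff]
        refine hP1.congr (fun p => ?_)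
        simp only [Function.comp_apply]
        rw [triTerm_cons]
      refine ⟨hS1, ?_⟩
      have hG : Summable (fun p : ℤ × (Fin n → ℤ) => dualTerm (n + 1) a c τ w β (consE n p)) :=
        (consE n).summable_iff.mpr (summable_norm_dualTerm (n + 1) a ha c hτ w β).of_norm
      calc ∑' m : Fin (n + 1) → ℤ, triTerm (n + 1) a c τ w β m
          = ∑' p : ℤ × (Fin n → ℤ), triTerm (n + 1) a c τ w β (consE n p) :=
            ((consE n).tsum_eq _).symm
        _ = 1 / (-I * (a 0 : ℂ) * τ) ^ (1 / 2 : ℂ) * ∑' y₀ : ℤ, ∑' m' : Fin n → ℤ,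
              cexp (-(π * I * ((((y₀ : ℝ) - β 0) ^ 2 / a 0 : ℝ) : ℂ) / τ)
                + 2 * π * I * (((y₀ : ℝ) *
                  (w 0 + ∑ j : Fin n, c 0 j.succ * ((m' j : ℝ) + w j.succ)) : ℝ) : ℂ)) *
              triTerm n (fun i => a i.succ) (fun i j => c i.succ j.succ) τ (fun j => w j.succ)
                (fun j => β j.succ - β 0 * c 0 j.succ) m' := by
            rw [← hP2]
            exact tsum_congr (fun p => triTerm_cons n a c τ w β p)
        _ = 1 / (-I * (a 0 : ℂ) * τ) ^ (1 / 2 : ℂ) * ∑' y₀ : ℤ,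
              (∏ i : Fin n, 1 / (-I * (a i.succ : ℂ) * τ) ^ (1 / 2 : ℂ)) *
                ∑' y' : Fin n → ℤ, dualTerm (n + 1) a c τ w β (consE n (y₀, y')) := by
            congr 1
            refine tsum_congr (fun y₀ => ?_)
            rw [tsum_congr (fun m' => inner_term n a c τ w β y₀ m'), tsum_mul_left,
              (IH (fun j => β j.succ + ((y₀ : ℝ) - β 0) * c 0 j.succ)).2, mul_left_comm,
              ← tsum_mul_left]
            congr 1
            refine tsum_congr (fun y' => ?_)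
            rw [dualTerm_cons]
        _ = (∏ i, 1 / (-I * (a i : ℂ) * τ) ^ (1 / 2 : ℂ)) *
              ∑' p : ℤ × (Fin n → ℤ), dualTerm (n + 1) a c τ w β (consE n p) := by
            rw [tsum_mul_left, ← mul_assoc, Fin.prod_univ_succ, hG.tsum_prod]
        _ = (∏ i, 1 / (-I * (a i : ℂ) * τ) ^ (1 / 2 : ℂ)) *
              ∑' y : Fin (n + 1) → ℤ, dualTerm (n + 1) a c τ w β y := by
            rw [(consE n).tsum_eq]

end Fermat.Agent.S16.H05
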