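import Mathlib
import Fermat.Prelude.Def_CuspForm_IntegralStructure
import Fermat.Prelude.Def_ModularCurve_ModularUnit
import Fermat.Prelude.Thm_CongruenceSubgroup_one_mem_strictPeriods_Gamma0
import Fermat.Agent.S16.Cusp_helper33

/-!
# S16 glue (G1): (H1) from (E) + (THETA) + (CUSP), and (H2) from (E) + (B)

Everything is stated for an arbitrary target coefficient function `s : ℕ → ℤ`
(in the application `s k` is the sum of the divisors of `k` prime to `p`).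
-/

set_option autoImplicit false

namespace Fermat.Agent.S16.H33

open CongruenceSubgroup UpperHalfPlane ModularFormClass
open scoped MatrixGroups ModularForm

noncomputable section

theorem hΓ (N : ℕ) :
    (1 : ℝ) ∈ (Subgroup.map (Matrix.SpecialLinearGroup.mapGL ℝ) (Gamma0 N)).strictPeriods :=
  CongruenceSubgroup.one_mem_strictPeriods_Gamma0 N

/-- `k`-th `q`-coefficient of a function on the upper half plane (period one). -/
abbrev cf (f : ℍ → ℂ) (k : ℕ) : ℂ := (qExpansion 1 f).coeff k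

theorem cf_eq_qCoeff (f : ℍ → ℂ) (k : ℕ) : cf f k = ModularFormClass.qCoeff f k := rfl

variable {N : ℕ}

theorem cf_smul (a : ℂ) (F : ModularForm (Gamma0 N) 2) (k : ℕ) :
    cf ⇑(a • F) k = a * cf ⇑F k := by
  have h1 : ⇑(a • F) = a • ⇑F := by
    ext z; simp
  simp only [cf, h1]
  rw [ModularForm.qExpansion_smul one_pos (hΓ N) a F]
  simp

theorem cf_sub (F G : ModularForm (Gamma0 N) 2) (k : ℕ) :
    cf ⇑(F - G) k = cf ⇑F k - cf ⇑G k := by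
  have h1 : ⇑(F - G) = ⇑F - ⇑G := by
    ext z; simp
  simp only [cf, h1]
  rw [ModularForm.qExpansion_sub one_pos (hΓ N) F G, map_sub]

theorem cf_zero_fun (k : ℕ) : cf (0 : ℍ → ℂ) k = 0 := by
  simp [cf, UpperHalfPlane.qExpansion_zero]

open ModularCurve in
/-- (G1-H1): from the Eisenstein series, one theta series and the cusp lemma, a cusp form with
integral coefficients congruent to `s` modulo the Eisenstein numerator. -/
theorem h1_of (p : ℕ) [Fact p.Prime] (s : ℕ → ℤ)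
    (hE : ∃ E : ModularForm (Gamma0 p) 2, cf ⇑E 0 = ((p : ℂ) - 1) / 24 ∧
      ∀ k : ℕ, 1 ≤ k → cf ⇑E k = (s k : ℂ))
    (hΘ : 5 ≤ p → ∃ Θ : ModularForm (Gamma0 p) 2, cf ⇑Θ 0 = 1 ∧
      ∀ k : ℕ, 1 ≤ k → ∃ m : ℤ, cf ⇑Θ k = 2 * (m : ℂ))
    (hcusp : ∀ F : ModularForm (Gamma0 p) 2, cf ⇑F 0 = 0 →
      ∃ f : CuspForm (Gamma0 p) 2, ∀ z, f z = F z) :
    ∃ h0 : CuspForm (Gamma0 p) 2, (∀ k : ℕ, ∃ m : ℤ, cf ⇑h0 k = (m : ℂ)) ∧
      ∀ k : ℕ, 1 ≤ k → ∃ m : ℤ,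
        cf ⇑h0 k = (s k : ℂ) + (eisensteinNumerator p : ℂ) * (m : ℂ) := by
  have hp : p.Prime := Fact.out
  by_cases hp5 : 5 ≤ p
  · obtain ⟨E, hE0, hEk⟩ := hE
    obtain ⟨Θ, hΘ0, hΘk⟩ := hΘ hp5
    set ν : ℕ := Nat.gcd (p - 1) 12 with hν
    have hνpos : 0 < ν := Nat.gcd_pos_of_pos_right _ (by norm_num)
    have hν12 : ν ∣ 12 := Nat.gcd_dvd_right _ _
    have hνp : ν ∣ p - 1 := Nat.gcd_dvd_left _ _
    set a : ℕ := 12 / ν with ha
    set n : ℕ := (p - 1) / ν with hn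
    have hn' : eisensteinNumerator p = n := rfl
    have haν : a * ν = 12 := Nat.div_mul_cancel hν12
    have hnν : n * ν = p - 1 := Nat.div_mul_cancel hνp
    have hcop : Nat.Coprime n a := Nat.coprime_div_gcd_div_gcd hνpos
    obtain ⟨v, c, hvc⟩ := (Nat.isCoprime_iff_coprime.mpr hcop)
    -- v * n + c * a = 1
    have hvcC : (v : ℂ) * n + c * a = 1 := by exact_mod_cast congrArg (Int.cast : ℤ → ℂ) hvc
    have haνC : (a : ℂ) * ν = 12 := by exact_mod_cast congrArg (Nat.cast : ℕ → ℂ) haν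
    have hnνC : (n : ℂ) * ν = (p : ℂ) - 1 := by
      have : ((n * ν : ℕ) : ℂ) = ((p - 1 : ℕ) : ℂ) := congrArg _ hnν
      rw [Nat.cast_sub hp.one_le] at this
      simpa using this
    have hν0 : (ν : ℂ) ≠ 0 := by exact_mod_cast hνpos.ne'
    have ha0 : (a : ℂ) ≠ 0 := by
      intro h0
      rw [h0, zero_mul] at haνC
      norm_num at haνC
    set F : ModularForm (Gamma0 p) 2 := ((c : ℂ) * a) • (E - (((p : ℂ) - 1) / 24) • Θ) with hF
    have hFk : ∀ k, cf ⇑F k = ((c : ℂ) * a) * (cf ⇑E k - (((p : ℂ) - 1) / 24) * cf ⇑Θ k) := by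
      intro k
      rw [hF, cf_smul, cf_sub, cf_smul]
    have hF0 : cf ⇑F 0 = 0 := by
      rw [hFk, hE0, hΘ0]; ring
    obtain ⟨f, hf⟩ := hcusp F hF0
    have hfF : (⇑f : ℍ → ℂ) = ⇑F := funext hf
    have key : ∀ k : ℕ, 1 ≤ k → ∃ m : ℤ,
        cf ⇑f k = (s k : ℂ) + (n : ℂ) * (m : ℂ) := by
      intro k hk
      obtain ⟨m, hm⟩ := hΘk k hk
      refine ⟨-v * s k - c * m, ?_⟩
      rw [hfF, hFk, hEk k hk, hm, ← hnνC]
      have h24 : (24 : ℂ) = 2 * (a * ν) := by rw [haνC]; norm_num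
      rw [h24]
      push_cast
      field_simp
      linear_combination (s k : ℂ) * hvcC
    refine ⟨f, ?_, ?_⟩
    · intro k
      rcases Nat.eq_zero_or_pos k with rfl | hk
      · exact ⟨0, by rw [hfF, hF0]; simp⟩
      · obtain ⟨m, hm⟩ := key k hk
        exact ⟨s k + n * m, by rw [hm]; push_cast; ring⟩
    · intro k hk
      rw [hn']
      exact key k hk
  · have hp' : p = 2 ∨ p = 3 := by
      have h2 := hp.two_le
      have : p < 5 := by omega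
      interval_cases p
      · left; rfl
      · right; rfl
      · exact absurd hp (by decide)
    have hn1 : eisensteinNumerator p = 1 := by
      rcases hp' with rfl | rfl <;> decide
    refine ⟨0, fun k => ⟨0, ?_⟩, fun k _ => ⟨-s k, ?_⟩⟩
    · rw [show (⇑(0 : CuspForm (Gamma0 p) 2) : ℍ → ℂ) = 0 from rfl, cf_zero_fun]; simp
    · rw [show (⇑(0 : CuspForm (Gamma0 p) 2) : ℍ → ℂ) = 0 from rfl, cf_zero_fun, hn1]
      push_cast; ring

theorem cf_coe_cusp (h : CuspForm (Gamma0 N) 2) (k : ℕ) :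
    cf ⇑(h : ModularForm (Gamma0 N) 2) k = cf ⇑h k := rfl

theorem cf_cusp_zero (h : CuspForm (Gamma0 N) 2) : cf ⇑h 0 = 0 :=
  CuspFormClass.qExpansion_coeff_zero h one_pos (hΓ N)

open ModularCurve in
/-- (G1-H2): from the Eisenstein series and statement (B), every modulus `d` for which some
cusp form is congruent to `s` divides the Eisenstein numerator (`d = 0` included). -/
theorem h2_of (p : ℕ) [Fact p.Prime] (s : ℕ → ℤ)
    (hE : ∃ E : ModularForm (Gamma0 p) 2, cf ⇑E 0 = ((p : ℂ) - 1) / 24 ∧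
      ∀ k : ℕ, 1 ≤ k → cf ⇑E k = (s k : ℂ))
    (hB : ∀ (l e : ℕ), l.Prime → 1 ≤ e → ∀ G : ModularForm (Gamma0 p) 2, cf ⇑G 0 = 1 →
      (∀ k : ℕ, 1 ≤ k → ∃ (a : ℤ) (b : ℕ), ¬ l ∣ b ∧ cf ⇑G k = (l : ℂ) ^ e * (a : ℂ) / (b : ℂ)) →
      l ^ e ∣ 24 / Nat.gcd (p - 1) 12)
    (d : ℕ) (h : CuspForm (Gamma0 p) 2)
    (hh : ∀ k : ℕ, 1 ≤ k → ∃ m : ℤ, cf ⇑h k = (s k : ℂ) + (d : ℂ) * (m : ℂ)) :
    d ∣ eisensteinNumerator p := by
  have hp : p.Prime := Fact.out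
  obtain ⟨E, hE0, hEk⟩ := hE
  set ν : ℕ := Nat.gcd (p - 1) 12 with hν
  have hνpos : 0 < ν := Nat.gcd_pos_of_pos_right _ (by norm_num)
  have hν12 : ν ∣ 24 := (Nat.gcd_dvd_right _ _).trans (by norm_num)
  have hνp : ν ∣ p - 1 := Nat.gcd_dvd_left _ _
  set W : ℕ := 24 / ν with hW
  set n : ℕ := (p - 1) / ν with hn
  have hn' : eisensteinNumerator p = n := rfl
  have hWν : W * ν = 24 := Nat.div_mul_cancel hν12
  have hnν : n * ν = p - 1 := Nat.div_mul_cancel hνp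
  have hp1 : 1 ≤ p - 1 := by have := hp.two_le; omega
  have hn0 : n ≠ 0 := by
    rintro h0
    rw [h0, zero_mul] at hnν
    omega
  have hW0 : W ≠ 0 := by
    rintro h0
    rw [h0, zero_mul] at hWν
    omega
  have hWνC : (W : ℂ) * ν = 24 := by exact_mod_cast congrArg (Nat.cast : ℕ → ℂ) hWν
  have hnνC : (n : ℂ) * ν = (p : ℂ) - 1 := by
    have : ((n * ν : ℕ) : ℂ) = ((p - 1 : ℕ) : ℂ) := congrArg _ hnν
    rw [Nat.cast_sub hp.one_le] at this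
    simpa using this
  have hν0 : (ν : ℂ) ≠ 0 := by exact_mod_cast hνpos.ne'
  have hnC0 : (n : ℂ) ≠ 0 := by exact_mod_cast hn0
  have hp1C : (p : ℂ) - 1 ≠ 0 := by
    rw [← hnνC]; exact mul_ne_zero hnC0 hν0
  set G : ModularForm (Gamma0 p) 2 :=
    ((24 : ℂ) / ((p : ℂ) - 1)) • (E - (h : ModularForm (Gamma0 p) 2)) with hG
  have hGk : ∀ k, cf ⇑G k = ((24 : ℂ) / ((p : ℂ) - 1)) * (cf ⇑E k - cf ⇑h k) := by
    intro k
    rw [hG, cf_smul, cf_sub, cf_coe_cusp]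
  have hG0 : cf ⇑G 0 = 1 := by
    rw [hGk, hE0, cf_cusp_zero]
    field_simp
    ring
  rw [hn', Nat.dvd_iff_prime_pow_dvd_dvd]
  intro l j hl hjd
  by_contra hjn
  set g : ℕ := n.factorization l with hg
  set v : ℕ := W.factorization l with hv
  have hgj : g < j := by
    by_contra hle
    push Not at hle
    exact hjn ((hl.pow_dvd_iff_le_factorization hn0).mpr hle)
  obtain ⟨d', hd'⟩ := hjd
  have hndec : l ^ g * (n / l ^ g) = n := Nat.ordProj_mul_ordCompl_eq_self n l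
  have hWdec : l ^ v * (W / l ^ v) = W := Nat.ordProj_mul_ordCompl_eq_self W l
  have hn'nd : ¬ l ∣ n / l ^ g := Nat.not_dvd_ordCompl hl hn0
  set n' : ℕ := n / l ^ g with hn'def
  set w' : ℕ := W / l ^ v with hw'def
  have hlC : (l : ℂ) ≠ 0 := by exact_mod_cast hl.ne_zero
  have hn'C0 : (n' : ℂ) ≠ 0 := by
    intro h0
    have : n' = 0 := by exact_mod_cast h0
    rw [this, mul_zero] at hndec
    exact hn0 hndec.symm
  have hkey := hB l (j - g + v) hl (by omega) G hG0 (by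
    intro k hk
    obtain ⟨m, hm⟩ := hh k hk
    refine ⟨-(w' : ℤ) * d' * m, n', hn'nd, ?_⟩
    rw [hGk, hEk k hk, hm]
    have e1 : (24 : ℂ) = (l : ℂ) ^ v * w' * ν := by
      rw [← hWνC, ← hWdec]; push_cast; ring
    have e2 : (p : ℂ) - 1 = (l : ℂ) ^ g * n' * ν := by
      rw [← hnνC, ← hndec]; push_cast; ring
    have e3 : (d : ℂ) = (l : ℂ) ^ j * d' := by
      rw [hd']; push_cast; ring
    have e4 : (l : ℂ) ^ (j - g + v) * (l : ℂ) ^ g = (l : ℂ) ^ j * (l : ℂ) ^ v := by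
      rw [← pow_add, ← pow_add]
      congr 1
      omega
    rw [e1, e2, e3]
    push_cast
    field_simp
    linear_combination ((w' : ℂ) * d' * m) * e4)
  have hlt : l ^ (v + 1) ∣ W := (pow_dvd_pow l (by omega)).trans hkey
  exact Nat.pow_succ_factorization_not_dvd hW0 hl hlt

open ModularCurve in
/-- (G1-H1) with the cusp lemma discharged. -/
theorem h1_of' (p : ℕ) [Fact p.Prime] (s : ℕ → ℤ)
    (hE : ∃ E : ModularForm (Gamma0 p) 2, cf ⇑E 0 = ((p : ℂ) - 1) / 24 ∧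
      ∀ k : ℕ, 1 ≤ k → cf ⇑E k = (s k : ℂ))
    (hΘ : 5 ≤ p → ∃ Θ : ModularForm (Gamma0 p) 2, cf ⇑Θ 0 = 1 ∧
      ∀ k : ℕ, 1 ≤ k → ∃ m : ℤ, cf ⇑Θ k = 2 * (m : ℂ)) :
    ∃ h0 : CuspForm (Gamma0 p) 2, (∀ k : ℕ, ∃ m : ℤ, cf ⇑h0 k = (m : ℂ)) ∧
      ∀ k : ℕ, 1 ≤ k → ∃ m : ℤ,
        cf ⇑h0 k = (s k : ℂ) + (eisensteinNumerator p : ℂ) * (m : ℂ) :=
  h1_of p s hE hΘ (fun F hF => exists_cuspForm_of_coeff_zero p F hF)

/-! ### The integral lattice -/

theorem cf_add_cusp (f g : CuspForm (Gamma0 N) 2) (k : ℕ) :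
    cf ⇑(f + g) k = cf ⇑f k + cf ⇑g k := by
  simp only [cf, FunLike.coe_add]
  rw [ModularForm.qExpansion_add one_pos (hΓ N) f g, map_add]

theorem cf_zsmul_cusp (c : ℤ) (f : CuspForm (Gamma0 N) 2) (k : ℕ) :
    cf ⇑(c • f) k = (c : ℂ) * cf ⇑f k := by
  have h1 : (⇑(c • f) : ℍ → ℂ) = (c : ℂ) • ⇑f := by
    ext z; simp
  simp only [cf, h1]
  rw [ModularForm.qExpansion_smul one_pos (hΓ N) (c : ℂ) f]
  simp

/-- The integral lattice is exactly the set of cusp forms with integral `q`-expansion. -/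
theorem mem_intLattice_iff (f : CuspForm (Gamma0 N) 2) :
    f ∈ CuspForm.intLattice N 2 ↔ ∀ k : ℕ, ∃ m : ℤ, cf ⇑f k = (m : ℂ) := by
  constructor
  · intro hf
    induction hf using Submodule.span_induction with
    | mem x hx => exact hx
    | zero =>
      intro k
      exact ⟨0, by rw [show (⇑(0 : CuspForm (Gamma0 N) 2) : ℍ → ℂ) = 0 from rfl, cf_zero_fun]; simp⟩
    | add x y _ _ hx hy =>
      intro k
      obtain ⟨a, ha⟩ := hx k
      obtain ⟨b, hb⟩ := hy k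
      exact ⟨a + b, by rw [cf_add_cusp, ha, hb]; push_cast; ring⟩
    | smul c x _ hx =>
      intro k
      obtain ⟨a, ha⟩ := hx k
      exact ⟨c * a, by rw [cf_zsmul_cusp, ha]; push_cast; ring⟩
  · intro h
    exact Submodule.subset_span h

open ModularCurve in
/-- (H1), lattice form. -/
theorem H1_lattice (p : ℕ) [Fact p.Prime] (s : ℕ → ℤ)
    (hE : ∃ E : ModularForm (Gamma0 p) 2, cf ⇑E 0 = ((p : ℂ) - 1) / 24 ∧
      ∀ k : ℕ, 1 ≤ k → cf ⇑E k = (s k : ℂ))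
    (hΘ : 5 ≤ p → ∃ Θ : ModularForm (Gamma0 p) 2, cf ⇑Θ 0 = 1 ∧
      ∀ k : ℕ, 1 ≤ k → ∃ m : ℤ, cf ⇑Θ k = 2 * (m : ℂ)) :
    ∃ h0 : ↥(CuspForm.intLattice p 2), ∀ k : ℕ, 1 ≤ k → ∃ m : ℤ,
      ModularFormClass.qCoeff ⇑(h0 : CuspForm (Gamma0 p) 2) k =
        (s k : ℂ) + (eisensteinNumerator p : ℂ) * (m : ℂ) := by
  obtain ⟨h0, hint, hcong⟩ := h1_of' p s hE hΘ
  exact ⟨⟨h0, (mem_intLattice_iff h0).mpr hint⟩, hcong⟩

open ModularCurve in
/-- (H2), lattice form. -/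
theorem H2_lattice (p : ℕ) [Fact p.Prime] (s : ℕ → ℤ)
    (hE : ∃ E : ModularForm (Gamma0 p) 2, cf ⇑E 0 = ((p : ℂ) - 1) / 24 ∧
      ∀ k : ℕ, 1 ≤ k → cf ⇑E k = (s k : ℂ))
    (hB : ∀ (l e : ℕ), l.Prime → 1 ≤ e → ∀ G : ModularForm (Gamma0 p) 2, cf ⇑G 0 = 1 →
      (∀ k : ℕ, 1 ≤ k → ∃ (a : ℤ) (b : ℕ), ¬ l ∣ b ∧ cf ⇑G k = (l : ℂ) ^ e * (a : ℂ) / (b : ℂ)) →
      l ^ e ∣ 24 / Nat.gcd (p - 1) 12)
    (d : ℕ) (h : ↥(CuspForm.intLattice p 2))
    (hh : ∀ k : ℕ, 1 ≤ k → ∃ m : ℤ,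
      ModularFormClass.qCoeff ⇑(h : CuspForm (Gamma0 p) 2) k = (s k : ℂ) + (d : ℂ) * (m : ℂ)) :
    d ∣ eisensteinNumerator p :=
  h2_of p s hE hB d h hh

end

end Fermat.Agent.S16.H33
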