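import Mathlib

/-!
# S16, block B3 (helper7): the ring of `l`-integral algebraic numbers and congruences of
power series modulo `N` with `l`-integral coefficients.

* `locInt l : Subring ℂ` : `{x | ∃ s : ℤ, ¬ l ∣ s ∧ IsIntegral ℤ (s * x)}`.
* `nI l N : AddSubgroup ℂ` : the additive group `N • locInt l`.
* `CR l : Subring ℂ⟦X⟧` : power series with coefficients in `locInt l`.
* `Cg l N f g` : `f - g ∈ N • CR l`.
-/

namespace Fermat.Agent.S16.H07

open PowerSeries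

noncomputable section

variable (l : ℕ) [hl : Fact l.Prime]

/-- The ring of `l`-integral algebraic numbers inside `ℂ`. -/
def locInt : Subring ℂ where
  carrier := {x | ∃ s : ℤ, ¬ (l : ℤ) ∣ s ∧ IsIntegral ℤ ((s : ℂ) * x)}
  mul_mem' := by
    rintro x y ⟨s, hs, hx⟩ ⟨t, ht, hy⟩
    refine ⟨s * t, ?_, ?_⟩
    · intro h
      rcases (Nat.prime_iff_prime_int.mp hl.out).dvd_or_dvd h with h | h
      exacts [hs h, ht h]
    · have e : ((s * t : ℤ) : ℂ) * (x * y) = ((s : ℂ) * x) * ((t : ℂ) * y) := by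
        push_cast; ring
      rw [e]; exact hx.mul hy
  one_mem' := ⟨1, by
    intro h
    exact hl.out.one_lt.ne' (by simpa using Int.natAbs_dvd_natAbs.mpr h), by simpa using isIntegral_one⟩
  add_mem' := by
    rintro x y ⟨s, hs, hx⟩ ⟨t, ht, hy⟩
    refine ⟨s * t, ?_, ?_⟩
    · intro h
      rcases (Nat.prime_iff_prime_int.mp hl.out).dvd_or_dvd h with h | h
      exacts [hs h, ht h]
    · have h1 : IsIntegral ℤ ((t : ℂ)) := by simpa using (isIntegral_algebraMap (R := ℤ) (A := ℂ) (x := t))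
      have h2 : IsIntegral ℤ ((s : ℂ)) := by simpa using (isIntegral_algebraMap (R := ℤ) (A := ℂ) (x := s))
      have e : ((s * t : ℤ) : ℂ) * (x + y) = (t : ℂ) * ((s : ℂ) * x) + (s : ℂ) * ((t : ℂ) * y) := by
        push_cast; ring
      rw [e]; exact (h1.mul hx).add (h2.mul hy)
  zero_mem' := ⟨1, by
    intro h
    exact hl.out.one_lt.ne' (by simpa using Int.natAbs_dvd_natAbs.mpr h), by simpa using isIntegral_zero⟩
  neg_mem' := by
    rintro x ⟨s, hs, hx⟩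
    exact ⟨s, hs, by simpa using hx.neg⟩

theorem mem_locInt {x : ℂ} :
    x ∈ locInt l ↔ ∃ s : ℤ, ¬ (l : ℤ) ∣ s ∧ IsIntegral ℤ ((s : ℂ) * x) := Iff.rfl

theorem not_dvd_one : ¬ (l : ℤ) ∣ 1 := by
  intro h
  exact hl.out.one_lt.ne' (by simpa using Int.natAbs_dvd_natAbs.mpr h)

theorem mem_locInt_of_isIntegral {x : ℂ} (hx : IsIntegral ℤ x) : x ∈ locInt l :=
  ⟨1, not_dvd_one l, by simpa using hx⟩

theorem intCast_mem_locInt (n : ℤ) : (n : ℂ) ∈ locInt l := intCast_mem (locInt l) n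

theorem natCast_mem_locInt (n : ℕ) : (n : ℂ) ∈ locInt l := natCast_mem (locInt l) n

/-- roots of unity are `l`-integral -/
theorem mem_locInt_of_pow_eq_one {ζ : ℂ} {n : ℕ} (hn : 0 < n) (h : ζ ^ n = 1) : ζ ∈ locInt l :=
  mem_locInt_of_isIntegral l (IsIntegral.of_pow hn (h ▸ isIntegral_one))

/-- `1 / p` is `l`-integral when `l ∤ p` -/
theorem inv_natCast_mem_locInt {p : ℕ} (hp : ¬ l ∣ p) : ((p : ℂ))⁻¹ ∈ locInt l := by
  have hp0 : (p : ℂ) ≠ 0 := by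
    rintro h
    exact hp (by simp [Nat.cast_eq_zero.mp h])
  refine ⟨p, ?_, ?_⟩
  · intro h
    exact hp (by exact_mod_cast h)
  · have : ((p : ℤ) : ℂ) * ((p : ℂ))⁻¹ = 1 := by
      push_cast; field_simp
    rw [this]; exact isIntegral_one

/-- rational numbers with denominator prime to `l` are `l`-integral -/
theorem ratCast_mem_locInt {q : ℚ} (hq : ¬ l ∣ q.den) : ((q : ℚ) : ℂ) ∈ locInt l := by
  have h1 := inv_natCast_mem_locInt l hq
  have h2 := intCast_mem_locInt l q.num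
  have := (locInt l).mul_mem h2 h1
  convert this using 1
  rw [Rat.cast_def, div_eq_mul_inv]

/-- The key fact: an integer lying in `l • locInt l` is divisible by `l`. -/
theorem dvd_of_intCast_eq_mul {n : ℤ} {r : ℂ} (hr : r ∈ locInt l) (h : (n : ℂ) = (l : ℂ) * r) :
    (l : ℤ) ∣ n := by
  obtain ⟨s, hs, hint⟩ := hr
  have hl0 : (l : ℂ) ≠ 0 := by exact_mod_cast hl.out.ne_zero
  have hr' : r = (n : ℂ) / l := by
    rw [h]; field_simp
  set q : ℚ := (s * n : ℤ) / (l : ℚ) with hq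
  have hq' : ((q : ℚ) : ℂ) = (s : ℂ) * r := by
    rw [hr', hq]; push_cast; ring
  have hqi : IsIntegral ℤ ((algebraMap ℚ ℂ) q) := by
    rw [show (algebraMap ℚ ℂ) q = ((q : ℚ) : ℂ) from rfl, hq']; exact hint
  have hqi' : IsIntegral ℤ q :=
    (isIntegral_algebraMap_iff (algebraMap ℚ ℂ).injective).mp hqi
  obtain ⟨k, hk⟩ := IsIntegrallyClosed.isIntegral_iff.mp hqi'
  have hlq : (l : ℚ) ≠ 0 := by exact_mod_cast hl.out.ne_zero
  have hkn : (l : ℤ) * k = s * n := by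
    have : (k : ℚ) = (s * n : ℤ) / (l : ℚ) := by
      rw [← hq]; exact_mod_cast hk
    have h2 : (l : ℚ) * k = (s * n : ℤ) := by
      rw [this]; field_simp
    exact_mod_cast h2
  have hdvd : (l : ℤ) ∣ s * n := ⟨k, hkn.symm⟩
  rcases (Nat.prime_iff_prime_int.mp hl.out).dvd_or_dvd hdvd with h' | h'
  · exact absurd h' hs
  · exact h'

/-- The additive group `N • locInt l`. -/
def nI (N : ℕ) : AddSubgroup ℂ where
  carrier := {x | ∃ r ∈ locInt l, x = (N : ℂ) * r}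
  add_mem' := by
    rintro x y ⟨r, hr, rfl⟩ ⟨t, ht, rfl⟩
    exact ⟨r + t, (locInt l).add_mem hr ht, by ring⟩
  zero_mem' := ⟨0, (locInt l).zero_mem, by simp⟩
  neg_mem' := by
    rintro x ⟨r, hr, rfl⟩
    exact ⟨-r, (locInt l).neg_mem hr, by ring⟩

theorem mem_nI {N : ℕ} {x : ℂ} : x ∈ nI l N ↔ ∃ r ∈ locInt l, x = (N : ℂ) * r := Iff.rfl

theorem mul_mem_nI {N : ℕ} {x r : ℂ} (hx : x ∈ nI l N) (hr : r ∈ locInt l) : x * r ∈ nI l N := by
  obtain ⟨t, ht, rfl⟩ := hx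
  exact ⟨t * r, (locInt l).mul_mem ht hr, by ring⟩

theorem nI_le_of_dvd {N N' : ℕ} (h : N ∣ N') : nI l N' ≤ nI l N := by
  rintro x ⟨r, hr, rfl⟩
  obtain ⟨d, rfl⟩ := h
  exact ⟨d * r, (locInt l).mul_mem (natCast_mem_locInt l d) hr, by push_cast; ring⟩

/-- an integer in `l • locInt l` is divisible by `l` -/
theorem dvd_of_intCast_mem_nI {n : ℤ} (h : (n : ℂ) ∈ nI l l) : (l : ℤ) ∣ n := by
  obtain ⟨r, hr, h⟩ := h
  exact dvd_of_intCast_eq_mul l hr h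

/-- an integer in `(l * N) • locInt l` is divisible by `l` -/
theorem dvd_of_intCast_mem_nI_mul {n : ℤ} {N : ℕ} (h : (n : ℂ) ∈ nI l (l * N)) : (l : ℤ) ∣ n :=
  dvd_of_intCast_mem_nI l (nI_le_of_dvd l (Dvd.intro N rfl) h)

/-! ### power series with `l`-integral coefficients -/

/-- Power series with coefficients in `locInt l`. -/
def CR : Subring ℂ⟦X⟧ where
  carrier := {f | ∀ n, coeff n f ∈ locInt l}
  mul_mem' := by
    intro f g hf hg n
    rw [coeff_mul]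
    exact Subring.sum_mem _ fun ij _ => Subring.mul_mem _ (hf _) (hg _)
  one_mem' := by
    intro n
    rw [coeff_one]
    split_ifs
    · exact (locInt l).one_mem
    · exact (locInt l).zero_mem
  add_mem' := by
    intro f g hf hg n
    simpa using Subring.add_mem _ (hf n) (hg n)
  zero_mem' := by
    intro n
    simp [(locInt l).zero_mem]
  neg_mem' := by
    intro f hf n
    simpa using Subring.neg_mem _ (hf n)

theorem mem_CR {f : ℂ⟦X⟧} : f ∈ CR l ↔ ∀ n, coeff n f ∈ locInt l := Iff.rfl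

theorem C_mem_CR {a : ℂ} (ha : a ∈ locInt l) : (C a : ℂ⟦X⟧) ∈ CR l := by
  intro n
  rw [coeff_C]
  split_ifs
  · exact ha
  · exact (locInt l).zero_mem

theorem natCast_mem_CR (n : ℕ) : ((n : ℂ⟦X⟧)) ∈ CR l := natCast_mem (CR l) n

theorem intCast_mem_CR (n : ℤ) : ((n : ℂ⟦X⟧)) ∈ CR l := intCast_mem (CR l) n

theorem map_intCast_mem_CR (φ : ℤ⟦X⟧) : φ.map (Int.castRingHom ℂ) ∈ CR l := by
  intro n
  rw [coeff_map]
  exact intCast_mem_locInt l _

theorem expand_mem_CR {p : ℕ} (hp : p ≠ 0) {f : ℂ⟦X⟧} (hf : f ∈ CR l) :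
    expand p hp f ∈ CR l := by
  intro n
  rw [coeff_expand]
  split_ifs
  · exact hf _
  · exact (locInt l).zero_mem

theorem rescale_mem_CR {a : ℂ} (ha : a ∈ locInt l) {f : ℂ⟦X⟧} (hf : f ∈ CR l) :
    rescale a f ∈ CR l := by
  intro n
  rw [coeff_rescale]
  exact (locInt l).mul_mem ((locInt l).pow_mem ha n) (hf n)

/-- `f ≡ g` modulo `N`, coefficients in `locInt l`. -/
def Cg (N : ℕ) (f g : ℂ⟦X⟧) : Prop := ∃ h ∈ CR l, f - g = (N : ℂ⟦X⟧) * h

variable {l}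

theorem Cg.refl (N : ℕ) (f : ℂ⟦X⟧) : Cg l N f f := ⟨0, (CR l).zero_mem, by simp⟩

theorem Cg.symm {N : ℕ} {f g : ℂ⟦X⟧} (h : Cg l N f g) : Cg l N g f := by
  obtain ⟨k, hk, e⟩ := h
  exact ⟨-k, (CR l).neg_mem hk, by rw [mul_neg, ← e]; ring⟩

theorem Cg.trans {N : ℕ} {f g k : ℂ⟦X⟧} (h1 : Cg l N f g) (h2 : Cg l N g k) : Cg l N f k := by
  obtain ⟨a, ha, ea⟩ := h1
  obtain ⟨b, hb, eb⟩ := h2
  exact ⟨a + b, (CR l).add_mem ha hb, by rw [mul_add, ← ea, ← eb]; ring⟩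

theorem Cg.add {N : ℕ} {f g f' g' : ℂ⟦X⟧} (h1 : Cg l N f f') (h2 : Cg l N g g') :
    Cg l N (f + g) (f' + g') := by
  obtain ⟨a, ha, ea⟩ := h1
  obtain ⟨b, hb, eb⟩ := h2
  exact ⟨a + b, (CR l).add_mem ha hb, by rw [mul_add, ← ea, ← eb]; ring⟩

theorem Cg.neg {N : ℕ} {f f' : ℂ⟦X⟧} (h1 : Cg l N f f') : Cg l N (-f) (-f') := by
  obtain ⟨a, ha, ea⟩ := h1
  exact ⟨-a, (CR l).neg_mem ha, by rw [mul_neg, ← ea]; ring⟩

theorem Cg.sub {N : ℕ} {f g f' g' : ℂ⟦X⟧} (h1 : Cg l N f f') (h2 : Cg l N g g') :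
    Cg l N (f - g) (f' - g') := by
  obtain ⟨a, ha, ea⟩ := h1
  obtain ⟨b, hb, eb⟩ := h2
  exact ⟨a - b, (CR l).sub_mem ha hb, by rw [mul_sub, ← ea, ← eb]; ring⟩

/-- membership transfers along a congruence -/
theorem Cg.mem_left {N : ℕ} {f g : ℂ⟦X⟧} (h : Cg l N f g) (hg : g ∈ CR l) : f ∈ CR l := by
  obtain ⟨a, ha, ea⟩ := h
  have : f = g + (N : ℂ⟦X⟧) * a := by rw [← ea]; ring
  rw [this]
  exact (CR l).add_mem hg ((CR l).mul_mem (natCast_mem_CR l N) ha)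

theorem Cg.mem_right {N : ℕ} {f g : ℂ⟦X⟧} (h : Cg l N f g) (hf : f ∈ CR l) : g ∈ CR l :=
  h.symm.mem_left hf

theorem Cg.mul {N : ℕ} {f g f' g' : ℂ⟦X⟧} (h1 : Cg l N f f') (h2 : Cg l N g g')
    (hf' : f' ∈ CR l) (hg : g ∈ CR l) : Cg l N (f * g) (f' * g') := by
  obtain ⟨a, ha, ea⟩ := h1
  obtain ⟨b, hb, eb⟩ := h2
  refine ⟨a * g + f' * b, (CR l).add_mem ((CR l).mul_mem ha hg) ((CR l).mul_mem hf' hb), ?_⟩
  have : f * g - f' * g' = (f - f') * g + f' * (g - g') := by ring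
  rw [this, ea, eb]; ring

theorem Cg.mul_left {N : ℕ} {g g' : ℂ⟦X⟧} (k : ℂ⟦X⟧) (hk : k ∈ CR l) (h2 : Cg l N g g') :
    Cg l N (k * g) (k * g') := by
  obtain ⟨b, hb, eb⟩ := h2
  exact ⟨k * b, (CR l).mul_mem hk hb, by rw [← mul_sub, eb]; ring⟩

theorem Cg.mul_right {N : ℕ} {g g' : ℂ⟦X⟧} (k : ℂ⟦X⟧) (hk : k ∈ CR l) (h2 : Cg l N g g') :
    Cg l N (g * k) (g' * k) := by
  rw [mul_comm g k, mul_comm g' k]; exact h2.mul_left k hk

theorem Cg.pow {N : ℕ} {f f' : ℂ⟦X⟧} (h1 : Cg l N f f') (hf' : f' ∈ CR l) (n : ℕ) :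
    Cg l N (f ^ n) (f' ^ n) := by
  induction n with
  | zero => simpa using Cg.refl N 1
  | succ n ih =>
    rw [pow_succ, pow_succ]
    exact ih.mul h1 ((CR l).pow_mem hf' n) (h1.mem_left hf')

theorem Cg.prod {N : ℕ} {ι : Type*} (s : Finset ι) {F F' : ι → ℂ⟦X⟧}
    (h : ∀ i ∈ s, Cg l N (F i) (F' i)) (hF' : ∀ i ∈ s, F' i ∈ CR l) :
    Cg l N (∏ i ∈ s, F i) (∏ i ∈ s, F' i) := by
  classical
  induction s using Finset.induction_on with
  | empty => simpa using Cg.refl N 1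
  | insert a s ha ih =>
    rw [Finset.prod_insert ha, Finset.prod_insert ha]
    have h1 := h a (Finset.mem_insert_self a s)
    have h2 := ih (fun i hi => h i (Finset.mem_insert_of_mem hi))
      (fun i hi => hF' i (Finset.mem_insert_of_mem hi))
    have hprod' : ∏ i ∈ s, F' i ∈ CR l :=
      (CR l).prod_mem fun i hi => hF' i (Finset.mem_insert_of_mem hi)
    exact h1.mul h2 (hF' a (Finset.mem_insert_self a s)) (h2.mem_left hprod')

theorem Cg.sum {N : ℕ} {ι : Type*} (s : Finset ι) {F F' : ι → ℂ⟦X⟧}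
    (h : ∀ i ∈ s, Cg l N (F i) (F' i)) :
    Cg l N (∑ i ∈ s, F i) (∑ i ∈ s, F' i) := by
  classical
  induction s using Finset.induction_on with
  | empty => simpa using Cg.refl N 0
  | insert a s ha ih =>
    rw [Finset.sum_insert ha, Finset.sum_insert ha]
    exact (h a (Finset.mem_insert_self a s)).add (ih fun i hi => h i (Finset.mem_insert_of_mem hi))

theorem Cg.of_dvd {N N' : ℕ} (hN : N ∣ N') {f g : ℂ⟦X⟧} (h : Cg l N' f g) : Cg l N f g := by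
  obtain ⟨a, ha, ea⟩ := h
  obtain ⟨d, rfl⟩ := hN
  exact ⟨(d : ℂ⟦X⟧) * a, (CR l).mul_mem (natCast_mem_CR l d) ha, by rw [ea]; push_cast; ring⟩

theorem Cg.expand {N : ℕ} {p : ℕ} (hp : p ≠ 0) {f g : ℂ⟦X⟧} (h : Cg l N f g) :
    Cg l N (PowerSeries.expand p hp f) (PowerSeries.expand p hp g) := by
  obtain ⟨a, ha, ea⟩ := h
  refine ⟨PowerSeries.expand p hp a, expand_mem_CR l hp ha, ?_⟩
  rw [← map_sub, ea, map_mul, map_natCast]

theorem Cg.rescale {N : ℕ} {a : ℂ} (ha : a ∈ locInt l) {f g : ℂ⟦X⟧} (h : Cg l N f g) :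
    Cg l N (PowerSeries.rescale a f) (PowerSeries.rescale a g) := by
  obtain ⟨b, hb, eb⟩ := h
  refine ⟨PowerSeries.rescale a b, rescale_mem_CR l ha hb, ?_⟩
  rw [← map_sub, eb, map_mul, map_natCast]

/-- coefficientwise form of a congruence -/
theorem Cg.coeff {N : ℕ} {f g : ℂ⟦X⟧} (h : Cg l N f g) (n : ℕ) :
    PowerSeries.coeff n f - PowerSeries.coeff n g ∈ nI l N := by
  obtain ⟨a, ha, ea⟩ := h
  refine ⟨PowerSeries.coeff n a, ha n, ?_⟩
  rw [← map_sub, ea]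
  have : ((N : ℂ⟦X⟧)) = C (N : ℂ) := by simp
  rw [this, coeff_C_mul]

/-- a congruence from coefficientwise information -/
theorem Cg.of_coeff {N : ℕ} {f g : ℂ⟦X⟧}
    (h : ∀ n, PowerSeries.coeff n f - PowerSeries.coeff n g ∈ nI l N) : Cg l N f g := by
  choose r hr hr' using h
  refine ⟨PowerSeries.mk r, fun n => by rw [coeff_mk]; exact hr n, ?_⟩
  ext n
  have : ((N : ℂ⟦X⟧)) = C (N : ℂ) := by simp
  rw [map_sub, hr' n, this, coeff_C_mul, coeff_mk]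

end

end Fermat.Agent.S16.H07
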