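import Mathlib
import Fermat.Agent.S16.Defs_helper6
import Fermat.Prelude.Def_ModularForm_HeckeOperator

/-!
# S16, package E1a: arithmetic of `sigmaP p n` (sum of the divisors of `n` prime to `p`)

* `sigma_one_eq_sigmaP_add` : `σ₁(k) = σ'(k) + p σ₁(k/p)` (second term only if `p ∣ k`);
* `sigmaP_mul_self` : `σ'(k p) = σ'(k)`;
* `sigmaP_mul_prime` : `σ'(k l) + l σ'(k / l) = (1 + l) σ'(k)` for a prime `l ≠ p`;
* the same relations in the shape of the Prelude's `coeffHeckeT` / `coeffHeckeU`, and their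
  versions modulo `d` for a coefficient sequence congruent to `σ'`.
-/

set_option autoImplicit false

namespace Fermat.Agent.S16.H82

open scoped ArithmeticFunction.sigma

theorem sum_divisors_filter_dvd' (p : ℕ) [NeZero p] (k : ℕ) (hk : k ≠ 0) :
    ∑ d ∈ k.divisors with p ∣ d, d = if p ∣ k then p * σ 1 (k / p) else 0 := by
  have hp : p ≠ 0 := NeZero.ne p
  split_ifs with hpk
  · obtain ⟨m, rfl⟩ := hpk
    have hm : m ≠ 0 := by rintro rfl; simp at hk
    rw [Nat.mul_div_cancel_left _ (Nat.pos_of_ne_zero hp), ArithmeticFunction.sigma_one_apply,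
      Finset.mul_sum]
    have himg : (p * m).divisors.filter (fun d => p ∣ d) = m.divisors.image (fun d => p * d) := by
      ext d
      simp only [Finset.mem_filter, Nat.mem_divisors, Finset.mem_image]
      constructor
      · rintro ⟨⟨hd, _⟩, ⟨d', rfl⟩⟩
        exact ⟨d', ⟨(Nat.mul_dvd_mul_iff_left (Nat.pos_of_ne_zero hp)).mp hd, hm⟩, rfl⟩
      · rintro ⟨d', ⟨hd', _⟩, rfl⟩
        exact ⟨⟨Nat.mul_dvd_mul_left p hd', hk⟩, dvd_mul_right p d'⟩
    rw [himg, Finset.sum_image]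
    intro a _ b _ hab
    exact Nat.eq_of_mul_eq_mul_left (Nat.pos_of_ne_zero hp) hab
  · apply Finset.sum_eq_zero
    intro d hd
    simp only [Finset.mem_filter, Nat.mem_divisors] at hd
    exact absurd (dvd_trans hd.2 hd.1.1) hpk

theorem sigma_one_eq_sigmaP_add (p : ℕ) [NeZero p] (k : ℕ) (hk : k ≠ 0) :
    σ 1 k = sigmaP p k + (if p ∣ k then p * σ 1 (k / p) else 0) := by
  rw [← sum_divisors_filter_dvd' p k hk, ArithmeticFunction.sigma_one_apply, sigmaP, add_comm]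
  exact (Finset.sum_filter_add_sum_filter_not _ _ _).symm

/-! ### Hecke relations -/

@[simp] theorem sigmaP_zero (p : ℕ) : sigmaP p 0 = 0 := by simp [sigmaP]

theorem sigmaP_one (p : ℕ) (hp : p ≠ 1) : sigmaP p 1 = 1 := by
  simp [sigmaP, Finset.filter_singleton, hp]

/-- `s'(k p) = s'(k)`. -/
theorem sigmaP_mul_self (p : ℕ) (hp : p.Prime) (k : ℕ) : sigmaP p (k * p) = sigmaP p k := by
  rcases Nat.eq_zero_or_pos k with rfl | hk
  · simp
  · simp only [sigmaP]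
    congr 1
    ext d
    simp only [Finset.mem_filter, Nat.mem_divisors]
    constructor
    · rintro ⟨⟨hd, _⟩, hpd⟩
      have hcop : Nat.Coprime d p := ((Nat.Prime.coprime_iff_not_dvd hp).mpr hpd).symm
      exact ⟨⟨hcop.dvd_of_dvd_mul_right hd, hk.ne'⟩, hpd⟩
    · rintro ⟨⟨hd, _⟩, hpd⟩
      exact ⟨⟨dvd_mul_of_dvd_left hd p, Nat.mul_ne_zero hk.ne' hp.ne_zero⟩, hpd⟩

/-- The Hecke relation `s'(k l) + l s'(k / l) = (1 + l) s'(k)` for a prime `l ≠ p`
(the middle term is read as `0` when `l ∤ k`). -/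
theorem sigmaP_mul_prime (p l : ℕ) (hp : p.Prime) (hl : l.Prime) (hlp : l ≠ p) (k : ℕ) :
    sigmaP p (k * l) + (if l ∣ k then l * sigmaP p (k / l) else 0) = (1 + l) * sigmaP p k := by
  rcases Nat.eq_zero_or_pos k with rfl | hk
  · simp
  have hk0 : k ≠ 0 := hk.ne'
  have hpl : ¬ p ∣ l := fun h => hlp ((Nat.prime_dvd_prime_iff_eq hp hl).mp h).symm
  -- Step 1
  have h1 : sigmaP p (k * l) = sigmaP p k + l * ∑ d ∈ k.divisors with (¬ p ∣ d ∧ ¬ l * d ∣ k), d := by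
    have hset : (k * l).divisors.filter (fun d => ¬ p ∣ d) =
        k.divisors.filter (fun d => ¬ p ∣ d) ∪
          (k.divisors.filter (fun d => ¬ p ∣ d ∧ ¬ l * d ∣ k)).image (fun d => l * d) := by
      ext d
      simp only [Finset.mem_filter, Nat.mem_divisors, Finset.mem_union, Finset.mem_image]
      constructor
      · rintro ⟨⟨hd, _⟩, hpd⟩
        by_cases hdk : d ∣ k
        · exact Or.inl ⟨⟨hdk, hk0⟩, hpd⟩
        · right
          have hld : l ∣ d := by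
            by_contra hld
            have hcop : Nat.Coprime d l := ((Nat.Prime.coprime_iff_not_dvd hl).mpr hld).symm
            exact hdk (hcop.dvd_of_dvd_mul_right hd)
          obtain ⟨d', rfl⟩ := hld
          refine ⟨d', ⟨⟨?_, hk0⟩, ?_, hdk⟩, rfl⟩
          · rw [mul_comm k l] at hd
            exact (Nat.mul_dvd_mul_iff_left hl.pos).mp hd
          · exact fun h => hpd (dvd_mul_of_dvd_right h l)
      · rintro (⟨⟨hd, _⟩, hpd⟩ | ⟨d', ⟨⟨hd', _⟩, hpd', hld'⟩, rfl⟩)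
        · exact ⟨⟨dvd_mul_of_dvd_left hd l, Nat.mul_ne_zero hk0 hl.ne_zero⟩, hpd⟩
        · refine ⟨⟨?_, Nat.mul_ne_zero hk0 hl.ne_zero⟩, ?_⟩
          · rw [mul_comm k l]; exact Nat.mul_dvd_mul_left l hd'
          · intro h
            rcases (Nat.Prime.dvd_mul hp).mp h with h | h
            · exact hpl h
            · exact hpd' h
    have hdisj : Disjoint (k.divisors.filter (fun d => ¬ p ∣ d))
        ((k.divisors.filter (fun d => ¬ p ∣ d ∧ ¬ l * d ∣ k)).image (fun d => l * d)) := by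
      rw [Finset.disjoint_left]
      intro d hd hd2
      simp only [Finset.mem_filter, Nat.mem_divisors, Finset.mem_image] at hd hd2
      obtain ⟨d', ⟨_, _, hld'⟩, rfl⟩ := hd2
      exact hld' hd.1.1
    simp only [sigmaP]
    rw [hset, Finset.sum_union hdisj, Finset.sum_image, Finset.mul_sum]
    intro a _ b _ hab
    exact Nat.eq_of_mul_eq_mul_left hl.pos hab
  -- Step 2
  have h2 : (if l ∣ k then l * sigmaP p (k / l) else 0) =
      l * ∑ d ∈ k.divisors with (¬ p ∣ d ∧ l * d ∣ k), d := by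
    split_ifs with hlk
    · congr 1
      simp only [sigmaP]
      apply Finset.sum_congr _ (fun _ _ => rfl)
      ext d
      simp only [Finset.mem_filter, Nat.mem_divisors]
      constructor
      · rintro ⟨⟨hd, _⟩, hpd⟩
        have hld : l * d ∣ k := (Nat.dvd_div_iff_mul_dvd hlk).mp hd
        exact ⟨⟨dvd_trans (dvd_mul_left d l) hld, hk0⟩, hpd, hld⟩
      · rintro ⟨⟨_, _⟩, hpd, hld⟩
        refine ⟨⟨(Nat.dvd_div_iff_mul_dvd hlk).mpr hld, ?_⟩, hpd⟩
        exact (Nat.div_ne_zero_iff_of_dvd hlk).mpr ⟨hk0, hl.ne_zero⟩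
    · symm
      rw [Nat.mul_eq_zero]
      right
      apply Finset.sum_eq_zero
      intro d hd
      simp only [Finset.mem_filter, Nat.mem_divisors] at hd
      exact absurd (dvd_trans (dvd_mul_right l d) hd.2.2) hlk
  -- Step 3
  have h3 : sigmaP p k = ∑ d ∈ k.divisors with (¬ p ∣ d ∧ l * d ∣ k), d +
      ∑ d ∈ k.divisors with (¬ p ∣ d ∧ ¬ l * d ∣ k), d := by
    simp only [sigmaP]
    rw [← Finset.sum_filter_add_sum_filter_not (k.divisors.filter (fun d => ¬ p ∣ d))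
      (fun d => l * d ∣ k), Finset.filter_filter, Finset.filter_filter]
  rw [h1, h2]
  nlinarith [h3]

/-! ### The shape of the Prelude's `coeffHeckeT`, `coeffHeckeU` -/

theorem coeffHeckeU_sigmaP (p : ℕ) (hp : p.Prime) (n : ℕ) :
    ModularForm.coeffHeckeU p (fun n => (sigmaP p n : ℂ)) n = (sigmaP p n : ℂ) := by
  rw [ModularForm.coeffHeckeU_apply, sigmaP_mul_self p hp n]

theorem coeffHeckeT_sigmaP (p l : ℕ) (hp : p.Prime) (hl : l.Prime) (hlp : l ≠ p) (n : ℕ) :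
    ModularForm.coeffHeckeT 2 l (fun n => (sigmaP p n : ℂ)) n = (1 + (l : ℂ)) * (sigmaP p n : ℂ) := by
  rw [ModularForm.coeffHeckeT_apply]
  have h := sigmaP_mul_prime p l hp hl hlp n
  have h' : ((sigmaP p (n * l) + (if l ∣ n then l * sigmaP p (n / l) else 0) : ℕ) : ℂ) =
      (((1 + l) * sigmaP p n : ℕ) : ℂ) := by rw [h]
  rw [← show ((((1 + l) * sigmaP p n : ℕ) : ℂ)) = (1 + (l : ℂ)) * (sigmaP p n : ℂ) by push_cast; ring,
    ← h']
  split_ifs with hln
  · push_cast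
    norm_num
  · push_cast
    ring

/-- If `a n ≡ σ'(n) mod d` for all `n ≥ 1` then `a (n p) ≡ a n mod d` for `n ≥ 1`. -/
theorem coeffHeckeU_congr (p : ℕ) (hp : p.Prime) (d : ℂ) (a : ℕ → ℂ)
    (ha : ∀ n : ℕ, 1 ≤ n → ∃ m : ℤ, a n = (sigmaP p n : ℂ) + d * (m : ℂ)) (n : ℕ) (hn : 1 ≤ n) :
    ∃ m : ℤ, ModularForm.coeffHeckeU p a n - a n = d * (m : ℂ) := by
  rw [ModularForm.coeffHeckeU_apply]
  obtain ⟨m1, h1⟩ := ha (n * p) (Nat.mul_pos hn hp.pos)
  obtain ⟨m2, h2⟩ := ha n hn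
  refine ⟨m1 - m2, ?_⟩
  rw [h1, h2, sigmaP_mul_self p hp n]
  push_cast
  ring

/-- If `a n ≡ σ'(n) mod d` for all `n ≥ 1` then `a (n l) + l a (n / l) ≡ (1 + l) a n mod d`
for `n ≥ 1` and a prime `l ≠ p`. -/
theorem coeffHeckeT_congr (p l : ℕ) (hp : p.Prime) (hl : l.Prime) (hlp : l ≠ p) (d : ℂ)
    (a : ℕ → ℂ) (ha : ∀ n : ℕ, 1 ≤ n → ∃ m : ℤ, a n = (sigmaP p n : ℂ) + d * (m : ℂ))
    (n : ℕ) (hn : 1 ≤ n) :
    ∃ m : ℤ, ModularForm.coeffHeckeT 2 l a n - (1 + (l : ℂ)) * a n = d * (m : ℂ) := by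
  have hT := coeffHeckeT_sigmaP p l hp hl hlp n
  rw [ModularForm.coeffHeckeT_apply] at hT ⊢
  obtain ⟨m1, h1⟩ := ha (n * l) (Nat.mul_pos hn hl.pos)
  obtain ⟨m2, h2⟩ := ha n hn
  by_cases hln : l ∣ n
  · have hnl : 1 ≤ n / l := Nat.div_pos (Nat.le_of_dvd hn hln) hl.pos
    obtain ⟨m3, h3⟩ := ha (n / l) hnl
    rw [if_pos hln] at hT ⊢
    refine ⟨m1 + l * m3 - (1 + l) * m2, ?_⟩
    rw [h1, h2, h3]
    have hT' : (sigmaP p (n * l) : ℂ) = (1 + (l : ℂ)) * (sigmaP p n : ℂ) -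
        (l : ℂ) ^ ((2 : ℤ) - 1) * (sigmaP p (n / l) : ℂ) := by rw [← hT]; ring
    rw [hT']
    have h21 : ((l : ℂ) ^ ((2 : ℤ) - 1)) = (l : ℂ) := by norm_num
    rw [h21]
    push_cast
    ring
  · rw [if_neg hln] at hT ⊢
    refine ⟨m1 - (1 + l) * m2, ?_⟩
    rw [h1, h2]
    have hT' : (sigmaP p (n * l) : ℂ) = (1 + (l : ℂ)) * (sigmaP p n : ℂ) := by rw [← hT]; ring
    rw [hT']
    push_cast
    ring

end Fermat.Agent.S16.H82
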