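import Fermat.Agent.S16.ThetaInv_helper56
import Fermat.Agent.S16.ThetaCD_helper92

/-!
# S16, node TH3: the theta inversion in the shape consumed by `ThetaCD_helper92`

`invHyp : H92.InvHyp k t c p` (for `0 < 4k - 1`, `p = (4k-1)c - t²`, `0 < p`), from
`H56.theta_inv_Q4`.
-/

set_option autoImplicit false

open Complex Real

namespace Fermat.Agent.S16.H56

/-- **(TH3)** in the shape `H92.InvHyp` consumed by `H92.theta_S` / `H92.theta_jS`. -/
theorem invHyp (k t c : ℤ) (p : ℕ) (hq : 0 < 4 * k - 1) (hp : (p : ℤ) = (4 * k - 1) * c - t ^ 2)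
    (hp0 : 0 < p) : H92.InvHyp k t c p := by
  intro w z hz
  have hpos : 0 < (4 * k - 1) * c - t ^ 2 := by
    rw [← hp]
    exact_mod_cast hp0
  obtain ⟨-, -, h⟩ := theta_inv_Q4 k t c hq hpos w z hz
  have hpC : (((4 * k - 1) * c - t ^ 2 : ℤ) : ℂ) = (p : ℂ) := by
    rw [← hp]
    simp
  rw [hpC] at h
  have hL : ∀ m : Fin 4 → ℤ,
      H92.ee (-((H92.Q4 (k : ℝ) (t : ℝ) (c : ℝ) (fun i => (m i : ℝ) + w i) : ℝ) : ℂ) / z) =
        cexp (2 * π * I * (-(Q4 (k : ℝ) t c (fun i => m i + w i) : ℝ) / z)) := fun _ => rfl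
  have hR : ∀ y : Fin 4 → ℤ,
      H92.ee (∑ i, (y i : ℂ) * (w i : ℂ)) * H92.ee (((H92.Q4 k t c (H92.iota4 y) : ℤ) : ℂ) / p * z) =
        cexp (2 * π * I * ((∑ i, (y i : ℝ) * w i : ℝ) : ℂ)) *
          cexp (2 * π * I * ((Q4 k t c (iota4 y) : ℤ) / (p : ℂ)) * z) := by
    intro y
    have h1 : H92.Q4 k t c (H92.iota4 y) = Q4 k t c (iota4 y) := rfl
    rw [H92.ee, H92.ee, h1]
    congr 2
    · push_cast
      rfl
    · ring
  simp only [hL, hR]
  exact h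

end Fermat.Agent.S16.H56
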