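import Mathlib

/-!
# S16 / TH3 (theta inversion), partial library by helper44 (re-routed to StmtEq/StmtBData)

Sorry-free building blocks for the n-dimensional theta inversion of a triangular positive form
by peeling one variable at a time:

* `one_dim_inversion`: the one-variable inversion with shift `c` and linear phase `β`
  (from Mathlib's `jacobiTheta₂_functional_equation`);
* `gauss_uniform`: shifted Gaussian sums over the integers are bounded uniformly in the shift;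
* `summable_prod_mul_bound`: product summability with a bound;
* `triQ`, `triQdual`: triangular form and its dual, by recursion on the number of variables;
* `triQ_uniform`, `triQdual_uniform`: uniform Gaussian summability for both;
* `termP`, `termD`, `triKappa`, `norm_termP`, `norm_termD`, `summable_termP`, `summable_termD`.

The final induction (`tri_inversion`) is NOT in this file; TH3 is owned by helper56 / helper61.
-/


namespace Fermat.Agent.S16.H44.ThetaParts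

open Complex Real

/-- `ee x = exp (2 π i x)`. -/
noncomputable def ee (x : ℂ) : ℂ := cexp (2 * π * I * x)

theorem ee_add (x y : ℂ) : ee (x + y) = ee x * ee y := by
  unfold ee
  rw [mul_add, Complex.exp_add]

theorem norm_ee (x : ℂ) : ‖ee x‖ = rexp (-(2 * π * x.im)) := by
  unfold ee
  rw [Complex.norm_exp]
  congr 1
  have : (2 * (π : ℂ) * I * x) = ((2 * π : ℝ) : ℂ) * (I * x) := by push_cast; ring
  rw [this, Complex.re_ofReal_mul]
  simp

theorem norm_ee_ofReal (x : ℝ) : ‖ee (x : ℂ)‖ = 1 := by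
  rw [norm_ee]
  simp

/-- One-dimensional theta inversion with shift `c` and linear phase `β`. -/
theorem one_dim_inversion {a : ℂ} (ha : 0 < a.im) (c β : ℝ) :
    ∑' m : ℤ, ee (a * ((m : ℂ) + c) ^ 2 + β * m) =
      1 / (-2 * I * a) ^ (1 / 2 : ℂ) *
        ∑' y : ℤ, ee (((y : ℂ) - β) * c - ((y : ℂ) - β) ^ 2 / (4 * a)) := by
  have ha0 : a ≠ 0 := by
    intro h
    rw [h] at ha
    simp at ha
  have h1 : ∀ m : ℤ, ee (a * ((m : ℂ) + c) ^ 2 + β * m) =
      ee (a * c ^ 2) * jacobiTheta₂_term m (2 * a * c + β) (2 * a) := by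
    intro m
    unfold ee jacobiTheta₂_term
    rw [← Complex.exp_add]
    congr 1
    ring
  simp_rw [h1]
  rw [tsum_mul_left]
  change _ * jacobiTheta₂ (2 * a * c + β) (2 * a) = _
  rw [jacobiTheta₂_functional_equation]
  have h2 : (-I * (2 * a)) = -2 * I * a := by ring
  rw [h2]
  have h3 : ∀ y : ℤ, ee (a * c ^ 2) * (cexp (-π * I * (2 * a * c + β) ^ 2 / (2 * a)) *
      jacobiTheta₂_term y ((2 * a * c + β) / (2 * a)) (-1 / (2 * a))) =
      ee (((y : ℂ) - β) * c - ((y : ℂ) - β) ^ 2 / (4 * a)) := by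
    intro y
    unfold ee jacobiTheta₂_term
    rw [← Complex.exp_add, ← Complex.exp_add]
    congr 1
    field_simp
    ring
  unfold jacobiTheta₂
  rw [← tsum_mul_left, ← tsum_mul_left, ← tsum_mul_left]
  congr 1
  funext y
  rw [← h3 y]
  ring

/-- Uniform bound for shifted Gaussian sums over `ℤ`. -/
theorem gauss_uniform {s : ℝ} (hs : 0 < s) :
    ∃ C : ℝ, 0 ≤ C ∧ ∀ c : ℝ, Summable (fun m : ℤ => rexp (-(s * ((m : ℝ) + c) ^ 2))) ∧
      ∑' m : ℤ, rexp (-(s * ((m : ℝ) + c) ^ 2)) ≤ C := by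
  have hT : 0 < s / π := div_pos hs pi_pos
  have hg : Summable (fun n : ℤ => rexp (-π * (s / π * (n : ℝ) ^ 2 - 2 * (s / π) * |(n : ℝ)|))) := by
    have := summable_pow_mul_jacobiTheta₂_term_bound (s / π) hT 0
    simpa using this
  have hg0 : ∀ n : ℤ, 0 ≤ rexp (-π * (s / π * (n : ℝ) ^ 2 - 2 * (s / π) * |(n : ℝ)|)) :=
    fun n => (Real.exp_pos _).le
  have hle : ∀ (f : ℝ), 0 ≤ f → f ≤ 1 → ∀ n : ℤ, rexp (-(s * ((n : ℝ) + f) ^ 2)) ≤
      rexp (-π * (s / π * (n : ℝ) ^ 2 - 2 * (s / π) * |(n : ℝ)|)) := by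
    intro f hf0 hf1 n
    apply Real.exp_le_exp.mpr
    have h1 : -π * (s / π * (n : ℝ) ^ 2 - 2 * (s / π) * |(n : ℝ)|) =
        -(s * (n : ℝ) ^ 2) + 2 * s * |(n : ℝ)| := by
      field_simp
      ring
    rw [h1]
    have h2 : -|(n : ℝ)| ≤ (n : ℝ) * f := by
      have h3 : |(n : ℝ) * f| ≤ |(n : ℝ)| := by
        rw [abs_mul, abs_of_nonneg hf0]
        exact mul_le_of_le_one_right (abs_nonneg _) hf1
      have := neg_abs_le ((n : ℝ) * f)
      linarith
    nlinarith [sq_nonneg f]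
  refine ⟨∑' n : ℤ, rexp (-π * (s / π * (n : ℝ) ^ 2 - 2 * (s / π) * |(n : ℝ)|)),
    tsum_nonneg hg0, fun c => ?_⟩
  have hf0 : 0 ≤ c - ⌊c⌋ := Int.fract_nonneg c
  have hf1 : c - ⌊c⌋ ≤ 1 := (Int.fract_lt_one c).le
  have hS : Summable (fun n : ℤ => rexp (-(s * ((n : ℝ) + (c - ⌊c⌋)) ^ 2))) :=
    Summable.of_nonneg_of_le (fun n => (Real.exp_pos _).le) (hle _ hf0 hf1) hg
  have hB : ∑' n : ℤ, rexp (-(s * ((n : ℝ) + (c - ⌊c⌋)) ^ 2)) ≤
      ∑' n : ℤ, rexp (-π * (s / π * (n : ℝ) ^ 2 - 2 * (s / π) * |(n : ℝ)|)) :=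
    hS.tsum_le_tsum (hle _ hf0 hf1) hg
  have hcomp : (fun n : ℤ => rexp (-(s * ((n : ℝ) + (c - ⌊c⌋)) ^ 2))) =
      (fun m : ℤ => rexp (-(s * ((m : ℝ) + c) ^ 2))) ∘ (Equiv.subRight ⌊c⌋) := by
    funext n
    simp only [Function.comp_apply, Equiv.subRight_apply]
    push_cast
    ring_nf
  rw [hcomp] at hS hB
  refine ⟨(Equiv.subRight ⌊c⌋).summable_iff.mp hS, ?_⟩
  have h := (Equiv.subRight ⌊c⌋).tsum_eq (fun m : ℤ => rexp (-(s * ((m : ℝ) + c) ^ 2)))
  rw [← h]
  exact hB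

/-- Product summability with a bound: outer family `g`, inner families `h x` uniformly
bounded. -/
theorem summable_prod_mul_bound {α β : Type*} {g : α → ℝ} {h : α → β → ℝ} {A B : ℝ}
    (hB : 0 ≤ B) (hg0 : ∀ x, 0 ≤ g x) (hg : Summable g) (hgA : ∑' x, g x ≤ A)
    (hh0 : ∀ x y, 0 ≤ h x y) (hh : ∀ x, Summable (h x)) (hhB : ∀ x, ∑' y, h x y ≤ B) :
    Summable (fun p : α × β => g p.1 * h p.1 p.2) ∧
      ∑' p : α × β, g p.1 * h p.1 p.2 ≤ A * B := by
  have hinner : ∀ x, Summable (fun y => g x * h x y) := fun x => (hh x).mul_left (g x)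
  have houter : Summable (fun x => ∑' y, g x * h x y) := by
    refine Summable.of_nonneg_of_le (fun x => tsum_nonneg fun y => mul_nonneg (hg0 x) (hh0 x y))
      (fun x => ?_) (hg.mul_right B)
    rw [tsum_mul_left]
    exact mul_le_mul_of_nonneg_left (hhB x) (hg0 x)
  have hsum : Summable (fun p : α × β => g p.1 * h p.1 p.2) :=
    (summable_prod_of_nonneg fun p => mul_nonneg (hg0 p.1) (hh0 p.1 p.2)).2 ⟨hinner, houter⟩
  refine ⟨hsum, ?_⟩
  rw [hsum.tsum_prod' hinner]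
  calc ∑' x, ∑' y, g x * h x y ≤ ∑' x, g x * B := by
        refine houter.tsum_le_tsum (fun x => ?_) (hg.mul_right B)
        rw [tsum_mul_left]
        exact mul_le_mul_of_nonneg_left (hhB x) (hg0 x)
    _ = (∑' x, g x) * B := tsum_mul_right
    _ ≤ A * B := mul_le_mul_of_nonneg_right hgA hB

/-- Triangular positive form `∑ d_i (x_i + ∑_{j>i} c_ij x_j)^2`, defined by recursion on the
number of variables (peeling the first one). -/
noncomputable def triQ : (n : ℕ) → (Fin n → ℝ) → (Fin n → Fin n → ℝ) → (Fin n → ℝ) → ℝ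
  | 0, _, _, _ => 0
  | (n + 1), d, c, x =>
      d 0 * (x 0 + ∑ j : Fin n, c 0 j.succ * x j.succ) ^ 2 +
        triQ n (fun i => d i.succ) (fun i j => c i.succ j.succ) (fun i => x i.succ)

/-- The dual form of `triQ`. -/
noncomputable def triQdual : (n : ℕ) → (Fin n → ℝ) → (Fin n → Fin n → ℝ) → (Fin n → ℝ) → ℝ
  | 0, _, _, _ => 0
  | (n + 1), d, c, η =>
      (η 0) ^ 2 / (4 * d 0) +
        triQdual n (fun i => d i.succ) (fun i j => c i.succ j.succ)
          (fun i => η i.succ - η 0 * c 0 i.succ)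

/-- Uniform summability of the Gaussian of a triangular form over shifted lattices. -/
theorem triQ_uniform : ∀ (n : ℕ) (d : Fin n → ℝ) (_ : ∀ i, 0 < d i) (c : Fin n → Fin n → ℝ)
    (a : ℝ) (_ : 0 < a),
    ∃ C : ℝ, 0 ≤ C ∧ ∀ w : Fin n → ℝ,
      Summable (fun m : Fin n → ℤ => rexp (-(a * triQ n d c (fun i => (m i : ℝ) + w i)))) ∧
      ∑' m : Fin n → ℤ, rexp (-(a * triQ n d c (fun i => (m i : ℝ) + w i))) ≤ C
  | 0, d, hd, c, a, ha => ⟨1, zero_le_one, fun w => ⟨Summable.of_finite, by simp [triQ]⟩⟩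
  | (n + 1), d, hd, c, a, ha => by
      obtain ⟨C', hC'0, hC'⟩ := triQ_uniform n (fun i => d i.succ) (fun i => hd i.succ)
        (fun i j => c i.succ j.succ) a ha
      obtain ⟨C₁, hC₁0, hC₁⟩ := gauss_uniform (mul_pos ha (hd 0))
      refine ⟨C' * C₁, mul_nonneg hC'0 hC₁0, fun w => ?_⟩
      have key := summable_prod_mul_bound (α := Fin n → ℤ) (β := ℤ)
        (g := fun m' => rexp (-(a * triQ n (fun i => d i.succ) (fun i j => c i.succ j.succ)
          (fun i => (m' i : ℝ) + w i.succ))))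
        (h := fun m' m₁ => rexp (-(a * d 0 * ((m₁ : ℝ) +
          (w 0 + ∑ j : Fin n, c 0 j.succ * ((m' j : ℝ) + w j.succ))) ^ 2)))
        hC₁0 (fun _ => (Real.exp_pos _).le) (hC' _).1 (hC' _).2 (fun _ _ => (Real.exp_pos _).le)
        (fun m' => (hC₁ _).1) (fun m' => (hC₁ _).2)
      have hfun : (fun p : (Fin n → ℤ) × ℤ =>
          rexp (-(a * triQ n (fun i => d i.succ) (fun i j => c i.succ j.succ)
            (fun i => (p.1 i : ℝ) + w i.succ))) *
          rexp (-(a * d 0 * ((p.2 : ℝ) +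
            (w 0 + ∑ j : Fin n, c 0 j.succ * ((p.1 j : ℝ) + w j.succ))) ^ 2))) =
          (fun m : Fin (n + 1) → ℤ => rexp (-(a * triQ (n + 1) d c (fun i => (m i : ℝ) + w i)))) ∘
            ((Equiv.prodComm _ _).trans (Fin.consEquiv (fun _ => ℤ))) := by
        funext p
        simp only [Function.comp_apply, Equiv.trans_apply, Equiv.prodComm_apply, Prod.swap,
          Fin.consEquiv_apply, triQ, Fin.cons_zero, Fin.cons_succ, ← Real.exp_add]
        congr 1
        ring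
      rw [hfun] at key
      refine ⟨(Equiv.summable_iff _).mp key.1, ?_⟩
      have h := ((Equiv.prodComm _ _).trans (Fin.consEquiv (fun _ => ℤ))).tsum_eq
        (fun m : Fin (n + 1) → ℤ => rexp (-(a * triQ (n + 1) d c (fun i => (m i : ℝ) + w i))))
      rw [← h]
      exact key.2

/-- Uniform summability of the Gaussian of the dual form over shifted lattices. -/
theorem triQdual_uniform : ∀ (n : ℕ) (d : Fin n → ℝ) (_ : ∀ i, 0 < d i)
    (c : Fin n → Fin n → ℝ) (b : ℝ) (_ : 0 < b),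
    ∃ C : ℝ, 0 ≤ C ∧ ∀ μ : Fin n → ℝ,
      Summable (fun y : Fin n → ℤ => rexp (-(b * triQdual n d c (fun i => (y i : ℝ) - μ i)))) ∧
      ∑' y : Fin n → ℤ, rexp (-(b * triQdual n d c (fun i => (y i : ℝ) - μ i))) ≤ C
  | 0, d, hd, c, b, hb => ⟨1, zero_le_one, fun μ => ⟨Summable.of_finite, by simp [triQdual]⟩⟩
  | (n + 1), d, hd, c, b, hb => by
      obtain ⟨C', hC'0, hC'⟩ := triQdual_uniform n (fun i => d i.succ) (fun i => hd i.succ)
        (fun i j => c i.succ j.succ) b hb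
      obtain ⟨C₁, hC₁0, hC₁⟩ := gauss_uniform (div_pos hb (mul_pos (by norm_num : (0:ℝ) < 4) (hd 0)))
      refine ⟨C₁ * C', mul_nonneg hC₁0 hC'0, fun μ => ?_⟩
      have key := summable_prod_mul_bound (α := ℤ) (β := Fin n → ℤ)
        (g := fun y₁ => rexp (-(b / (4 * d 0) * ((y₁ : ℝ) + (-μ 0)) ^ 2)))
        (h := fun y₁ y' => rexp (-(b * triQdual n (fun i => d i.succ) (fun i j => c i.succ j.succ)
          (fun i => (y' i : ℝ) - (μ i.succ + ((y₁ : ℝ) - μ 0) * c 0 i.succ)))))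
        hC'0 (fun _ => (Real.exp_pos _).le) (hC₁ _).1 (hC₁ _).2 (fun _ _ => (Real.exp_pos _).le)
        (fun y₁ => (hC' _).1) (fun y₁ => (hC' _).2)
      have hfun : (fun p : ℤ × (Fin n → ℤ) =>
          rexp (-(b / (4 * d 0) * ((p.1 : ℝ) + (-μ 0)) ^ 2)) *
          rexp (-(b * triQdual n (fun i => d i.succ) (fun i j => c i.succ j.succ)
            (fun i => (p.2 i : ℝ) - (μ i.succ + ((p.1 : ℝ) - μ 0) * c 0 i.succ))))) =
          (fun y : Fin (n + 1) → ℤ =>
            rexp (-(b * triQdual (n + 1) d c (fun i => (y i : ℝ) - μ i)))) ∘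
            (Fin.consEquiv (fun _ => ℤ)) := by
        funext p
        simp only [Function.comp_apply, Fin.consEquiv_apply, triQdual, Fin.cons_zero,
          Fin.cons_succ, ← Real.exp_add]
        have harg : (fun i : Fin n => (p.2 i : ℝ) - (μ i.succ + ((p.1 : ℝ) - μ 0) * c 0 i.succ)) =
            (fun i : Fin n => (p.2 i : ℝ) - μ i.succ - ((p.1 : ℝ) - μ 0) * c 0 i.succ) := by
          funext i
          ring
        rw [harg]
        congr 1
        ring
      rw [hfun] at key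
      refine ⟨(Equiv.summable_iff _).mp key.1, ?_⟩
      have h := (Fin.consEquiv (fun _ => ℤ)).tsum_eq
        (fun y : Fin (n + 1) → ℤ => rexp (-(b * triQdual (n + 1) d c (fun i => (y i : ℝ) - μ i))))
      rw [← h]
      exact key.2

/-- The primal theta term `e(τ Q(m + w) + lam · m)`. -/
noncomputable def termP (n : ℕ) (d : Fin n → ℝ) (c : Fin n → Fin n → ℝ) (τ : ℂ)
    (w lam : Fin n → ℝ) (m : Fin n → ℤ) : ℂ :=
  ee (τ * (triQ n d c (fun i => (m i : ℝ) + w i) : ℝ) + ∑ i, (lam i : ℂ) * (m i : ℂ))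

/-- The dual theta term `e((y - lam) · w - Q*(y - lam) / τ)`. -/
noncomputable def termD (n : ℕ) (d : Fin n → ℝ) (c : Fin n → Fin n → ℝ) (τ : ℂ)
    (w lam : Fin n → ℝ) (y : Fin n → ℤ) : ℂ :=
  ee (∑ i, ((y i : ℂ) - (lam i : ℂ)) * (w i : ℂ) -
    (triQdual n d c (fun i => (y i : ℝ) - lam i) : ℝ) / τ)

/-- The constant of the inversion formula. -/
noncomputable def triKappa (n : ℕ) (d : Fin n → ℝ) (τ : ℂ) : ℂ :=
  ∏ i, 1 / (-2 * I * ((d i : ℂ) * τ)) ^ (1 / 2 : ℂ)

theorem norm_termP (n : ℕ) (d : Fin n → ℝ) (c : Fin n → Fin n → ℝ) (τ : ℂ)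
    (w lam : Fin n → ℝ) (m : Fin n → ℤ) :
    ‖termP n d c τ w lam m‖ = rexp (-(2 * π * τ.im * triQ n d c (fun i => (m i : ℝ) + w i))) := by
  rw [termP, norm_ee]
  congr 1
  have h : (∑ i, (lam i : ℂ) * (m i : ℂ)) = ((∑ i, lam i * (m i : ℝ) : ℝ) : ℂ) := by
    push_cast
    rfl
  rw [h, Complex.add_im, Complex.ofReal_im, Complex.mul_im, Complex.ofReal_im, Complex.ofReal_re]
  ring

theorem norm_termD (n : ℕ) (d : Fin n → ℝ) (c : Fin n → Fin n → ℝ) (τ : ℂ)
    (w lam : Fin n → ℝ) (y : Fin n → ℤ) :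
    ‖termD n d c τ w lam y‖ =
      rexp (-(2 * π * τ.im / Complex.normSq τ * triQdual n d c (fun i => (y i : ℝ) - lam i))) := by
  rw [termD, norm_ee]
  congr 1
  have h : (∑ i, ((y i : ℂ) - (lam i : ℂ)) * (w i : ℂ)) =
      ((∑ i, ((y i : ℝ) - lam i) * w i : ℝ) : ℂ) := by
    push_cast
    rfl
  rw [h, Complex.sub_im, Complex.ofReal_im, Complex.div_im, Complex.ofReal_im, Complex.ofReal_re]
  ring

theorem norm_dual_one (a : ℂ) (r R : ℝ) :
    ‖ee ((r : ℂ) * R - (r : ℂ) ^ 2 / (4 * a))‖ =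
      rexp (-(2 * π * a.im / (4 * Complex.normSq a) * r ^ 2)) := by
  rw [norm_ee]
  congr 1
  have h1 : (r : ℂ) * R = ((r * R : ℝ) : ℂ) := by push_cast; rfl
  have h2 : (r : ℂ) ^ 2 / (4 * a) = ((r ^ 2 / 4 : ℝ) : ℂ) * a⁻¹ := by
    push_cast
    rw [div_eq_mul_inv, mul_inv, div_eq_mul_inv]
    ring
  rw [h1, h2, Complex.sub_im, Complex.ofReal_im, Complex.im_ofReal_mul, Complex.inv_im]
  ring

theorem summable_termP (n : ℕ) (d : Fin n → ℝ) (hd : ∀ i, 0 < d i) (c : Fin n → Fin n → ℝ)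
    (τ : ℂ) (hτ : 0 < τ.im) (w lam : Fin n → ℝ) : Summable (termP n d c τ w lam) := by
  obtain ⟨C, -, hC⟩ := triQ_uniform n d hd c (2 * π * τ.im) (by positivity)
  apply Summable.of_norm
  simp_rw [norm_termP]
  exact (hC w).1

theorem normSq_pos_of_im_pos {τ : ℂ} (hτ : 0 < τ.im) : 0 < Complex.normSq τ := by
  apply Complex.normSq_pos.mpr
  rintro rfl
  simp at hτ

theorem summable_termD (n : ℕ) (d : Fin n → ℝ) (hd : ∀ i, 0 < d i) (c : Fin n → Fin n → ℝ)
    (τ : ℂ) (hτ : 0 < τ.im) (w lam : Fin n → ℝ) : Summable (termD n d c τ w lam) := by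
  have hpos := normSq_pos_of_im_pos hτ
  obtain ⟨C, -, hC⟩ := triQdual_uniform n d hd c (2 * π * τ.im / Complex.normSq τ) (by positivity)
  apply Summable.of_norm
  simp_rw [norm_termD]
  exact (hC lam).1

end Fermat.Agent.S16.H44.ThetaParts
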