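import Mathlib
import Fermat.Agent.S16.Stmts_helper6
import Fermat.Agent.S16.FrickeStmt_helper11

/-!
# S16, node `StmtXExp`: the `q^{1/p}`-expansions of the conjugates of a weight-2 form

General tools (any holomorphic `F : ℍ → ℂ`):
* `qExpansion_eq_of_hasSum` : a convergent `q_h`-expansion is THE `q_h`-expansion;
* `qExpansion_nat_of_hasSum_one` : period change `1 → p` (`∑ aₙ qⁿ ↦ ∑ aₙ x^{pn}`);
* `qExpansion_nat_shift` : `z ↦ c U((z+j)/p)` has `q_p`-expansion `∑ c ζ^{jn} aₙ xⁿ`.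
-/

set_option autoImplicit false

namespace Fermat.Agent.S16.H11

open UpperHalfPlane ModularForm CongruenceSubgroup Function
open scoped MatrixGroups ModularForm Manifold
open Fermat.Agent.S16

local notation "𝕢" => Periodic.qParam

/-- `q_h(z + h) = q_h(z)`. -/
theorem qParam_add_period {h : ℝ} (hh : h ≠ 0) (w : ℂ) : 𝕢 h (w + h) = 𝕢 h w := by
  simp only [Periodic.qParam]
  have hh' : (h : ℂ) ≠ 0 := by exact_mod_cast hh
  rw [show 2 * (Real.pi : ℂ) * Complex.I * (w + (h : ℂ)) / (h : ℂ)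
      = 2 * Real.pi * Complex.I * w / (h : ℂ) + 2 * Real.pi * Complex.I by field_simp,
    Complex.exp_add, Complex.exp_two_pi_mul_I, mul_one]

/-- A function given by a convergent `q_h`-expansion is `h`-periodic. -/
theorem periodic_of_hasSum {h : ℝ} (hh : 0 < h) {F : ℍ → ℂ} {c : ℕ → ℂ}
    (hF : ∀ τ : ℍ, HasSum (fun m ↦ c m • 𝕢 h τ ^ m) (F τ)) :
    Periodic (F ∘ ofComplex) (h : ℂ) := by
  intro w
  by_cases hw : 0 < Complex.im w
  · have hw' : 0 < Complex.im (w + h) := by simpa using hw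
    simp only [comp_apply, ofComplex_apply_of_im_pos hw', ofComplex_apply_of_im_pos hw]
    have h1 := hF ⟨w + h, hw'⟩
    have h2 := hF ⟨w, hw⟩
    have e : 𝕢 h ((⟨w + h, hw'⟩ : ℍ) : ℂ) = 𝕢 h ((⟨w, hw⟩ : ℍ) : ℂ) := qParam_add_period hh.ne' w
    rw [e] at h1
    exact h1.unique h2
  · have hw0 : Complex.im w ≤ 0 := not_lt.mp hw
    have hw' : Complex.im (w + h) ≤ 0 := by simpa using hw0
    simp [ofComplex_apply_of_im_nonpos hw', ofComplex_apply_of_im_nonpos hw0]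

/-- **Lemma A**: a holomorphic function given by a convergent `q_h`-expansion has that
`q_h`-expansion. -/
theorem qExpansion_eq_of_hasSum {h : ℝ} (hh : 0 < h) {F : ℍ → ℂ} (hhol : MDiff F) {c : ℕ → ℂ}
    (hF : ∀ τ : ℍ, HasSum (fun m ↦ c m • 𝕢 h τ ^ m) (F τ)) :
    qExpansion h F = PowerSeries.mk c := by
  have hper : Periodic (F ∘ ofComplex) (h : ℂ) := periodic_of_hasSum hh hF
  have hbdd : IsBoundedAtImInfty F := isBoundedAtImInfty_of_hasSum_qExpansion hh hF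
  have han : AnalyticAt ℂ (cuspFunction h F) 0 := analyticAt_cuspFunction_zero hh hper hhol hbdd
  refine PowerSeries.ext fun m => ?_
  have h1 := (hasFPowerSeriesOnBall_cuspFunction hh han hF).hasFPowerSeriesAt
  have h2 := han.hasFPowerSeriesAt
  have h3 := congr_arg (FormalMultilinearSeries.coeff · m) (h1.eq_formalMultilinearSeries h2)
  simp only [FormalMultilinearSeries.coeff_ofScalars] at h3
  rw [PowerSeries.coeff_mk, h3, qExpansion_coeff, div_eq_mul_inv, mul_comm]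


theorem qParam_one_eq_pow {p : ℕ} (hp : p ≠ 0) (w : ℂ) :
    𝕢 (1 : ℝ) w = 𝕢 (p : ℝ) w ^ p := by
  simp only [Periodic.qParam]
  rw [← Complex.exp_nat_mul]
  congr 1
  have hp' : (p : ℂ) ≠ 0 := by exact_mod_cast hp
  push_cast
  field_simp

/-- **Lemma B**: change of period `1 → p`: the `q_p`-expansion of a function with a
`q_1`-expansion `∑ aₙ qⁿ` is `∑ aₙ x^{pn}`. -/
theorem qExpansion_nat_of_hasSum_one {p : ℕ} (hp : p ≠ 0) {F : ℍ → ℂ} (hhol : MDiff F)
    {a : ℕ → ℂ} (hF : ∀ τ : ℍ, HasSum (fun n ↦ a n • 𝕢 (1 : ℝ) τ ^ n) (F τ)) :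
    qExpansion (p : ℝ) F = PowerSeries.mk (fun n => if p ∣ n then a (n / p) else 0) := by
  have hp' : (0 : ℝ) < p := by positivity
  apply qExpansion_eq_of_hasSum hp' hhol
  intro τ
  have hinj : Function.Injective (fun n : ℕ => n * p) := fun m n h =>
    Nat.eq_of_mul_eq_mul_right (Nat.pos_of_ne_zero hp) h
  rw [← hinj.hasSum_iff]
  · convert hF τ using 2 with n
    simp only [comp_apply]
    rw [if_pos (Dvd.intro_left n rfl), Nat.mul_div_cancel _ (Nat.pos_of_ne_zero hp),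
      qParam_one_eq_pow hp, ← pow_mul, mul_comm p n]
  · intro m hm
    have : ¬ p ∣ m := by
      rintro ⟨k, rfl⟩
      exact hm ⟨k, by simp [mul_comm]⟩
    simp [this]

theorem qParam_one_heckeMatrix_smul {p : ℕ} (hp : p ≠ 0) (j : ℕ) (τ : ℍ) :
    𝕢 (1 : ℝ) ((heckeMatrix p j • τ : ℍ) : ℂ) = zetaP p ^ j * 𝕢 (p : ℝ) (τ : ℂ) := by
  rw [coe_heckeMatrix_smul hp]
  simp only [Periodic.qParam, zetaP]
  rw [← Complex.exp_nat_mul, ← Complex.exp_add]
  congr 1
  have hp' : (p : ℂ) ≠ 0 := by exact_mod_cast hp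
  push_cast
  field_simp
  ring

/-- **Lemma C**: the `q_p`-expansion of `z ↦ c * U((z + j)/p)` for `U` with `q_1`-expansion
`∑ aₙ qⁿ` is `∑ c ζ^{jn} aₙ xⁿ`. -/
theorem qExpansion_nat_shift {p : ℕ} (hp : p ≠ 0) (j : ℕ) (c : ℂ) {U F : ℍ → ℂ} (hhol : MDiff F)
    (hFU : ∀ τ : ℍ, F τ = c * U (heckeMatrix p j • τ))
    {a : ℕ → ℂ} (hU : ∀ τ : ℍ, HasSum (fun n ↦ a n • 𝕢 (1 : ℝ) τ ^ n) (U τ)) :
    qExpansion (p : ℝ) F = PowerSeries.mk (fun n => c * ((zetaP p ^ j) ^ n * a n)) := by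
  have hp' : (0 : ℝ) < p := by positivity
  apply qExpansion_eq_of_hasSum hp' hhol
  intro τ
  rw [hFU τ]
  have h1 := (hU (heckeMatrix p j • τ)).mul_left c
  have e : (fun n => c * (a n • 𝕢 (1 : ℝ) ((heckeMatrix p j • τ : ℍ) : ℂ) ^ n)) =
      fun m => (c * ((zetaP p ^ j) ^ m * a m)) • 𝕢 (p : ℝ) (τ : ℂ) ^ m := by
    funext n
    rw [qParam_one_heckeMatrix_smul hp, mul_pow]
    simp only [smul_eq_mul]
    ring
  rw [e] at h1
  exact h1


/-- The `q`-expansion of a form of level `Γ₀(N)` converges to it. -/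
theorem hasSum_qExpansion_Gamma0 {N : ℕ} [NeZero N] {k : ℤ} (G : ModularForm (Gamma0 N) k)
    (τ : ℍ) : HasSum (fun n ↦ (qExpansion 1 G).coeff n • 𝕢 (1 : ℝ) τ ^ n) (G τ) :=
  UpperHalfPlane.hasSum_qExpansion one_pos
    (SlashInvariantFormClass.periodic_comp_ofComplex G
      (CongruenceSubgroup.one_mem_strictPeriods_Gamma0 N))
    (ModularFormClass.holo G) (ModularFormClass.bdd_at_infty G) τ

/-- Node `StmtXExp` of `Stmts_helper6`: the `q^{1/p}`-expansions of the conjugates. -/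
theorem stmtXExp : StmtXExp := by
  intro p hp G i
  have : Fact p.Prime := ⟨hp⟩
  have : NeZero p := ⟨hp.ne_zero⟩
  cases i with
  | none =>
    change qExpansion (p : ℝ) (G : ℍ → ℂ) = Vp p (qExpansion 1 G)
    rw [qExpansion_nat_of_hasSum_one hp.ne_zero (ModularFormClass.holo G)
      (fun τ => hasSum_qExpansion_Gamma0 G τ)]
    rfl
  | some j =>
    change qExpansion (p : ℝ) ((G : ℍ → ℂ) ∣[(2 : ℤ)] (ModularGroup.S * ModularGroup.T ^ (j : ℕ))) =
      (-(1 / (p : ℂ))) • PowerSeries.rescale (zetaP p ^ (j : ℕ)) (Up p (qExpansion 1 G))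
    have hhol : MDiff ((G : ℍ → ℂ) ∣[(2 : ℤ)] (ModularGroup.S * ModularGroup.T ^ (j : ℕ))) :=
      (ModularFormClass.holo G).slash 2 _
    rw [qExpansion_nat_shift hp.ne_zero j (-(p : ℂ)⁻¹)
      (U := (heckeULin 2 (dvd_refl p) G : ModularForm (Gamma0 p) 2)) hhol
      (fun τ => slash_S_mul_T_pow_apply G j τ)
      (fun τ => hasSum_qExpansion_Gamma0 (heckeULin 2 (dvd_refl p) G) τ)]
    ext n
    rw [PowerSeries.coeff_mk, coe_heckeULin_apply, qExpansion_heckeU, PowerSeries.coeff_smul,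
      PowerSeries.coeff_rescale, one_div]
    rfl

end Fermat.Agent.S16.H11
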